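import Fermat.Agent.Lower.Levels.GalH
import Fermat.Agent.Local.LevelTwo
import Fermat.Agent.Local.Newform
import Fermat.Agent.Degen.Inputs

/-!
# No class of level `q² N₀` with inertia trace two

`eq_zero_of_inertia_trace_two_free`: a class of level `q² N₀` killed by `U_q` and by corestriction
to level `q N₀`, on which inertia at `q` has trace two, vanishes. Over a field such a class leads
to classes fixed by inertia, which are old at `q` (`exists_old_of_fixed`); free coefficients follow
coordinatewise (`compH`).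
-/

set_option autoImplicit false
set_option linter.style.haveILetI false
set_option linter.unusedSectionVars false

noncomputable section

open CongruenceSubgroup
open scoped MatrixGroups Matrix

namespace FLTAgent.Lower.Levels

open FLTAgent.Degen (degH corH degHom dMat dMat_mul_degHom)

local notation "ℚ̄" => AlgebraicClosure ℚ
local notation "Γℚ" => (AlgebraicClosure ℚ ≃ₐ[ℚ] AlgebraicClosure ℚ)

/-- The Fricke conjugation exchanges the two degeneracy maps. -/
theorem wH_degH_one {N M q : ℕ} [NeZero N] [NeZero M] [NeZero q] (hM : M = N * q)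
    (h1 : N * 1 ∣ M) (hq : N * q ∣ M) {R A : Type*} [Semiring R] [AddCommGroup A] [Module R A]
    (φ : Period.H N R A) :
    HeckeH.wH M R A (degH R A 1 h1 (HeckeH.wH N R A φ)) = degH R A q hq φ := by
  refine Subtype.ext (AddMonoidHom.ext fun γ => ?_)
  obtain ⟨γ, rfl⟩ := Additive.ofMul.surjective γ
  rw [HeckeH.wH_apply, Degen.degH_apply, HeckeH.wH_apply, Degen.degH_apply]
  refine congrArg (fun y => (φ : Additive (Gamma0 N) →+ A) (Additive.ofMul y))
    (HeckeH.matOf_injective (HeckeH.mul_right_cancel_of_det_ne (Degen.det_dMat (d := q)) ?_))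
  rw [← dMat_mul_degHom, HeckeH.matOf_wGamma0,
    show HeckeH.matOf (degHom 1 h1 (HeckeH.wGamma0 M γ)) = HeckeH.wMat M (HeckeH.matOf γ) from
      (congrArg (fun z : SL(2, ℤ) => (z : HeckeH.M2)) (Degen.degHom_one_coe h1 _))]
  obtain ⟨c, hc⟩ := HeckeH.matOf_dvd γ
  subst hM
  have hN : (N : ℤ) ≠ 0 := by exact_mod_cast NeZero.ne N
  push_cast at hc
  have hd : ∀ x : ℤ, -((N : ℤ) * x) / (N : ℤ) = -x := fun x => by
    rw [← mul_neg, Int.mul_ediv_cancel_left _ hN]
  have hd' : ∀ x : ℤ, -((N : ℤ) * q * x) / (N : ℤ) = -((q : ℤ) * x) := fun x => by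
    rw [mul_assoc, hd]
  have hd'' : ∀ x : ℤ, (N : ℤ) * q * x / ((N : ℤ) * q) = x := fun x =>
    Int.mul_ediv_cancel_left _ (mul_ne_zero hN (by exact_mod_cast NeZero.ne q))
  ext a b
  fin_cases a <;> fin_cases b <;>
    simp [HeckeH.wMat, dMat, Matrix.mul_apply, Fin.sum_univ_two, hc, hd', hd''] <;> ring

theorem wH_degH_q {N M q : ℕ} [NeZero N] [NeZero M] [NeZero q] (hM : M = N * q)
    (h1 : N * 1 ∣ M) (hq : N * q ∣ M) {R A : Type*} [Semiring R] [AddCommGroup A] [Module R A]
    (φ : Period.H N R A) :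
    HeckeH.wH M R A (degH R A q hq (HeckeH.wH N R A φ)) = degH R A 1 h1 φ := by
  rw [← wH_degH_one hM h1 hq, HeckeH.wH_wH, HeckeH.wH_wH]

section Field

variable {p : ℕ} [Fact p.Prime] {L : Type} [Field L] [CharZero L] (f : ℤ_[p] →+* L)
  {q : ℕ} [NeZero q] (hq : q.Prime) (N₀ : ℕ) [NeZero N₀] (hqN : ¬ q ∣ N₀)

include hq hqN in
/-- Classes fixed by inertia are old at `q`. -/
theorem exists_old_of_fixed (hqp : q ≠ p) {A : ValuationSubring ℚ̄} (hA : A.LiesOverPrime q)
    {M Q : ℕ} [NeZero M] [NeZero Q] (hMeq : M = q ^ 2 * N₀) (hQeq : Q = q * N₀)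
    (h1 : Q * 1 ∣ M) (hq' : Q * q ∣ M) {w : Period.H M L L}
    (hw : ∀ i ∈ A.inertiaSubgroupIn ℚ, galH M f i w = w) :
    ∃ a b : Period.H Q L L, degH L L 1 h1 a + degH L L q hq' b = w := by
  subst hMeq hQeq
  have hM : q ^ 2 * N₀ = q * N₀ * q := by ring
  haveI := Degen.auxLevel_ne_zero q N₀
  have hco := Degen.coprime_auxLevel hq hqN
  have hco2 : (q ^ 2).Coprime (Degen.auxLevel q N₀) := hco.pow_left 2
  have hNM := Degen.dvd_auxLevel q N₀
  let g₁ := Degen.canModel (q * N₀) p
  let g₂ := Degen.canModel (q ^ 2 * N₀) p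
  let h₀ := Degen.canModel (Degen.auxLevel q N₀) p
  let m₁ := Degen.canModel (q * Degen.auxLevel q N₀) p
  let m₂ := Degen.canModel (q ^ 2 * Degen.auxLevel q N₀) p
  obtain ⟨k, hk, htor⟩ := Degen.exists_toric hq hqp hco (Degen.aux_dvd hq) m₁
  let D : Local.DataTwo p q (q * N₀) (q ^ 2 * N₀) (Degen.auxLevel q N₀)
      (q * Degen.auxLevel q N₀) (q ^ 2 * Degen.auxLevel q N₀) :=
    { g₁ := g₁.toGalModel
      g₂ := g₂.toGalModel
      h₀ := h₀.toGalModel
      h₁ := m₁.toGalModel
      h₂ := m₂.toGalModel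
      sq := Degen.degSquare g₁ g₂ m₁ m₂ q h1 hq' (by rw [mul_one]; exact ⟨q, by ring⟩) ⟨1, by ring⟩
        (by rw [mul_one]; exact Nat.mul_dvd_mul_left _ hNM)
        (hco2.mul_dvd_of_dvd_of_dvd ((dvd_mul_right _ N₀).trans (Nat.dvd_lcm_left _ _))
          ((dvd_mul_left (Degen.auxLevel q N₀) q).trans (Nat.dvd_lcm_right _ _)))
        ((Degen.index_subG0_mul hNM hco).symm.trans (Degen.index_subG0_mul hNM hco2))
      not_dvd := hq.coprime_iff_not_dvd.mp hco
      a := Degen.galMap h₀ m₁ 1 (by rw [mul_one]; exact dvd_mul_left _ _)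
      b := Degen.galMap h₀ m₁ q (by rw [mul_comm])
      deg_injective := fun _ _ h => Degen.degTw_injective hco hq.two_le _ _ h
      k := k
      rank_le := hk
      toric := htor
      ker_le := fun L => Degen.finrank_ker_degTw_le hq rfl _ _ L
      fixed_le := fun A hA L _ _ f => Degen.fixed_le hq hqp hco (Degen.aux_dvd hq) m₂ A hA L f }
  obtain ⟨⟨x, y⟩, hxy⟩ := D.mem_range_of_fixed (Local.padicInt_hom_injective f) hq hqp hA
    (v := Period.evalEquiv (q ^ 2 * N₀) L L w) (fun i hi => by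
      exact (evalEquiv_galH f i w).symm.trans (congrArg _ (hw i hi)))
  rw [LinearMap.coprod_apply, Local.linMap_apply, Local.linMap_apply] at hxy
  change (Degen.degTw 1 h1).map (Int.castRingHom L) *ᵥ x +
    (Degen.degTw q hq').map (Int.castRingHom L) *ᵥ y = _ at hxy
  refine ⟨(Period.evalEquiv (q * N₀) L L).symm y, (Period.evalEquiv (q * N₀) L L).symm x,
    (Period.evalEquiv (q ^ 2 * N₀) L L).injective ?_⟩
  rw [← hxy, map_add, add_comm]
  conv_rhs => rw [← (Period.evalEquiv (q * N₀) L L).apply_symm_apply x,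
    ← (Period.evalEquiv (q * N₀) L L).apply_symm_apply y]
  simp only [Degen.mulVec_evalEquiv, Degen.degTw, Degen.rectAct_mul, Degen.rectAct_frickeMat,
    Degen.rectAct_degMat]
  rw [wH_degH_one hM h1 hq', wH_degH_q hM h1 hq']

include hq hqN in
set_option maxHeartbeats 2000000 in
/-- The statement over a field. -/
theorem eq_zero_of_inertia_trace_two_field (hqp : q ≠ p) {A : ValuationSubring ℚ̄}
    (hA : A.LiesOverPrime q) {M Q : ℕ} [NeZero M] [NeZero Q] (hMdef : M = q ^ 2 * N₀)
    (hQdef : Q = q * N₀) (y : Period.H M L L)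
    (hU : HeckeH.heckeH M hq L L y = 0) (hcor : corH (N := Q) L L y = 0)
    (htwo : ∀ i ∈ A.inertiaSubgroupIn ℚ,
      galH M f i y + galH M f i⁻¹ y = (2 : L) • y) : y = 0 := by
  have hM : M = Q * q := by rw [hMdef, hQdef]; ring
  have hQ : Q = N₀ * q := by rw [hQdef]; ring
  have h1 : Q * 1 ∣ M := by rw [mul_one, hM]; exact dvd_mul_right _ _
  have hq' : Q * q ∣ M := dvd_of_eq hM.symm
  have g1 : N₀ * 1 ∣ Q := by rw [mul_one, hQ]; exact dvd_mul_right _ _
  have gq : N₀ * q ∣ Q := dvd_of_eq hQ.symm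
  have hqQ : q ∣ Q := hQ ▸ dvd_mul_left q N₀
  let ρ : Γℚ →* Module.End L (Period.H M L L) :=
    { toFun := galH M f
      map_one' := galH_one f
      map_mul' := galH_mul f }
  let E : A.inertiaSubgroupIn ℚ → Module.End L (Period.H M L L) := fun i =>
    galH M f i + galH M f (i : Γℚ)⁻¹ - (2 : L) • 1
  let K : Submodule L (Period.H M L L) :=
    LinearMap.ker (HeckeH.heckeH M hq L L) ⊓ LinearMap.ker (corH (N := Q) L L) ⊓
      ⨅ i, LinearMap.ker (E i)
  have hK : ∀ x, x ∈ K ↔ HeckeH.heckeH M hq L L x = 0 ∧ corH (N := Q) L L x = 0 ∧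
      ∀ i ∈ A.inertiaSubgroupIn ℚ, galH M f i x + galH M f i⁻¹ x = (2 : L) • x := by
    intro x
    simp only [K, E, Submodule.mem_inf, Submodule.mem_iInf, LinearMap.mem_ker, LinearMap.sub_apply,
      LinearMap.add_apply, LinearMap.smul_apply, Module.End.one_apply, sub_eq_zero, and_assoc,
      Subtype.forall]
  have hcorG : ∀ σ x, corH (N := Q) L L (galH M f σ x) = galH Q f σ (corH (N := Q) L L x) :=
    fun σ x => degH_injective q hq' (by
      rw [degH_q_corH hq hM hqQ hq', ← galH_degH f q hq', degH_q_corH hq hM hqQ hq',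
        galH_heckeHT])
  have hcomm : ∀ σ, ∀ i ∈ A.inertiaSubgroupIn ℚ, ∀ x,
      galH M f i (galH M f σ x) + galH M f i⁻¹ (galH M f σ x) =
        galH M f σ (galH M f i x + galH M f i⁻¹ x) := by
    intro σ i hi x
    have htr : Local.traceOp (Reps.galModel M p).M i =
        (Reps.galModel M p).M i + (Reps.galModel M p).M i⁻¹ := by
      rw [Local.traceOp, Reps.cyc_inertia hq hqp hA hi, one_smul]
    have hc := (Local.commute_galois_traceOp (Reps.galModel M p) i σ).eq
    rw [htr] at hc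
    have hc' : Reps.tateMat M p σ * (Reps.tateMat M p i + Reps.tateMat M p i⁻¹) =
        (Reps.tateMat M p i + Reps.tateMat M p i⁻¹) * Reps.tateMat M p σ := hc
    have h := congrArg (fun X => X.map f *ᵥ Period.evalEquiv M L L x) hc'
    refine (Period.evalEquiv M L L).injective ?_
    simp only [Matrix.map_mul, Matrix.map_add _ (map_add f), ← Matrix.mulVec_mulVec,
      Matrix.add_mulVec, ← evalEquiv_galH] at h
    simp only [Matrix.mulVec_add, evalEquiv_galH] at h
    simp only [map_add, evalEquiv_galH]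
    exact h.symm
  have hstab : ∀ σ, ∀ x ∈ K, galH M f σ x ∈ K := by
    intro σ x hx
    rw [hK] at hx ⊢
    refine ⟨by rw [← galH_heckeH, hx.1, map_zero], by rw [hcorG, hx.2.1, map_zero], fun i hi => ?_⟩
    rw [hcomm σ i hi, hx.2.2 i hi, map_smul]
  let R : Γℚ →* Module.End L K :=
    { toFun := fun σ => (ρ σ).restrict (hstab σ)
      map_one' := LinearMap.ext fun v => Subtype.ext (by simp [LinearMap.restrict_apply])
      map_mul' := fun g h => LinearMap.ext fun v => Subtype.ext (by simp [LinearMap.restrict_apply]) }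
  have hR : ∀ i ∈ A.inertiaSubgroupIn ℚ, R i + R i⁻¹ = 2 := fun i hi =>
    LinearMap.ext fun x => Subtype.ext ((((hK x.1).mp x.2).2.2 i hi).trans
      (by simp [Module.End.ofNat_apply, two_smul]))
  by_contra hy
  obtain ⟨⟨w, hwK⟩, hw0, hwfix⟩ := Local.exists_common_fixed R (A.inertiaSubgroupIn ℚ) hR
    (v := ⟨y, (hK y).mpr ⟨hU, hcor, htwo⟩⟩) (fun h => hy (congrArg Subtype.val h))
  apply hw0
  refine Subtype.ext (show w = 0 from ?_)
  obtain ⟨a, b, hab⟩ := exists_old_of_fixed f hq N₀ hqN hqp hA hMdef hQdef h1 hq'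
    (w := w) fun i hi => congrArg Subtype.val (hwfix i hi)
  obtain ⟨hwU, hwcor, -⟩ := (hK w).mp hwK
  have hinj : Function.Injective (degH L L 1 h1) := degH_injective 1 h1
  have e1 : HeckeH.heckeH Q hq L L a + (q : L) • b = 0 := hinj (by
    rw [map_add, map_smul, map_zero, ← heckeH_degH_one hq hqQ h1, Nat.cast_smul_eq_nsmul,
      ← heckeH_degH_q hq hq' h1, ← map_add, hab, hwU])
  have e2 : (q : L) • a + HeckeH.heckeHT Q hq L L b = 0 := by
    rw [Nat.cast_smul_eq_nsmul, ← corH_degH_one hq hM hqQ h1, ← corH_degH_q hq hM hqQ hq',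
      ← map_add, hab, hwcor]
  have hqL : (q : L) ≠ 0 := Nat.cast_ne_zero.mpr hq.ne_zero
  have e3 : HeckeH.heckeHT Q hq L L (HeckeH.heckeH Q hq L L a) = ((q : L) ^ 2) • a := by
    rw [eq_neg_of_add_eq_zero_left e1, map_neg, map_smul, eq_neg_of_add_eq_zero_right e2, smul_neg,
      neg_neg, smul_smul, sq]
  set al := alH hq hQ hqN L L
  have hUt : ∀ x, HeckeH.heckeHT Q hq L L x = al (HeckeH.heckeH Q hq L L (al x)) := fun x => by
    have h2 := degH_q_corH_add (R := L) hq hQ hqN gq x
    rw [← alH_degH_one hq hQ hqN gq g1, degH_one_corH_add hq hQ hqN g1, map_add, add_comm] at h2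
    exact (add_right_cancel h2).symm
  obtain ⟨a₂, ha₂⟩ : ∃ a₂, degH L L q gq a₂ = a := by
    let z := al a
    let X : Module.End L (Period.H Q L L) := HeckeH.heckeH Q hq L L * al
    have hz : al z = a := alH_alH hq hQ hqN a
    refine ⟨((q : L) ^ 2 - 1)⁻¹ • corH L L (X z - z), ?_⟩
    rw [map_smul, ← alH_degH_one hq hQ hqN gq g1, degH_one_corH_add hq hQ hqN g1]
    have hq1 : (q : L) ^ 2 - 1 ≠ 0 := by
      rw [sub_ne_zero, ← Nat.cast_pow, Ne, Nat.cast_eq_one]
      exact (one_lt_pow₀ hq.one_lt two_ne_zero).ne'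
    rw [inv_smul_eq_iff₀ hq1, sub_smul, one_smul, ← e3, hUt]
    show al (X z - z + X (X z - z)) = al (HeckeH.heckeH Q hq L L (al (HeckeH.heckeH Q hq L L a))) - a
    rw [show X z - z + X (X z - z) = X (X z) - z by rw [map_sub X]; abel, map_sub al, hz]
    simp only [X, Module.End.mul_apply, hz]
  have hb : b = -degH L L 1 g1 a₂ := by
    refine smul_right_injective (Period.H Q L L) hqL ?_
    show (q : L) • b = (q : L) • -degH L L 1 g1 a₂
    rw [smul_neg, Nat.cast_smul_eq_nsmul L q (degH L L 1 g1 a₂),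
      ← heckeH_degH_q (R := L) hq gq g1, ha₂]
    exact eq_neg_of_add_eq_zero_right e1
  rw [← hab, hb, ← ha₂, map_neg, degH_degH_comm g1 gq h1 hq', add_neg_cancel]

end Field



section Reduction

variable {N : ℕ}

/-- Change of coefficients. -/
def compH {R A R' A' : Type*} [Semiring R] [AddCommGroup A] [Module R A] [Semiring R']
    [AddCommGroup A'] [Module R' A'] (g : A →+ A') (φ : Period.H N R A) : Period.H N R' A' :=
  ⟨g.comp (φ : Additive (Gamma0 N) →+ A),
    ⟨fun γ hγ => by
        rw [AddMonoidHom.comp_apply]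
        exact (congrArg g (Period.H_parabolic φ hγ)).trans (map_zero g),
      fun γ hγ => by
        rw [AddMonoidHom.comp_apply]
        exact (congrArg g (Period.H_finOrder φ hγ)).trans (map_zero g)⟩⟩

variable {p : ℕ} [Fact p.Prime] [NeZero N] {O R L : Type*} [CommRing O] [CommRing R] [Algebra O R]
  [CommRing L] (f : ℤ_[p] →+* O) (j : O →+* L) (g : R →+ L)
  (hg : ∀ (a : O) (r : R), g (algebraMap O R a * r) = j a * g r)

include hg in
theorem compH_galH (σ : AlgebraicClosure ℚ ≃ₐ[ℚ] AlgebraicClosure ℚ) (φ : Period.H N R R) :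
    compH g (galH N ((algebraMap O R).comp f) σ φ) =
      galH N (j.comp f) σ (compH (R' := L) g φ) := by
  refine (Period.evalEquiv N L L).injective (funext fun i => ?_)
  have he : ∀ (ψ : Period.H N R R) k,
      Period.evalEquiv N L L (compH (R' := L) g ψ) k = g (Period.evalEquiv N R R ψ k) :=
    fun ψ k => rfl
  rw [he, evalEquiv_galH, evalEquiv_galH]
  simp only [Matrix.mulVec, dotProduct, Matrix.map_apply, map_sum, RingHom.comp_apply, hg, he]

theorem compH_heckeH {q : ℕ} (hq : q.Prime) (φ : Period.H N R R) :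
    compH g (HeckeH.heckeH N hq R R φ) = HeckeH.heckeH N hq L L (compH (R' := L) g φ) :=
  Subtype.ext ((HeckeH.heckeReps N hq).transfer_comp R (R' := L) g _).symm

theorem compH_corH {Q : ℕ} [NeZero Q] (φ : Period.H N R R) :
    compH g (corH (N := Q) R R φ) = corH (N := Q) L L (compH (R' := L) g φ) := by
  classical
  haveI := Fintype.ofFinite (Gamma0 Q ⧸ Degen.subG0 Q N)
  refine Subtype.ext (AddMonoidHom.ext fun γ => ?_)
  obtain ⟨γ, rfl⟩ := Additive.ofMul.surjective γ
  show g _ = _
  rw [Degen.coe_corH, Degen.coe_corH,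
    Degen.corFun_apply _ Quotient.out (fun q => QuotientGroup.out_eq' q),
    Degen.corFun_apply _ Quotient.out (fun q => QuotientGroup.out_eq' q), map_sum]
  rfl

end Reduction

/-- No class of level `q² N₀` killed by `U_q` and by corestriction to level `q N₀` has inertia
trace `2` at `q`. -/
theorem eq_zero_of_inertia_trace_two_free {p : ℕ} [Fact p.Prime] (q N₀ : ℕ) [NeZero q] [NeZero N₀]
    (hq : q.Prime) (hqp : q ≠ p) (hqN : ¬ q ∣ N₀) {O : Type} [CommRing O] [IsDomain O] [CharZero O]
    (f : ℤ_[p] →+* O) {R : Type} [CommRing R] [Algebra O R] [Module.Finite O R] [Module.Free O R]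
    (A : ValuationSubring (AlgebraicClosure ℚ)) (hA : A.LiesOverPrime q)
    (y : Period.H (q ^ 2 * N₀) R R)
    (hU : HeckeH.heckeH (q ^ 2 * N₀) hq R R y = 0)
    (hcor : corH (N := q * N₀) R R y = 0)
    (htwo : ∀ i ∈ A.inertiaSubgroupIn ℚ,
      galH (q ^ 2 * N₀) ((algebraMap O R).comp f) i y +
        galH (q ^ 2 * N₀) ((algebraMap O R).comp f) i⁻¹ y = (2 : R) • y) :
    y = 0 := by
  let b := Module.Free.chooseBasis O R
  let L := FractionRing O
  haveI : CharZero L := charZero_of_injective_algebraMap (IsFractionRing.injective O L)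
  let j : O →+* L := algebraMap O L
  refine Subtype.ext (AddMonoidHom.ext fun γ => b.repr.injective (Finsupp.ext fun k => ?_))
  let g : R →+ L := j.toAddMonoidHom.comp (b.coord k).toAddMonoidHom
  have hg : ∀ (a : O) (r : R), g (algebraMap O R a * r) = j a * g r := fun a r => by
    show j (b.coord k (algebraMap O R a * r)) = j a * j (b.coord k r)
    rw [← Algebra.smul_def, map_smul, smul_eq_mul, map_mul]
  have h0 : compH (R' := L) g y = 0 := by
    refine eq_zero_of_inertia_trace_two_field (j.comp f) hq N₀ hqN hqp hA rfl rfl _ ?_ ?_ ?_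
    · rw [← compH_heckeH g hq, hU]
      exact Subtype.ext (AddMonoidHom.ext fun _ => map_zero g)
    · rw [← compH_corH g, hcor]
      exact Subtype.ext (AddMonoidHom.ext fun _ => map_zero g)
    · intro i hi
      rw [← compH_galH f j g hg, ← compH_galH f j g hg]
      have h := congrArg (fun ψ => compH (R' := L) g ψ) (htwo i hi)
      refine Subtype.ext (AddMonoidHom.ext fun δ => ?_)
      have h2 := DFunLike.congr_fun (congrArg Subtype.val h) δ
      simp only [compH, two_smul, Submodule.coe_add, AddMonoidHom.comp_apply,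
        AddMonoidHom.add_apply, map_add] at h2 ⊢
      exact h2
  have h1 : j (b.coord k ((y : Additive _ →+ R) γ)) = 0 := DFunLike.congr_fun (congrArg Subtype.val h0) γ
  rw [map_eq_zero_iff _ (IsFractionRing.injective O L)] at h1
  simpa using h1

end FLTAgent.Lower.Levels
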