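import Mathlib

/-!
# A representation from a trace relation

`exists_matrix`: over a complete local ring with `2` invertible, a relation
`φ g + χ g • φ g⁻¹ = t g` whose residual trace is that of a representation with full span comes from
a representation on `2 × 2` matrices with trace `t` and determinant `χ`, congruent modulo an ideal
wherever the traces are.  Matrix units are found in the image of the group ring (`exists_isUnits`)
and give the entries.
-/

set_option autoImplicit false
set_option linter.unusedSectionVars false
set_option linter.style.haveILetI false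

noncomputable section

open Matrix MulOpposite
open IsLocalRing (maximalIdeal ResidueField residue)

namespace FLTAgent.Lower.Levels.Pseudo

section Core

variable {G T E : Type*} [Group G] [CommRing T] [Ring E] [Algebra T E]
  (φ : G →* E) (χ : G →* T) (t : G → T)

/-- `g ↦ χ g • φ g⁻¹`, an antihomomorphism. -/
def starHom : G →* Eᵐᵒᵖ where
  toFun g := op (χ g • φ g⁻¹)
  map_one' := by simp
  map_mul' g h := unop_injective (by
    simp only [unop_mul, unop_op, _root_.mul_inv_rev, map_mul, smul_mul_smul_comm,
      mul_comm (χ h)])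

/-- The pair representation of the group ring. -/
def pairHom : MonoidAlgebra T G →ₐ[T] E × Eᵐᵒᵖ :=
  MonoidAlgebra.lift T (E × Eᵐᵒᵖ) G (φ.prod (starHom φ χ))

/-- The trace extended linearly. -/
def traceLin : MonoidAlgebra T G →ₗ[T] T := (MonoidAlgebra.basis G T).constr T t

theorem traceLin_single (g : G) (a : T) :
    traceLin t (MonoidAlgebra.single g a) = a * t g := by
  rw [show MonoidAlgebra.single g a = a • MonoidAlgebra.basis G T g by simp, map_smul, traceLin,
    Module.Basis.constr_basis, smul_eq_mul]

theorem pairHom_single (g : G) (a : T) :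
    pairHom φ χ (MonoidAlgebra.single g a) = a • ((φ g, op (χ g • φ g⁻¹)) : E × Eᵐᵒᵖ) :=
  MonoidAlgebra.lift_single _ _ _

variable {φ χ t}
variable (hrel : ∀ g, φ g + χ g • φ g⁻¹ = algebraMap T E (t g))
  (hinj : Function.Injective (algebraMap T E))

include hrel in
theorem fst_add_snd (y : MonoidAlgebra T G) :
    (pairHom φ χ y).1 + unop (pairHom φ χ y).2 = algebraMap T E (traceLin t y) := by
  induction y using MonoidAlgebra.induction with
  | zero => simp
  | single_add g a f _ _ ih =>
    rw [map_add, map_add, map_add, ← ih, traceLin_single, pairHom_single, map_mul, ← hrel,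
      ← Algebra.smul_def]
    simp only [Prod.fst_add, Prod.snd_add, Prod.smul_fst, Prod.smul_snd, unop_add, unop_smul,
      unop_op, smul_add]
    abel

include hrel hinj in
theorem traceLin_congr {y y' : MonoidAlgebra T G} (h : pairHom φ χ y = pairHom φ χ y') :
    traceLin t y = traceLin t y' :=
  hinj (by rw [← fst_add_snd hrel, ← fst_add_snd hrel, h])

include hrel hinj in
theorem t_mul_comm (g h : G) : t (g * h) = t (h * g) := by
  refine hinj ?_
  have key : φ h * (φ (g * h) + χ (g * h) • φ (g * h)⁻¹) * φ h⁻¹ =
      φ (h * g) + χ (h * g) • φ (h * g)⁻¹ := by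
    rw [mul_add, add_mul, mul_smul_comm, smul_mul_assoc, map_mul χ h g, map_mul χ g h,
      mul_comm (χ g)]
    simp only [← map_mul]
    congr 2 <;> group
  rw [hrel, hrel, ← Algebra.commutes, mul_assoc, ← map_mul, mul_inv_cancel, map_one,
    mul_one] at key
  exact key

include hrel hinj in
theorem traceLin_mul_comm (y z : MonoidAlgebra T G) :
    traceLin t (y * z) = traceLin t (z * y) := by
  have hs : ∀ (g : G) (a : T) (z : MonoidAlgebra T G),
      traceLin t (MonoidAlgebra.single g a * z) = traceLin t (z * MonoidAlgebra.single g a) := by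
    intro g a z
    induction z using MonoidAlgebra.induction with
    | zero => simp
    | single_add h b f' _ _ ih' =>
      rw [add_mul, mul_add, map_add, map_add, ih',
        MonoidAlgebra.single_mul_single, MonoidAlgebra.single_mul_single, traceLin_single,
        traceLin_single, t_mul_comm hrel hinj g h, mul_comm b a]
  induction y using MonoidAlgebra.induction with
  | zero => simp
  | single_add g a f _ _ ih => rw [add_mul, mul_add, map_add, map_add, ih, hs]

include hrel hinj in
theorem traceLin_one : traceLin t (1 : MonoidAlgebra T G) = 2 := by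
  refine hinj ?_
  rw [← fst_add_snd hrel, map_one, map_ofNat]
  exact one_add_one_eq_two

/-- An element whose pair is idempotent with trace `1`. -/
structure IsIdem (φ : G →* E) (χ : G →* T) (t : G → T) (e : MonoidAlgebra T G) : Prop where
  mul_self : pairHom φ χ e * pairHom φ χ e = pairHom φ χ e
  trace : traceLin t e = 1

include hrel in
theorem IsIdem.one_sub {e : MonoidAlgebra T G} (he : IsIdem φ χ t e)
    (hinj : Function.Injective (algebraMap T E)) : IsIdem φ χ t (1 - e) where
  mul_self := by
    rw [map_sub, map_one, mul_sub, sub_mul, sub_mul, one_mul, mul_one, he.mul_self]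
    simp
  trace := by
    rw [map_sub, traceLin_one hrel hinj, he.trace]
    norm_num

include hrel hinj in
theorem IsIdem.sandwich {e : MonoidAlgebra T G} (he : IsIdem φ χ t e) (y : MonoidAlgebra T G) :
    pairHom φ χ (e * y * e) = traceLin t (e * y) • pairHom φ χ e := by
  have h1 := fst_add_snd hrel (e * y)
  have h2 := fst_add_snd hrel (y * e)
  have h3 := fst_add_snd hrel e
  rw [he.trace, map_one] at h3
  rw [traceLin_mul_comm hrel hinj y e] at h2
  simp only [map_mul, Prod.fst_mul, Prod.snd_mul, unop_mul] at h1 h2
  have i1 := congrArg Prod.fst he.mul_self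
  have i2 := congrArg (fun z => unop z.2) he.mul_self
  simp only [Prod.fst_mul, Prod.snd_mul, unop_mul] at i1 i2
  generalize traceLin t (e * y) = c at h1 h2 ⊢
  simp only [map_mul]
  set X := pairHom φ χ e
  set Y := pairHom φ χ y
  have hx : X.1 = 1 - unop X.2 := eq_sub_of_add_eq h3
  have o1 : unop X.2 * X.1 = 0 := by rw [hx, mul_sub, mul_one, i2, sub_self]
  have o2 : X.1 * unop X.2 = 0 := by rw [hx, sub_mul, one_mul, i2, sub_self]
  refine Prod.ext ?_ (unop_injective ?_)
  · have := congrArg (· * X.1) h1
    simp only [add_mul, mul_assoc, o1, mul_zero, add_zero, ← Algebra.smul_def] at this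
    simpa [mul_assoc] using this
  · have := congrArg (· * unop X.2) h2
    simp only [add_mul, mul_assoc, o2, mul_zero, zero_add, ← Algebra.smul_def] at this
    simpa [mul_assoc] using this

/-- Matrix units in the pair algebra. -/
structure IsUnits (φ : G →* E) (χ : G →* T) (t : G → T)
    (U : Fin 2 → Fin 2 → MonoidAlgebra T G) : Prop where
  sum_diag : U 0 0 + U 1 1 = 1
  idem : ∀ i, IsIdem φ χ t (U i i)
  mul : ∀ i j k l, pairHom φ χ (U i j) * pairHom φ χ (U k l) =
    if j = k then pairHom φ χ (U i l) else 0

/-- The entries. -/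
def matLin (t : G → T) (U : Fin 2 → Fin 2 → MonoidAlgebra T G) :
    MonoidAlgebra T G →ₗ[T] Matrix (Fin 2) (Fin 2) T where
  toFun y := Matrix.of fun i j => traceLin t (U j i * y)
  map_add' y z := by ext i j; simp [mul_add]
  map_smul' a y := by ext i j; simp

theorem matLin_apply (t : G → T) (U : Fin 2 → Fin 2 → MonoidAlgebra T G) (y : MonoidAlgebra T G)
    (i j : Fin 2) : matLin t U y i j = traceLin t (U j i * y) := rfl

variable {U : Fin 2 → Fin 2 → MonoidAlgebra T G}

include hrel hinj in
theorem IsUnits.sandwich (h : IsUnits φ χ t U) (i j : Fin 2) (y : MonoidAlgebra T G) :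
    pairHom φ χ (U i i * y * U j j) = traceLin t (U j i * y) • pairHom φ χ (U i j) := by
  have hc : traceLin t (U i i * (y * U j i)) = traceLin t (U j i * y) := by
    rw [← mul_assoc, traceLin_mul_comm hrel hinj, ← mul_assoc]
    refine traceLin_congr hrel hinj ?_
    rw [map_mul, map_mul, map_mul, h.mul, if_pos rfl]
  calc pairHom φ χ (U i i * y * U j j)
      = pairHom φ χ (U i i * (y * U j i) * U i i) * pairHom φ χ (U i j) := by
        simp only [map_mul, mul_assoc, h.mul, if_true]
    _ = _ := by rw [(h.idem i).sandwich hrel hinj, hc, smul_mul_assoc, h.mul, if_pos rfl]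

include hrel hinj in
theorem IsUnits.trace_split (h : IsUnits φ χ t U) (i j k : Fin 2) (y z : MonoidAlgebra T G) :
    traceLin t (U j i * y * U k k * z) =
      traceLin t (U k i * y) * traceLin t (U j k * z) := by
  have hc : traceLin t (U k j * (U j i * y)) = traceLin t (U k i * y) := by
    refine traceLin_congr hrel hinj ?_
    rw [map_mul, map_mul, ← mul_assoc, h.mul, if_pos rfl, map_mul]
  refine (traceLin_congr hrel hinj
    (y' := traceLin t (U k j * (U j i * y)) • (U j k * z)) ?_).trans
    (by rw [map_smul, smul_eq_mul, hc])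
  rw [map_smul, map_mul _ (U j k), ← smul_mul_assoc, ← h.sandwich hrel hinj j k (U j i * y)]
  simp only [map_mul, ← mul_assoc, h.mul, if_true]

include hrel hinj in
theorem matLin_mul (h : IsUnits φ χ t U) (y z : MonoidAlgebra T G) :
    matLin t U (y * z) = matLin t U y * matLin t U z := by
  ext i j
  rw [Matrix.mul_apply, Fin.sum_univ_two]
  simp only [matLin_apply, ← h.trace_split hrel hinj i j, ← map_add, ← add_mul, ← mul_add,
    h.sum_diag, mul_one, ← mul_assoc]

include hrel hinj in
theorem matLin_one (h : IsUnits φ χ t U) : matLin t U 1 = 1 := by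
  ext i j
  rw [matLin_apply, mul_one, Matrix.one_apply]
  split_ifs with hij
  · subst hij
    exact (h.idem i).trace
  · have e1 : traceLin t (U j i) = traceLin t (U j j * U j i) :=
      traceLin_congr hrel hinj (by rw [map_mul, h.mul, if_pos rfl])
    have e2 : traceLin t (U j i * U j j) = traceLin t 0 :=
      traceLin_congr hrel hinj (by rw [map_mul, h.mul, if_neg hij, map_zero])
    rw [e1, traceLin_mul_comm hrel hinj, e2, map_zero]

theorem matLin_trace (h : IsUnits φ χ t U) (y : MonoidAlgebra T G) :
    (matLin t U y).trace = traceLin t y := by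
  rw [Matrix.trace_fin_two, matLin_apply, matLin_apply, ← map_add, ← add_mul, h.sum_diag, one_mul]

/-- The representation. -/
def matHom (h : IsUnits φ χ t U) : G →* Matrix (Fin 2) (Fin 2) T where
  toFun g := matLin t U (MonoidAlgebra.single g 1)
  map_one' := matLin_one hrel hinj h
  map_mul' g g' := by
    rw [← matLin_mul hrel hinj h, MonoidAlgebra.single_mul_single, one_mul]

theorem matHom_trace (h : IsUnits φ χ t U) (g : G) :
    (matHom hrel hinj h g).trace = t g := by
  rw [show matHom hrel hinj h g = matLin t U (MonoidAlgebra.single g 1) from rfl, matLin_trace h,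
    traceLin_single, one_mul]

theorem matHom_det (h : IsUnits φ χ t U) (g : G) : (matHom hrel hinj h g).det = χ g := by
  have hP : pairHom φ χ (MonoidAlgebra.single g 1 + MonoidAlgebra.single g⁻¹ (χ g)) =
      pairHom φ χ (t g • (1 : MonoidAlgebra T G)) := by
    rw [map_add, map_smul, map_one, pairHom_single, pairHom_single, one_smul]
    refine Prod.ext ?_ (unop_injective ?_)
    · simpa [Algebra.algebraMap_eq_smul_one] using hrel g
    · simp only [Prod.snd_add, Prod.smul_snd, unop_add, unop_smul, unop_op, inv_inv, smul_smul,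
        ← map_mul, mul_inv_cancel, map_one, one_smul, Prod.snd_one, unop_one]
      rw [add_comm, hrel, Algebra.algebraMap_eq_smul_one]
  have hU : ∀ y y' : MonoidAlgebra T G, pairHom φ χ y = pairHom φ χ y' →
      matLin t U y = matLin t U y' := fun y y' e => by
    ext i j
    exact traceLin_congr hrel hinj (by rw [map_mul, map_mul, e])
  have h1 := hU _ _ hP
  rw [map_add, map_smul, matLin_one hrel hinj h,
    show MonoidAlgebra.single g⁻¹ (χ g) = χ g • MonoidAlgebra.single g⁻¹ 1 by simp, map_smul] at h1
  change matHom hrel hinj h g + χ g • matHom hrel hinj h g⁻¹ = t g • 1 at h1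
  have hM : matHom hrel hinj h g * matHom hrel hinj h g⁻¹ = 1 := by
    rw [← map_mul, mul_inv_cancel, map_one]
  have hadj : χ g • matHom hrel hinj h g⁻¹ = (matHom hrel hinj h g).adjugate := by
    rw [eq_sub_of_add_eq' h1, Matrix.adjugate_fin_two, ← matHom_trace hrel hinj h g,
      Matrix.trace_fin_two]
    ext i j
    fin_cases i <;> fin_cases j <;> simp
  have h2 := Matrix.mul_adjugate (matHom hrel hinj h g)
  rw [← hadj, mul_smul_comm, hM] at h2
  simpa using (congrFun (congrFun h2 0) 0).symm

end Core

section Construction

variable {G T E : Type*} [Group G] [CommRing T] [IsLocalRing T] [Ring E] [Algebra T E]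
  {φ : G →* E} {χ : G →* T} {t : G → T}
  (hrel : ∀ g, φ g + χ g • φ g⁻¹ = algebraMap T E (t g))
  (hinj : Function.Injective (algebraMap T E))
  (ρb : G →* Matrix (Fin 2) (Fin 2) (ResidueField T))

/-- The residual representation of the group ring. -/
def resHom : MonoidAlgebra T G →ₐ[T] Matrix (Fin 2) (Fin 2) (ResidueField T) :=
  MonoidAlgebra.lift T _ G ρb

theorem resHom_single (g : G) (a : T) :
    resHom ρb (MonoidAlgebra.single g a) = a • ρb g := MonoidAlgebra.lift_single _ _ _

theorem residue_traceLin (htr : ∀ g, residue T (t g) = (ρb g).trace) (y : MonoidAlgebra T G) :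
    residue T (traceLin t y) = (resHom ρb y).trace := by
  induction y using MonoidAlgebra.induction with
  | zero => simp
  | single_add g a f _ _ ih =>
    rw [map_add, map_add, map_add, Matrix.trace_add, ih, traceLin_single, resHom_single, map_mul,
      htr, Matrix.trace_smul, Algebra.smul_def, IsLocalRing.ResidueField.algebraMap_eq]

theorem resHom_surjective
    (hspan : Submodule.span (ResidueField T) (Set.range ρb) = ⊤) :
    Function.Surjective (resHom ρb) := fun X => by
  have hX : X ∈ Submodule.span (ResidueField T) (Set.range ρb) := hspan ▸ Submodule.mem_top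
  induction hX using Submodule.span_induction with
  | mem x hx => obtain ⟨g, rfl⟩ := hx; exact ⟨_, by rw [resHom_single, one_smul]⟩
  | zero => exact ⟨0, map_zero _⟩
  | add x y _ _ hx hy =>
    obtain ⟨a, rfl⟩ := hx
    obtain ⟨b, rfl⟩ := hy
    exact ⟨a + b, map_add _ _ _⟩
  | smul c x _ hx =>
    obtain ⟨a, rfl⟩ := hx
    obtain ⟨d, rfl⟩ := IsLocalRing.residue_surjective c
    exact ⟨d • a, by
      rw [map_smul, ← IsLocalRing.ResidueField.algebraMap_eq, algebraMap_smul]⟩

theorem residue_smul_eq {M : Type*} [AddCommGroup M] [Module (ResidueField T) M] [Module T M]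
    [IsScalarTower T (ResidueField T) M] {a : T} {c : ResidueField T} (h : residue T a = c)
    (x : M) : a • x = c • x := by
  rw [← h, ← IsLocalRing.ResidueField.algebraMap_eq, algebraMap_smul]

theorem sq_relation {A : Type*} [Ring A] [Algebra T A] {X Y : A} {a b h : T} (hh : 2 * h = 1)
    (h1 : X + Y = algebraMap T A a) (h2 : X * X + Y * Y = algebraMap T A b) :
    X * X = a • X - (h * (a ^ 2 - b)) • 1 := by
  have hY : Y = algebraMap T A a - X := eq_sub_of_add_eq' h1
  rw [hY, Algebra.algebraMap_eq_smul_one, Algebra.algebraMap_eq_smul_one] at h2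
  simp only [mul_sub, sub_mul, smul_mul_assoc, one_mul, mul_smul_comm, mul_one] at h2
  calc X * X = h • ((2 : T) • (X * X)) := by rw [smul_smul, mul_comm h, hh, one_smul]
    _ = h • ((2 * a) • X - (a ^ 2 - b) • (1 : A)) := by
      congr 1
      linear_combination (norm := module) h2
    _ = _ := by
      rw [smul_sub, smul_smul, smul_smul, ← mul_assoc, mul_comm h, hh, one_mul]

include hrel hinj in
theorem exists_isUnits [IsAdicComplete (maximalIdeal T) T] (h2 : IsUnit (2 : T))
    (htr : ∀ g, residue T (t g) = (ρb g).trace)
    (hspan : Submodule.span (ResidueField T) (Set.range ρb) = ⊤) :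
    ∃ U, IsUnits φ χ t U ∧ ∀ i j, resHom ρb (U i j) = Matrix.single i j 1 := by
  have hsur := resHom_surjective ρb hspan
  obtain ⟨x₀, hx₀⟩ := hsur (Matrix.single 0 0 1)
  have hx₀r : residue T (traceLin t x₀) = 1 := by
    rw [residue_traceLin ρb htr, hx₀, Matrix.trace_single_eq_same]
  have hx₀u : IsUnit (traceLin t x₀) := by
    rw [← IsLocalRing.notMem_maximalIdeal, ← IsLocalRing.residue_eq_zero_iff, hx₀r]
    exact one_ne_zero
  obtain ⟨c, hc⟩ := hx₀u.exists_left_inv
  obtain ⟨x, hx⟩ : ∃ x, x = c • x₀ := ⟨_, rfl⟩
  have hcr : residue T c = 1 := by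
    have := congrArg (residue T) hc
    rwa [map_mul, hx₀r, mul_one, map_one] at this
  have hτx : traceLin t x = 1 := by rw [hx, map_smul, smul_eq_mul, hc]
  have hRx : resHom ρb x = Matrix.single 0 0 1 := by
    rw [hx, map_smul, hx₀, residue_smul_eq hcr, one_smul]
  obtain ⟨hf, hhf⟩ := h2.exists_right_inv
  set n := hf * (1 - traceLin t (x * x)) with hn
  have hnm : n ∈ maximalIdeal T := by
    refine Ideal.mul_mem_left _ _ ((IsLocalRing.residue_eq_zero_iff _).mp ?_)
    rw [map_sub, map_one, residue_traceLin ρb htr, map_mul (resHom ρb), hRx,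
      Matrix.single_mul_single_same, mul_one, Matrix.trace_single_eq_same, sub_self]
  obtain ⟨a, haroot, ham⟩ := HenselianRing.is_henselian (I := maximalIdeal T)
    (Polynomial.X ^ 2 - Polynomial.X + Polynomial.C n)
    (by monicity!) 0 (by simpa using hnm)
    (by simp)
  rw [sub_zero] at ham
  simp only [Polynomial.IsRoot, Polynomial.eval_add, Polynomial.eval_sub, Polynomial.eval_pow,
    Polynomial.eval_X, Polynomial.eval_C] at haroot
  have har : residue T a = 0 := (IsLocalRing.residue_eq_zero_iff _).mpr ham
  have hsu : IsUnit (1 - 2 * a) := by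
    rw [← IsLocalRing.notMem_maximalIdeal, ← IsLocalRing.residue_eq_zero_iff, map_sub, map_mul,
      har, mul_zero, sub_zero, map_one]
    exact one_ne_zero
  obtain ⟨s, hs⟩ := hsu.exists_left_inv
  have hsr : residue T s = 1 := by
    have := congrArg (residue T) hs
    rwa [map_mul, map_sub, map_mul, har, mul_zero, sub_zero, map_one, mul_one] at this
  set e := s • (x - a • (1 : MonoidAlgebra T G)) with he
  -- the square of `x`
  have hsq : pairHom φ χ x * pairHom φ χ x = pairHom φ χ x - n • 1 := by
    have q1 := fst_add_snd hrel x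
    have q2 := fst_add_snd hrel (x * x)
    rw [hτx] at q1
    simp only [map_mul, Prod.fst_mul, Prod.snd_mul, unop_mul] at q2
    refine Prod.ext ?_ (unop_injective ?_)
    · simpa [hn] using sq_relation hhf q1 q2
    · simpa [hn] using sq_relation hhf ((add_comm _ _).trans q1) ((add_comm _ _).trans q2)
  have hide : IsIdem φ χ t e := by
    refine ⟨?_, ?_⟩
    · rw [he, map_smul, map_sub, map_smul, map_one]
      simp only [smul_mul_assoc, mul_smul_comm, sub_mul, mul_sub, one_mul, mul_one, hsq, smul_smul]
      match_scalars
      · linear_combination s * hs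
      · linear_combination s * (-a) * hs - s ^ 2 * haroot
    · rw [he, map_smul, map_sub, map_smul, hτx, traceLin_one hrel hinj, smul_eq_mul, smul_eq_mul]
      linear_combination hs
  have hRe : resHom ρb e = Matrix.single 0 0 1 := by
    rw [he, map_smul, map_sub, map_smul, map_one, hRx, residue_smul_eq hsr, residue_smul_eq har,
      zero_smul, sub_zero, one_smul]
  have hidf := hide.one_sub hrel hinj
  have hRf : resHom ρb (1 - e) = Matrix.single 1 1 1 := by
    rw [map_sub, map_one, hRe]
    ext i j
    fin_cases i <;> fin_cases j <;> simp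
  set f := 1 - e
  obtain ⟨u₀, hu₀⟩ := hsur (Matrix.single 0 1 1)
  obtain ⟨w₀, hw₀⟩ := hsur (Matrix.single 1 0 1)
  set u := e * u₀ * f with hu
  have hRu : resHom ρb u = Matrix.single 0 1 1 := by
    simp [hu, map_mul, hRe, hu₀, hRf]
  have hRw : resHom ρb (f * w₀ * e) = Matrix.single 1 0 1 := by
    simp [map_mul, hRe, hw₀, hRf]
  have huwr : residue T (traceLin t (u * (f * w₀ * e))) = 1 := by
    rw [residue_traceLin ρb htr, map_mul, hRu, hRw, Matrix.single_mul_single_same, mul_one,
      Matrix.trace_single_eq_same]
  have huwu : IsUnit (traceLin t (u * (f * w₀ * e))) := by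
    rw [← IsLocalRing.notMem_maximalIdeal, ← IsLocalRing.residue_eq_zero_iff, huwr]
    exact one_ne_zero
  obtain ⟨d, hd⟩ := huwu.exists_left_inv
  have hdr : residue T d = 1 := by
    have := congrArg (residue T) hd
    rwa [map_mul, huwr, mul_one, map_one] at this
  set w := d • (f * w₀ * e) with hw
  have huw1 : traceLin t (u * w) = 1 := by rw [hw, mul_smul_comm, map_smul, smul_eq_mul, hd]
  -- products in the pair algebra
  set P := pairHom φ χ
  have ee : P e * P e = P e := hide.mul_self
  have ff : P f * P f = P f := hidf.mul_self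
  have ef : P e * P f = 0 := by simp only [f, map_sub, map_one, mul_sub, mul_one, ee, sub_self, P]
  have fe : P f * P e = 0 := by simp only [f, map_sub, map_one, sub_mul, one_mul, ee, sub_self, P]
  have hPu : P u = P e * P u₀ * P f := by rw [hu, map_mul, map_mul]
  have hPw : P w = P f * (d • P w₀) * P e := by
    rw [hw, map_smul, map_mul, map_mul, mul_smul_comm, smul_mul_assoc]
  have eu : P e * P u = P u := by rw [hPu, ← mul_assoc, ← mul_assoc, ee]
  have uf : P u * P f = P u := by rw [hPu, mul_assoc, ff]
  have fw : P f * P w = P w := by rw [hPw, ← mul_assoc, ← mul_assoc, ff]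
  have we : P w * P e = P w := by rw [hPw, mul_assoc, ee]
  have ue : P u * P e = 0 := by rw [← uf, mul_assoc, fe, mul_zero]
  have fu : P f * P u = 0 := by rw [← eu, ← mul_assoc, fe, zero_mul]
  have ew : P e * P w = 0 := by rw [← fw, ← mul_assoc, ef, zero_mul]
  have wf : P w * P f = 0 := by rw [← we, mul_assoc, ef, mul_zero]
  have uu : P u * P u = 0 := by
    rw [show P u * P u = P u * P f * P u by rw [uf], mul_assoc, fu, mul_zero]
  have ww : P w * P w = 0 := by
    rw [show P w * P w = P w * P e * P w by rw [we], mul_assoc, ew, mul_zero]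
  have uw : P u * P w = P e := by
    have h' := hide.sandwich hrel hinj (u * w)
    have hz : P (e * (u * w) * e) = P (u * w) := by
      simp only [map_mul, P] at *
      rw [← mul_assoc, eu, mul_assoc, we]
    rw [hz, traceLin_congr hrel hinj (y := e * (u * w)) (y' := u * w) (by
      show P _ = P _
      rw [map_mul, map_mul, ← mul_assoc, eu]), huw1, one_smul] at h'
    rw [← map_mul]; exact h'
  have wu : P w * P u = P f := by
    have h' := hidf.sandwich hrel hinj (w * u)
    have hz : P (f * (w * u) * f) = P (w * u) := by
      simp only [map_mul, P] at *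
      rw [← mul_assoc, fw, mul_assoc, uf]
    rw [hz, traceLin_congr hrel hinj (y := f * (w * u)) (y' := w * u) (by
      show P _ = P _
      rw [map_mul, map_mul, ← mul_assoc, fw]), traceLin_mul_comm hrel hinj, huw1, one_smul] at h'
    rw [← map_mul]; exact h'
  refine ⟨![![e, u], ![w, f]], ⟨by simp [f], fun i => ?_, fun i j k l => ?_⟩, fun i j => ?_⟩
  · fin_cases i
    · exact hide
    · exact hidf
  · show P _ * P _ = if j = k then P _ else 0
    fin_cases i <;> fin_cases j <;> fin_cases k <;> fin_cases l <;>
      simp [ee, ff, ef, fe, eu, uf, fw, we, ue, fu, ew, wf, uu, ww, uw, wu]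
  · fin_cases i <;> fin_cases j
    · exact hRe
    · exact hRu
    · show resHom ρb w = _
      rw [hw, map_smul, hRw, residue_smul_eq hdr, one_smul]
      rfl
    · exact hRf

include hrel hinj in
/-- **The representation of a residually absolutely irreducible trace relation.** -/
theorem exists_matrix [IsAdicComplete (maximalIdeal T) T] (h2 : IsUnit (2 : T))
    (htr : ∀ g, residue T (t g) = (ρb g).trace)
    (hspan : Submodule.span (ResidueField T) (Set.range ρb) = ⊤) :
    ∃ M : G →* Matrix (Fin 2) (Fin 2) T,
      (∀ g, (M g).trace = t g) ∧ (∀ g, (M g).det = χ g) ∧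
      (∀ g, (M g).map (residue T) = ρb g) ∧
      ∀ (I : Ideal T) (g g' : G), (∀ x, t (x * g) - t (x * g') ∈ I) →
        ∀ i j, (M g - M g') i j ∈ I := by
  obtain ⟨U, hU, hRU⟩ := exists_isUnits hrel hinj ρb h2 htr hspan
  refine ⟨matHom hrel hinj hU, matHom_trace hrel hinj hU, matHom_det hrel hinj hU, fun g => ?_,
    fun I g g' hI i j => ?_⟩
  · ext i j
    show residue T (traceLin t (U j i * MonoidAlgebra.single g 1)) = ρb g i j
    rw [residue_traceLin ρb htr, map_mul, hRU, resHom_single, one_smul,
      Matrix.trace_fin_two]
    fin_cases i <;> fin_cases j <;> simp [Matrix.mul_apply, Matrix.single_apply]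
  · have key : ∀ y : MonoidAlgebra T G, traceLin t (y * MonoidAlgebra.single g 1) -
        traceLin t (y * MonoidAlgebra.single g' 1) ∈ I := by
      intro y
      induction y using MonoidAlgebra.induction with
      | zero => simp
      | single_add h b f _ _ ih =>
        rw [add_mul, add_mul, map_add, map_add, MonoidAlgebra.single_mul_single,
          MonoidAlgebra.single_mul_single, mul_one, traceLin_single, traceLin_single,
          add_sub_add_comm, ← mul_sub]
        exact I.add_mem (I.mul_mem_left _ (hI h)) ih
    exact key (U j i)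

end Construction

end FLTAgent.Lower.Levels.Pseudo
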