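import Fermat.Agent.Lower.Levels.GalH
import Fermat.Agent.Lower.Levels.PseudoRep
import Fermat.Agent.Local.Rho
import Fermat.Agent.Deform.MatRep
import Fermat.Agent.GalCommon.Burnside

/-!
# The representation of a Hecke ring acting on an embedded module

For a local Hecke ring `T` acting faithfully on `R^d`, embedded equivariantly in `H N R R`, the
Galois translates span a module on which `T` still acts (`actSpan`) and commutes with Galois
(`galSpan`).  The trace operator `σ + χ(σ) σ⁻¹` lies in the Hecke algebra, giving a trace function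
with values in `T` (`traceT`), and `exists_matrix` from `PseudoRep` then gives the representation
with its attachedness and quadratic relation (`exists_rep`).
-/

set_option autoImplicit false
set_option linter.unusedSectionVars false
set_option linter.style.haveILetI false
-- instances on endomorphisms of a submodule of a submodule
set_option maxSynthPendingDepth 4

noncomputable section

open CongruenceSubgroup CuspForm
open scoped MatrixGroups Matrix TensorProduct

namespace FLTAgent.Lower.Levels.RepModule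

open IsLocalRing (maximalIdeal ResidueField residue)
open Local (traceOp icast tauS)

local notation "ℚ̄" => AlgebraicClosure ℚ
local notation "Γℚ" => (AlgebraicClosure ℚ ≃ₐ[ℚ] AlgebraicClosure ℚ)

/-- The Galois matrices on period coordinates. -/
def tateHom (p : ℕ) [Fact p.Prime] (N : ℕ) [NeZero N] :
    Γℚ →* Matrix (Fin (Period.rankH N)) (Fin (Period.rankH N)) ℤ_[p] :=
  (Reps.galModel N p).M

/-- The Hecke matrices away from `S` on period coordinates. -/
def tauM (N : ℕ) [NeZero N] (S : Finset ℕ) :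
    ↥(heckeAlgebra N 2 (↑S : Set ℕ)) →+*
      Matrix (Fin (Period.rankH N)) (Fin (Period.rankH N)) ℤ :=
  (HeckeH.heckeMatHom N).comp
    (Subalgebra.inclusion (heckeAlgebra_mono (Set.empty_subset (↑S : Set ℕ)))).toRingHom

theorem tateHom_apply (p : ℕ) [Fact p.Prime] (N : ℕ) [NeZero N] (σ : Γℚ) :
    tateHom p N σ = Reps.tateMat N p σ := rfl

theorem tateHom_continuous (p : ℕ) [Fact p.Prime] (N : ℕ) [NeZero N] :
    Local.MatContinuous (tateHom p N) := (Reps.galModel N p).continuous_level

theorem tateHom_frobenius (p : ℕ) [Fact p.Prime] (N : ℕ) [NeZero N] (S : Finset ℕ)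
    (hpS : p ∈ S) {ℓ : ℕ} (hℓ : ℓ.Prime) (hℓN : ¬ ℓ ∣ N) (hℓS : ℓ ∉ S)
    {A : ValuationSubring ℚ̄} (hA : A.LiesOverPrime ℓ) {σ : Γℚ} (hσ : A.IsFrobeniusAt σ ℓ) :
    tateHom p N σ * tateHom p N σ -
        icast ℤ_[p] (tauM N S (heckeAlgebra.T hℓ hℓN (mod_cast hℓS))) * tateHom p N σ +
      (ℓ : Matrix (Fin (Period.rankH N)) (Fin (Period.rankH N)) ℤ_[p]) = 0 :=
  (Reps.galModel N p).frobenius_rel ℓ hℓ hℓN (fun hp => hℓS (hp ▸ hpS)) A hA σ hσ

theorem exists_algebra_of_ringHom {T E : Type} [CommRing T] [Ring E] (i : T →+* E)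
    (hc : ∀ t x, i t * x = x * i t) (hi : Function.Injective i) (φ : Γℚ →* E) {χ t : Γℚ → T}
    (hrel : ∀ g, φ g + i (χ g) * φ g⁻¹ = i (t g)) :
    ∃ (E : Type) (_ : Ring E) (_ : Algebra T E) (φ : Γℚ →* E),
      (∀ g, φ g + χ g • φ g⁻¹ = algebraMap T E (t g)) ∧ Function.Injective (algebraMap T E) :=
  letI := i.toAlgebra' hc
  ⟨E, inferInstance, inferInstance, φ, fun g => by rw [Algebra.smul_def]; exact hrel g, hi⟩

section Data

variable {p : ℕ} [Fact p.Prime] {N : ℕ} [NeZero N] {S : Finset ℕ}
  {O : Type} [CommRing O] (f : ℤ_[p] →+* O)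
  {T : Type} [CommRing T] [Algebra O T]
  (π : ↥(heckeAlgebra N 2 (↑S : Set ℕ)) →+* T)
  {R : Type} [CommRing R] [Algebra O R]
  {d : ℕ} (act : T →ₐ[O] Matrix (Fin d) (Fin d) R)
  (ι : (Fin d → R) →ₗ[R] Period.H N R R)

/-- A translate of the image of `ι`. -/
def gen (g : Γℚ) (x : Fin d → R) : Period.H N R R :=
  galH N ((algebraMap O R).comp f) g (ι x)

/-- The span of the translates. -/
def span : Submodule R (Period.H N R R) :=
  Submodule.span R (Set.range fun gx : Γℚ × (Fin d → R) => gen f ι gx.1 gx.2)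

theorem gen_mem (g : Γℚ) (x : Fin d → R) : gen f ι g x ∈ span f ι :=
  Submodule.subset_span ⟨(g, x), rfl⟩

theorem gen_smul (g : Γℚ) (a : R) (x : Fin d → R) : gen f ι g (a • x) = a • gen f ι g x := by
  rw [gen, gen, map_smul, map_smul]

theorem galH_gen (σ g : Γℚ) (x : Fin d → R) :
    galH N ((algebraMap O R).comp f) σ (gen f ι g x) = gen f ι (σ * g) x := by
  rw [gen, gen, galH_mul, Module.End.mul_apply]

theorem gen_one (x : Fin d → R) : gen f ι 1 x = ι x := by
  rw [gen, galH_one, Module.End.one_apply]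

theorem galH_mem (σ : Γℚ) {y : Period.H N R R} (hy : y ∈ span f ι) :
    galH N ((algebraMap O R).comp f) σ y ∈ span f ι := by
  induction hy using Submodule.span_induction with
  | mem y hy => obtain ⟨⟨g, x⟩, rfl⟩ := hy; rw [galH_gen]; exact gen_mem f ι _ _
  | zero => rw [map_zero]; exact zero_mem _
  | add y z _ _ hy hz => rw [map_add]; exact add_mem hy hz
  | smul a y _ hy => rw [map_smul]; exact Submodule.smul_mem _ a hy

/-- An element of `T` acts on the span. -/
def Extends (t : T) (L : Module.End R ↥(span f ι)) : Prop :=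
  ∀ g x, L ⟨gen f ι g x, gen_mem f ι g x⟩ = ⟨gen f ι g (act t *ᵥ x), gen_mem f ι g _⟩

theorem end_ext {L L' : Module.End R ↥(span f ι)}
    (h : ∀ g x, L ⟨gen f ι g x, gen_mem f ι g x⟩ = L' ⟨gen f ι g x, gen_mem f ι g x⟩) : L = L' := by
  refine LinearMap.ext fun ⟨y, hy⟩ => ?_
  induction hy using Submodule.span_induction with
  | mem y hy => obtain ⟨⟨g, x⟩, rfl⟩ := hy; exact h g x
  | zero => exact (map_zero L).trans (map_zero L').symm
  | add y z hy hz hy' hz' =>
    show L (⟨y, hy⟩ + ⟨z, hz⟩) = L' (⟨y, hy⟩ + ⟨z, hz⟩)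
    rw [map_add, map_add, hy', hz']
  | smul a y hy hy' =>
    show L (a • ⟨y, hy⟩) = L' (a • ⟨y, hy⟩)
    rw [map_smul, map_smul, hy']

theorem act_algebraMap_mulVec (a : O) (x : Fin d → R) :
    act (algebraMap O T a) *ᵥ x = algebraMap O R a • x := by
  rw [AlgHom.commutes, Algebra.algebraMap_eq_smul_one, Algebra.algebraMap_eq_smul_one,
    ← IsScalarTower.algebraMap_smul R a (1 : Matrix (Fin d) (Fin d) R), Matrix.smul_mulVec,
    Matrix.one_mulVec, Algebra.algebraMap_eq_smul_one]

theorem extends_algebraMap (a : O) :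
    Extends f act ι (algebraMap O T a) (algebraMap O R a • 1) := fun g x => by
  refine Subtype.ext ?_
  rw [LinearMap.smul_apply, Module.End.one_apply, Submodule.coe_smul]
  dsimp only
  rw [act_algebraMap_mulVec, gen_smul]

theorem Extends.mul {t t' : T} {L L' : Module.End R ↥(span f ι)} (h : Extends f act ι t L)
    (h' : Extends f act ι t' L') : Extends f act ι (t * t') (L * L') := fun g x => by
  rw [Module.End.mul_apply, h' g x, h g]
  refine Subtype.ext ?_
  dsimp only
  rw [map_mul, Matrix.mulVec_mulVec]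

theorem Extends.add {t t' : T} {L L' : Module.End R ↥(span f ι)} (h : Extends f act ι t L)
    (h' : Extends f act ι t' L') : Extends f act ι (t + t') (L + L') := fun g x => by
  rw [LinearMap.add_apply, h g x, h' g x]
  refine Subtype.ext ?_
  show gen f ι g _ + gen f ι g _ = gen f ι g _
  rw [map_add, Matrix.add_mulVec, gen, gen, gen, map_add, map_add]

variable (hgen : Algebra.adjoin O (Set.range π) = ⊤)
  (hint : ∀ t x, ι (act (π t) *ᵥ x) =
      HeckeH.heckeEnd N R R
        (Subalgebra.inclusion (heckeAlgebra_mono (Set.empty_subset (↑S : Set ℕ))) t) (ι x))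

include hint in
theorem heckeEnd_gen (t : ↥(heckeAlgebra N 2 (↑S : Set ℕ))) (g : Γℚ) (x : Fin d → R) :
    HeckeH.heckeEnd N R R
        (Subalgebra.inclusion (heckeAlgebra_mono (Set.empty_subset (↑S : Set ℕ))) t)
        (gen f ι g x) = gen f ι g (act (π t) *ᵥ x) := by
  rw [gen, gen, hint, galH_heckeEnd]

include hint in
theorem exists_extends_pi (t : ↥(heckeAlgebra N 2 (↑S : Set ℕ))) :
    ∃ L, Extends f act ι (π t) L := by
  have hmem : ∀ y ∈ span f ι, HeckeH.heckeEnd N R R
      (Subalgebra.inclusion (heckeAlgebra_mono (Set.empty_subset (↑S : Set ℕ))) t) y ∈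
        span f ι := by
    intro y hy
    induction hy using Submodule.span_induction with
    | mem y hy =>
      obtain ⟨⟨g, x⟩, rfl⟩ := hy
      rw [heckeEnd_gen f π act ι hint]
      exact gen_mem f ι _ _
    | zero => rw [map_zero]; exact zero_mem _
    | add y z _ _ hy hz => rw [map_add]; exact add_mem hy hz
    | smul a y _ hy => rw [map_smul]; exact Submodule.smul_mem _ a hy
  exact ⟨(HeckeH.heckeEnd N R R
    (Subalgebra.inclusion (heckeAlgebra_mono (Set.empty_subset (↑S : Set ℕ))) t)).restrict hmem,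
    fun g x => Subtype.ext (heckeEnd_gen f π act ι hint t g x)⟩

include hgen hint in
theorem exists_extends (t : T) : ∃ L, Extends f act ι t L := by
  have ht : t ∈ Algebra.adjoin O (Set.range π) := hgen ▸ trivial
  induction ht using Algebra.adjoin_induction with
  | mem t ht => obtain ⟨t₀, rfl⟩ := ht; exact exists_extends_pi f π act ι hint t₀
  | algebraMap a => exact ⟨_, extends_algebraMap f act ι a⟩
  | add s t _ _ hs ht =>
    obtain ⟨L, hL⟩ := hs
    obtain ⟨L', hL'⟩ := ht
    exact ⟨_, hL.add f act ι hL'⟩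
  | mul s t _ _ hs ht =>
    obtain ⟨L, hL⟩ := hs
    obtain ⟨L', hL'⟩ := ht
    exact ⟨_, hL.mul f act ι hL'⟩

theorem Extends.unique {t : T} {L L' : Module.End R ↥(span f ι)} (h : Extends f act ι t L)
    (h' : Extends f act ι t L') : L = L' :=
  end_ext f ι fun g x => (h g x).trans (h' g x).symm

/-- The action of `T` on the span. -/
def actSpan : T →+* Module.End R ↥(span f ι) where
  toFun t := Classical.choose (exists_extends f π act ι hgen hint t)
  map_one' := Extends.unique f act ι (Classical.choose_spec (exists_extends f π act ι hgen hint 1))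
    fun g x => Subtype.ext (by dsimp only [Module.End.one_apply]; rw [map_one, Matrix.one_mulVec])
  map_mul' s t := Extends.unique f act ι
    (Classical.choose_spec (exists_extends f π act ι hgen hint (s * t)))
    ((Classical.choose_spec (exists_extends f π act ι hgen hint s)).mul f act ι
      (Classical.choose_spec (exists_extends f π act ι hgen hint t)))
  map_zero' := Extends.unique f act ι (Classical.choose_spec (exists_extends f π act ι hgen hint 0))
    fun g x => Subtype.ext (by
      rw [LinearMap.zero_apply]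
      dsimp only
      rw [map_zero, Matrix.zero_mulVec, gen, map_zero, map_zero]
      rfl)
  map_add' s t := Extends.unique f act ι
    (Classical.choose_spec (exists_extends f π act ι hgen hint (s + t)))
    ((Classical.choose_spec (exists_extends f π act ι hgen hint s)).add f act ι
      (Classical.choose_spec (exists_extends f π act ι hgen hint t)))

theorem actSpan_gen (t : T) (g : Γℚ) (x : Fin d → R) :
    (actSpan f π act ι hgen hint t ⟨gen f ι g x, gen_mem f ι g x⟩ : Period.H N R R) =
      gen f ι g (act t *ᵥ x) :=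
  congrArg Subtype.val (Classical.choose_spec (exists_extends f π act ι hgen hint t) g x)

theorem actSpan_algebraMap (a : O) :
    actSpan f π act ι hgen hint (algebraMap O T a) = algebraMap O R a • 1 :=
  Extends.unique f act ι (Classical.choose_spec (exists_extends f π act ι hgen hint _))
    (extends_algebraMap f act ι a)

/-- The endomorphisms of the span commuting with `T`. -/
def centr : Subring (Module.End R ↥(span f ι)) :=
  Subring.centralizer (Set.range (actSpan f π act ι hgen hint))

theorem actSpan_mem_centr (t : T) :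
    actSpan f π act ι hgen hint t ∈ centr f π act ι hgen hint :=
  Subring.mem_centralizer_iff.mpr fun _ ⟨s, hs⟩ => by
    rw [← hs, ← map_mul, ← map_mul, mul_comm]

/-- `T` maps to the centralizer. -/
def toCentr : T →+* ↥(centr f π act ι hgen hint) :=
  (actSpan f π act ι hgen hint).codRestrict (centr f π act ι hgen hint)
    (actSpan_mem_centr f π act ι hgen hint)

theorem toCentr_commute (t : T) (x : ↥(centr f π act ι hgen hint)) :
    toCentr f π act ι hgen hint t * x = x * toCentr f π act ι hgen hint t :=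
  Subtype.ext (Subring.mem_centralizer_iff.mp x.2 _ ⟨t, rfl⟩)

theorem coe_toCentr (t : T) :
    (toCentr f π act ι hgen hint t : Module.End R ↥(span f ι)) =
      actSpan f π act ι hgen hint t := rfl

theorem galH_mem_centr (σ : Γℚ) :
    (galH N ((algebraMap O R).comp f) σ).restrict (fun _ hy => galH_mem f ι σ hy) ∈
      centr f π act ι hgen hint := by
  rw [centr, Subring.mem_centralizer_iff]
  rintro _ ⟨t, rfl⟩
  refine end_ext f ι fun g x => Subtype.ext ?_
  simp only [Module.End.mul_apply, LinearMap.restrict_apply, galH_gen, actSpan_gen]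

/-- The Galois action on the span. -/
def galSpan : Γℚ →* ↥(centr f π act ι hgen hint) where
  toFun σ := ⟨_, galH_mem_centr f π act ι hgen hint σ⟩
  map_one' := Subtype.ext (LinearMap.ext fun y => Subtype.ext (by
    show galH N ((algebraMap O R).comp f) 1 y.1 = y.1
    rw [galH_one, Module.End.one_apply]))
  map_mul' σ τ := Subtype.ext (LinearMap.ext fun y => Subtype.ext (by
    show galH N ((algebraMap O R).comp f) (σ * τ) y.1 =
      galH N ((algebraMap O R).comp f) σ (galH N ((algebraMap O R).comp f) τ y.1)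
    rw [galH_mul, Module.End.mul_apply]))

variable (hact : Function.Injective act) (hι : Function.Injective ι)

include hact hι in
theorem eq_of_forall_gen {s t : T} (h : ∀ x, ι (act s *ᵥ x) = ι (act t *ᵥ x)) : s = t :=
  hact (Matrix.ext fun i j => by
    simpa [Matrix.mulVec_single] using congrFun (hι (h (Pi.single j 1))) i)

include hact hι in
theorem toCentr_injective :
    Function.Injective (toCentr f π act ι hgen hint) := fun s t h => by
  refine eq_of_forall_gen act ι hact hι fun x => ?_
  have h1 : actSpan f π act ι hgen hint s = actSpan f π act ι hgen hint t :=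
    congrArg Subtype.val h
  rw [← gen_one f ι (act s *ᵥ x), ← gen_one f ι (act t *ᵥ x),
    ← actSpan_gen f π act ι hgen hint, h1, actSpan_gen]

/-- The cyclotomic character in `T`. -/
def chiT : Γℚ →* T :=
  ((algebraMap O T).comp f).toMonoidHom.comp (Reps.cyc p)

/-- The matrix `X` acts on the translates as the element `t`. -/
def ActsAs (X : Matrix (Fin (Period.rankH N)) (Fin (Period.rankH N)) ℤ_[p]) (t : T) : Prop :=
  ∀ g x, X.map ((algebraMap O R).comp f) *ᵥ Period.evalEquiv N R R (gen f ι g x) =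
    Period.evalEquiv N R R (gen f ι g (act t *ᵥ x))

include hint in
theorem actsAs_tauS (t : ↥(heckeAlgebra N 2 (↑S : Set ℕ))) :
    ActsAs f act ι (icast ℤ_[p] (tauM N S t)) (π t) := fun g x => by
  rw [← heckeEnd_gen f π act ι hint t g x]
  exact (congrArg (· *ᵥ _) (map_intCast_map ((algebraMap O R).comp f) _)).trans
    ((Degen.mulVec_evalEquiv _ _).trans (by rw [Degen.rectAct_eq_matAct]; rfl))

include hint in
theorem exists_actsAs {X : Matrix (Fin (Period.rankH N)) (Fin (Period.rankH N)) ℤ_[p]}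
    (hX : X ∈ Submodule.span ℤ_[p]
      (Set.range fun t => icast ℤ_[p] (tauM N S t))) :
    ∃ t, ActsAs f act ι X t := by
  induction hX using Submodule.span_induction with
  | mem X hX => obtain ⟨t, rfl⟩ := hX; exact ⟨_, actsAs_tauS f π act ι hint t⟩
  | zero =>
    refine ⟨0, fun g x => ?_⟩
    rw [Matrix.map_zero _ (map_zero _), Matrix.zero_mulVec, map_zero, Matrix.zero_mulVec, gen,
      map_zero, map_zero, map_zero]
  | add X Y _ _ hX hY =>
    obtain ⟨s, hs⟩ := hX
    obtain ⟨t, ht⟩ := hY
    refine ⟨s + t, fun g x => ?_⟩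
    rw [Matrix.map_add _ (map_add _), Matrix.add_mulVec, hs g x, ht g x, map_add act,
      Matrix.add_mulVec, gen, gen, gen, map_add, map_add, map_add]
  | smul c X _ hX =>
    obtain ⟨t, ht⟩ := hX
    refine ⟨algebraMap O T (f c) * t, fun g x => ?_⟩
    rw [Matrix.map_smul' _ _ _ (map_mul _), Matrix.smul_mulVec, ht g x, map_mul act,
      ← Matrix.mulVec_mulVec, act_algebraMap_mulVec, gen_smul, map_smul, RingHom.comp_apply]

include hact hι in
theorem ActsAs.unique {X : Matrix (Fin (Period.rankH N)) (Fin (Period.rankH N)) ℤ_[p]} {s t : T}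
    (hs : ActsAs f act ι X s) (ht : ActsAs f act ι X t) : s = t := by
  refine eq_of_forall_gen act ι hact hι fun x => (Period.evalEquiv N R R).injective ?_
  rw [← gen_one f ι (act s *ᵥ x), ← gen_one f ι (act t *ᵥ x), ← hs, ← ht]

variable (hpS : p ∈ S) (hNS : ∀ l : ℕ, l.Prime → l ∣ N → l ∈ S)

include hpS hNS in
theorem traceOp_mem (g : Γℚ) :
    traceOp (tateHom p N) g ∈ Submodule.span ℤ_[p]
      (Set.range fun t => icast ℤ_[p] (tauM N S t)) :=
  Local.traceOp_mem_span (tauM N S) _ (tateHom_continuous p N) S hpS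
    (fun ℓ hℓ hℓS _ hA _ hσ =>
      ⟨_, tateHom_frobenius p N S hpS hℓ (fun hd => hℓS (hNS ℓ hℓ hd)) hℓS hA hσ⟩) g

/-- The trace in `T`. -/
def traceT (g : Γℚ) : T :=
  Classical.choose (exists_actsAs f π act ι hint (traceOp_mem hpS hNS g))

theorem actsAs_traceT (g : Γℚ) :
    ActsAs f act ι (traceOp (tateHom p N) g) (traceT f π act ι hint hpS hNS g) :=
  Classical.choose_spec (exists_actsAs f π act ι hint (traceOp_mem hpS hNS g))

theorem galH_add_eq (σ h : Γℚ) (x : Fin d → R) :
    galH N ((algebraMap O R).comp f) σ (gen f ι h x) +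
        algebraMap O R (f (Reps.cyc p σ)) •
          galH N ((algebraMap O R).comp f) σ⁻¹ (gen f ι h x) =
      gen f ι h (act (traceT f π act ι hint hpS hNS σ) *ᵥ x) := by
  refine (Period.evalEquiv N R R).injective ?_
  rw [map_add, map_smul, evalEquiv_galH, evalEquiv_galH,
    ← actsAs_traceT f π act ι hint hpS hNS σ h x, traceOp, Matrix.map_add _ (map_add _),
    Matrix.map_smul' _ _ _ (map_mul _), Matrix.add_mulVec, Matrix.smul_mulVec]
  rfl

theorem coe_galSpan_apply (σ : Γℚ) (y : ↥(span f ι)) :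
    (((galSpan f π act ι hgen hint σ : ↥(centr f π act ι hgen hint)) :
      Module.End R ↥(span f ι)) y : Period.H N R R) =
      galH N ((algebraMap O R).comp f) σ y.1 := rfl

theorem galSpan_rel (σ : Γℚ) :
    galSpan f π act ι hgen hint σ +
        toCentr f π act ι hgen hint (chiT (T := T) f σ) * galSpan f π act ι hgen hint σ⁻¹ =
      toCentr f π act ι hgen hint (traceT f π act ι hint hpS hNS σ) := by
  refine Subtype.ext (end_ext f ι fun h x => Subtype.ext ?_)
  simp only [Subring.coe_add, Subring.coe_mul, coe_toCentr, LinearMap.add_apply,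
    Submodule.coe_add, Module.End.mul_apply, actSpan_gen, coe_galSpan_apply,
    show chiT (T := T) f σ = algebraMap O T (f (Reps.cyc p σ)) from rfl, actSpan_algebraMap,
    LinearMap.smul_apply, Module.End.one_apply, Submodule.coe_smul]
  exact galH_add_eq f π act ι hint hpS hNS σ h x

include hgen hint hpS hNS hact hι in
/-- The trace relation in some algebra over `T`. -/
theorem exists_model : ∃ (E : Type) (_ : Ring E) (_ : Algebra T E) (φ : Γℚ →* E),
    (∀ g, φ g + chiT (T := T) f g • φ g⁻¹ =
      algebraMap T E (traceT f π act ι hint hpS hNS g)) ∧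
      Function.Injective (algebraMap T E) := by
  exact exists_algebra_of_ringHom (toCentr f π act ι hgen hint)
    (toCentr_commute f π act ι hgen hint) (toCentr_injective f π act ι hgen hint hact hι)
    (galSpan f π act ι hgen hint) (galSpan_rel f π act ι hgen hint hpS hNS)

include hact hι in
theorem traceT_frobenius {ℓ : ℕ} (hℓ : ℓ.Prime) (hℓS : ℓ ∉ S) {A : ValuationSubring ℚ̄}
    (hA : A.LiesOverPrime ℓ) {σ : Γℚ} (hσ : A.IsFrobeniusAt σ ℓ) :
    traceT f π act ι hint hpS hNS σ =
      π (heckeAlgebra.T hℓ (fun hd => hℓS (hNS ℓ hℓ hd)) (mod_cast hℓS)) := by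
  refine ActsAs.unique f act ι hact hι (actsAs_traceT f π act ι hint hpS hNS σ) ?_
  have hℓp : ℓ ≠ p := fun h => hℓS (h ▸ hpS)
  set t₀ : ↥(heckeAlgebra N 2 (↑S : Set ℕ)) :=
    heckeAlgebra.T hℓ (fun hd => hℓS (hNS ℓ hℓ hd)) (mod_cast hℓS)
  have h0 := tateHom_frobenius p N S hpS hℓ (fun hd => hℓS (hNS ℓ hℓ hd)) hℓS hA hσ
  have h1 := congrArg (· * tateHom p N σ⁻¹) h0
  simp only [add_mul, sub_mul, zero_mul, mul_assoc, ← map_mul, mul_inv_cancel, map_one,
    mul_one] at h1
  rw [sub_add_eq_add_sub, sub_eq_zero] at h1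
  have h2 : traceOp (tateHom p N) σ = icast ℤ_[p] (tauM N S t₀) := by
    rw [traceOp, Reps.cyc_frobenius hℓ hℓp hA hσ, Nat.cast_smul_eq_nsmul, nsmul_eq_mul]
    exact h1
  rw [h2]
  exact actsAs_tauS f π act ι hint t₀

end Data

section Adic

variable {p : ℕ} [Fact p.Prime] {N : ℕ} [NeZero N] {S : Finset ℕ}
  {O : Type} [CommRing O] [IsLocalRing O] [IsNoetherianRing O] (f : ℤ_[p] →+* O)
  {T : Type} [CommRing T] [IsLocalRing T] [Algebra O T] [IsLocalHom (algebraMap O T)]
  (π : ↥(heckeAlgebra N 2 (↑S : Set ℕ)) →+* T)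
  {R : Type} [CommRing R] [Algebra O R] [Module.Finite O R]
  {d : ℕ} (act : T →ₐ[O] Matrix (Fin d) (Fin d) R)
  (ι : (Fin d → R) →ₗ[R] Period.H N R R)
  (hact : Function.Injective act) (hι : Function.Injective ι)

/-- Coordinates of the action. -/
def coordAct : T →ₗ[O] (Fin d → Fin (Period.rankH N) → R) where
  toFun t j := Period.evalEquiv N R R (ι (act t *ᵥ Pi.single j 1))
  map_add' s t := funext fun j => by
    show Period.evalEquiv N R R _ = Period.evalEquiv N R R _ + Period.evalEquiv N R R _
    rw [map_add, Matrix.add_mulVec, map_add, map_add]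
  map_smul' a t := funext fun j => by
    show Period.evalEquiv N R R _ = a • Period.evalEquiv N R R _
    rw [Algebra.smul_def, map_mul, ← Matrix.mulVec_mulVec, act_algebraMap_mulVec, map_smul,
      map_smul, algebraMap_smul]

include hact hι in
theorem coordAct_injective : Function.Injective (coordAct act ι) := fun s t h => by
  refine hact (Matrix.ext fun i j => ?_)
  simpa [Matrix.mulVec_single] using
    congrFun (hι ((Period.evalEquiv N R R).injective (congrFun h j))) i

variable (hp : (p : O) ∈ maximalIdeal O)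
  (hpS : p ∈ S) (hNS : ∀ l : ℕ, l.Prime → l ∣ N → l ∈ S)
  (hint : ∀ t x, ι (act (π t) *ᵥ x) =
      HeckeH.heckeEnd N R R
        (Subalgebra.inclusion (heckeAlgebra_mono (Set.empty_subset (↑S : Set ℕ))) t) (ι x))

include hp hact hι in
theorem exists_level_traceT (n : ℕ) : ∃ L : IntermediateField ℚ ℚ̄, FiniteDimensional ℚ L ∧
    ∀ g u : Γℚ, (∀ x ∈ L, u x = x) →
      traceT f π act ι hint hpS hNS (g * u) - traceT f π act ι hint hpS hNS g ∈
        maximalIdeal T ^ n := by
  obtain ⟨k, hk⟩ := Ideal.exists_pow_inf_eq_pow_smul (Ideal.span {(p : O)})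
    (LinearMap.range (coordAct (N := N) act ι))
  obtain ⟨L₁, hL₁, hfix₁⟩ := tateHom_continuous p N (n + k)
  obtain ⟨L₂, hL₂, hfix₂⟩ := Reps.exists_level_cycMod (p := p) (n + k)
  refine ⟨L₁ ⊔ L₂, inferInstance, fun g u hu => ?_⟩
  have h1 : ∀ x ∈ L₁, u x = x := fun x hx => hu x (le_sup_left (a := L₁) hx)
  have h2 : ∀ x ∈ L₂, u x = x := fun x hx => hu x (le_sup_right (b := L₂) hx)
  have h1' : ∀ x ∈ L₁, u⁻¹ x = x := fun x hx => by
    conv_lhs => rw [← h1 x hx]
    exact u.symm_apply_apply x
  have hmod : (PadicInt.toZModPow (n + k)).mapMatrix (traceOp (tateHom p N) (g * u)) =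
      (PadicInt.toZModPow (n + k)).mapMatrix (traceOp (tateHom p N) g) := by
    rw [Local.toZModPow_traceOp, Local.toZModPow_traceOp, map_mul (tateHom p N), map_mul, hfix₁ u h1,
      mul_one, map_mul (Reps.cycMod p (n + k)), hfix₂ u h2, mul_one, _root_.mul_inv_rev,
      map_mul (tateHom p N), map_mul, hfix₁ _ h1', one_mul]
  have hdiv : ∀ a b, ∃ c, (traceOp (tateHom p N) (g * u) - traceOp (tateHom p N) g) a b =
      (p : ℤ_[p]) ^ (n + k) * c := fun a b => by
    have h := congrFun (congrFun hmod a) b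
    simp only [RingHom.mapMatrix_apply, Matrix.map_apply] at h
    rw [← sub_eq_zero, ← map_sub, ← Matrix.sub_apply, ← RingHom.mem_ker, PadicInt.ker_toZModPow,
      Ideal.mem_span_singleton] at h
    exact h
  choose Z hZ using hdiv
  set δ := traceT f π act ι hint hpS hNS (g * u) - traceT f π act ι hint hpS hNS g
  have hmem : coordAct act ι δ ∈ Ideal.span {(p : O)} ^ (n + k) •
      (⊤ : Submodule O (Fin d → Fin (Period.rankH N) → R)) ⊓
        LinearMap.range (coordAct act ι) := by
    refine Submodule.mem_inf.mpr ⟨?_, ⟨δ, rfl⟩⟩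
    rw [Ideal.span_singleton_pow, Submodule.ideal_span_singleton_smul]
    refine ⟨fun j => (Matrix.of Z).map ((algebraMap O R).comp f) *ᵥ
      Period.evalEquiv N R R (ι (Pi.single j 1)), trivial, funext fun j => ?_⟩
    have hX : traceOp (tateHom p N) (g * u) - traceOp (tateHom p N) g = (p : ℤ_[p]) ^ (n + k) • Matrix.of Z := by
      ext a b
      simpa using hZ a b
    have ha := actsAs_traceT f π act ι hint hpS hNS (g * u) 1 (Pi.single j 1)
    have hb := actsAs_traceT f π act ι hint hpS hNS g 1 (Pi.single j 1)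
    rw [gen_one, gen_one] at ha hb
    show ((p : O) ^ (n + k)) • _ = Period.evalEquiv N R R (ι (act δ *ᵥ _))
    rw [map_sub, Matrix.sub_mulVec, map_sub, map_sub, ← ha, ← hb, ← Matrix.sub_mulVec,
      ← Matrix.map_sub _ (map_sub _), hX, Matrix.map_smul' _ _ _ (map_mul _), Matrix.smul_mulVec,
      map_pow, map_natCast, ← algebraMap_smul R ((p : O) ^ (n + k)), map_pow, map_natCast]
  rw [hk (n + k) (Nat.le_add_left k n), Nat.add_sub_cancel] at hmem
  have h3 := Submodule.smul_mono (le_refl (Ideal.span {(p : O)} ^ n)) inf_le_right hmem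
  rw [Ideal.span_singleton_pow, Submodule.ideal_span_singleton_smul] at h3
  obtain ⟨_, ⟨s, rfl⟩, hs⟩ := h3
  have hδ : (p : O) ^ n • s = δ := coordAct_injective act ι hact hι (by
    rw [map_smul]; exact hs)
  rw [← hδ, Algebra.smul_def, map_pow]
  exact Ideal.mul_mem_right _ _ (Ideal.pow_mem_pow (map_nonunit (algebraMap O T) _ hp) n)

end Adic

/-- Representations with the same matrices in two bases are equivalent. -/
theorem isEquiv_of_toMatrix_eq {k : Type} [Field k] (r r' : ResidualGaloisRep k)
    (b : Module.Basis (Fin 2) k r.V) (b' : Module.Basis (Fin 2) k r'.V)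
    (h : ∀ σ, LinearMap.toMatrix b b (r.ρ σ) = LinearMap.toMatrix b' b' (r'.ρ σ)) :
    r.IsEquiv r' := by
  refine ⟨⟨b.equiv b' (Equiv.refl _), fun σ x => ?_⟩⟩
  have hb : (b.equiv b' (Equiv.refl _) : r.V →ₗ[k] r'.V).comp (r.ρ σ) =
      (r'.ρ σ).comp (b.equiv b' (Equiv.refl _) : r.V →ₗ[k] r'.V) := by
    refine b.ext fun j => b'.repr.injective (Finsupp.ext fun i => ?_)
    have := congrFun (congrFun (h σ) i) j
    simp only [LinearMap.toMatrix_apply] at this
    simp [this, Module.Basis.equiv]
  exact LinearMap.congr_fun hb x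

theorem det_eq_cycMod {p : ℕ} [Fact p.Prime] {k : Type} [Field k] {ρbar : ResidualGaloisRep k}
    (hdet : (GaloisRepAdic.ofResidualGaloisRep ρbar).DetIsCyclotomic p) (σ : Γℚ) :
    LinearMap.det (ρbar.ρ σ) = ((Reps.cycMod p 1 σ).val : k) := by
  obtain ⟨hp, h⟩ := hdet
  have hbot : maximalIdeal k = ⊥ := IsLocalRing.maximalIdeal_eq_bot
  rw [hbot, Ideal.mem_bot] at hp
  have h1 := h 1 σ (Reps.cycMod p 1 σ).val fun μ hμ => Reps.cycMod_spec p 1 σ hμ
  simp only [Nat.cast_pow, hp, zero_pow one_ne_zero, Ideal.span_singleton_zero,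
    Ideal.mem_bot, sub_eq_zero] at h1
  exact h1

/-- The representation of a Hecke ring acting faithfully on an embedded module. -/
theorem exists_rep {p : ℕ} [Fact p.Prime] (hp2 : p ≠ 2) (N : ℕ) [NeZero N]
    {S : Finset ℕ} (hpS : p ∈ S) (hNS : ∀ l : ℕ, l.Prime → l ∣ N → l ∈ S)
    {O : Type} [CommRing O] [IsLocalRing O] [IsNoetherianRing O]
    (hp : (p : O) ∈ maximalIdeal O) (f : ℤ_[p] →+* O)
    {T : Type} [CommRing T] [IsLocalRing T] [IsAdicComplete (maximalIdeal T) T] [Algebra O T]
    [IsLocalHom (algebraMap O T)]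
    (hres : Function.Surjective (residue T ∘ algebraMap O T))
    (π : ↥(heckeAlgebra N 2 (↑S : Set ℕ)) →+* T)
    (hgen : Algebra.adjoin O (Set.range π) = ⊤)
    {R : Type} [CommRing R] [Algebra O R] [Module.Finite O R]
    {d : ℕ} (act : T →ₐ[O] Matrix (Fin d) (Fin d) R) (hact : Function.Injective act)
    (ι : (Fin d → R) →ₗ[R] Period.H N R R) (hι : Function.Injective ι)
    (hint : ∀ t x, ι (act (π t) *ᵥ x) =
      HeckeH.heckeEnd N R R
        (Subalgebra.inclusion (heckeAlgebra_mono (Set.empty_subset (↑S : Set ℕ))) t) (ι x))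
    (ρbar : ResidualGaloisRep (ResidueField O)) (habs : ρbar.IsAbsolutelyIrreducible)
    (hdet : (GaloisRepAdic.ofResidualGaloisRep ρbar).DetIsCyclotomic p)
    (hbar : ∀ (l : ℕ) (hl : l.Prime) (hlN : ¬ l ∣ N) (hlS : l ∉ (↑S : Set ℕ)),
      ∀ A : ValuationSubring ℚ̄, A.LiesOverPrime l → ∀ σ : Γℚ, A.IsFrobeniusAt σ l →
        residue T (π (heckeAlgebra.T hl hlN hlS)) =
          ResidueField.map (algebraMap O T) (LinearMap.trace (ResidueField O) ρbar.V (ρbar.ρ σ))) :
    ∃ ρ : GaloisRepAdic T, Local.IsAttached π ρ p ∧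
      ρ.residual.IsEquiv (ρbar.baseChangeAlong (ResidueField.map (algebraMap O T))) ∧
      Algebra.adjoin O (Set.range ρ.trace) = ⊤ ∧
      ∀ σ x, galH N ((algebraMap O R).comp f) σ (galH N ((algebraMap O R).comp f) σ (ι x)) -
        galH N ((algebraMap O R).comp f) σ (ι (act (ρ.trace σ) *ᵥ x)) +
        ι (act (LinearMap.det (ρ.ρ σ)) *ᵥ x) = 0 := by
  classical
  let χ : Γℚ →* T := chiT f
  let t : Γℚ → T := traceT f π act ι hint hpS hNS
  obtain ⟨E, _, _, φ, hrel, hinj⟩ := exists_model f π act ι hgen hint hact hι hpS hNS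
  change ∀ g, φ g + χ g • φ g⁻¹ = algebraMap T E (t g) at hrel
  let im : ResidueField O →+* ResidueField T := ResidueField.map (algebraMap O T)
  have him : Function.Surjective im := fun y => by
    obtain ⟨a, ha⟩ := hres y
    exact ⟨residue O a, by rw [← ha]; exact IsLocalRing.ResidueField.map_residue _ a⟩
  let bb := Module.finBasisOfFinrankEq (ResidueField O) ρbar.V ρbar.finrank_eq
  let mb : Γℚ →* Matrix (Fin 2) (Fin 2) (ResidueField O) :=
    (LinearMap.toMatrixAlgEquiv bb).toAlgHom.toRingHom.toMonoidHom.comp ρbar.ρ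
  let ρb : Γℚ →* Matrix (Fin 2) (Fin 2) (ResidueField T) :=
    im.mapMatrix.toMonoidHom.comp mb
  have hρb : ∀ g, ρb g = (LinearMap.toMatrix bb bb (ρbar.ρ g)).map im := fun g => rfl
  have hρbtr : ∀ g, (ρb g).trace = im (LinearMap.trace (ResidueField O) ρbar.V (ρbar.ρ g)) :=
    fun g => by
      rw [hρb, LinearMap.trace_eq_matrix_trace _ bb]
      exact (AddMonoidHom.map_trace im.toAddMonoidHom _).symm
  -- the determinant modulo the maximal ideal
  have hχ : ∀ g, residue T (χ g) = im (LinearMap.det (ρbar.ρ g)) := fun g => by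
    have h0 : PadicInt.toZModPow 1
        (Reps.cyc p g - ((Reps.cycMod p 1 g).val : ℤ_[p])) = 0 := by
      haveI : NeZero (p ^ 1) := ⟨pow_ne_zero _ (Fact.out : p.Prime).ne_zero⟩
      rw [map_sub, map_natCast, ZMod.natCast_zmod_val, sub_eq_zero]
      rfl
    rw [← RingHom.mem_ker, PadicInt.ker_toZModPow, Ideal.mem_span_singleton, pow_one] at h0
    obtain ⟨z, hz⟩ := h0
    rw [det_eq_cycMod hdet, map_natCast, ← map_natCast (residue T), ← sub_eq_zero, ← map_sub,
      IsLocalRing.residue_eq_zero_iff]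
    have h1 := congrArg ((algebraMap O T).comp f) hz
    rw [map_sub, map_natCast, map_mul, map_natCast] at h1
    show algebraMap O T (f (Reps.cyc p g)) - _ ∈ _
    rw [show algebraMap O T (f (Reps.cyc p g)) = (algebraMap O T).comp f (Reps.cyc p g) from rfl,
      h1, ← map_natCast (algebraMap O T)]
    exact Ideal.mul_mem_right _ _ (map_nonunit (algebraMap O T) _ hp)
  have htpow : ∀ g k, t (g ^ k) = Reps.luc (t g) (χ g) k := fun g k => by
    refine hinj ?_
    have hprod : φ g * (χ g • φ g⁻¹) = algebraMap T _ (χ g) := by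
      rw [mul_smul_comm, ← map_mul, mul_inv_cancel, map_one, Algebra.algebraMap_eq_smul_one]
    have hprod' : (χ g • φ g⁻¹) * φ g = algebraMap T _ (χ g) := by
      rw [smul_mul_assoc, ← map_mul, inv_mul_cancel, map_one, Algebra.algebraMap_eq_smul_one]
    have key := Reps.pow_add_pow_eq_luc (algebraMap T E)
      (x := φ g) (y := χ g • φ g⁻¹) (hprod.trans hprod'.symm) (hrel g) hprod k
    rw [smul_pow, ← map_pow, ← map_pow, ← map_pow, inv_pow] at key
    exact (hrel (g ^ k)).symm.trans key
  have htr : ∀ g, residue T (t g) = (ρb g).trace := by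
    intro g
    obtain ⟨L₁, hL₁, hfix₁⟩ := exists_level_traceT f π act ι hact hι hp hpS hNS hint 1
    obtain ⟨L₂, hL₂, hfix₂⟩ := ρbar.factorsThroughFiniteLevel
    rw [hρbtr]
    refine Reps.forall_of_frobenius (P := fun g => residue T (t g) =
      im (LinearMap.trace (ResidueField O) ρbar.V (ρbar.ρ g))) (L₁ ⊔ L₂) S ?_ ?_ ?_ g
    · intro g u hu hg
      have h1 := hfix₁ g u fun x hx => hu x (le_sup_left (a := L₁) hx)
      rw [pow_one, ← IsLocalRing.residue_eq_zero_iff, map_sub, sub_eq_zero] at h1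
      rw [map_mul ρbar.ρ, hfix₂ u (fun x hx => hu x (le_sup_right (b := L₂) hx)), mul_one]
      exact h1.trans hg
    · intro g k hg
      rw [htpow, map_pow ρbar.ρ, Reps.trace_pow_eq_luc ρbar.finrank_eq, Reps.map_luc,
        Reps.map_luc, hg, hχ]
    · intro ℓ hℓ hℓS A hA σ hσ
      show residue T (traceT f π act ι hint hpS hNS σ) = _
      rw [traceT_frobenius f π act ι hint hact hι hpS hNS hℓ hℓS hA hσ]
      exact hbar ℓ hℓ _ _ A hA σ hσ
  have hspan : Submodule.span (ResidueField T) (Set.range ρb) = ⊤ := by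
    refine eq_top_iff.mpr fun X _ => ?_
    choose Y hY using fun i j => him (X i j)
    obtain ⟨E₀, hE₀⟩ := (LinearMap.toMatrixAlgEquiv bb).surjective (Matrix.of Y)
    have hX : X = (LinearMap.toMatrix bb bb E₀).map im := by
      rw [show LinearMap.toMatrix bb bb E₀ = Matrix.of Y from hE₀]
      ext i j
      simp [hY]
    rw [hX]
    have hE : E₀ ∈ Submodule.span (ResidueField O) (Set.range ρbar.ρ) :=
      GalCommon.span_range_eq_top_residual ρbar habs ▸ Submodule.mem_top
    clear hX hE₀
    induction hE using Submodule.span_induction with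
    | mem e he => obtain ⟨g, rfl⟩ := he; exact Submodule.subset_span ⟨g, hρb g⟩
    | zero => rw [map_zero, Matrix.map_zero _ (map_zero im)]; exact zero_mem _
    | add a b _ _ ha hb => rw [map_add, Matrix.map_add _ (map_add im)]; exact add_mem ha hb
    | smul c a _ ha =>
      rw [map_smul, Matrix.map_smul' _ _ _ (map_mul im)]
      exact Submodule.smul_mem _ _ ha
  have h2 : IsUnit (2 : T) := by
    have hu : IsUnit (2 : O) := by
      rw [← IsLocalRing.notMem_maximalIdeal]
      intro h2'
      obtain ⟨m, hm⟩ := (Fact.out : p.Prime).odd_of_ne_two hp2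
      have h3 := Ideal.sub_mem _ hp (Ideal.mul_mem_right (m : O) _ h2')
      rw [hm] at h3
      push_cast at h3
      rw [add_sub_cancel_left] at h3
      exact (IsLocalRing.maximalIdeal.isMaximal O).ne_top ((Ideal.eq_top_iff_one _).mpr h3)
    simpa [map_ofNat] using hu.map (algebraMap O T)
  obtain ⟨M, hMtr, hMdet, hMres, hMcont⟩ :=
    Pseudo.exists_matrix hrel hinj ρb h2 htr hspan
  have hcont : Deform.MCont M := fun n => by
    obtain ⟨L, hL, hfix⟩ := exists_level_traceT f π act ι hact hι hp hpS hNS hint n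
    refine ⟨L, hL, fun σ hσ i j => ?_⟩
    rw [← map_one M]
    exact hMcont _ σ 1 (fun x => by rw [mul_one]; exact hfix x σ hσ) i j
  let ρ := Deform.toRep M hcont
  have htrace : ∀ g, ρ.trace g = t g := fun g => (Deform.trace_toRep M hcont g).trans (hMtr g)
  have hdetρ : ∀ g, LinearMap.det (ρ.ρ g) = χ g := fun g =>
    (LinearMap.det_toLin' (M g)).trans (hMdet g)
  refine ⟨ρ, ⟨hpS, hNS, ?_, fun ℓ hℓ hℓN hℓS A hA σ hσ => ?_⟩, ?_, ?_, fun σ x => ?_⟩
  · rw [← map_natCast (algebraMap O T)]
    exact map_nonunit (algebraMap O T) _ hp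
  · rw [Reps.charpoly_of_finrank_eq_two ρ.finrank_eq, hdetρ,
      show LinearMap.trace T ρ.V (ρ.ρ σ) = t σ from htrace σ,
      show t σ = π (heckeAlgebra.T hℓ hℓN hℓS) from
        traceT_frobenius f π act ι hint hact hι hpS hNS hℓ (mod_cast hℓS) hA hσ,
      show χ σ = algebraMap O T (f (Reps.cyc p σ)) from rfl,
      Reps.cyc_frobenius hℓ (fun h => hℓS (h ▸ hpS)) hA hσ, map_natCast, map_natCast]
  · letI : Algebra (ResidueField O) (ResidueField T) := im.toAlgebra
    refine isEquiv_of_toMatrix_eq _ _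
      (Algebra.TensorProduct.basis (ResidueField T) (Deform.stdBasis M hcont))
      (Algebra.TensorProduct.basis (ResidueField T) bb) fun σ => ?_
    refine ((LinearMap.toMatrix_baseChange (ResidueField T) (ρ.ρ σ) _ _).trans ?_).trans
      (LinearMap.toMatrix_baseChange (ResidueField T) (ρbar.ρ σ) _ _).symm
    show ((Deform.matOf ρ (Deform.stdBasis M hcont)) σ).map (residue T) = _
    rw [Deform.matOf_toRep, hMres, hρb]
    rfl
  · rw [eq_top_iff, ← hgen]
    refine Algebra.adjoin_le ?_
    rintro _ ⟨⟨a, ha⟩, rfl⟩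
    induction ha using Algebra.adjoin_induction with
    | mem x hx =>
      rcases hx with ⟨ℓ, hℓ, hℓN, hℓS, rfl⟩ | ⟨q, hqN, hq, hqS, rfl⟩
      · obtain ⟨A, hA, σ, hσ⟩ := GalCommon.exists_place_frobenius hℓ
        refine Algebra.subset_adjoin ⟨σ, ?_⟩
        rw [htrace]
        exact traceT_frobenius f π act ι hint hact hι hpS hNS hℓ (mod_cast hℓS) hA hσ
      · exact absurd (hNS q hq hqN) (mod_cast hqS)
    | algebraMap a =>
      show π (algebraMap ℤ ↥(heckeAlgebra N 2 (↑S : Set ℕ)) a) ∈ _
      rw [eq_intCast, map_intCast]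
      exact intCast_mem _ a
    | add x y hx hy hx' hy' =>
      show π (⟨x, hx⟩ + ⟨y, hy⟩) ∈ _
      rw [map_add]
      exact add_mem hx' hy'
    | mul x y hx hy hx' hy' =>
      show π (⟨x, hx⟩ * ⟨y, hy⟩) ∈ _
      rw [map_mul]
      exact mul_mem hx' hy'
  · have h := galH_add_eq f π act ι hint hpS hNS σ σ x
    rw [galH_gen, galH_gen, inv_mul_cancel, gen_one] at h
    rw [hdetρ, show χ σ = algebraMap O T (f (Reps.cyc p σ)) from rfl, act_algebraMap_mulVec,
      map_smul, htrace, ← Module.End.mul_apply, ← galH_mul]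
    change gen f ι (σ * σ) x - gen f ι σ (act (t σ) *ᵥ x) + _ = 0
    rw [← h]
    abel

end FLTAgent.Lower.Levels.RepModule
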