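import Fermat.Agent.Lower.Levels.Defs
import Fermat.Agent.Lower.Levels.InertiaTwo
import Fermat.Agent.Lower.Levels.RepModule
import Fermat.Agent.Local.Rho
import Fermat.Agent.Degen.Cor
import Fermat.Agent.Lower.Defs
import Fermat.Agent.GalCommon.Burnside
import Fermat.Agent.FlatHopf.JacobianFlat

/-!
# Representations over Hecke rings and their local properties

`exists_rep_of_module`: the representation of a Hecke ring acting faithfully on a module embedded
in `H N R R`.  An attached representation has cyclotomic determinant, is unramified at primes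
`q ∤ N p` and flat at `p ∤ N` (`detIsCyclotomic_of_attached`, `isUnramifiedAt_of_attached`,
`isFlatAt_of_attached`).  `eq_zero_of_inertia_trace_two`: a class of level `q² N₀` killed by `U_q`
and by corestriction, on which inertia at `q` has trace `2`, vanishes.
-/

set_option autoImplicit false
set_option linter.unusedSectionVars false
set_option linter.style.haveILetI false

noncomputable section

open CongruenceSubgroup CuspForm
open scoped MatrixGroups Matrix

namespace FLTAgent.Lower.Levels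

open IsLocalRing (maximalIdeal ResidueField residue)

local notation "ℚ̄" => AlgebraicClosure ℚ
local notation "Γℚ" => (AlgebraicClosure ℚ ≃ₐ[ℚ] AlgebraicClosure ℚ)

/-- **The representation of a twisted Hecke ring.** `T` acts faithfully on `R^d`, which is
embedded by `ι` in `H N R R` intertwining `π` with the Hecke action. -/
theorem exists_rep_of_module {p : ℕ} [Fact p.Prime] (hp2 : p ≠ 2) (N : ℕ) [NeZero N]
    {S : Finset ℕ} (hpS : p ∈ S) (hNS : ∀ l : ℕ, l.Prime → l ∣ N → l ∈ S)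
    {O : Type} [CommRing O] [IsDomain O] [IsDiscreteValuationRing O]
    [IsAdicComplete (maximalIdeal O) O] [Finite (ResidueField O)] [CharZero O]
    (hp : (p : O) ∈ maximalIdeal O) (f : ℤ_[p] →+* O)
    {T : Type} [CommRing T] [IsLocalRing T] [IsNoetherianRing T]
    [IsAdicComplete (maximalIdeal T) T] [Algebra O T] [IsLocalHom (algebraMap O T)]
    [Module.Finite O T]
    (hres : Function.Surjective (residue T ∘ algebraMap O T))
    (π : ↥(heckeAlgebra N 2 (↑S : Set ℕ)) →+* T)
    (hgen : Algebra.adjoin O (Set.range π) = ⊤)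
    {R : Type} [CommRing R] [Algebra O R] [Module.Finite O R] [Module.Free O R]
    {d : ℕ} (act : T →ₐ[O] Matrix (Fin d) (Fin d) R) (hact : Function.Injective act)
    (ι : (Fin d → R) →ₗ[R] Period.H N R R) (hι : Function.Injective ι)
    (hint : ∀ t x, ι (act (π t) *ᵥ x) =
      HeckeH.heckeEnd N R R
        (Subalgebra.inclusion (heckeAlgebra_mono (Set.empty_subset (↑S : Set ℕ))) t) (ι x))
    (ρbar : ResidualGaloisRep (ResidueField O)) (habs : ρbar.IsAbsolutelyIrreducible)
    (hdet : (GaloisRepAdic.ofResidualGaloisRep ρbar).DetIsCyclotomic p)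
    (hbar : ∀ (l : ℕ) (hl : l.Prime) (hlN : ¬ l ∣ N) (hlS : l ∉ (↑S : Set ℕ)),
      ∀ A : ValuationSubring ℚ̄, A.LiesOverPrime l → ∀ σ : Γℚ, A.IsFrobeniusAt σ l →
        residue T (π (heckeAlgebra.T hl hlN hlS)) =
          ResidueField.map (algebraMap O T) (LinearMap.trace (ResidueField O) ρbar.V (ρbar.ρ σ))) :
    ∃ ρ : GaloisRepAdic T, Local.IsAttached π ρ p ∧
      ρ.residual.IsEquiv (ρbar.baseChangeAlong (ResidueField.map (algebraMap O T))) ∧
      Algebra.adjoin O (Set.range ρ.trace) = ⊤ ∧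
      ∀ σ x, galH N ((algebraMap O R).comp f) σ (galH N ((algebraMap O R).comp f) σ (ι x)) -
        galH N ((algebraMap O R).comp f) σ (ι (act (ρ.trace σ) *ᵥ x)) +
        ι (act (LinearMap.det (ρ.ρ σ)) *ᵥ x) = 0 :=
  RepModule.exists_rep hp2 N hpS hNS hp f hres π hgen act hact ι hι hint ρbar habs hdet hbar

variable {p : ℕ} [Fact p.Prime] {N : ℕ} [NeZero N] {S : Finset ℕ}
  {T : Type} [CommRing T] [IsLocalRing T] [IsNoetherianRing T]
  [IsAdicComplete (maximalIdeal T) T] [Finite (ResidueField T)] [CharZero T]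
  {π : ↥(heckeAlgebra N 2 (↑S : Set ℕ)) →+* T} {ρ : GaloisRepAdic T}

/-- An attached representation has cyclotomic determinant. -/
theorem detIsCyclotomic_of_attached (h : Local.IsAttached π ρ p) : ρ.DetIsCyclotomic p := by
  refine ⟨h.p_max, fun n σ a ha => ?_⟩
  set I : Ideal T := Ideal.span {((p ^ n : ℕ) : T)}
  have hI : ∀ k : ℕ, LinearMap.det (ρ.ρ σ) - (a : T) ∈ I ⊔ maximalIdeal T ^ k := by
    intro k
    haveI : NeZero (p ^ (n + k)) := ⟨pow_ne_zero _ (Fact.out : p.Prime).ne_zero⟩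
    set c := (Reps.cycMod p (n + k) σ).val
    have h1 : LinearMap.det (ρ.ρ σ) - (c : T) ∈ maximalIdeal T ^ k := by
      rw [← Ideal.Quotient.eq, h.det_eq (Nat.le_add_left k n) σ, ← ZMod.natCast_zmod_val
        (Reps.cycMod p (n + k) σ), map_natCast, map_natCast]
    have hc : ∀ μ : ℚ̄, μ ^ p ^ n = 1 → σ μ = μ ^ c := fun μ hμ =>
      Reps.cycMod_spec p (n + k) σ (by rw [pow_add, pow_mul, hμ, one_pow])
    have h2 : (c : ZMod (p ^ n)) = (a : ZMod (p ^ n)) :=
      (Reps.cycMod_eq_of_spec n σ hc).symm.trans (Reps.cycMod_eq_of_spec n σ ha)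
    have h3 : (c : T) - (a : T) ∈ I := by
      rw [← Ideal.Quotient.eq]
      haveI : CharP (ZMod (p ^ n)) (p ^ n) := ZMod.charP _
      let φ : ZMod (p ^ n) →+* T ⧸ I := ZMod.castHom (m := ringChar (T ⧸ I)) (ringChar.dvd (by
        rw [← map_natCast (Ideal.Quotient.mk I), Ideal.Quotient.eq_zero_iff_mem]
        exact Ideal.mem_span_singleton_self _)) (T ⧸ I)
      have h4 := congrArg φ h2
      rwa [map_natCast, map_natCast, ← map_natCast (Ideal.Quotient.mk I),
        ← map_natCast (Ideal.Quotient.mk I)] at h4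
    rw [← sub_add_sub_cancel _ (c : T)]
    exact add_mem (Ideal.mem_sup_right h1) (Ideal.mem_sup_left h3)
  rw [← Ideal.Quotient.eq_zero_iff_mem]
  have hbot := Ideal.iInf_pow_smul_eq_bot_of_isLocalRing (R := T) (M := T ⧸ I) (maximalIdeal T)
    (IsLocalRing.maximalIdeal.isMaximal T).ne_top
  rw [← Submodule.mem_bot T, ← hbot, Submodule.mem_iInf]
  intro k
  obtain ⟨x, hx, y, hy, hxy⟩ := Submodule.mem_sup.mp (hI k)
  rw [← hxy, map_add, Ideal.Quotient.eq_zero_iff_mem.mpr hx, zero_add,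
    show Ideal.Quotient.mk I y = y • (1 : T ⧸ I) by
      rw [← Ideal.Quotient.algebraMap_eq, Algebra.smul_def, mul_one]]
  exact Submodule.smul_mem_smul hy Submodule.mem_top

/-- The trace relation in the form of reductions of the model. -/
theorem trace_rel' (h : Local.IsAttached π ρ p) (G : Reps.GalModel N p) {m n : ℕ} (hmn : n ≤ m)
    (g : Γℚ) :
    ∃ t, G.MMod m g + Reps.cycMod p m g • G.MMod m g⁻¹ =
        G.tauMod m (Subalgebra.inclusion (heckeAlgebra_mono (Set.empty_subset _)) t) ∧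
      Ideal.Quotient.mk (maximalIdeal T ^ n) (LinearMap.trace T ρ.V (ρ.ρ g)) =
        Ideal.Quotient.mk (maximalIdeal T ^ n) (π t) := by
  obtain ⟨t, ht, htr⟩ := h.trace_rel G hmn g
  refine ⟨t, Eq.trans ?_ ht, htr⟩
  ext i j
  simp [Local.traceOp, Reps.GalModel.MMod, Reps.cycMod, Matrix.map_apply]

/-- An attached representation is unramified at primes prime to the level and to `p`. -/
theorem isUnramifiedAt_of_attached (h : Local.IsAttached π ρ p)
    (habs : ρ.residual.IsAbsolutelyIrreducible) {q : ℕ} (hq : q.Prime) (hqp : q ≠ p)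
    (hqN : ¬ q ∣ N) : ρ.IsUnramifiedAt q := by
  obtain ⟨G⟩ := Reps.nonempty_galModel N p
  obtain ⟨c, hc⟩ := G.tauMod_faithful (↑S : Set ℕ) π h.p_max
  intro A hA i hi
  refine GalCommon.eq_one_of_forall_trace_mul_eq ρ habs fun g => Local.eq_of_forall_mk fun n => ?_
  obtain ⟨t, ht, htr⟩ := h.trace_rel G (Nat.le_add_right n c) g
  obtain ⟨t', ht', htr'⟩ := h.trace_rel G (Nat.le_add_right n c) (g * i)
  have heq : Local.traceOp G.M (g * i) = Local.traceOp G.M g := by
    rw [Local.traceOp, Local.traceOp, map_mul, map_mul, Reps.cyc_inertia hq hqp hA hi, mul_one,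
      G.inertia_trivial q hq hqN hqp A hA i hi, mul_one, _root_.mul_inv_rev, map_mul,
      G.inertia_trivial q hq hqN hqp A hA i⁻¹ (inv_mem hi), one_mul]
  show Ideal.Quotient.mk _ (LinearMap.trace T ρ.V (ρ.ρ (g * i))) =
    Ideal.Quotient.mk _ (LinearMap.trace T ρ.V (ρ.ρ g))
  rw [htr', htr, Ideal.Quotient.eq, ← map_sub]
  refine hc n _ ?_
  show Local.icast (ZMod (p ^ (n + c))) (Local.tauS G S (t' - t)) = 0
  rw [map_sub, Local.icast, Matrix.map_sub _ (map_sub _)]
  exact sub_eq_zero.mpr (ht'.symm.trans ((congrArg _ heq).trans ht))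

-- the proof elaborates many matrix terms
set_option maxHeartbeats 2000000 in
set_option linter.unusedVariables false in
theorem isFlatAt_of_attached {O : Type} [CommRing O] [IsDomain O] [IsDiscreteValuationRing O]
    [IsAdicComplete (maximalIdeal O) O] [Algebra O T] [Module.Finite O T] [Module.Free O T]
    [IsLocalHom (algebraMap O T)] [Finite (ResidueField O)] (hp : (p : O) ∈ maximalIdeal O)
    (h : Local.IsAttached π ρ p) (habs : ρ.residual.IsAbsolutelyIrreducible) (hp2 : p ≠ 2)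
    (hpN : ¬ p ∣ N) : ρ.IsFlatAt p := by
  classical
  obtain ⟨G, hG⟩ := FlatHopf.exists_galModel_flat N p hpN
  refine ⟨inferInstance, ?_⟩
  intro I hI
  obtain ⟨n, hn⟩ : ∃ n, maximalIdeal T ^ n ≤ I := by
    by_cases htop : I = ⊤
    · exact ⟨0, htop ▸ le_top⟩
    haveI : Nontrivial (T ⧸ I) := Ideal.Quotient.nontrivial_iff.2 htop
    haveI : IsLocalRing (T ⧸ I) :=
      IsLocalRing.of_surjective' (Ideal.Quotient.mk I) Ideal.Quotient.mk_surjective
    obtain ⟨n, hn⟩ := IsArtinianRing.isNilpotent_jacobson_bot (R := T ⧸ I)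
    rw [IsLocalRing.jacobson_eq_maximalIdeal ⊥ bot_ne_top, Ideal.zero_eq_bot,
      ← IsLocalRing.map_maximalIdeal_of_surjective (Ideal.Quotient.mk I) Ideal.Quotient.mk_surjective,
      ← Ideal.map_pow, Ideal.map_eq_bot_iff_le_ker, Ideal.mk_ker] at hn
    exact ⟨n, hn⟩
  obtain ⟨c, hc⟩ := G.tauMod_faithful (↑S : Set ℕ) π h.p_max
  set m := n + c with hm
  let Mat := Matrix (Fin G.r) (Fin G.r) (ZMod (p ^ m))
  let Y : Γℚ → (Mat × Mat) × Module.End T ρ.V := fun g =>
    ((G.MMod m g, Reps.cycMod p m g • G.MMod m g⁻¹), ρ.ρ g)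
  let B : AddSubgroup ((Mat × Mat) × Module.End T ρ.V) := AddSubgroup.closure (Set.range Y)
  -- the trace relation on `B`
  have hB : ∀ b ∈ B, ∀ g' : Γℚ, ∃ t : ↥(heckeAlgebra N 2 (↑S : Set ℕ)),
      b.1.1 * G.MMod m g' + (Reps.cycMod p m g' • G.MMod m g'⁻¹) * b.1.2 =
        G.tauMod m (Subalgebra.inclusion (heckeAlgebra_mono (Set.empty_subset _)) t) ∧
      Ideal.Quotient.mk (maximalIdeal T ^ n) (LinearMap.trace T ρ.V (b.2 * ρ.ρ g')) =
        Ideal.Quotient.mk (maximalIdeal T ^ n) (π t) := by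
    intro b hb g'
    induction hb using AddSubgroup.closure_induction with
    | mem b hb =>
      obtain ⟨g, rfl⟩ := hb
      obtain ⟨t, ht, htr⟩ := trace_rel' h G (Nat.le_add_right n c) (g * g')
      refine ⟨t, ?_, ?_⟩
      · refine Eq.trans ?_ ht
        show G.MMod m g * G.MMod m g' + _ * (Reps.cycMod p m g • G.MMod m g⁻¹) = _
        rw [smul_mul_smul_comm, _root_.mul_inv_rev, map_mul, map_mul, map_mul,
          mul_comm (Reps.cycMod p m g)]
      · refine Eq.trans ?_ htr
        show _ = Ideal.Quotient.mk _ (LinearMap.trace T ρ.V (ρ.ρ (g * g')))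
        rw [map_mul ρ.ρ]
    | zero => exact ⟨0, by simp, by simp⟩
    | add b b' _ _ hb hb' =>
      obtain ⟨t, ht, htr⟩ := hb
      obtain ⟨t', ht', htr'⟩ := hb'
      refine ⟨t + t', ?_, ?_⟩
      · rw [map_add, map_add, ← ht, ← ht']
        simp only [Prod.fst_add, Prod.snd_add, add_mul, mul_add]
        abel
      · rw [map_add, map_add, ← htr, ← htr', Prod.snd_add, add_mul, map_add, map_add]
    | neg b _ hb =>
      obtain ⟨t, ht, htr⟩ := hb
      refine ⟨-t, ?_, ?_⟩
      · rw [map_neg, map_neg, ← ht]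
        simp only [Prod.fst_neg, Prod.snd_neg, mul_neg, neg_add]
        exact congrArg₂ (· + ·) (neg_mul _ _) rfl
      · rw [map_neg, map_neg, ← htr, Prod.snd_neg, neg_mul, map_neg, map_neg]
  have hkey : ∀ b ∈ B, b.1 = 0 → ∀ v, b.2 v ∈ I • (⊤ : Submodule T ρ.V) := by
    intro b hb hb0 v
    refine FlatHopf.mem_smul_top_of_forall_trace ρ habs I b.2 (fun g => hn ?_) v
    obtain ⟨t, ht, htr⟩ := hB b hb g
    rw [hb0, Prod.fst_zero, Prod.snd_zero, zero_mul, mul_zero, add_zero] at ht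
    rw [← Ideal.Quotient.eq_zero_iff_mem, htr, Ideal.Quotient.eq_zero_iff_mem]
    exact hc n t ht.symm
  -- the module `B₁` and its map to the endomorphisms of the quotient
  let B₁ : AddSubgroup (Mat × Mat) := B.map (AddMonoidHom.fst _ _)
  let pr : B →+ B₁ :=
    ((AddMonoidHom.fst (Mat × Mat) (Module.End T ρ.V)).comp B.subtype).codRestrict B₁
      fun b => ⟨b.1, b.2, rfl⟩
  have hpr : Function.Surjective pr := by
    rintro ⟨x, b, hb, rfl⟩
    exact ⟨⟨b, hb⟩, rfl⟩
  let Q := ρ.V ⧸ (I • (⊤ : Submodule T ρ.V))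
  have hle : ∀ E : Module.End T ρ.V, I • (⊤ : Submodule T ρ.V) ≤
      (I • (⊤ : Submodule T ρ.V)).comap E := fun E => by
    rw [← Submodule.map_le_iff_le_comap, Submodule.map_smul'']
    exact Submodule.smul_mono le_rfl le_top
  let endQ : Module.End T ρ.V →+ AddMonoid.End Q :=
    { toFun := fun E => (Submodule.mapQ _ _ E (hle E)).toAddMonoidHom
      map_zero' := by
        ext1 x; obtain ⟨v, rfl⟩ := Submodule.Quotient.mk_surjective _ x; rfl
      map_add' := fun E E' => by
        ext1 x; obtain ⟨v, rfl⟩ := Submodule.Quotient.mk_surjective _ x; rfl }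
  let evB : B →+ AddMonoid.End Q :=
    endQ.comp ((AddMonoidHom.snd (Mat × Mat) (Module.End T ρ.V)).comp B.subtype)
  have hker : pr.ker ≤ evB.ker := by
    intro b hb
    rw [AddMonoidHom.mem_ker] at hb ⊢
    ext1 x
    obtain ⟨v, rfl⟩ := Submodule.Quotient.mk_surjective _ x
    exact (Submodule.Quotient.mk_eq_zero _).2 (hkey b.1 b.2 (congrArg Subtype.val hb) v)
  let φ₁ : B₁ →+ AddMonoid.End Q := pr.liftOfSurjective hpr ⟨evB, hker⟩
  have hφ₁ : ∀ b, φ₁ (pr b) = evB b := fun b =>
    AddMonoidHom.liftOfRightInverse_comp_apply _ _ _ ⟨evB, hker⟩ b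
  -- stability of `B` under left translation
  have hstab : ∀ σ : Γℚ, ∀ b ∈ B, ((FlatHopf.pairAct G m σ b.1, ρ.ρ σ * b.2) :
      (Mat × Mat) × Module.End T ρ.V) ∈ B := by
    intro σ b hb
    induction hb using AddSubgroup.closure_induction with
    | mem b hb =>
      obtain ⟨g, rfl⟩ := hb
      refine AddSubgroup.subset_closure ⟨σ * g, ?_⟩
      simp only [Y, FlatHopf.pairAct_apply, map_mul, _root_.mul_inv_rev, smul_mul_smul_comm,
        mul_comm (Reps.cycMod p m σ)]
    | zero =>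
      convert B.zero_mem using 1
      simp
    | add b b' _ _ hb hb' => simpa [map_add, mul_add] using B.add_mem hb hb'
    | neg b _ hb => simpa [map_neg] using B.neg_mem hb
  have hstab₁ : ∀ σ : Γℚ, ∀ x ∈ B₁, FlatHopf.pairAct G m σ x ∈ B₁ := by
    rintro σ _ ⟨b, hb, rfl⟩
    exact ⟨_, hstab σ b hb, rfl⟩
  let act₁ : Γℚ →* AddMonoid.End B₁ :=
    { toFun := fun σ => ((FlatHopf.pairAct G m σ).comp B₁.subtype).codRestrict B₁ fun x => hstab₁ σ _ x.2
      map_one' := by
        ext1 x; refine Subtype.ext ?_; show FlatHopf.pairAct G m 1 x.1 = x.1; rw [map_one]; rfl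
      map_mul' := fun σ τ => by
        ext1 x; refine Subtype.ext ?_
        show FlatHopf.pairAct G m (σ * τ) x.1 = FlatHopf.pairAct G m σ (FlatHopf.pairAct G m τ x.1); rw [map_mul]; rfl }
  have hB₁ : FlatHopf.HasFlatModel p act₁ :=
    (FlatHopf.hasFlatModel_pairAct G m (hG m)).of_injective B₁.subtype Subtype.val_injective fun σ x => rfl
  let actQ : Γℚ →* AddMonoid.End Q :=
    { toFun := fun σ => (ρ.levelAction I σ).toAddMonoidHom
      map_one' := by
        ext1 x; obtain ⟨v, rfl⟩ := Submodule.Quotient.mk_surjective _ x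
        show Submodule.Quotient.mk (ρ.ρ 1 v) = Submodule.Quotient.mk v
        rw [map_one]; rfl
      map_mul' := fun σ τ => by
        ext1 x; obtain ⟨v, rfl⟩ := Submodule.Quotient.mk_surjective _ x
        show Submodule.Quotient.mk (ρ.ρ (σ * τ) v) = Submodule.Quotient.mk (ρ.ρ σ (ρ.ρ τ v))
        rw [map_mul]; rfl }
  haveI : Finite Q := by
    haveI : Module.Finite (T ⧸ I) Q := inferInstance
    exact Module.finite_of_finite (T ⧸ I)
  show FlatHopf.HasFlatModel p actQ
  refine hB₁.of_endHom φ₁ (fun σ x v => ?_) (pr ⟨Y 1, AddSubgroup.subset_closure ⟨1, rfl⟩⟩) fun v => ?_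
  · obtain ⟨b, rfl⟩ := hpr x
    rw [show act₁ σ (pr b) = pr ⟨_, hstab σ b.1 b.2⟩ from Subtype.ext rfl, hφ₁, hφ₁]
    obtain ⟨u, rfl⟩ := Submodule.Quotient.mk_surjective _ v
    rfl
  · rw [hφ₁]
    obtain ⟨u, rfl⟩ := Submodule.Quotient.mk_surjective _ v
    show Submodule.Quotient.mk (ρ.ρ 1 u) = Submodule.Quotient.mk u
    rw [map_one ρ.ρ]
    rfl


/-- No class of level `q² N₀` killed by `U_q` and by corestriction to level `q N₀` has inertia
trace `2` at `q`. -/
theorem eq_zero_of_inertia_trace_two (q N₀ : ℕ) [NeZero q] [NeZero N₀] (hq : q.Prime)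
    (hqp : q ≠ p) (hqN : ¬ q ∣ N₀)
    {O : Type} [CommRing O] [IsDomain O] [CharZero O] (f : ℤ_[p] →+* O)
    {R : Type} [CommRing R] [Algebra O R] [Module.Finite O R] [Module.Free O R]
    (A : ValuationSubring ℚ̄) (hA : A.LiesOverPrime q)
    (y : Period.H (q ^ 2 * N₀) R R)
    (hU : HeckeH.heckeH (q ^ 2 * N₀) hq R R y = 0)
    (hcor : Degen.corH (N := q * N₀) R R y = 0)
    (htwo : ∀ i ∈ A.inertiaSubgroupIn ℚ,
      galH (q ^ 2 * N₀) ((algebraMap O R).comp f) i y +
        galH (q ^ 2 * N₀) ((algebraMap O R).comp f) i⁻¹ y = (2 : R) • y) :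
    y = 0 :=
  eq_zero_of_inertia_trace_two_free q N₀ hq hqp hqN f A hA y hU hcor htwo

end FLTAgent.Lower.Levels
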