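import Mathlib
import Fermat.Prelude.Thm_IsLocalRing_isAdicComplete_of_module_finite

/-!
# The ring generated by commuting operators on a free module

`ImgRing` is the image of a polynomial ring acting through matrices: finite free over `O`
(`free_imgRing`) and, when everything away from the residual eigenvalues is invertible (`UnitAway`),
local and complete with residue map `imgTheta` and the residue field of `O`. `imgMap` is its
functoriality.
-/

set_option autoImplicit false

noncomputable section

namespace FLTAgent.Lower.Levels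

open IsLocalRing (maximalIdeal ResidueField residue)

variable {O : Type} [CommRing O] {I : Type} {E : Type} [Ring E] [Algebra O E]
  (act : MvPolynomial I O →ₐ[O] E)

/-- The image ring. -/
abbrev ImgRing : Type := MvPolynomial I O ⧸ RingHom.ker act

/-- Its action. -/
def imgAct : ImgRing act →ₐ[O] E := Ideal.kerLiftAlg act

theorem imgAct_injective : Function.Injective (imgAct act) := Ideal.kerLiftAlg_injective act

@[simp] theorem imgAct_mk (s : MvPolynomial I O) :
    imgAct act (Ideal.Quotient.mk _ s) = act s := Ideal.kerLiftAlg_mk act s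

/-- A generator. -/
def imgGen (i : I) : ImgRing act := Ideal.Quotient.mk _ (MvPolynomial.X i)

theorem adjoin_range_imgGen : Algebra.adjoin O (Set.range (imgGen act)) = ⊤ := by
  rw [eq_top_iff]
  intro t _
  obtain ⟨s, rfl⟩ := Ideal.Quotient.mk_surjective t
  induction s using MvPolynomial.induction_on with
  | C a => exact Subalgebra.algebraMap_mem _ a
  | add a b ha hb => rw [map_add]; exact add_mem (ha trivial) (hb trivial)
  | mul_X a i ha => rw [map_mul]; exact mul_mem (ha trivial) (Algebra.subset_adjoin ⟨i, rfl⟩)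

instance finite_imgRing [IsNoetherianRing O] [Module.Finite O E] : Module.Finite O (ImgRing act) :=
  Module.Finite.of_injective (imgAct act).toLinearMap (imgAct_injective act)

/-- The image ring of a finite free module is free. -/
theorem free_imgRing [IsDomain O] [IsPrincipalIdealRing O] [Module.Finite O E] [Module.Free O E] :
    Module.Free O (ImgRing act) := by
  have : IsNoetherianRing O := inferInstance
  have : Module.IsTorsionFree O (ImgRing act) :=
    (imgAct_injective act).moduleIsTorsionFree _ fun a x => map_smul (imgAct act) a x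
  infer_instance

/-- Everything away from the residual eigenvalues `θ` acts invertibly. -/
def UnitAway {k : Type} [CommRing k] (σ : O →+* k) (θ : I → k) : Prop :=
  ∀ s : MvPolynomial I O, MvPolynomial.eval₂ σ θ s ≠ 0 → IsUnit (act s)

variable {act} {k : Type} [Field k] {σ : O →+* k} {θ : I → k}

theorem ker_le_ker_eval [Nontrivial E] (h : UnitAway act σ θ) :
    RingHom.ker act ≤ RingHom.ker (MvPolynomial.eval₂Hom σ θ) := by
  intro s hs
  rw [RingHom.mem_ker] at hs ⊢
  by_contra hne
  have h1 := h s hne
  rw [hs] at h1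
  exact not_isUnit_zero h1

/-- The residual eigenvalues as a map on the image ring. -/
def imgTheta [Nontrivial E] (h : UnitAway act σ θ) : ImgRing act →+* k :=
  Ideal.Quotient.lift _ (MvPolynomial.eval₂Hom σ θ) fun _ hs => ker_le_ker_eval h hs

theorem imgTheta_gen [Nontrivial E] (h : UnitAway act σ θ) (i : I) :
    imgTheta h (imgGen act i) = θ i := by
  exact (Ideal.Quotient.lift_mk _ _ _).trans (MvPolynomial.eval₂Hom_X' _ _ _)

theorem imgTheta_algebraMap [Nontrivial E] (h : UnitAway act σ θ) (a : O) :
    imgTheta h (algebraMap O _ a) = σ a := by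
  exact (Ideal.Quotient.lift_mk _ _ _).trans (MvPolynomial.eval₂Hom_C _ _ _)

theorem isUnit_of_imgTheta_ne_zero [IsNoetherianRing O] [Nontrivial E] [Module.Finite O E]
    (h : UnitAway act σ θ) {t : ImgRing act} (ht : imgTheta h t ≠ 0) : IsUnit t := by
  obtain ⟨s, rfl⟩ := Ideal.Quotient.mk_surjective t
  obtain ⟨u, hu⟩ := h s ht
  -- the inverse is integral, hence a polynomial in the element
  obtain ⟨P, hP, hP0⟩ := Algebra.IsIntegral.isIntegral (R := O) (↑u⁻¹ : E)
  set tt : ImgRing act := Ideal.Quotient.mk _ s
  have hact : imgAct act tt = (u : E) := (imgAct_mk act s).trans hu.symm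
  have hrev : ∀ (Q : Polynomial O) (n : ℕ), Q.natDegree ≤ n →
      Polynomial.aeval (u : E) (Q.reflect n) = (u : E) ^ n * Polynomial.aeval (↑u⁻¹ : E) Q := by
    intro Q n hn
    rw [Polynomial.aeval_eq_sum_range' (n := n + 1) (Nat.lt_succ_of_le hn),
      Polynomial.aeval_eq_sum_range' (n := n + 1)
        (Nat.lt_succ_of_le (Polynomial.natDegree_reflect_le.trans (max_le le_rfl hn))),
      Finset.mul_sum, ← Finset.sum_range_reflect]
    refine Finset.sum_congr rfl fun i hi => ?_
    have hin : i ≤ n := Finset.mem_range_succ_iff.mp hi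
    rw [Nat.add_sub_cancel, Polynomial.coeff_reflect, Polynomial.revAt_le (Nat.sub_le n i),
      Nat.sub_sub_self hin, mul_smul_comm]
    congr 1
    rw [← Units.val_pow_eq_pow_val, ← Units.val_pow_eq_pow_val, ← Units.val_pow_eq_pow_val,
      ← Units.val_mul]
    congr 1
    rw [inv_pow, ← div_eq_mul_inv, eq_div_iff_mul_eq', ← pow_add, Nat.sub_add_cancel hin]
  have h0 : Polynomial.aeval (u : E) P.reverse = 0 := by
    show Polynomial.aeval (u : E) (P.reflect P.natDegree) = 0
    rw [hrev P _ le_rfl, Polynomial.aeval_def, hP0, mul_zero]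
  have h1 : P.reverse.coeff 0 = 1 := by rw [Polynomial.coeff_zero_reverse, hP.leadingCoeff]
  have h2 := congrArg (Polynomial.aeval (u : E)) (Polynomial.X_mul_divX_add P.reverse)
  rw [map_add, map_mul, Polynomial.aeval_X, Polynomial.aeval_C, h1, map_one, h0] at h2
  refine IsUnit.of_mul_eq_one (-Polynomial.aeval tt P.reverse.divX) (imgAct_injective act ?_)
  rw [map_mul, map_neg, ← Polynomial.aeval_algHom_apply, hact, map_one, mul_neg,
    eq_neg_of_add_eq_zero_left h2, neg_neg]

theorem isLocalRing_imgRing [IsNoetherianRing O] [Nontrivial E] [Module.Finite O E]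
    (h : UnitAway act σ θ) : IsLocalRing (ImgRing act) := by
  have : Nontrivial (ImgRing act) := (imgTheta h).domain_nontrivial
  refine IsLocalRing.of_nonunits_add fun a b ha hb hab => ?_
  refine hab.map (imgTheta h) |>.ne_zero ?_
  rw [map_add,
    by_contra fun h0 => ha (isUnit_of_imgTheta_ne_zero h (t := a) h0),
    by_contra fun h0 => hb (isUnit_of_imgTheta_ne_zero h (t := b) h0), add_zero]

theorem isLocalHom_imgRing [IsLocalRing O] [IsNoetherianRing O] [Nontrivial E] [Module.Finite O E]
    (h : UnitAway act σ θ) : IsLocalHom (algebraMap O (ImgRing act)) := by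
  refine ⟨fun a ha => ?_⟩
  by_contra h0
  have h1 := (ha.map (imgTheta h)).ne_zero
  rw [imgTheta_algebraMap] at h1
  obtain ⟨u, hu⟩ := ha
  have : Nontrivial (ImgRing act) := (imgTheta h).domain_nontrivial
  -- nonunits of `O` lie in the Jacobson radical of the finite algebra
  obtain ⟨m, hm, hle⟩ := Ideal.exists_le_maximal (Ideal.span {a})
    (by rwa [Ne, Ideal.span_singleton_eq_top])
  rw [IsLocalRing.eq_maximalIdeal hm, Ideal.span_le, Set.singleton_subset_iff] at hle
  have htop : (IsLocalRing.maximalIdeal O).map (algebraMap O (ImgRing act)) = ⊤ :=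
    Ideal.eq_top_of_isUnit_mem _ (Ideal.mem_map_of_mem _ hle) ⟨u, hu⟩
  have h3 := Submodule.eq_bot_of_le_smul_of_le_jacobson_bot (IsLocalRing.maximalIdeal O)
    (⊤ : Submodule O (ImgRing act)) Module.Finite.fg_top (by
      rw [Ideal.smul_top_eq_map, htop]; exact le_top) (IsLocalRing.maximalIdeal_le_jacobson _)
  exact one_ne_zero (α := ImgRing act) ((Submodule.mem_bot O).mp (h3 ▸ Submodule.mem_top))

theorem residue_surjective_imgRing [IsNoetherianRing O] [Nontrivial E] [Module.Finite O E]
    (h : UnitAway act σ θ) (hσ : Function.Surjective σ) [IsLocalRing (ImgRing act)] :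
    Function.Surjective (residue (ImgRing act) ∘ algebraMap O (ImgRing act)) := by
  intro x
  obtain ⟨t, rfl⟩ := IsLocalRing.residue_surjective x
  obtain ⟨a, ha⟩ := hσ (imgTheta h t)
  refine ⟨a, Ideal.Quotient.eq.mpr ?_⟩
  refine (IsLocalRing.mem_maximalIdeal _).mpr fun hu => (hu.map (imgTheta h)).ne_zero ?_
  rw [map_sub, imgTheta_algebraMap, ha, sub_self]

theorem isAdicComplete_imgRing [IsLocalRing O] [IsNoetherianRing O]
    [IsAdicComplete (maximalIdeal O) O] [Module.Finite O E]
    [IsLocalRing (ImgRing act)] [IsLocalHom (algebraMap O (ImgRing act))] :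
    IsAdicComplete (maximalIdeal (ImgRing act)) (ImgRing act) := by
  exact IsLocalRing.isAdicComplete_of_module_finite (𝒪 := O)

/-- Functoriality: a relation of kernels gives a map of image rings. -/
def imgMap {J : Type} {F : Type} [Ring F] [Algebra O F] {act' : MvPolynomial J O →ₐ[O] F}
    (f : MvPolynomial I O →ₐ[O] MvPolynomial J O)
    (hf : ∀ s, act s = 0 → act' (f s) = 0) : ImgRing act →ₐ[O] ImgRing act' :=
  Ideal.Quotient.liftₐ _ ((Ideal.Quotient.mkₐ O _).comp f) fun s hs =>
    Ideal.Quotient.eq_zero_iff_mem.mpr (RingHom.mem_ker.mpr (hf s (RingHom.mem_ker.mp hs)))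

theorem imgMap_mk {J : Type} {F : Type} [Ring F] [Algebra O F]
    {act' : MvPolynomial J O →ₐ[O] F} (f : MvPolynomial I O →ₐ[O] MvPolynomial J O)
    (hf : ∀ s, act s = 0 → act' (f s) = 0) (s : MvPolynomial I O) :
    imgMap f hf (Ideal.Quotient.mk _ s) = Ideal.Quotient.mk _ (f s) := by
  rfl

end FLTAgent.Lower.Levels
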