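import Fermat.Agent.Lower.Levels.Triv
import Fermat.Agent.Period.Basic

/-!
# Making classes parabolic

For a prime `ℓ ≡ 1 (mod N)` the operator `T_ℓ - (ℓ + 1)` sends homomorphisms of `Γ₀(N)` with
torsion-free values to parabolic ones (`heckeOp_sub_mem_H`): on a power of a conjugate of a
translation the transfer is multiplication by `ℓ + 1` (`transfer_conj_T_zpow`).
`heckeOp_sub_trace_four` is the version over a field in which `2 ℓ` is invertible.
-/

set_option autoImplicit false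

noncomputable section

open CongruenceSubgroup
open scoped MatrixGroups

namespace FLTAgent.Lower.Levels

open FLTAgent.HeckeH (M2 matOf matOf_mul heckeIdx heckeBeta heckeReps)

/-- The transfer of `T_ℓ` at a power of a conjugate of a translation. -/
theorem transfer_conj_T_zpow {N : ℕ} [NeZero N] {R A : Type} [CommRing R] [AddCommGroup A]
    [Module R A] {ℓ : ℕ} (hℓ : ℓ.Prime) (h1 : N ∣ ℓ - 1)
    (hℓA : Function.Injective fun a : A => (ℓ : ℤ) • a)
    (φ : Additive (Gamma0 N) →+ A) (γ : Gamma0 N) (δ : SL(2, ℤ)) (h : ℤ)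
    (hγ : (γ : SL(2, ℤ)) = δ * ModularGroup.T ^ h * δ⁻¹) :
    (heckeReps N hℓ).transfer R φ (Additive.ofMul γ) =
      ((ℓ : ℤ) + 1) • φ (Additive.ofMul γ) := by
  classical
  have hℓN : ¬ ℓ ∣ N := fun hd => by
    have hl := hℓ.two_le
    obtain ⟨k, hk⟩ := hd.trans h1
    rcases k with _ | k
    · omega
    · have : ℓ ≤ ℓ * (k + 1) := Nat.le_mul_of_pos_right ℓ k.succ_pos
      omega
  have hℓ1 : ((ℓ : ℤ) : ZMod N) = 1 := by
    have h2 : ((ℓ - 1 : ℕ) : ZMod N) = 0 := (ZMod.natCast_eq_zero_iff _ N).mpr h1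
    rw [Nat.cast_sub hℓ.one_le, Nat.cast_one, sub_eq_zero] at h2
    rw [Int.cast_natCast, h2]
  set D : M2 := (δ : M2) with hD
  set D' : M2 := ((δ⁻¹ : SL(2, ℤ)) : M2) with hD'
  have hDD' : D * D' = 1 := by
    rw [hD, hD', ← Matrix.SpecialLinearGroup.coe_mul, mul_inv_cancel]; rfl
  have hD'D : D' * D = 1 := by
    rw [hD, hD', ← Matrix.SpecialLinearGroup.coe_mul, inv_mul_cancel]; rfl
  have hpow : ∀ z : ℤ, matOf (γ ^ z) = D * !![1, h * z; 0, 1] * D' := fun z => by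
    show (((γ ^ z : Gamma0 N) : SL(2, ℤ)) : M2) = _
    rw [SubgroupClass.coe_zpow, hγ, conj_zpow, Matrix.SpecialLinearGroup.coe_mul,
      Matrix.SpecialLinearGroup.coe_mul, ← zpow_mul, ModularGroup.coe_T_zpow]
  let a : heckeIdx N ℓ → ℤ := fun i => heckeBeta i 0 0
  let d : heckeIdx N ℓ → ℤ := fun i => heckeBeta i 1 1
  let b : heckeIdx N ℓ → M2 := fun i => !![a i, (N : ℤ) * heckeBeta i 0 1; 0, d i]
  have had : ∀ i, a i * d i = ℓ := by
    rintro ⟨_ | j, hj⟩ <;> simp [a, d, heckeBeta]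
  have hmod : ∀ i, (a i : ZMod N) = 1 ∧ (d i : ZMod N) = 1 := by
    rintro ⟨_ | j, hj⟩ <;> constructor <;> simp [a, d, heckeBeta] <;> exact_mod_cast hℓ1
  have hdet : ∀ i, (D * b i * D').det = (ℓ : ℤ) := fun i => by
    rw [Matrix.det_mul_right_comm, hDD', one_mul, Matrix.det_fin_two_of, mul_zero, sub_zero, had]
  have hone : ∀ i, (Int.castRingHom (ZMod N)).mapMatrix (D * b i * D') = 1 := fun i => by
    have hb : (Int.castRingHom (ZMod N)).mapMatrix (b i) = 1 := by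
      ext u v
      fin_cases u <;> fin_cases v <;> simp [b, (hmod i).1, (hmod i).2]
    rw [map_mul, map_mul, hb, mul_one, ← map_mul, hDD', map_one]
  have hc : ∀ i, (N : ℤ) ∣ (D * b i * D') 1 0 := fun i => by
    have e := congrFun (congrFun (hone i) 1) 0
    exact (ZMod.intCast_zmod_eq_zero_iff_dvd _ N).mp (by simpa using e)
  have hco : ∀ i, IsCoprime ((D * b i * D') 0 0) (N : ℤ) := fun i => by
    have e := congrFun (congrFun (hone i) 0) 0
    obtain ⟨k, hk⟩ : (N : ℤ) ∣ (D * b i * D') 0 0 - 1 := by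
      refine (ZMod.intCast_zmod_eq_zero_iff_dvd _ N).mp ?_
      rw [Int.cast_sub, Int.cast_one, sub_eq_zero]
      simpa using e
    exact ⟨1, -k, by linear_combination hk⟩
  choose g e hge using fun i =>
    FLTAgent.HeckeH.exists_heckeBeta (N := N) hℓ (D * b i * D') (hdet i) (hc i) (hco i)
  have hinj : Function.Injective e := by
    intro i i' hii
    set u : SL(2, ℤ) := δ⁻¹ * ((g i * (g i')⁻¹ : Gamma0 N) : SL(2, ℤ)) * δ
    have hu : u ∈ Gamma0 1 := Gamma0_mem.mpr (Subsingleton.elim _ _)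
    have h3 : b i = matOf (⟨u, hu⟩ : Gamma0 1) * b i' := by
      show b i = (u : M2) * b i'
      have h4 : D * b i * D' = matOf (g i * (g i')⁻¹) * (D * b i' * D') := by
        rw [hge i, hge i', hii, ← Matrix.mul_assoc, ← matOf_mul, inv_mul_cancel_right]
      have h5 := congrArg (fun X => D' * X * D) h4
      simp only [← Matrix.mul_assoc, hD'D, Matrix.one_mul] at h5
      rw [Matrix.mul_assoc (b i) D' D, hD'D, Matrix.mul_one, Matrix.mul_assoc _ D' D, hD'D,
        Matrix.mul_one] at h5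
      rw [Matrix.SpecialLinearGroup.coe_mul, Matrix.SpecialLinearGroup.coe_mul]
      exact h5
    have hapos : ∀ j, 0 < a j := by
      rintro ⟨_ | j, hj⟩ <;> simp [a, heckeBeta, hℓ.pos]
    obtain ⟨haa, hdd, hbb, -⟩ := eq_of_triangular (hapos i) (hapos i') h3
    have hl1 : (1 : ℤ) ≠ ℓ := by exact_mod_cast hℓ.ne_one.symm
    obtain ⟨_ | j, hj⟩ := i <;> obtain ⟨_ | j', hj'⟩ := i'
    · rfl
    · exact absurd haa.symm (by simpa [a, heckeBeta] using hl1)
    · exact absurd haa (by simpa [a, heckeBeta] using hl1)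
    · have h6 : (ℓ : ℤ) ∣ (N : ℤ) * (((j : ℕ) : ℤ) - (j' : ℕ)) := by
        simpa [d, heckeBeta, mul_sub] using hbb
      have h7 := ((Nat.prime_iff_prime_int.mp hℓ).dvd_or_dvd h6).resolve_left
        (fun h8 => hℓN (by exact_mod_cast h8))
      have h9 := Int.eq_zero_of_abs_lt_dvd h7
        (by rw [abs_lt]; have := j.2; have := j'.2; constructor <;> omega)
      obtain rfl : j = j' := Fin.ext (by omega)
      rfl
  have hcoc : ∀ i, (heckeReps N hℓ).coc (γ ^ (ℓ : ℤ)) (e i) =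
      (g i)⁻¹ * γ ^ (a i * a i) * g i := by
    intro i
    refine ((heckeReps N hℓ).eq_of_mul (j := e i) ?_).1
    show heckeBeta (e i) * matOf (γ ^ (ℓ : ℤ)) = _ * heckeBeta (e i)
    have hcomm : b i * !![1, h * (ℓ : ℤ); 0, 1] = !![1, h * (a i * a i); 0, 1] * b i := by
      ext u v
      fin_cases u <;> fin_cases v <;> simp [b] <;> linear_combination (-(h * a i)) * had i
    have he : heckeBeta (e i) = matOf (g i)⁻¹ * (D * b i * D') := by
      rw [hge i, ← Matrix.mul_assoc, ← matOf_mul, inv_mul_cancel, FLTAgent.HeckeH.matOf_one,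
        Matrix.one_mul]
    rw [matOf_mul, matOf_mul, Matrix.mul_assoc _ (matOf (g i)), ← hge i, he, hpow, hpow]
    simp only [Matrix.mul_assoc]
    rw [← Matrix.mul_assoc D' D, hD'D, Matrix.one_mul, ← Matrix.mul_assoc (b i), hcomm,
      ← Matrix.mul_assoc D' D, hD'D, Matrix.one_mul, Matrix.mul_assoc]
  have hsum : ∑ i, a i * a i = (ℓ : ℤ) * ((ℓ : ℤ) + 1) := by
    rw [← Equiv.sum_comp (Equiv.subtypeUnivEquiv (fun o _ => hℓN)).symm, Fintype.sum_option]
    simp [a, heckeBeta, Equiv.subtypeUnivEquiv]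
    ring
  have key : (heckeReps N hℓ).transfer R φ (Additive.ofMul (γ ^ (ℓ : ℤ))) =
      ((ℓ : ℤ) * ((ℓ : ℤ) + 1)) • φ (Additive.ofMul γ) := by
    rw [HeckeH.Reps.transfer_apply, ← (Equiv.ofBijective e
      ⟨hinj, Finite.surjective_of_injective hinj⟩).sum_comp, ← hsum, Finset.sum_smul]
    refine Finset.sum_congr rfl fun i _ => ?_
    rw [Equiv.ofBijective_apply, hcoc i, ofMul_mul, ofMul_mul, ofMul_inv, ofMul_zpow, map_add,
      map_add, map_neg, map_zsmul, neg_add_cancel_comm]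
  rw [ofMul_zpow, map_zsmul, mul_smul] at key
  exact hℓA key

/-- `T_ℓ - (ℓ + 1)` lands in parabolic homomorphisms. -/
theorem heckeOp_sub_mem_H {N : ℕ} [NeZero N] {R A : Type} [CommRing R] [AddCommGroup A]
    [Module R A] [IsAddTorsionFree A] {ℓ : ℕ} (hℓ : ℓ.Prime) (h1 : N ∣ ℓ - 1)
    (x : H1 R A (chi (1 : (ZMod N)ˣ →* Rˣ))) :
    h1Triv N R A (heckeOp hℓ 1 A x - ((ℓ : R) + 1) • x) ∈ Period.H N R A := by
  refine Period.parabolicHoms_le_H fun γ hγ => ?_
  rw [map_sub, map_smul, h1Triv_heckeOp, AddMonoidHom.sub_apply, AddMonoidHom.smul_apply,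
    sub_eq_zero]
  obtain ⟨δ, h, hδ⟩ := Period.exists_conj_T_zpow_of_trace (γ := (γ : SL(2, ℤ))) hγ
  have h2 : ((γ ^ 2 : Gamma0 N) : SL(2, ℤ)) = δ * ModularGroup.T ^ (h * 2) * δ⁻¹ := by
    rw [zpow_mul, ← conj_zpow, SubgroupClass.coe_pow]
    rcases hδ with e | e <;> rw [e]
    · exact (zpow_natCast _ 2).symm
    · rw [neg_sq]; exact (zpow_natCast _ 2).symm
  have key := transfer_conj_T_zpow (R := R) hℓ h1
    (zsmul_right_injective (G := A) (by exact_mod_cast hℓ.ne_zero)) (h1Triv N R A x) (γ ^ 2) δ (h * 2) h2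
  rw [ofMul_pow, map_nsmul, map_nsmul, smul_comm] at key
  rw [nsmul_right_injective (M := A) two_ne_zero key, ← Int.cast_smul_eq_zsmul R]
  push_cast
  rfl

/-- In residue characteristic prime to `2 ℓ` the operator `T_ℓ - (ℓ + 1)` kills parabolic values. -/
theorem heckeOp_sub_trace_four {N : ℕ} [NeZero N] {k : Type} [Field k] {ℓ : ℕ} (hℓ : ℓ.Prime)
    (h1 : N ∣ ℓ - 1) (hℓk : (ℓ : k) ≠ 0) (h2k : (2 : k) ≠ 0)
    (x : H1 k k (chi (1 : (ZMod N)ˣ →* kˣ))) (γ : Gamma0 N)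
    (hγ : ((γ : SL(2, ℤ)) : M2).trace ^ 2 = 4) :
    h1Triv N k k (heckeOp hℓ 1 k x - ((ℓ : k) + 1) • x) (Additive.ofMul γ) = 0 := by
  rw [map_sub, map_smul, h1Triv_heckeOp, AddMonoidHom.sub_apply, AddMonoidHom.smul_apply,
    sub_eq_zero]
  obtain ⟨δ, h, hδ⟩ := Period.exists_conj_T_zpow_of_trace (γ := (γ : SL(2, ℤ))) hγ
  have h2 : ((γ ^ 2 : Gamma0 N) : SL(2, ℤ)) = δ * ModularGroup.T ^ (h * 2) * δ⁻¹ := by
    rw [zpow_mul, ← conj_zpow, SubgroupClass.coe_pow]
    rcases hδ with e | e <;> rw [e]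
    · exact (zpow_natCast _ 2).symm
    · rw [neg_sq]; exact (zpow_natCast _ 2).symm
  have key := transfer_conj_T_zpow (R := k) hℓ h1
    (fun a b (hab : (ℓ : ℤ) • a = (ℓ : ℤ) • b) => by
      rw [zsmul_eq_mul, zsmul_eq_mul, Int.cast_natCast] at hab
      exact mul_left_cancel₀ hℓk hab) (h1Triv N k k x) (γ ^ 2) δ (h * 2) h2
  rw [ofMul_pow, map_nsmul, map_nsmul, zsmul_eq_mul, nsmul_eq_mul, nsmul_eq_mul, mul_left_comm,
    Nat.cast_ofNat] at key
  rw [mul_left_cancel₀ h2k key, smul_eq_mul]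
  push_cast
  rfl

end FLTAgent.Lower.Levels
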