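import Mathlib
import Fermat.Prelude.Thm_Algebra_finite_maximalSpectrum_and_bijective_localization_of_module_finite

/-!
# The part of a module at a maximal ideal

`part act m` consists of the elements divisible by every polynomial outside `m`.  For a finite
module over a complete local ring it is the image of an idempotent (`exists_isProj`, `IsProj`,
`range_eq`), is preserved by equivariant semilinear maps, is exact (`map_mem_part`,
`exists_mem_part`, `exists_mem_part_of_exact`), and over a finite field a nonzero stable subspace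
of the part at a system of eigenvalues contains an eigenvector (`exists_eigen_mem`).
-/

set_option autoImplicit false

noncomputable section

namespace FLTAgent.Lower.Levels

open IsLocalRing (maximalIdeal ResidueField)
open scoped IsMulCommutative

variable {R : Type} [CommRing R] {X : Type} [AddCommGroup X] [Module R X] {ι : Type}

/-- The action of polynomials through commuting endomorphisms. -/
def polyAct (t : ι → Module.End R X) (hc : ∀ i j, t i * t j = t j * t i) :
    MvPolynomial ι R →ₐ[R] Module.End R X :=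
  haveI : IsMulCommutative (Algebra.adjoin R (Set.range t)) :=
    Algebra.isMulCommutative_adjoin R fun a ha b hb => by
      obtain ⟨i, rfl⟩ := ha
      obtain ⟨j, rfl⟩ := hb
      exact hc i j
  (Algebra.adjoin R (Set.range t)).val.comp
    (MvPolynomial.aeval fun i => (⟨t i, Algebra.subset_adjoin ⟨i, rfl⟩⟩ :
      Algebra.adjoin R (Set.range t)))

theorem polyAct_X (t : ι → Module.End R X) (hc : ∀ i j, t i * t j = t j * t i) (i : ι) :
    polyAct t hc (MvPolynomial.X i) = t i := by
  simp [polyAct]

/-- The ideal of a system of residual eigenvalues. -/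
def eigIdeal {k : Type} [CommRing k] (σ : R →+* k) (θ : ι → k) : Ideal (MvPolynomial ι R) :=
  RingHom.ker (MvPolynomial.eval₂Hom σ θ)

theorem mem_eigIdeal {k : Type} [CommRing k] {σ : R →+* k} {θ : ι → k} {s : MvPolynomial ι R} :
    s ∈ eigIdeal σ θ ↔ MvPolynomial.eval₂Hom σ θ s = 0 := RingHom.mem_ker

theorem isMaximal_eigIdeal {k : Type} [Field k] {σ : R →+* k} (hσ : Function.Surjective σ)
    (θ : ι → k) : (eigIdeal σ θ).IsMaximal :=
  RingHom.ker_isMaximal_of_surjective _ fun a => by
    obtain ⟨r, rfl⟩ := hσ a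
    exact ⟨MvPolynomial.C r, MvPolynomial.eval₂Hom_C _ _ _⟩

variable (act : MvPolynomial ι R →ₐ[R] Module.End R X) (m : Ideal (MvPolynomial ι R))

/-- The part at `m`. -/
def part : Submodule R X := ⨅ (s : MvPolynomial ι R) (_ : s ∉ m), LinearMap.range (act s)

variable {act m}

theorem mem_part {x : X} : x ∈ part act m ↔ ∀ s ∉ m, ∃ y, act s y = x := by
  simp [part, LinearMap.mem_range]

theorem act_comm_apply (a b : MvPolynomial ι R) (x : X) : act a (act b x) = act b (act a x) := by
  rw [← Module.End.mul_apply, ← map_mul, mul_comm, map_mul, Module.End.mul_apply]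

theorem act_mem_part {x : X} (hx : x ∈ part act m) (a : MvPolynomial ι R) :
    act a x ∈ part act m := by
  rw [mem_part] at hx ⊢
  intro s hs
  obtain ⟨y, rfl⟩ := hx s hs
  exact ⟨act a y, act_comm_apply _ _ _⟩

/-- The projection to the part at a maximal ideal. -/
structure IsProj (act : MvPolynomial ι R →ₐ[R] Module.End R X) (m : Ideal (MvPolynomial ι R))
    (e : MvPolynomial ι R) : Prop where
  sub_one_mem : e - 1 ∈ m
  idem : act (e * e) = act e
  inv : ∀ s ∉ m, ∃ c, act (c * s * e) = act e

/-- For a finite module over a complete local ring the projection exists. -/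
theorem exists_isProj [IsLocalRing R] [IsNoetherianRing R] [IsAdicComplete (maximalIdeal R) R]
    [Module.Finite R X] (act : MvPolynomial ι R →ₐ[R] Module.End R X)
    (m : Ideal (MvPolynomial ι R)) [hm : m.IsMaximal] :
    ∃ e, IsProj act m e := by
  classical
  by_cases hker : RingHom.ker act ≤ m
  · have : Module.Finite R (Module.End R X) := by
      obtain ⟨n, f, hf⟩ := Module.Finite.exists_fin' R X
      exact Module.Finite.of_injective (LinearMap.lcomp R X f) fun g g' h =>
        LinearMap.ext fun x => by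
          obtain ⟨y, rfl⟩ := hf x
          exact LinearMap.congr_fun h y
    have : Module.Finite R (MvPolynomial ι R ⧸ RingHom.ker act) :=
      Module.Finite.of_injective (Ideal.kerLiftAlg act).toLinearMap (Ideal.kerLiftAlg_injective act)
    obtain ⟨-, hbij, -, -⟩ :=
      Algebra.finite_maximalSpectrum_and_bijective_localization_of_module_finite (𝒪 := R)
        (MvPolynomial ι R ⧸ RingHom.ker act)
    set q := Ideal.Quotient.mk (RingHom.ker act) with hq
    let I : MaximalSpectrum (MvPolynomial ι R ⧸ RingHom.ker act) :=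
      ⟨m.map q, Ideal.IsMaximal.map_of_surjective_of_ker_le
        Ideal.Quotient.mk_surjective (by rwa [Ideal.mk_ker])⟩
    have := I.isMaximal.isPrime
    have hI : ∀ s, q s ∈ I.asIdeal → s ∈ m := fun s hs =>
      (Ideal.mem_quotient_iff_mem hker).mp hs
    have hact : ∀ a b, q a = q b → act a = act b := fun a b h =>
      sub_eq_zero.mp (by rw [← map_sub]; exact Ideal.Quotient.eq.mp h)
    obtain ⟨eq', he⟩ := hbij.2 (Pi.single I 1)
    obtain ⟨e, rfl⟩ := Ideal.Quotient.mk_surjective eq'
    have hproj : ∀ J, algebraMap _ (Localization.AtPrime J.asIdeal) (q e) =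
        (Pi.single I 1 : ∀ J : MaximalSpectrum _, Localization.AtPrime J.asIdeal) J :=
      fun J => congrFun he J
    refine ⟨e, ?_, hact _ _ (hbij.1 (funext fun J => ?_)), fun s hs => ?_⟩
    · have h1 : algebraMap _ (Localization.AtPrime I.asIdeal) (q (e - 1)) = 0 := by
        rw [map_sub q, map_sub, hproj, Pi.single_eq_same, map_one q, map_one, sub_self]
      obtain ⟨u, hu⟩ := (IsLocalization.map_eq_zero_iff I.asIdeal.primeCompl _ _).mp h1
      exact hI _ ((I.isMaximal.isPrime.mem_or_mem
        (show (u : _) * q (e - 1) ∈ I.asIdeal by rw [hu]; exact zero_mem _)).resolve_left u.2)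
    · show algebraMap _ (Localization.AtPrime J.asIdeal) (q (e * e)) = algebraMap _ _ (q e)
      rw [map_mul q, map_mul, hproj]
      rcases eq_or_ne J I with rfl | hne
      · rw [Pi.single_eq_same, one_mul]
      · rw [Pi.single_eq_of_ne hne, zero_mul]
    · have hu : IsUnit (algebraMap _ (Localization.AtPrime I.asIdeal) (q s)) :=
        IsLocalization.map_units _ (⟨q s, fun h => hs (hI s h)⟩ : I.asIdeal.primeCompl)
      obtain ⟨cq, hc⟩ := hbij.2 (Pi.single I (↑(hu.unit⁻¹)))
      obtain ⟨c, rfl⟩ := Ideal.Quotient.mk_surjective cq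
      refine ⟨c, hact _ _ (hbij.1 (funext fun J => ?_))⟩
      show algebraMap _ (Localization.AtPrime J.asIdeal) (q (c * s * e)) = algebraMap _ _ (q e)
      rw [map_mul q, map_mul q, map_mul, map_mul, hproj]
      have hcJ := congrFun hc J
      simp only [RingHom.pi_apply] at hcJ
      rcases eq_or_ne J I with rfl | hne
      · rw [Pi.single_eq_same, mul_one, hcJ, Pi.single_eq_same, IsUnit.val_inv_mul]
      · rw [Pi.single_eq_of_ne hne, mul_zero]
  · obtain ⟨z, hz, hzm⟩ := Set.not_subset.mp hker
    obtain ⟨a, ha⟩ : ∃ a, a * z - 1 ∈ m := by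
      obtain ⟨a, i, hi, h⟩ := hm.exists_inv hzm
      exact ⟨a, by rw [← h, sub_add_cancel_left]; exact neg_mem hi⟩
    have h0 : act (a * z) = 0 := by rw [map_mul, RingHom.mem_ker.mp hz, mul_zero]
    exact ⟨a * z, ha, by rw [map_mul, h0, mul_zero], fun s _ => ⟨0, by rw [h0]; simp⟩⟩

namespace IsProj

variable {e : MvPolynomial ι R}

theorem not_mem (h : IsProj act m e) (hm : m ≠ ⊤) : e ∉ m := fun he =>
  hm ((Ideal.eq_top_iff_one _).mpr (by simpa using sub_mem he h.sub_one_mem))

theorem range_eq (h : IsProj act m e) (hm : m ≠ ⊤) : LinearMap.range (act e) = part act m := by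
  refine le_antisymm ?_ fun x hx => mem_part.mp hx e (h.not_mem hm)
  rintro _ ⟨y, rfl⟩
  refine mem_part.mpr fun s hs => ?_
  obtain ⟨c, hc⟩ := h.inv s hs
  refine ⟨act (c * e) y, ?_⟩
  rw [← Module.End.mul_apply, ← map_mul, show s * (c * e) = c * s * e by ring, hc]

theorem mem_part (h : IsProj act m e) (hm : m ≠ ⊤) (y : X) : act e y ∈ part act m :=
  h.range_eq hm ▸ ⟨y, rfl⟩

theorem apply_eq_self (h : IsProj act m e) (hm : m ≠ ⊤) {x : X} (hx : x ∈ part act m) :
    act e x = x := by
  rw [← h.range_eq hm] at hx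
  obtain ⟨y, rfl⟩ := hx
  rw [← Module.End.mul_apply, ← map_mul, h.idem]

theorem apply_eq_zero_iff (h : IsProj act m e) (hm : m ≠ ⊤) {x : X} :
    act e x = 0 ↔ ∃ s ∉ m, act s x = 0 := by
  refine ⟨fun hx => ⟨e, h.not_mem hm, hx⟩, fun ⟨s, hs, hx⟩ => ?_⟩
  obtain ⟨c, hc⟩ := h.inv s hs
  rw [← hc, show c * s * e = c * e * s by ring, map_mul, Module.End.mul_apply, hx, map_zero]

theorem eq_zero_of_mem (h : IsProj act m e) (hm : m ≠ ⊤) {x : X} (hx : x ∈ part act m)
    {s : MvPolynomial ι R} (hs : s ∉ m) (h0 : act s x = 0) : x = 0 := by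
  rw [← h.apply_eq_self hm hx]
  exact (h.apply_eq_zero_iff hm).mpr ⟨s, hs, h0⟩

end IsProj

section Functorial

variable {R' : Type} [CommRing R'] {σ : R →+* R'} [RingHomSurjective σ]
  {X' : Type} [AddCommGroup X'] [Module R' X'] {act' : MvPolynomial ι R' →ₐ[R'] Module.End R' X'}
  {m' : Ideal (MvPolynomial ι R')}

/-- A semilinear map compatible with the actions maps parts into parts. -/
theorem map_mem_part (f : X →ₛₗ[σ] X') (hf : ∀ s x, f (act s x) = act' (MvPolynomial.map σ s) (f x))
    (hm : m'.comap (MvPolynomial.map σ) = m) {x : X} (hx : x ∈ part act m) :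
    f x ∈ part act' m' := by
  refine mem_part.mpr fun s' hs' => ?_
  obtain ⟨s, rfl⟩ := MvPolynomial.map_surjective σ (RingHomSurjective.is_surjective) s'
  obtain ⟨y, rfl⟩ := mem_part.mp hx s (by rw [← hm]; exact hs')
  exact ⟨f y, (hf s y).symm⟩

/-- A map whose image contains a multiple outside the ideal maps the part onto the part. -/
theorem exists_mem_part (f : X →ₛₗ[σ] X') (hf : ∀ s x, f (act s x) = act' (MvPolynomial.map σ s) (f x))
    {s₀ : MvPolynomial ι R} (hs₀ : s₀ ∉ m)
    (hsurj : ∀ z, ∃ w, f w = act' (MvPolynomial.map σ s₀) z)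
    (hm : m'.comap (MvPolynomial.map σ) = m) {e : MvPolynomial ι R}
    (he : IsProj act m e) (hne : m ≠ ⊤) {y : X'} (hy : y ∈ part act' m') :
    ∃ x ∈ part act m, f x = y := by
  have hes : e * s₀ ∉ m := fun h => hs₀ (by
    have := sub_mem h (Ideal.mul_mem_right s₀ m he.sub_one_mem)
    rwa [← sub_mul, sub_sub_cancel, one_mul] at this)
  obtain ⟨z, rfl⟩ := mem_part.mp hy (MvPolynomial.map σ (e * s₀))
    (fun h => hes (by rw [← hm]; exact h))
  obtain ⟨w, hw⟩ := hsurj z
  refine ⟨act e w, he.mem_part hne w, ?_⟩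
  rw [hf, hw, map_mul, map_mul, Module.End.mul_apply]

/-- Exactness passes to parts. -/
theorem exists_mem_part_of_exact {W : Type} [AddCommGroup W] [Module R W]
    {actW : MvPolynomial ι R →ₐ[R] Module.End R W} (g : W →ₗ[R] X)
    (hg : ∀ s w, g (actW s w) = act s (g w)) {eW e : MvPolynomial ι R}
    (heW : IsProj actW m eW) (he : IsProj act m e) (hne : m ≠ ⊤) {x : X} (hx : x ∈ part act m)
    (hrange : x ∈ LinearMap.range g) : ∃ w ∈ part actW m, g w = x := by
  obtain ⟨w, rfl⟩ := hrange
  refine ⟨actW eW w, heW.mem_part hne w, ?_⟩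
  have h0 : actW eW (w - actW eW w) = 0 := by
    rw [map_sub, ← Module.End.mul_apply, ← map_mul, heW.idem, sub_self]
  obtain ⟨s, hs, hs0⟩ := (heW.apply_eq_zero_iff hne).mp h0
  have h1 : g w - g (actW eW w) ∈ part act m := by
    refine sub_mem hx ?_
    rw [hg]
    exact act_mem_part hx eW
  have h2 : act s (g w - g (actW eW w)) = 0 := by rw [← map_sub g, ← hg, hs0, map_zero]
  exact (sub_eq_zero.mp (he.eq_zero_of_mem hne h1 hs h2)).symm

end Functorial

section Eigen

variable {k : Type} [Field k] {Y : Type} [AddCommGroup Y] [Module k Y]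
  {actk : MvPolynomial ι k →ₐ[k] Module.End k Y} {θ : ι → k}

theorem act_eigen {x : Y} (hx : ∀ i, actk (MvPolynomial.X i) x = θ i • x) (s : MvPolynomial ι k) :
    actk s x = MvPolynomial.eval θ s • x := by
  induction s using MvPolynomial.induction_on with
  | C a => rw [MvPolynomial.algHom_C, Module.algebraMap_end_apply, MvPolynomial.eval_C]
  | add a b ha hb => rw [map_add, LinearMap.add_apply, ha, hb, map_add, add_smul]
  | mul_X a i ha =>
    rw [map_mul, Module.End.mul_apply, hx, map_smul, ha, smul_smul, map_mul,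
      MvPolynomial.eval_X, mul_comm]

theorem mem_part_of_eigen {x : Y} (hx : ∀ i, actk (MvPolynomial.X i) x = θ i • x) :
    x ∈ part actk (eigIdeal (RingHom.id k) θ) := by
  refine mem_part.mpr fun s hs => ⟨(MvPolynomial.eval θ s)⁻¹ • x, ?_⟩
  rw [map_smul, act_eigen hx, smul_smul, inv_mul_cancel₀ ?_, one_smul]
  exact fun h => hs h

theorem exists_eigen_mem {P : Submodule k Y} [Finite P] (hP : P ≠ ⊥)
    (hstable : ∀ i, ∀ y ∈ P, actk (MvPolynomial.X i) y ∈ P)
    (hinv : ∀ s, s ∉ eigIdeal (RingHom.id k) θ → ∀ y ∈ P, actk s y = 0 → y = 0) :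
    ∃ x ∈ P, x ≠ 0 ∧ ∀ i, actk (MvPolynomial.X i) x = θ i • x := by
  classical
  have hst : ∀ (s : MvPolynomial ι k) (y : Y), y ∈ P → actk s y ∈ P := by
    intro s
    induction s using MvPolynomial.induction_on with
    | C a => intro y hy; rw [MvPolynomial.algHom_C, Module.algebraMap_end_apply]; exact P.smul_mem a hy
    | add a b ha hb => intro y hy; rw [map_add, LinearMap.add_apply]; exact add_mem (ha y hy) (hb y hy)
    | mul_X a i ha => intro y hy; rw [map_mul, Module.End.mul_apply]; exact ha _ (hstable i y hy)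
  let J : Y → Ideal (MvPolynomial ι k) := fun y =>
    { carrier := {s | actk s y = 0}
      add_mem' := fun {a b} (ha : actk a y = 0) (hb : actk b y = 0) => by
        show actk (a + b) y = 0
        rw [map_add, LinearMap.add_apply, ha, hb, add_zero]
      zero_mem' := by show actk 0 y = 0; rw [map_zero, LinearMap.zero_apply]
      smul_mem' := fun c a (ha : actk a y = 0) => by
        show actk (c * a) y = 0
        rw [map_mul, Module.End.mul_apply, ha, map_zero] }
  obtain ⟨y₀, hy₀, hne⟩ := P.ne_bot_iff.mp hP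
  have : Nonempty {y : P // (y : Y) ≠ 0} := ⟨⟨⟨y₀, hy₀⟩, hne⟩⟩
  have hfin : (Set.range fun y : {y : P // (y : Y) ≠ 0} => J y.1).Finite := Set.finite_range _
  obtain ⟨_, ⟨⟨x, hx⟩, rfl⟩, hmax⟩ := hfin.exists_maximal (Set.range_nonempty _)
  refine ⟨x, x.2, hx, fun i => sub_eq_zero.mp ?_⟩
  by_contra hi
  have hXi : (MvPolynomial.X i - MvPolynomial.C (θ i) : MvPolynomial ι k) ∈
      eigIdeal (RingHom.id k) θ := by simp [mem_eigIdeal]
  have hact : actk (MvPolynomial.X i - MvPolynomial.C (θ i)) (x : Y) =
      actk (MvPolynomial.X i) x - θ i • (x : Y) := by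
    rw [map_sub, LinearMap.sub_apply, MvPolynomial.algHom_C, Module.algebraMap_end_apply]
  set y : Y := actk (MvPolynomial.X i - MvPolynomial.C (θ i)) (x : Y) with hy
  have hyP : y ∈ P := hst _ _ x.2
  have hle : J x ≤ J y := fun s hs => by
    show actk s y = 0
    rw [hy, ← Module.End.mul_apply, ← map_mul, mul_comm, map_mul, Module.End.mul_apply,
      show actk s (x : Y) = 0 from hs, map_zero]
  have hge := hmax ⟨⟨⟨y, hyP⟩, fun h => hi (hact.symm.trans h)⟩, rfl⟩ hle
  -- on the finite cyclic module of `x` the operator is injective, hence surjective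
  let Cx : Type := {z : P // ∃ s, actk s (x : Y) = (z : Y)}
  let D : Cx → Cx := fun z =>
    ⟨⟨actk (MvPolynomial.X i - MvPolynomial.C (θ i)) (z.1 : Y), hst _ _ z.1.2⟩, by
      obtain ⟨s, hs⟩ := z.2
      exact ⟨(MvPolynomial.X i - MvPolynomial.C (θ i)) * s, by
        rw [map_mul, Module.End.mul_apply, hs]⟩⟩
  have hD : Function.Injective D := by
    intro z w h
    obtain ⟨a, ha⟩ := z.2
    obtain ⟨b, hb⟩ := w.2
    have h' : actk (MvPolynomial.X i - MvPolynomial.C (θ i)) (actk a (x : Y)) =
        actk (MvPolynomial.X i - MvPolynomial.C (θ i)) (actk b (x : Y)) :=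
      (congrArg (fun u => actk (MvPolynomial.X i - MvPolynomial.C (θ i)) u) ha).trans
        ((congrArg (fun z : Cx => (z.1 : Y)) h).trans
          (congrArg (fun u => actk (MvPolynomial.X i - MvPolynomial.C (θ i)) u) hb).symm)
    have hJy : a - b ∈ J y := by
      show actk (a - b) y = 0
      rw [hy, map_sub actk a b, LinearMap.sub_apply, act_comm_apply a, act_comm_apply b, h',
        sub_self]
    have hJx : actk (a - b) (x : Y) = 0 := hge hJy
    rw [map_sub, LinearMap.sub_apply, sub_eq_zero] at hJx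
    exact Subtype.ext (Subtype.ext (ha.symm.trans (hJx.trans hb)))
  obtain ⟨z, hz⟩ := (Finite.injective_iff_surjective.mp hD) ⟨x, 1, by simp⟩
  obtain ⟨a, ha⟩ := z.2
  have h1 : actk (1 - (MvPolynomial.X i - MvPolynomial.C (θ i)) * a) (x : Y) = 0 := by
    rw [map_sub, LinearMap.sub_apply, map_one, Module.End.one_apply, map_mul,
      Module.End.mul_apply, ha, sub_eq_zero]
    exact (congrArg (fun z : Cx => (z.1 : Y)) hz).symm
  refine hx (hinv _ (fun h => ?_) _ x.2 h1)
  have := add_mem h (Ideal.mul_mem_right a _ hXi)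
  rw [sub_add_cancel] at this
  exact (isMaximal_eigIdeal Function.surjective_id θ).ne_top ((Ideal.eq_top_iff_one _).mpr this)

end Eigen

end FLTAgent.Lower.Levels
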