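import Fermat.Agent.Lower.Levels.Hecke
import Fermat.Agent.Lower.Levels.Part

/-!
# Families of Hecke operators and their parts

`famAct` is the action of polynomials in a family of Hecke operators on twisted `H¹`, `h1Part` the
part at given residual eigenvalues; both are natural in the coefficients (`coefMap_famAct`).
-/

set_option autoImplicit false

noncomputable section

open CongruenceSubgroup
open scoped MatrixGroups

namespace FLTAgent.Lower.Levels

open FLTAgent.HeckeH (heckeIdx)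

variable {N : ℕ} {R : Type} [CommRing R] {ι : Type}

theorem famT_comm (ψ : (ZMod N)ˣ →* Rˣ) (pr : ι → Nat.Primes) (A : Type) [AddCommGroup A]
    [Module R A] (i j : ι) :
    heckeOp (pr i).2 ψ A * heckeOp (pr j).2 ψ A = heckeOp (pr j).2 ψ A * heckeOp (pr i).2 ψ A :=
  LinearMap.ext fun x => heckeOp_comm (pr i).2 (pr j).2 ψ x

/-- The polynomial action of the family. -/
def famAct (ψ : (ZMod N)ˣ →* Rˣ) (pr : ι → Nat.Primes) (A : Type) [AddCommGroup A] [Module R A] :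
    MvPolynomial ι R →ₐ[R] Module.End R (H1 R A (chi ψ)) :=
  polyAct (fun i => heckeOp (pr i).2 ψ A) (famT_comm ψ pr A)

theorem famAct_X (ψ : (ZMod N)ˣ →* Rˣ) (pr : ι → Nat.Primes) (A : Type) [AddCommGroup A]
    [Module R A] (i : ι) : famAct ψ pr A (MvPolynomial.X i) = heckeOp (pr i).2 ψ A :=
  polyAct_X _ _ i

/-- The part of `H1` at residual eigenvalues. -/
def h1Part (ψ : (ZMod N)ˣ →* Rˣ) (pr : ι → Nat.Primes) {k : Type} [Field k] (σ : R →+* k)
    (θ : ι → k) (A : Type) [AddCommGroup A] [Module R A] : Submodule R (H1 R A (chi ψ)) :=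
  part (famAct ψ pr A) (eigIdeal σ θ)

variable {R' : Type} [CommRing R'] {σ : R →+* R'} {A B : Type} [AddCommGroup A] [Module R A]
  [AddCommGroup B] [Module R' B] {ψ : (ZMod N)ˣ →* Rˣ} {ψ' : (ZMod N)ˣ →* R'ˣ}

theorem map_chi (hψ : ∀ u, σ (ψ u : R) = (ψ' u : R')) (γ : Gamma0 N) :
    σ (chi ψ γ : R) = (chi ψ' γ : R') := hψ _

/-- Change of coefficients. -/
abbrev coefMap (f : A →ₛₗ[σ] B) (hψ : ∀ u, σ (ψ u : R) = (ψ' u : R')) :
    H1 R A (chi ψ) →ₛₗ[σ] H1 R' B (chi ψ') :=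
  H1.mapCoef f (map_chi hψ)

theorem coefMap_heckeOp (f : A →ₛₗ[σ] B) (hψ : ∀ u, σ (ψ u : R) = (ψ' u : R')) {ℓ : ℕ}
    (hℓ : ℓ.Prime) (x : H1 R A (chi ψ)) :
    coefMap f hψ (heckeOp hℓ ψ A x) = heckeOp hℓ ψ' B (coefMap f hψ x) :=
  H1.mapCoef_map f _ _ (heckeSys hℓ ψ) (heckeSys hℓ ψ') (inj_heckeSys hℓ ψ') (fun _ => rfl)
    (fun i => (hψ (heckeUnit hℓ i)).symm) x

theorem coefMap_famAct (f : A →ₛₗ[σ] B) (hψ : ∀ u, σ (ψ u : R) = (ψ' u : R'))
    (pr : ι → Nat.Primes) (s : MvPolynomial ι R) (x : H1 R A (chi ψ)) :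
    coefMap f hψ (famAct ψ pr A s x) =
      famAct ψ' pr B (MvPolynomial.map σ s) (coefMap f hψ x) := by
  induction s using MvPolynomial.induction_on generalizing x with
  | C a =>
    rw [MvPolynomial.map_C, MvPolynomial.algHom_C, MvPolynomial.algHom_C,
      Module.algebraMap_end_apply, Module.algebraMap_end_apply, LinearMap.map_smulₛₗ]
  | add a b ha hb =>
    rw [map_add, LinearMap.add_apply, map_add, ha, hb, map_add (MvPolynomial.map σ), map_add,
      LinearMap.add_apply]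
  | mul_X a i ha =>
    rw [map_mul, Module.End.mul_apply, ha, famAct_X, coefMap_heckeOp, map_mul, MvPolynomial.map_X,
      map_mul, Module.End.mul_apply, famAct_X]

theorem comap_eigIdeal {k : Type} [Field k] (σ₁ : R' →+* k) (θ : ι → k) (σ : R →+* R') :
    (eigIdeal σ₁ θ).comap (MvPolynomial.map σ) = eigIdeal (σ₁.comp σ) θ := by
  ext s
  rw [Ideal.mem_comap, mem_eigIdeal, mem_eigIdeal, MvPolynomial.coe_eval₂Hom,
    MvPolynomial.coe_eval₂Hom, MvPolynomial.eval₂_map]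

theorem H1.mapCoef_comp {C : Type} [AddCommGroup C] [Module R C] {χ : Gamma0 N →* Rˣ}
    {A₁ : Type} [AddCommGroup A₁] [Module R A₁] (f : A →ₗ[R] A₁) (g : A₁ →ₗ[R] C)
    (x : H1 R A χ) :
    H1.mapCoef g (fun _ => rfl) (H1.mapCoef f (fun _ => rfl) x : H1 R A₁ χ) =
      (H1.mapCoef (g.comp f) (fun _ => rfl) x : H1 R C χ) := by
  induction x using Submodule.Quotient.induction_on with
  | _ c => rfl

theorem H1.mapCoef_add {A₁ : Type} [AddCommGroup A₁] [Module R A₁] {χ : Gamma0 N →* Rˣ}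
    (f g : A →ₗ[R] A₁) (x : H1 R A χ) :
    (H1.mapCoef (f + g) (fun _ => rfl) x : H1 R A₁ χ) =
      H1.mapCoef f (fun _ => rfl) x + H1.mapCoef g (fun _ => rfl) x := by
  induction x using Submodule.Quotient.induction_on with
  | _ c => rfl

theorem H1.mapCoef_smul {A₁ : Type} [AddCommGroup A₁] [Module R A₁] {χ : Gamma0 N →* Rˣ}
    (r : R) (f : A →ₗ[R] A₁) (x : H1 R A χ) :
    (H1.mapCoef (r • f) (fun _ => rfl) x : H1 R A₁ χ) = r • H1.mapCoef f (fun _ => rfl) x := by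
  induction x using Submodule.Quotient.induction_on with
  | _ c => rfl

theorem H1.mapCoef_zero {A₁ : Type} [AddCommGroup A₁] [Module R A₁] {χ : Gamma0 N →* Rˣ}
    (x : H1 R A χ) : (H1.mapCoef (0 : A →ₗ[R] A₁) (fun _ => rfl) x : H1 R A₁ χ) = 0 := by
  induction x using Submodule.Quotient.induction_on with
  | _ c => rfl

theorem sum_weight_heckeSys {ℓ : ℕ} (hℓ : ℓ.Prime) (ψ : (ZMod N)ˣ →* Rˣ) (hℓN : ¬ ℓ ∣ N) :
    ∑ i, (heckeSys hℓ ψ).w i = (ψ (primeUnit N hℓ) : R) + (ℓ : R) := by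
  rw [Fintype.sum_equiv (Equiv.subtypeUnivEquiv (fun _ _ => hℓN) : heckeIdx N ℓ ≃ Option (Fin ℓ))
    _ (fun o => match o with | none => (ψ (primeUnit N hℓ) : R) | some _ => 1) fun i => by
      obtain ⟨_ | j, h⟩ := i <;> simp [heckeUnit]]
  simp [Fintype.sum_option]

end FLTAgent.Lower.Levels
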