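import Fermat.Agent.Lower.Levels.Coh
import Fermat.Agent.Lower.Levels.Family

/-!
# Twists on cohomology

`twistSys`: the twist by a character `η` modulo `v`.  It intertwines `T_ℓ` with `η(ℓ)⁻¹ T_ℓ`
(`twist_heckeOp`), composes for coprime moduli up to a scalar (`twist_comp`), and at a prime it is
injective up to torsion for an even character of odd order
(`exists_nsmul_eq_zero_of_twist_eq_zero`), by an argument with unipotents and the torus modulo `v`
(`eq_zero_of_twist_sum`).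
-/

set_option autoImplicit false

noncomputable section

open CongruenceSubgroup
open scoped MatrixGroups

namespace FLTAgent.Lower.Levels

open FLTAgent.HeckeH (M2 matOf matOf_mul mkGamma0 matOf_mkGamma0 matOf_dvd det_entries heckeIdx
  heckeBeta heckeBeta_some heckeBeta_none matOf_injective)

/-- Scaling the weights of a system. -/
def Sys.scale {N M : ℕ} {R ι : Type} [CommRing R] {χ : Gamma0 N →* Rˣ} {χ' : Gamma0 M →* Rˣ}
    (r : R) (S : Sys R ι χ χ') : Sys R ι χ χ' where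
  β := S.β
  det_ne := S.det_ne
  coc := S.coc
  perm := S.perm
  spec := S.spec
  coc_mul := S.coc_mul
  w i := r * S.w i
  compat γ i := by linear_combination r * S.compat γ i

@[simp] theorem Sys.scale_β {N M : ℕ} {R ι : Type} [CommRing R] {χ : Gamma0 N →* Rˣ}
    {χ' : Gamma0 M →* Rˣ} (r : R) (S : Sys R ι χ χ') : (S.scale r).β = S.β := rfl

@[simp] theorem Sys.scale_w {N M : ℕ} {R ι : Type} [CommRing R] {χ : Gamma0 N →* Rˣ}
    {χ' : Gamma0 M →* Rˣ} (r : R) (S : Sys R ι χ χ') (i : ι) : (S.scale r).w i = r * S.w i := rfl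

theorem Sys.scale_map {N M : ℕ} {R ι : Type} [CommRing R] [Fintype ι] {A : Type} [AddCommGroup A]
    [Module R A] {χ : Gamma0 N →* Rˣ} {χ' : Gamma0 M →* Rˣ} (r : R) (S : Sys R ι χ χ')
    (x : H1 R A χ) : (S.scale r).map A x = r • S.map A x := by
  induction x using Submodule.Quotient.induction_on with
  | _ c =>
    rw [Sys.map_mk, Sys.map_mk, ← Submodule.Quotient.mk_smul]
    refine congrArg Submodule.Quotient.mk (Subtype.ext (funext fun γ => ?_))
    simp only [Sys.coe_op, Submodule.coe_smul, Pi.smul_apply, Finset.smul_sum, smul_smul]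
    rfl

theorem dUnit_trans {N m m' : ℕ} (hm : m ∣ N) (h : m' ∣ m) (γ : Gamma0 N) :
    ZMod.unitsMap h (dUnit hm γ) = dUnit (h.trans hm) γ :=
  Units.ext (by
    show ZMod.castHom h (ZMod m') ((matOf γ 1 1 : ℤ) : ZMod m) = _
    rw [map_intCast]; rfl)

variable {N M : ℕ} {v : ℕ} [NeZero v] {R : Type} [CommRing R] {A : Type} [AddCommGroup A]
  [Module R A]

theorem transMat_inj (δ : Gamma0 N) (u u' : (ZMod v)ˣ)
    (h : transMat v (u : ZMod v) = matOf δ * transMat v (u' : ZMod v)) : u = u' := by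
  have hv : (0 : ℤ) < v := by exact_mod_cast Nat.pos_of_ne_zero (NeZero.ne v)
  obtain ⟨-, -, hd, -⟩ := eq_of_triangular hv hv h
  rw [← ZMod.intCast_zmod_eq_zero_iff_dvd] at hd
  push_cast at hd
  rw [ZMod.natCast_zmod_val, ZMod.natCast_zmod_val, sub_eq_zero] at hd
  exact Units.ext hd

section Def

/-- The characters are related by the square of `η`. -/
def TwistRel (_hvN : v ∣ N) (hM : N * v ∣ M) (η : (ZMod v)ˣ →* Rˣ) (ψ : (ZMod N)ˣ →* Rˣ)
    (ψ' : (ZMod M)ˣ →* Rˣ) : Prop :=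
  ∀ x : (ZMod M)ˣ, ψ (ZMod.unitsMap ((dvd_mul_right N v).trans hM) x) *
    η (ZMod.unitsMap ((dvd_mul_left v N).trans hM) x) ^ 2 = ψ' x

variable {hvN : v ∣ N} {hM : N * v ∣ M} {η : (ZMod v)ˣ →* Rˣ} {ψ : (ZMod N)ˣ →* Rˣ}
  {ψ' : (ZMod M)ˣ →* Rˣ}

/-- The twist at `v`. -/
def twistSys (h : TwistRel hvN hM η ψ ψ') : Sys R (ZMod v)ˣ (chi ψ) (chi ψ') :=
  Sys.mk' (fun u => transMat v (u : ZMod v))
    (fun u => by simp [transMat, Matrix.det_fin_two_of, NeZero.ne v])
    transMat_inj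
    (fun γ u => ⟨twistElt hvN hM γ u, u * dUnit ((dvd_mul_left v N).trans hM) γ ^ 2, by
      rw [transMat_mul hvN hM, twistIdx, Units.val_mul, Units.val_pow_eq_pow_val, coe_dUnit]⟩)
    (fun u => ((η u)⁻¹ : Rˣ)) fun γ u δ j hj => by
      have hu := Sys.unique_of_inj (β := fun u : (ZMod v)ˣ => transMat v (u : ZMod v))
        (fun u => by simp [transMat, Matrix.det_fin_two_of, NeZero.ne v]) transMat_inj
        (δ := twistElt hvN hM γ u) (j := u * dUnit ((dvd_mul_left v N).trans hM) γ ^ 2) (δ' := δ)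
        (j' := j) (by
          rw [← hj, transMat_mul hvN hM, twistIdx, Units.val_mul, Units.val_pow_eq_pow_val,
            coe_dUnit])
      obtain ⟨rfl, rfl⟩ := hu
      rw [← Units.val_mul, ← Units.val_mul]
      refine congrArg Units.val ?_
      rw [MonoidHom.comp_apply, MonoidHom.comp_apply, coe_dUnit_twistElt,
        ← h (dUnit dvd_rfl γ), dUnit_trans, dUnit_trans, map_mul, map_pow, mul_inv_rev]
      rw [mul_comm (ψ _) (η _ ^ 2), mul_assoc, mul_comm (ψ _), ← mul_assoc, ← mul_assoc,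
        mul_inv_cancel, one_mul, mul_comm]

theorem inj_twistSys (h : TwistRel hvN hM η ψ ψ') : (twistSys h).Inj := transMat_inj

theorem twistSys_coc (h : TwistRel hvN hM η ψ ψ') (γ : Gamma0 M) (u : (ZMod v)ˣ) :
    (twistSys h).coc γ u = twistElt hvN hM γ u :=
  ((twistSys h).eq_of_mul (inj_twistSys h) (j := u * dUnit ((dvd_mul_left v N).trans hM) γ ^ 2) (by
    show transMat v (u : ZMod v) * _ = _ * transMat v _
    rw [transMat_mul hvN hM, twistIdx, Units.val_mul, Units.val_pow_eq_pow_val, coe_dUnit])).1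

theorem coe_twistSys_op (h : TwistRel hvN hM η ψ ψ') (c : Z1 R A (chi ψ)) :
    ((twistSys h).op c : Gamma0 M → A) = twistFun hvN hM η (c : Gamma0 N → A) := by
  funext γ
  rw [Sys.coe_op, twistFun_apply]
  exact Finset.sum_congr rfl fun u _ => by rw [twistSys_coc]; rfl

/-- The twist intertwines `T_ℓ` with `η(ℓ)⁻¹ T_ℓ`. -/
theorem twist_heckeOp (h : TwistRel hvN hM η ψ ψ') {ℓ : ℕ} (hℓ : ℓ.Prime) (hℓv : ¬ ℓ ∣ v)
    (hℓM : ℓ ∣ M → ℓ ∣ N) (x : H1 R A (chi ψ)) :
    (twistSys h).map A (heckeOp hℓ ψ A x) =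
      ((η (primeUnit v hℓ))⁻¹ : Rˣ).val • heckeOp hℓ ψ' A ((twistSys h).map A x) := by
  rw [heckeOp, heckeOp, ← Sys.map_comp, ← Sys.map_comp, ← Sys.scale_map]
  set pu := primeUnit v hℓ with hpu
  have hpu' : (pu : ZMod v) = (ℓ : ZMod v) := coe_primeUnit hℓ hℓv
  have hv0 : (v : ℤ) ≠ 0 := by exact_mod_cast NeZero.ne v
  have hNv : ∀ o : Option (Fin ℓ), (o = none → ¬ ℓ ∣ N) → (o = none → ¬ ℓ ∣ M) :=
    fun o ho h0 hM' => ho h0 (hℓM hM')
  set S := (heckeSys hℓ ψ).comp (twistSys h)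
  set T := ((twistSys h).comp (heckeSys hℓ ψ')).scale ((η pu)⁻¹ : Rˣ).val
  have hSinj : S.Inj := by
    intro δ p q hpq
    obtain ⟨⟨_ | a, ha⟩, u⟩ := p <;> obtain ⟨⟨_ | b, hb⟩, u'⟩ := q
    all_goals
      simp only [S, Sys.comp_β, heckeSys_β, heckeBeta_none, heckeBeta_some, twistSys, Sys.mk'_β,
        transMat, Matrix.mul_fin_two, mul_zero, zero_mul, add_zero, zero_add, one_mul] at hpq
    all_goals
      obtain ⟨h1, -, h3, -⟩ := eq_of_triangular
        (by have := hℓ.pos; have := Nat.pos_of_ne_zero (NeZero.ne v); positivity)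
        (by have := hℓ.pos; have := Nat.pos_of_ne_zero (NeZero.ne v); positivity) hpq
    · rw [← mul_sub, ← ZMod.intCast_zmod_eq_zero_iff_dvd] at h3
      push_cast at h3
      rw [ZMod.natCast_zmod_val, ZMod.natCast_zmod_val, ← hpu'] at h3
      exact Prod.ext rfl (Units.ext (sub_eq_zero.mp ((Units.mul_right_eq_zero _).mp h3)))
    · have h1' : ℓ * v = v := by exact_mod_cast h1
      exact absurd ((Nat.mul_eq_right (NeZero.ne v)).mp h1') hℓ.ne_one
    · have h1' : ℓ * v = v := by exact_mod_cast h1.symm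
      exact absurd ((Nat.mul_eq_right (NeZero.ne v)).mp h1') hℓ.ne_one
    · obtain ⟨t, ht⟩ := h3
      have hu : u = u' := by
        have h4 := congrArg (fun z : ℤ => (z : ZMod v)) ht
        push_cast at h4
        simp only [ZMod.natCast_self, mul_zero, zero_mul, add_zero, ZMod.natCast_zmod_val] at h4
        exact Units.ext (sub_eq_zero.mp h4)
      subst hu
      have h5 : ((a : ℕ) : ℤ) - (b : ℕ) = (ℓ : ℤ) * t := by
        refine mul_right_cancel₀ hv0 ?_
        linear_combination ht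
      have hab : ((a : ℕ) : ℤ) - (b : ℕ) = 0 := Int.eq_zero_of_abs_lt_dvd ⟨t, h5⟩ (by
        rw [abs_lt]; have := a.2; have := b.2; omega)
      exact Prod.ext (Subtype.ext (congrArg some (Fin.ext (by omega)))) rfl
  have hex : ∀ p : heckeIdx N ℓ × (ZMod v)ˣ, ∃ (q : (ZMod v)ˣ × heckeIdx M ℓ) (k : ℤ),
      S.β p = matOf (gammaT N k) * T.β q ∧ T.w q = S.w p := by
    rintro ⟨⟨_ | j, hj⟩, u⟩
    · obtain ⟨k, hk⟩ : (v : ℤ) ∣ (ℓ : ℤ) * (u : ZMod v).val - ((pu * u : (ZMod v)ˣ) : ZMod v).val := by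
        rw [← ZMod.intCast_zmod_eq_zero_iff_dvd]
        push_cast
        rw [ZMod.natCast_zmod_val, ZMod.natCast_zmod_val, hpu', sub_self]
      refine ⟨(pu * u, ⟨none, hNv none hj⟩), k, ?_, ?_⟩
      · simp only [S, T, Sys.comp_β, Sys.scale_β, heckeSys_β, twistSys, Sys.mk'_β]
        rw [heckeBeta_none, heckeBeta_none, transMat, transMat, gammaT, matOf_mkGamma0]
        simp only [Matrix.mul_fin_two]
        refine Matrix.ext (Fin.forall_fin_two.mpr ⟨Fin.forall_fin_two.mpr ⟨?_, ?_⟩,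
          Fin.forall_fin_two.mpr ⟨?_, ?_⟩⟩) <;> simp [-ZMod.natCast_val] <;>
          first | ring1 | linear_combination hk
      · show ((η pu)⁻¹ : Rˣ).val * (((η (pu * u))⁻¹ : Rˣ).val *
          (ψ' (heckeUnit hℓ ⟨none, hNv none hj⟩) : R)) =
            (ψ (heckeUnit hℓ (⟨none, hj⟩ : heckeIdx N ℓ)) : R) * ((η u)⁻¹ : Rˣ).val
        simp only [← Units.val_mul, heckeUnit]
        refine congrArg Units.val ?_
        have e1 : ZMod.unitsMap ((dvd_mul_right N v).trans hM) (primeUnit M hℓ) = primeUnit N hℓ := by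
          refine Units.ext ?_
          rw [ZMod.unitsMap_def, Units.coe_map, coe_primeUnit hℓ (hj rfl)]
          show ZMod.castHom ((dvd_mul_right N v).trans hM) (ZMod N)
            (primeUnit M hℓ : ZMod M) = _
          rw [coe_primeUnit hℓ (hNv none hj rfl), map_natCast]
        have e2 : ZMod.unitsMap ((dvd_mul_left v N).trans hM) (primeUnit M hℓ) = pu := by
          refine Units.ext ?_
          rw [ZMod.unitsMap_def, Units.coe_map, hpu']
          show ZMod.castHom ((dvd_mul_left v N).trans hM) (ZMod v) (primeUnit M hℓ : ZMod M) = _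
          rw [coe_primeUnit hℓ (hNv none hj rfl), map_natCast]
        rw [← h (primeUnit M hℓ), e1, e2, map_mul, mul_inv_rev, sq]
        calc (η pu)⁻¹ * ((η u)⁻¹ * (η pu)⁻¹ * (ψ (primeUnit N hℓ) * (η pu * η pu)))
            = ((η pu)⁻¹ * η pu) * ((η pu)⁻¹ * η pu) * (ψ (primeUnit N hℓ) * (η u)⁻¹) := by ac_rfl
          _ = _ := by rw [inv_mul_cancel, one_mul, one_mul]
    · obtain ⟨x, hx⟩ : ∃ x : (ZMod v)ˣ, x = pu⁻¹ * u := ⟨_, rfl⟩
      obtain ⟨z, hz⟩ : (v : ℤ) ∣ ((u : ZMod v).val : ℤ) + (j : ℕ) * v - (x : ZMod v).val * ℓ := by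
        rw [← ZMod.intCast_zmod_eq_zero_iff_dvd]
        push_cast
        rw [ZMod.natCast_zmod_val, ZMod.natCast_zmod_val, ZMod.natCast_self, mul_zero, add_zero,
          ← hpu', hx, mul_comm pu⁻¹ u, Units.val_mul, mul_assoc, ← Units.val_mul, inv_mul_cancel,
          Units.val_one, mul_one, sub_self]
      have : NeZero ℓ := ⟨hℓ.ne_zero⟩
      have hy : 0 ≤ z % (ℓ : ℤ) ∧ z % (ℓ : ℤ) < ℓ :=
        ⟨Int.emod_nonneg _ (by exact_mod_cast hℓ.ne_zero),
          Int.emod_lt_of_pos _ (by exact_mod_cast hℓ.pos)⟩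
      refine ⟨(x, ⟨some ⟨(z % (ℓ : ℤ)).toNat, by omega⟩, fun e => by simp at e⟩), z / (ℓ : ℤ),
        ?_, ?_⟩
      · simp only [S, T, Sys.comp_β, Sys.scale_β, heckeSys_β, twistSys, Sys.mk'_β]
        rw [heckeBeta_some, heckeBeta_some, transMat, transMat, gammaT, matOf_mkGamma0]
        simp only [Matrix.mul_fin_two]
        have hnat : (((z % (ℓ : ℤ)).toNat : ℕ) : ℤ) = z % (ℓ : ℤ) := Int.toNat_of_nonneg hy.1
        refine Matrix.ext (Fin.forall_fin_two.mpr ⟨Fin.forall_fin_two.mpr ⟨?_, ?_⟩,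
          Fin.forall_fin_two.mpr ⟨?_, ?_⟩⟩) <;>
          simp only [Fin.isValue, Fin.zero_eta, Fin.mk_one, Matrix.cons_val', Matrix.cons_val_zero,
            Matrix.cons_val_one, Matrix.cons_val_fin_one, Matrix.of_apply, hnat] <;>
          first
            | ring1
            | linear_combination hz + (v : ℤ) * (Int.emod_add_mul_ediv z ℓ).symm
      · show ((η pu)⁻¹ : Rˣ).val * (((η x)⁻¹ : Rˣ).val * (ψ' 1 : R)) =
          (ψ 1 : R) * ((η u)⁻¹ : Rˣ).val
        rw [map_one, map_one, Units.val_one, mul_one, one_mul, hx, map_mul, mul_inv_rev, map_inv,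
          inv_inv, ← Units.val_mul, ← mul_assoc, mul_comm (η pu)⁻¹, mul_assoc, inv_mul_cancel,
          mul_one]
  choose e k he hw using hex
  have hcard : Fintype.card (heckeIdx N ℓ × (ZMod v)ˣ) =
      Fintype.card ((ZMod v)ˣ × heckeIdx M ℓ) := by
    rw [Fintype.card_prod, Fintype.card_prod, mul_comm]
    congr 1
    refine Fintype.card_congr (Equiv.subtypeEquivRight fun o => ⟨hNv o, fun ho h0 hN' => ho h0 ?_⟩)
    exact hN'.trans ((dvd_mul_right N v).trans hM)
  have hinj : Function.Injective e := by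
    intro p q hpq
    refine hSinj (gammaT N (k p) * (gammaT N (k q))⁻¹) p q ?_
    rw [he p, he q, hpq, ← Matrix.mul_assoc, ← matOf_mul, inv_mul_cancel_right]
  have hTinj : T.Inj := by
    have hbij : Function.Bijective e :=
      (Fintype.bijective_iff_injective_and_card e).mpr ⟨hinj, hcard⟩
    intro δ a b hab
    obtain ⟨p, rfl⟩ := hbij.2 a
    obtain ⟨q, rfl⟩ := hbij.2 b
    refine congrArg e (hSinj (gammaT N (k p) * δ * (gammaT N (k q))⁻¹) p q ?_)
    rw [he p, he q, hab, matOf_mul, matOf_mul, Matrix.mul_assoc, Matrix.mul_assoc,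
      ← Matrix.mul_assoc (matOf (gammaT N (k q))⁻¹), ← matOf_mul, inv_mul_cancel,
      FLTAgent.HeckeH.matOf_one, Matrix.one_mul]
  exact LinearMap.congr_fun (Sys.map_eq_of_translate S T hTinj (chi_gammaT ψ)
    (Equiv.ofBijective e ((Fintype.bijective_iff_injective_and_card e).mpr ⟨hinj, hcard⟩)) k he hw) x

end Def

/-- Twists at coprime moduli compose, up to the scalar `η (v + w)`. -/
theorem twist_comp {M₁ w : ℕ} [NeZero w] (hco : Nat.Coprime v w)
    {hvN : v ∣ N} {hM₁ : N * v ∣ M₁} {hwM₁ : w ∣ M₁} {hM : M₁ * w ∣ M}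
    {hvwN : v * w ∣ N} {hM' : N * (v * w) ∣ M} (η : (ZMod (v * w))ˣ →* Rˣ)
    {ηv : (ZMod v)ˣ →* Rˣ} {ηw : (ZMod w)ˣ →* Rˣ}
    (hη : ∀ u, η u = ηv (ZMod.unitsMap (dvd_mul_right v w) u) * ηw (ZMod.unitsMap (dvd_mul_left w v) u))
    {ψ : (ZMod N)ˣ →* Rˣ} {ψ₁ : (ZMod M₁)ˣ →* Rˣ} {ψ' : (ZMod M)ˣ →* Rˣ}
    (h₁ : TwistRel hvN hM₁ ηv ψ ψ₁) (h₂ : TwistRel hwM₁ hM ηw ψ₁ ψ')
    (h : TwistRel hvwN hM' η ψ ψ') (x : H1 R A (chi ψ)) :
    (twistSys h₂).map A ((twistSys h₁).map A x) =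
      ((ηv (ZMod.unitOfCoprime w (Nat.coprime_comm.mp hco)) *
        ηw (ZMod.unitOfCoprime v hco) : Rˣ) : R) • (twistSys h).map A x := by
  rw [← Sys.map_comp, ← Sys.scale_map]
  have : NeZero (v * w) := inferInstance
  set cv := ZMod.unitOfCoprime w (Nat.coprime_comm.mp hco)
  set cw := ZMod.unitOfCoprime v hco
  let E : (ZMod v)ˣ × (ZMod w)ˣ ≃ (ZMod (v * w))ˣ :=
    (((Units.mapEquiv (ZMod.chineseRemainder hco).toMulEquiv).trans MulEquiv.prodUnits).symm.toEquiv)
  have hE : ∀ p, ZMod.unitsMap (dvd_mul_right v w) (E p) = p.1 ∧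
      ZMod.unitsMap (dvd_mul_left w v) (E p) = p.2 := by
    intro p
    have h0 : MulEquiv.prodUnits (Units.mapEquiv (ZMod.chineseRemainder hco).toMulEquiv (E p)) = p :=
      (((Units.mapEquiv (ZMod.chineseRemainder hco).toMulEquiv).trans
        MulEquiv.prodUnits)).apply_symm_apply p
    have h1 := congrArg (fun q : (ZMod v)ˣ × (ZMod w)ˣ => (q.1 : ZMod v)) h0
    have h2 := congrArg (fun q : (ZMod v)ˣ × (ZMod w)ˣ => (q.2 : ZMod w)) h0
    refine ⟨Units.ext ?_, Units.ext ?_⟩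
    · rw [ZMod.unitsMap_def, Units.coe_map]
      refine Eq.trans ?_ h1
      exact (RingHom.congr_fun (Subsingleton.elim (ZMod.castHom (dvd_mul_right v w) (ZMod v))
        ((RingHom.fst _ _).comp (ZMod.chineseRemainder hco).toRingHom)) _)
    · rw [ZMod.unitsMap_def, Units.coe_map]
      refine Eq.trans ?_ h2
      exact (RingHom.congr_fun (Subsingleton.elim (ZMod.castHom (dvd_mul_left w v) (ZMod w))
        ((RingHom.snd _ _).comp (ZMod.chineseRemainder hco).toRingHom)) _)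
  -- `v b + a w` modulo `v w`
  let e : (ZMod v)ˣ × (ZMod w)ˣ ≃ (ZMod (v * w))ˣ :=
    ((Equiv.mulRight cv).prodCongr (Equiv.mulRight cw)).trans E
  have hdvd : ∀ p : (ZMod v)ˣ × (ZMod w)ˣ, ((v * w : ℕ) : ℤ) ∣
      (v : ℤ) * (p.2 : ZMod w).val + (p.1 : ZMod v).val * w - ((e p : ZMod (v * w)).val : ℤ) := by
    intro p
    obtain ⟨e1, e2⟩ := hE ((p.1 * cv, p.2 * cw))
    have e1' := congrArg Units.val e1
    have e2' := congrArg Units.val e2
    rw [ZMod.unitsMap_def, Units.coe_map] at e1' e2'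
    push_cast
    refine IsCoprime.mul_dvd (Nat.isCoprime_iff_coprime.mpr hco) ?_ ?_
    · rw [← ZMod.intCast_zmod_eq_zero_iff_dvd]
      push_cast
      rw [ZMod.natCast_self, zero_mul, zero_add, ZMod.natCast_zmod_val, sub_eq_zero,
        ZMod.natCast_val]
      exact (e1'.trans (by rw [Units.val_mul, ZMod.coe_unitOfCoprime])).symm
    · rw [← ZMod.intCast_zmod_eq_zero_iff_dvd]
      push_cast
      rw [ZMod.natCast_self, mul_zero, add_zero, ZMod.natCast_zmod_val, sub_eq_zero,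
        ZMod.natCast_val, mul_comm]
      exact (e2'.trans (by rw [Units.val_mul, ZMod.coe_unitOfCoprime])).symm
  choose k hk using hdvd
  refine LinearMap.congr_fun (Sys.map_eq_of_translate ((twistSys h₁).comp (twistSys h₂))
    ((twistSys h).scale ((ηv cv * ηw cw : Rˣ) : R)) (inj_twistSys h) (chi_gammaT ψ) e k
    (fun p => ?_) fun p => ?_) x
  · show transMat v (p.1 : ZMod v) * transMat w (p.2 : ZMod w) =
      matOf (gammaT N (k p)) * transMat (v * w) (e p : ZMod (v * w))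
    rw [transMat, transMat, transMat, gammaT, matOf_mkGamma0]
    have := hk p
    push_cast at this
    refine Matrix.ext (Fin.forall_fin_two.mpr ⟨Fin.forall_fin_two.mpr ⟨?_, ?_⟩,
      Fin.forall_fin_two.mpr ⟨?_, ?_⟩⟩) <;>
      simp [-ZMod.natCast_val, Matrix.mul_apply, Fin.sum_univ_two] <;>
      first | ring1 | linear_combination this
  · show ((ηv cv * ηw cw : Rˣ) : R) * ((η (e p))⁻¹ : Rˣ).val =
      ((ηv p.1)⁻¹ : Rˣ).val * ((ηw p.2)⁻¹ : Rˣ).val
    rw [← Units.val_mul, ← Units.val_mul]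
    refine congrArg Units.val ?_
    obtain ⟨e1, e2⟩ := hE ((p.1 * cv, p.2 * cw))
    rw [hη, show e p = E (p.1 * cv, p.2 * cw) from rfl, e1, e2, map_mul, map_mul, mul_inv_rev,
      mul_inv_rev, mul_inv_rev]
    calc ηv cv * ηw cw * ((ηw cw)⁻¹ * (ηw p.2)⁻¹ * ((ηv cv)⁻¹ * (ηv p.1)⁻¹))
        = (ηv cv * (ηv cv)⁻¹) * (ηw cw * (ηw cw)⁻¹) * ((ηv p.1)⁻¹ * (ηw p.2)⁻¹) := by ac_rfl
      _ = _ := by rw [mul_inv_cancel, mul_inv_cancel, one_mul, one_mul]

section Rep

variable {X : Type} [AddCommGroup X] [Module R X] [IsAddTorsionFree X]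

/-- A vector fixed by lower unipotents, an eigenvector of the torus by `η²`, and killed by the
`η`-twisted sum of upper unipotents vanishes. -/
theorem eq_zero_of_twist_sum (hv : v.Prime) (η : (ZMod v)ˣ →* Rˣ) (hneg : η (-1) = 1)
    (n n' : Multiplicative (ZMod v) →* Module.End R X) (φ : X)
    (hn' : ∀ b, n' b φ = φ)
    (htor : ∀ a : (ZMod v)ˣ, ∀ x : X, x = φ →
      (n (.ofAdd (a : ZMod v)) * n' (.ofAdd (-(a⁻¹ : (ZMod v)ˣ) : ZMod v)) *
        n (.ofAdd (a : ZMod v)) *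
        (n (.ofAdd (-1)) * n' (.ofAdd 1) * n (.ofAdd (-1)))) x = ((η a)⁻¹ : Rˣ).val ^ 2 • x)
    (hsum : ∑ u : (ZMod v)ˣ, ((η u)⁻¹ : Rˣ).val • n (.ofAdd (u : ZMod v)) φ = 0)
    (hodd : ∃ m : ℕ, ∀ a, η a ^ (2 * m + 1) = 1) : φ = 0 := by
  classical
  have : Fact v.Prime := ⟨hv⟩
  set P : X := ∑ b : ZMod v, n (.ofAdd b) φ
  set S : R := ∑ u : (ZMod v)ˣ, (η u : R)
  have hPinv : ∀ a, n (.ofAdd a) P = P := fun a => by
    simp only [P, map_sum, ← Module.End.mul_apply, ← map_mul, ← ofAdd_add]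
    exact Equiv.sum_comp (Equiv.addLeft a) fun b => n (.ofAdd b) φ
  have hn0 : n (.ofAdd 0) φ = φ := by rw [ofAdd_zero, map_one]; rfl
  have hsplit : ∀ f : ZMod v → X, ∑ b, f b = f 0 + ∑ u : (ZMod v)ˣ, f u := by
    intro f
    rw [← Finset.sum_erase_add _ _ (Finset.mem_univ (0 : ZMod v)), add_comm]
    congr 1
    refine Finset.sum_bij' (fun b hb => Units.mk0 b (Finset.mem_erase.mp hb).1) (fun u _ => u)
      (fun _ _ => Finset.mem_univ _) (fun u _ => Finset.mem_erase.mpr ⟨u.ne_zero, Finset.mem_univ _⟩)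
      (fun _ _ => rfl) (fun u _ => Units.ext rfl) fun b hb => rfl
  have hSη : ∀ a, S * (η a : R) = S := fun a => by
    simp only [S, Finset.sum_mul, ← Units.val_mul, ← map_mul]
    exact Equiv.sum_comp (Equiv.mulRight a) fun u => (η u : R)
  have hSη' : ∀ a, S * ((η a)⁻¹ : Rˣ).val = S := fun a => by
    rw [← map_inv]; exact hSη _
  -- the sum against `S`
  have h1 : S • (P - φ) = 0 := by
    have h := congrArg (S • ·) hsum
    simp only [Finset.smul_sum, smul_smul, hSη', smul_zero] at h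
    rw [← h, show P = _ from hsplit fun b => n (.ofAdd b) φ, hn0, add_sub_cancel_left,
      Finset.smul_sum]
  -- the convolution of the sum with its inverse twist
  have h2 : ((v : ℕ) : R) • φ + (S - 1) • P - S • φ = 0 := by
    have h : ∑ t : (ZMod v)ˣ, ∑ u : (ZMod v)ˣ,
        (η t : R) • n (.ofAdd (((t * u : (ZMod v)ˣ) : ZMod v) + (u : ZMod v))) φ = 0 := by
      rw [Finset.sum_comm]
      calc ∑ u : (ZMod v)ˣ, ∑ t : (ZMod v)ˣ,
            (η t : R) • n (.ofAdd (((t * u : (ZMod v)ˣ) : ZMod v) + (u : ZMod v))) φ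
          = ∑ u : (ZMod v)ˣ, ∑ b : (ZMod v)ˣ, (η b : R) •
              n (.ofAdd (b : ZMod v)) (((η u)⁻¹ : Rˣ).val • n (.ofAdd (u : ZMod v)) φ) := by
            refine Finset.sum_congr rfl fun u _ => ?_
            refine Fintype.sum_equiv (Equiv.mulRight u) _ _ fun t => ?_
            rw [Equiv.coe_mulRight, map_smul, smul_smul, ← Module.End.mul_apply, ← map_mul,
              ← ofAdd_add, map_mul, ← Units.val_mul, mul_inv_cancel_right]
        _ = 0 := by
            rw [Finset.sum_comm]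
            simp only [← Finset.smul_sum, ← map_sum, hsum, map_zero, smul_zero,
              Finset.sum_const_zero]
    have hterm : ∀ t : (ZMod v)ˣ, ∑ u : (ZMod v)ˣ,
        (η t : R) • n (.ofAdd (((t * u : (ZMod v)ˣ) : ZMod v) + (u : ZMod v))) φ =
          (η t : R) • (P - φ) +
            (if t = -1 then ((v : ℕ) : R) • φ - P else 0) := by
      intro t
      rcases eq_or_ne t (-1) with rfl | ht
      · rw [if_pos rfl, hneg, Units.val_one, one_smul]
        simp only [one_smul, Units.val_neg, neg_mul, one_mul,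
          neg_add_cancel, hn0, Finset.sum_const, Finset.card_univ, ZMod.card_units]
        rw [← Nat.cast_smul_eq_nsmul R, Nat.cast_sub hv.one_le, Nat.cast_one]
        module
      · rw [if_neg ht, add_zero, ← Finset.smul_sum]
        congr 1
        have ht1 : (t : ZMod v) + 1 ≠ 0 := fun h0 =>
          ht (Units.ext (by rw [Units.val_neg, Units.val_one]; exact eq_neg_of_add_eq_zero_left h0))
        rw [show P = _ from hsplit fun b => n (.ofAdd b) φ, hn0, add_sub_cancel_left]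
        refine Fintype.sum_equiv (Equiv.mulLeft (Units.mk0 _ ht1)) _ _ fun u => ?_
        rw [Equiv.coe_mulLeft, Units.val_mul, Units.val_mul, Units.val_mk0, add_mul, one_mul]
    simp only [hterm, Finset.sum_add_distrib, Finset.sum_ite_eq', Finset.mem_univ, if_true,
      ← Finset.sum_smul] at h
    rw [← h]
    module
  have hSS : S * S = ((v - 1 : ℕ) : R) * S := by
    conv_lhs => rw [show S * S = S * ∑ u : (ZMod v)ˣ, (η u : R) from rfl]
    simp only [Finset.mul_sum, hSη, Finset.sum_const, Finset.card_univ, ZMod.card_units,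
      nsmul_eq_mul]
  have hv1 : (((v - 1 : ℕ) : ℕ) : R) = ((v : ℕ) : R) - 1 := by
    rw [Nat.cast_sub hv.one_le, Nat.cast_one]
  have hne : v - 1 ≠ 0 := by have := hv.two_le; omega
  have hcancel : ∀ (m : ℕ) (x : X), m ≠ 0 → ((m : ℕ) : R) • x = 0 → x = 0 := fun m x hm hx => by
    rw [Nat.cast_smul_eq_nsmul] at hx
    exact (smul_eq_zero_iff_right hm).mp hx
  -- `S φ = 0`
  have h3 : S • φ = 0 := by
    refine hcancel _ _ hne ?_
    have e1 := congrArg (S • ·) h2
    simp only [smul_add, smul_sub, smul_smul, smul_zero, hSS, mul_sub, mul_one, hv1] at e1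
    have e2 := congrArg ((((v : ℕ) : R) - 1 - 1) • ·) h1
    simp only [smul_sub, smul_smul, smul_zero] at e2
    rw [smul_smul, hv1]
    linear_combination (norm := module) e1 - e2
  have h4 : ((v : ℕ) : R) • φ = P := by
    rw [sub_smul, one_smul, show S • P = 0 by
      rw [smul_sub, h3, sub_zero] at h1; exact h1, h3, zero_sub, sub_zero, ← sub_eq_add_neg,
      sub_eq_zero] at h2
    exact h2
  have h5 : ∀ a, n (.ofAdd a) φ = φ := fun a => by
    refine sub_eq_zero.mp (hcancel v _ hv.ne_zero ?_)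
    rw [smul_sub, ← map_smul, h4, hPinv, sub_self]
  have h6 : ∀ a : (ZMod v)ˣ, ((η a)⁻¹ : Rˣ).val ^ 2 • φ = φ := fun a => by
    rw [← htor a φ rfl]
    simp only [Module.End.mul_apply, h5, hn']
  obtain ⟨m, hm⟩ := hodd
  have h7 : ∀ a : (ZMod v)ˣ, (η a : R) • φ = φ := fun a => by
    have hpow : (η a : R) = (((η a)⁻¹ : Rˣ).val ^ 2) ^ m := by
      rw [← pow_mul, ← Units.val_pow_eq_pow_val, inv_pow]
      refine congrArg Units.val (eq_inv_of_mul_eq_one_left ?_)
      rw [← pow_succ']; exact hm a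
    have hfix : ∀ k : ℕ, (((η a)⁻¹ : Rˣ).val ^ 2) ^ k • φ = φ := fun k => by
      induction k with
      | zero => rw [pow_zero, one_smul]
      | succ k ih => rw [pow_succ, mul_smul, h6, ih]
    rw [hpow, hfix]
  refine hcancel _ φ hne ?_
  rw [← h3, Finset.sum_smul, Finset.sum_congr rfl fun a _ => h7 a, Finset.sum_const,
    Finset.card_univ, ZMod.card_units, Nat.cast_smul_eq_nsmul]

end Rep

section Prime

omit [NeZero v] in
/-- Conjugation acts on homomorphisms from `Γ(v) ∩ Γ₁(N₁)` to `A`. -/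
theorem conj_mem (N₁ : ℕ) {g k : SL(2, ℤ)} (hg : g ∈ Gamma1 N₁)
    (hk : k ∈ Gamma v ⊓ Gamma1 N₁) : g * k * g⁻¹ ∈ Gamma v ⊓ Gamma1 N₁ :=
  ⟨(Gamma_normal v).conj_mem k hk.1 g,
    (Gamma1 N₁).mul_mem ((Gamma1 N₁).mul_mem hg hk.2) ((Gamma1 N₁).inv_mem hg)⟩

omit [NeZero v] in
theorem gamma0_apply_eq_zero_of_vanish {χ : Gamma0 N →* Rˣ} (c : Z1 R A χ)
    (H : Subgroup (Gamma0 N)) [H.FiniteIndex] (hH : ∀ h ∈ H, (c : Gamma0 N → A) h = 0) :
    H.index • (Submodule.Quotient.mk c : H1 R A χ) = 0 := by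
  classical
  let : Fintype (Gamma0 N ⧸ H) := Subgroup.fintypeQuotientOfFiniteIndex
  let f : Gamma0 N ⧸ H → A := fun q => (c : Gamma0 N → A) q.out
  have hf : ∀ g : Gamma0 N, f (g : Gamma0 N ⧸ H) = (c : Gamma0 N → A) g := by
    intro g
    obtain ⟨h, hh⟩ := QuotientGroup.mk_out_eq_mul H g
    show (c : Gamma0 N → A) _ = _
    rw [hh, Z1_mul, hH h h.2, smul_zero, add_zero]
  have key : H.index • c = cobd χ (-∑ q, f q) := by
    refine Subtype.ext (funext fun g => ?_)
    have e1 : ∑ q, f (g • q) = ∑ q, f q := Equiv.sum_comp (MulAction.toPerm g) f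
    have e2 : ∀ q : Gamma0 N ⧸ H, f (g • q) = (c : Gamma0 N → A) g + (χ g : R) • f q := by
      intro q
      induction q using QuotientGroup.induction_on with
      | H x => rw [MulAction.Quotient.smul_coe, hf, hf, smul_eq_mul, Z1_mul]
    rw [Finset.sum_congr rfl fun q _ => e2 q, Finset.sum_add_distrib, Finset.sum_const,
      ← Finset.smul_sum, Finset.card_univ, ← Nat.card_eq_fintype_card, ← Subgroup.index] at e1
    rw [cobd_apply, smul_neg, sub_smul, one_smul, neg_sub]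
    exact eq_sub_of_add_eq e1
  rw [← Submodule.Quotient.mk_smul, key, Submodule.Quotient.mk_eq_zero]
  exact ⟨_, rfl⟩

/-- The twist at a prime is injective up to torsion. -/
theorem exists_nsmul_eq_zero_of_twist_eq_zero {N₁ : ℕ} [NeZero N₁] (hv : v.Prime)
    (hvN₁ : ¬ v ∣ N₁) [IsAddTorsionFree A]
    {hvN : v ∣ N₁ * v} {hM : N₁ * v * v ∣ N₁ * v * v} {η : (ZMod v)ˣ →* Rˣ} (hneg : η (-1) = 1)
    (hodd : ∃ m : ℕ, ∀ a, η a ^ (2 * m + 1) = 1)
    {ψ : (ZMod (N₁ * v))ˣ →* Rˣ} (ψ₁ : (ZMod N₁)ˣ →* Rˣ)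
    {ψ' : (ZMod (N₁ * v * v))ˣ →* Rˣ}
    (hψ' : ψ' = ψ₁.comp (ZMod.unitsMap ((dvd_mul_right N₁ v).trans (dvd_mul_right _ v))))
    (h : TwistRel hvN hM η ψ ψ') {x : H1 R A (chi ψ)} (hx : (twistSys h).map A x = 0) :
    ∃ m : ℕ, m ≠ 0 ∧ m • x = 0 := by
  classical
  have : Fact v.Prime := ⟨hv⟩
  induction x using Submodule.Quotient.induction_on with
  | _ c =>
  rw [Sys.map_mk, Submodule.Quotient.mk_eq_zero] at hx
  obtain ⟨a₀, ha₀⟩ := hx
  set K : Subgroup SL(2, ℤ) := Gamma v ⊓ Gamma1 N₁ with hKdef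
  -- `D⁻¹ g D` for `D = diag(v, 1)`
  have hdvd : ∀ {g : SL(2, ℤ)}, g ∈ Gamma1 N₁ → (N₁ : ℤ) ∣ g.1 1 0 ∧
      ((g.1 1 1 : ℤ) : ZMod N₁) = 1 := fun {g} hg => by
    obtain ⟨-, h11, h10⟩ := (Gamma1_mem N₁ g).mp hg
    exact ⟨(ZMod.intCast_zmod_eq_zero_iff_dvd _ N₁).mp h10, h11⟩
  let cj : ∀ g : SL(2, ℤ), g ∈ Gamma1 N₁ → (v : ℤ) ∣ g.1 0 1 → Gamma0 (N₁ * v) :=
    fun g hg hgv => mkGamma0 (g.1 0 0) (g.1 0 1 / v) (g.1 1 0 * v) (g.1 1 1)
      (by
        have := (Matrix.det_fin_two g.1).symm.trans g.2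
        obtain ⟨q, hq⟩ := hgv
        rw [hq, Int.mul_ediv_cancel_left _ (by exact_mod_cast hv.ne_zero)]
        rw [hq] at this
        linear_combination this)
      (by push_cast; exact mul_dvd_mul_right (hdvd hg).1 _)
  have cj_mul : ∀ g g' hg hgv hg' hgv' hgg hggv,
      cj (g * g') hgg hggv = cj g hg hgv * cj g' hg' hgv' := by
    intro g g' hg hgv hg' hgv' hgg hggv
    refine matOf_injective ?_
    have hv0 : (v : ℤ) ≠ 0 := by exact_mod_cast hv.ne_zero
    obtain ⟨q, hq⟩ := hgv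
    obtain ⟨q', hq'⟩ := hgv'
    have hq'' : (g * g').1 0 1 = (v : ℤ) * (g.1 0 0 * q' + q * g'.1 1 1) := by
      rw [Matrix.SpecialLinearGroup.coe_mul, Matrix.mul_apply, Fin.sum_univ_two, hq, hq']; ring
    simp only [cj, matOf_mul, matOf_mkGamma0, hq, hq', hq'', Int.mul_ediv_cancel_left _ hv0,
      Matrix.mul_fin_two]
    refine Matrix.ext (Fin.forall_fin_two.mpr ⟨Fin.forall_fin_two.mpr ⟨?_, ?_⟩,
      Fin.forall_fin_two.mpr ⟨?_, ?_⟩⟩) <;>
      simp [Matrix.SpecialLinearGroup.coe_mul, Matrix.mul_apply, Fin.sum_univ_two, hq, hq'] <;> ring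
  have hKv : ∀ k ∈ K, (v : ℤ) ∣ k.1 0 1 := fun k hk =>
    (ZMod.intCast_zmod_eq_zero_iff_dvd _ v).mp ((Gamma_mem.mp hk.1).2.1)
  have hψ1 : ∀ g hg hgv, ∀ a : (ZMod v)ˣ, ((g.1 1 1 : ℤ) : ZMod v) = (a : ZMod v) →
      chi ψ (cj g hg hgv) = ((η a)⁻¹) ^ 2 := by
    intro g hg hgv a ha
    obtain ⟨x, hx⟩ := ZMod.unitsMap_surjective
      ((dvd_mul_right (N₁ * v) v).trans hM) (dUnit (dvd_refl _) (cj g hg hgv))
    have hcoe : ∀ {m : ℕ} (hm : m ∣ N₁ * v),
        ((ZMod.unitsMap (hm.trans ((dvd_mul_right (N₁ * v) v).trans hM)) x : (ZMod m)ˣ) : ZMod m) =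
          ((g.1 1 1 : ℤ) : ZMod m) := by
      intro m hm
      rw [← ZMod.unitsMap_comp hm ((dvd_mul_right (N₁ * v) v).trans hM), MonoidHom.comp_apply, hx,
        dUnit_trans, coe_dUnit]
      simp [cj]
    have h' := h x
    rw [hψ', MonoidHom.comp_apply, hx,
      show ZMod.unitsMap ((dvd_mul_left v (N₁ * v)).trans hM) x = a from
        Units.ext ((hcoe hvN).trans ha),
      show ZMod.unitsMap ((dvd_mul_right N₁ v).trans (dvd_mul_right _ v)) x = 1 from
        Units.ext ((hcoe (dvd_mul_right N₁ v)).trans (hdvd hg).2), map_one] at h'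
    rw [chi, MonoidHom.comp_apply, inv_pow]
    exact eq_inv_of_mul_eq_one_left h'
  have hKχ : ∀ k (hk : k ∈ K), chi ψ (cj k hk.2 (hKv k hk)) = 1 := fun k hk => by
    rw [hψ1 k hk.2 (hKv k hk) 1 (by rw [Units.val_one]; exact (Gamma_mem.mp hk.1).2.2.2), map_one,
      inv_one, one_pow]
  let φ : Additive K →+ A :=
    AddMonoidHom.mk'
      (fun k => (c : Gamma0 (N₁ * v) → A) (cj (k.toMul : K).1 k.toMul.2.2 (hKv _ k.toMul.2)))
      fun k k' => by
        show (c : Gamma0 (N₁ * v) → A)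
          (cj ((k.toMul : K).1 * (k'.toMul : K).1) (k.toMul * k'.toMul).2.2
            (hKv _ (k.toMul * k'.toMul).2)) = _
        rw [cj_mul _ _ k.toMul.2.2 (hKv _ k.toMul.2) k'.toMul.2.2 (hKv _ k'.toMul.2)
          (k.toMul * k'.toMul).2.2 (hKv _ (k.toMul * k'.toMul).2), Z1_mul,
          hKχ _ k.toMul.2, Units.val_one, one_smul]
  let conj : Gamma1 N₁ → (K →* K) := fun g =>
    { toFun := fun k => ⟨g.1 * k.1 * g.1⁻¹, conj_mem N₁ g.2 k.2⟩
      map_one' := Subtype.ext (by simp)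
      map_mul' := fun k k' => Subtype.ext (by push_cast; group) }
  let act : Gamma1 N₁ → Module.End R (Additive K →+ A) := fun g =>
    { toFun := fun ψ₀ => ψ₀.comp (MonoidHom.toAdditive (conj g))
      map_add' := fun _ _ => rfl
      map_smul' := fun _ _ => rfl }
  have act_mul : ∀ g g', act g * act g' = act (g' * g) := fun g g' =>
    LinearMap.ext fun ψ₀ => AddMonoidHom.ext fun k =>
      congrArg ψ₀ (congrArg Additive.ofMul (Subtype.ext (by
        show g'.1 * (g.1 * (Additive.toMul k).1 * g.1⁻¹) * g'.1⁻¹ =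
          (g'.1 * g.1) * (Additive.toMul k).1 * (g'.1 * g.1)⁻¹
        group)))
  have act_congr : ∀ g g' : Gamma1 N₁,
      Matrix.SpecialLinearGroup.map (Int.castRingHom (ZMod v)) g.1 =
        Matrix.SpecialLinearGroup.map (Int.castRingHom (ZMod v)) g'.1 → act g = act g' := by
    intro g g' hgg
    have hq : g'.1⁻¹ * g.1 ∈ K := ⟨by
      show Matrix.SpecialLinearGroup.map (Int.castRingHom (ZMod v)) (g'.1⁻¹ * g.1) = 1
      rw [map_mul, map_inv, hgg, inv_mul_cancel], (g'⁻¹ * g).2⟩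
    refine LinearMap.ext fun ψ₀ => AddMonoidHom.ext fun k => ?_
    set q : K := ⟨_, hq⟩
    have e : conj g (Additive.toMul k) = conj g' (q * Additive.toMul k * q⁻¹) := Subtype.ext (by
      show g.1 * (Additive.toMul k).1 * g.1⁻¹ =
        g'.1 * ((g'.1⁻¹ * g.1) * (Additive.toMul k).1 * (g'.1⁻¹ * g.1)⁻¹) * g'.1⁻¹
      group)
    show ψ₀ (Additive.ofMul (conj g (Additive.toMul k))) =
      ψ₀ (Additive.ofMul (conj g' (Additive.toMul k)))
    rw [e, (conj g').map_mul, (conj g').map_mul, (conj g').map_inv, ofMul_mul, ofMul_mul,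
      ofMul_inv, map_add, map_add, map_neg]
    abel
  have act_torus : ∀ (g : Gamma1 N₁) (a : (ZMod v)ˣ), (v : ℤ) ∣ g.1.1 0 1 →
      ((g.1.1 1 1 : ℤ) : ZMod v) = (a : ZMod v) → act g φ = ((η a)⁻¹ : Rˣ).val ^ 2 • φ := by
    intro g a hgv ha
    refine AddMonoidHom.ext fun k => ?_
    set kk : K := Additive.toMul k
    show (c : Gamma0 (N₁ * v) → A)
      (cj (g.1 * kk.1 * g.1⁻¹) (conj g kk).2.2 (hKv _ (conj g kk).2)) =
      ((η a)⁻¹ : Rˣ).val ^ 2 • (c : Gamma0 (N₁ * v) → A) (cj kk.1 kk.2.2 (hKv _ kk.2))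
    set h' := cj g.1 g.2 hgv
    set k' := cj kk.1 kk.2.2 (hKv _ kk.2)
    have e : cj (g.1 * kk.1 * g.1⁻¹) (conj g kk).2.2 (hKv _ (conj g kk).2) * h' = h' * k' := by
      have hgk : (v : ℤ) ∣ (g.1 * kk.1).1 0 1 := by
        rw [Matrix.SpecialLinearGroup.coe_mul, Matrix.mul_apply, Fin.sum_univ_two]
        exact dvd_add ((hKv _ kk.2).mul_left _) (hgv.mul_right _)
      rw [← cj_mul g.1 kk.1 g.2 hgv kk.2.2 (hKv _ kk.2) ((Gamma1 N₁).mul_mem g.2 kk.2.2) hgk,
        ← cj_mul (g.1 * kk.1 * g.1⁻¹) g.1 (conj g kk).2.2 (hKv _ (conj g kk).2) g.2 hgv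
          ((Gamma1 N₁).mul_mem (conj g kk).2.2 g.2)
          (by show (v : ℤ) ∣ ((g.1 * kk.1 * g.1⁻¹) * g.1).1 0 1; rwa [inv_mul_cancel_right])]
      simp only [inv_mul_cancel_right]
    have e' := congrArg (fun z => (c : Gamma0 (N₁ * v) → A) z) e
    simp only [Z1_mul] at e'
    rw [← Units.val_pow_eq_pow_val, ← hψ1 g.1 g.2 hgv a ha]
    rw [show chi ψ (cj (g.1 * kk.1 * g.1⁻¹) (conj g kk).2.2 (hKv _ (conj g kk).2)) = 1 from
      hKχ _ (conj g kk).2, Units.val_one, one_smul] at e'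
    rw [add_comm] at e'
    exact add_left_cancel e'
  let up : ℤ → Gamma1 N₁ := fun x => ⟨⟨!![1, x; 0, 1], by simp [Matrix.det_fin_two_of]⟩,
    (Gamma1_mem N₁ _).mpr ⟨by simp, by simp, by simp⟩⟩
  let lo : ℤ → Gamma1 N₁ := fun y => ⟨⟨!![1, 0; (N₁ : ℤ) * y, 1], by simp [Matrix.det_fin_two_of]⟩,
    (Gamma1_mem N₁ _).mpr ⟨by simp, by simp, by simp⟩⟩
  have hN₁ : (N₁ : ZMod v) ≠ 0 := fun h0 => hvN₁ ((ZMod.natCast_eq_zero_iff _ _).mp h0)
  let n : Multiplicative (ZMod v) →* Module.End R (Additive K →+ A) :=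
    { toFun := fun b => act (up (b.toAdd.val : ℤ))
      map_one' := (act_congr _ 1 (Matrix.SpecialLinearGroup.ext _ _ fun i j => by
        fin_cases i <;> fin_cases j <;> simp [up])).trans
          (LinearMap.ext fun ψ₀ => AddMonoidHom.ext fun k => congrArg ψ₀ (congrArg Additive.ofMul
            (show conj 1 k.toMul = k.toMul from Subtype.ext (by simp [conj]))))
      map_mul' := fun b b' => by
        rw [act_mul]
        refine act_congr _ _ (Matrix.SpecialLinearGroup.ext _ _ fun i j => ?_)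
        fin_cases i <;> fin_cases j <;>
          simp [up, Matrix.mul_apply, Fin.sum_univ_two, add_comm] }
  let n' : Multiplicative (ZMod v) →* Module.End R (Additive K →+ A) :=
    { toFun := fun b => act (lo ((b.toAdd * (N₁ : ZMod v)⁻¹).val : ℤ))
      map_one' := (act_congr _ 1 (Matrix.SpecialLinearGroup.ext _ _ fun i j => by
        fin_cases i <;> fin_cases j <;> simp [lo])).trans
          (LinearMap.ext fun ψ₀ => AddMonoidHom.ext fun k => congrArg ψ₀ (congrArg Additive.ofMul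
            (show conj 1 k.toMul = k.toMul from Subtype.ext (by simp [conj]))))
      map_mul' := fun b b' => by
        rw [act_mul]
        refine act_congr _ _ (Matrix.SpecialLinearGroup.ext _ _ fun i j => ?_)
        fin_cases i <;> fin_cases j <;>
          simp [lo, Matrix.mul_apply, Fin.sum_univ_two, add_mul, mul_add, add_comm] }
  have hφ : φ = 0 := by
    have : IsAddTorsionFree (Additive K →+ A) :=
      Function.Injective.isAddTorsionFree
        { toFun := fun (ψ₀ : Additive K →+ A) => (ψ₀ : Additive K → A), map_zero' := rfl,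
          map_add' := fun _ _ => rfl } DFunLike.coe_injective
    refine eq_zero_of_twist_sum hv η hneg n n' φ (fun b => ?_) (fun a x hx' => ?_) ?_ hodd
    · show act _ φ = φ
      rw [act_torus _ 1 (by simp [lo]) (by simp [lo]), map_one, inv_one, Units.val_one, one_pow,
        one_smul]
    · subst hx'
      simp only [n, n', MonoidHom.coe_mk, OneHom.coe_mk, act_mul, toAdd_ofAdd]
      refine act_torus _ a ?_ ?_
      · rw [← ZMod.intCast_zmod_eq_zero_iff_dvd]
        simp only [up, lo, Subgroup.coe_mul, Matrix.SpecialLinearGroup.coe_mul, Matrix.mul_fin_two,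
          Matrix.of_apply, Matrix.cons_val', Matrix.cons_val_zero, Matrix.cons_val_one,
          Matrix.cons_val_fin_one, Fin.isValue]
        push_cast [ZMod.natCast_zmod_val]
        have ha0 : ((a : (ZMod v)ˣ) : ZMod v) ≠ 0 := a.ne_zero
        field_simp
        ring
      · simp only [up, lo, Subgroup.coe_mul, Matrix.SpecialLinearGroup.coe_mul, Matrix.mul_fin_two,
          Matrix.of_apply, Matrix.cons_val', Matrix.cons_val_one,
          Matrix.cons_val_fin_one, Fin.isValue]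
        push_cast [ZMod.natCast_zmod_val]
        have ha0 : ((a : (ZMod v)ˣ) : ZMod v) ≠ 0 := a.ne_zero
        field_simp
        ring
    · refine AddMonoidHom.ext fun k => ?_
      set kk : K := Additive.toMul k
      obtain ⟨h00, h01, h10, h11⟩ := Gamma_mem.mp kk.2.1
      have hkM : ((N₁ * v * v : ℕ) : ℤ) ∣ kk.1.1 1 0 * v := by
        push_cast
        refine mul_dvd_mul_right (IsCoprime.mul_dvd ?_ (hdvd kk.2.2).1
          ((ZMod.intCast_zmod_eq_zero_iff_dvd _ v).mp h10)) _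
        exact Nat.isCoprime_iff_coprime.mpr ((hv.coprime_iff_not_dvd.mpr hvN₁).symm)
      let γ : Gamma0 (N₁ * v * v) := mkGamma0 (kk.1.1 0 0) (kk.1.1 0 1 / v) (kk.1.1 1 0 * v)
        (kk.1.1 1 1) (by
          obtain ⟨q, hq⟩ := hKv _ kk.2
          have := (Matrix.det_fin_two kk.1.1).symm.trans kk.1.2
          rw [hq, Int.mul_ediv_cancel_left _ (by exact_mod_cast hv.ne_zero)]
          rw [hq] at this
          linear_combination this) hkM
      have hγ : chi ψ' γ = 1 := by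
        rw [chi, MonoidHom.comp_apply, hψ', MonoidHom.comp_apply, dUnit_trans]
        rw [show dUnit _ γ = 1 from Units.ext ((coe_dUnit _ γ).trans
          (by simpa [γ] using (hdvd kk.2.2).2)), map_one]
      have h0 := congrArg (fun z : Z1 R A (chi ψ') => (z : Gamma0 (N₁ * v * v) → A) γ) ha₀
      simp only [cobd_apply, hγ, Units.val_one, sub_self, zero_smul, coe_twistSys_op,
        twistFun_apply] at h0
      rw [AddMonoidHom.finsetSum_apply, AddMonoidHom.zero_apply]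
      refine Eq.trans ?_ h0.symm
      refine Finset.sum_congr rfl fun u _ => ?_
      rw [AddMonoidHom.smul_apply]
      refine congrArg (((η u)⁻¹ : Rˣ).val • ·) ?_
      show (c : Gamma0 (N₁ * v) → A) _ = (c : Gamma0 (N₁ * v) → A) _
      refine congrArg _ (matOf_injective ?_)
      refine FLTAgent.HeckeH.mul_right_cancel_of_det_ne
        (c := transMat v (twistIdx v γ u)) (by simp [transMat, Matrix.det_fin_two_of, hv.ne_zero]) ?_
      rw [← transMat_mul hvN hM]
      have hidx : twistIdx v γ (u : ZMod v) = u := by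
        rw [twistIdx]; simp [γ, h11]
      rw [hidx]
      obtain ⟨q, hq⟩ := hKv _ kk.2
      have hv0 : (v : ℤ) ≠ 0 := by exact_mod_cast hv.ne_zero
      set t : ℤ := ((u : ZMod v).val : ℤ) with ht
      set g := conj (up t) kk with hg
      obtain ⟨r, hr⟩ := hKv _ g.2
      have hg' : g.1.1 = !![kk.1.1 0 0 + t * kk.1.1 1 0,
          (v : ℤ) * q + t * (kk.1.1 1 1 - kk.1.1 0 0) - t ^ 2 * kk.1.1 1 0;
          kk.1.1 1 0, kk.1.1 1 1 - t * kk.1.1 1 0] := by
        show ((up t).1 * kk.1 * (up t).1⁻¹).1 = _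
        rw [Matrix.SpecialLinearGroup.coe_mul, Matrix.SpecialLinearGroup.coe_mul,
          Matrix.SpecialLinearGroup.coe_inv, Matrix.eta_fin_two kk.1.1, hq]
        simp only [up, Matrix.adjugate_fin_two_of, Matrix.mul_fin_two]
        refine Matrix.ext (Fin.forall_fin_two.mpr ⟨Fin.forall_fin_two.mpr ⟨?_, ?_⟩,
          Fin.forall_fin_two.mpr ⟨?_, ?_⟩⟩) <;> simp <;> ring
      have hr' : (v : ℤ) * r = (v : ℤ) * q + t * (kk.1.1 1 1 - kk.1.1 0 0) - t ^ 2 * kk.1.1 1 0 := by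
        rw [← hr, hg']; rfl
      show matOf (cj g.1 g.2.2 (hKv _ g.2)) * transMat v (u : ZMod v) =
        transMat v (u : ZMod v) * matOf γ
      simp only [cj, γ, matOf_mkGamma0, transMat, hr, hq, Int.mul_ediv_cancel_left _ hv0, ← ht]
      rw [hg']
      refine Matrix.ext (Fin.forall_fin_two.mpr ⟨Fin.forall_fin_two.mpr ⟨?_, ?_⟩,
        Fin.forall_fin_two.mpr ⟨?_, ?_⟩⟩) <;>
        simp [Matrix.mul_apply, Fin.sum_univ_two] <;> first | ring1 | linear_combination hr'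
  have : NeZero (N₁ * v * v) := ⟨by simp [NeZero.ne N₁, hv.ne_zero]⟩
  refine ⟨((Gamma (N₁ * v * v)).subgroupOf (Gamma0 (N₁ * v))).index,
    Subgroup.FiniteIndex.index_ne_zero, gamma0_apply_eq_zero_of_vanish c _ fun γ hγ => ?_⟩
  obtain ⟨g00, g01, g10, g11⟩ := Gamma_mem.mp (Subgroup.mem_subgroupOf.mp hγ)
  rw [ZMod.intCast_zmod_eq_zero_iff_dvd] at g10
  have e00 : ((matOf γ 0 0 : ℤ) : ZMod v) = 1 := by
    simpa [matOf] using congrArg (ZMod.castHom (dvd_mul_left v (N₁ * v)) (ZMod v)) g00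
  have e11 : ((matOf γ 1 1 : ℤ) : ZMod v) = 1 := by
    simpa [matOf] using congrArg (ZMod.castHom (dvd_mul_left v (N₁ * v)) (ZMod v)) g11
  have f00 : ((matOf γ 0 0 : ℤ) : ZMod N₁) = 1 := by
    simpa [matOf, ZMod.cast_one ((dvd_mul_right N₁ v).trans (dvd_mul_right _ v))] using congrArg (ZMod.castHom ((dvd_mul_right N₁ v).trans (dvd_mul_right _ v))
      (ZMod N₁)) g00
  have f11 : ((matOf γ 1 1 : ℤ) : ZMod N₁) = 1 := by
    simpa [matOf, ZMod.cast_one ((dvd_mul_right N₁ v).trans (dvd_mul_right _ v))] using congrArg (ZMod.castHom ((dvd_mul_right N₁ v).trans (dvd_mul_right _ v))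
      (ZMod N₁)) g11
  obtain ⟨q, hq⟩ : ((N₁ * v * v : ℕ) : ℤ) ∣ matOf γ 1 0 := g10
  push_cast at hq
  let k : SL(2, ℤ) := ⟨!![matOf γ 0 0, matOf γ 0 1 * v; (N₁ : ℤ) * v * q, matOf γ 1 1], by
    rw [Matrix.det_fin_two_of]; have := det_entries γ
    simp only [matOf] at hq this ⊢
    linear_combination this + (γ.1.1 0 1) * hq⟩
  have hk : k ∈ K := ⟨Gamma_mem.mpr ⟨e00, by simp [k], by simp [k], e11⟩,
    (Gamma1_mem N₁ k).mpr ⟨f00, f11, by simp [k]⟩⟩
  have hc := DFunLike.congr_fun hφ (Additive.ofMul (⟨k, hk⟩ : K))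
  rw [AddMonoidHom.zero_apply] at hc
  rw [← hc]
  show (c : Gamma0 (N₁ * v) → A) γ = (c : Gamma0 (N₁ * v) → A) _
  refine congrArg _ (matOf_injective ?_)
  refine Matrix.ext (Fin.forall_fin_two.mpr ⟨Fin.forall_fin_two.mpr ⟨?_, ?_⟩,
    Fin.forall_fin_two.mpr ⟨?_, ?_⟩⟩) <;>
    simp [cj, k, Int.mul_ediv_cancel _ (show (v : ℤ) ≠ 0 by exact_mod_cast hv.ne_zero), hq] <;> ring

end Prime

end FLTAgent.Lower.Levels
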