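import Fermat.Agent.Lower.Levels.Frame
import Fermat.Agent.Lower.Levels.Twist
import Fermat.Agent.Lower.Levels.Parabolic
import Fermat.Agent.Lower.Levels.Image
import Fermat.Agent.HeckeH.Action

/-!
# Twisting a part of cohomology into periods of trivial character

`twistMap` twists classes with character `η⁻²` of level `L` to trivial character at level `L Q`; it
is injective up to torsion at squarefree modulus (`exists_nsmul_eq_zero_of_twistMap`), so a part
without Eisenstein eigenvalue embeds in the periods of level `L Q` (`exists_periodEmb`), and the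
Hecke algebra maps onto the ring cut out there (`exists_hecke_hom`).
-/

set_option autoImplicit false
set_option linter.style.haveILetI false
set_option linter.unusedSectionVars false

noncomputable section

open CongruenceSubgroup
open scoped MatrixGroups Matrix

namespace FLTAgent.Lower.Levels

variable {L Q : ℕ} {R : Type} [CommRing R]

/-- The character `η⁻²` at level `L`. -/
def twistChar (hQ : Q ∣ L) (η : (ZMod Q)ˣ →* Rˣ) : (ZMod L)ˣ →* Rˣ :=
  ((η.comp (ZMod.unitsMap hQ)) ^ 2)⁻¹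

theorem twistRel_twistChar (hQ : Q ∣ L) (η : (ZMod Q)ˣ →* Rˣ) :
    TwistRel hQ (dvd_refl (L * Q)) η (twistChar hQ η) (1 : (ZMod (L * Q))ˣ →* Rˣ) := by
  intro x
  rw [twistChar, MonoidHom.inv_apply, MonoidHom.pow_apply, MonoidHom.comp_apply, MonoidHom.one_apply,
    ← MonoidHom.comp_apply (ZMod.unitsMap hQ), ZMod.unitsMap_comp]
  exact inv_mul_cancel _

theorem charHyp_twistChar {k : Type} [Field k] (hQ : Q ∣ L) {η : (ZMod Q)ˣ →* Rˣ} {σ : R →+* k}
    {m : ℕ} (_hodd : ∀ a, η a ^ (2 * m + 1) = 1) (hres : ∀ a, σ (η a : R) = 1) :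
    CharHyp (twistChar hQ η) σ := by
  refine ⟨fun u => ?_, ?_⟩
  · rw [twistChar, MonoidHom.inv_apply, MonoidHom.pow_apply, MonoidHom.comp_apply, ← map_pow,
      ← map_inv, hres]
  · rw [twistChar, MonoidHom.inv_apply, MonoidHom.pow_apply, ← map_pow, neg_one_sq, map_one,
      inv_one]

/-- The twist to trivial character. -/
def twistMap [NeZero Q] (hQ : Q ∣ L) (η : (ZMod Q)ˣ →* Rˣ) :
    H1 R R (chi (twistChar hQ η)) →ₗ[R] H1 R R (tchi (L * Q) R) :=
  (twistSys (twistRel_twistChar hQ η)).map R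

/-- The components of a character at coprime moduli. -/
theorem exists_char_components {v w : ℕ} (hco : Nat.Coprime v w) (η : (ZMod (v * w))ˣ →* Rˣ)
    {m : ℕ} (hodd : ∀ a, η a ^ m = 1) :
    ∃ (ηv : (ZMod v)ˣ →* Rˣ) (ηw : (ZMod w)ˣ →* Rˣ),
      (∀ a, ηv a ^ m = 1) ∧ (∀ a, ηw a ^ m = 1) ∧
      ∀ u, η u = ηv (ZMod.unitsMap (dvd_mul_right v w) u) *
        ηw (ZMod.unitsMap (dvd_mul_left w v) u) := by
  let e : (ZMod (v * w))ˣ ≃* (ZMod v)ˣ × (ZMod w)ˣ :=
    (Units.mapEquiv (ZMod.chineseRemainder hco).toMulEquiv).trans MulEquiv.prodUnits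
  refine ⟨(η.comp e.symm.toMonoidHom).comp (MonoidHom.inl _ _),
    (η.comp e.symm.toMonoidHom).comp (MonoidHom.inr _ _), fun a => hodd _, fun a => hodd _,
    fun u => ?_⟩
  have h1 : (e u).1 = ZMod.unitsMap (dvd_mul_right v w) u := Units.ext
    (RingHom.congr_fun (Subsingleton.elim
      ((RingHom.fst _ _).comp (ZMod.chineseRemainder hco).toRingHom)
      (ZMod.castHom (dvd_mul_right v w) (ZMod v))) _)
  have h2 : (e u).2 = ZMod.unitsMap (dvd_mul_left w v) u := Units.ext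
    (RingHom.congr_fun (Subsingleton.elim
      ((RingHom.snd _ _).comp (ZMod.chineseRemainder hco).toRingHom)
      (ZMod.castHom (dvd_mul_left w v) (ZMod w))) _)
  simp only [MonoidHom.comp_apply, MulEquiv.coe_toMonoidHom, MonoidHom.inl_apply,
    MonoidHom.inr_apply, ← h1, ← h2, ← map_mul, Prod.mk_mul_mk, mul_one, one_mul, Prod.mk.eta,
    MulEquiv.symm_apply_apply]

/-- The twist at modulus one is injective. -/
theorem eq_zero_of_twist_one {M : ℕ} {hvN : 1 ∣ L} {hM : L * 1 ∣ M} (hMeq : L = M)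
    {η : (ZMod 1)ˣ →* Rˣ} {ψ : (ZMod L)ˣ →* Rˣ}
    (h : TwistRel hvN hM η ψ (1 : (ZMod M)ˣ →* Rˣ)) {x : H1 R R (chi ψ)}
    (hx : (twistSys h).map R x = 0) : x = 0 := by
  induction x using Submodule.Quotient.induction_on with
  | _ c =>
  subst hMeq
  rw [Sys.map_mk, Submodule.Quotient.mk_eq_zero] at hx
  obtain ⟨a, ha⟩ := hx
  refine (Submodule.Quotient.mk_eq_zero _).mpr ?_
  suffices hc : c = 0 from hc ▸ zero_mem _
  refine Subtype.ext (funext fun γ => ?_)
  have h0 := congrArg (fun z : Z1 R R (chi (1 : (ZMod L)ˣ →* Rˣ)) => (z : Gamma0 L → R) γ) ha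
  simp only [cobd_apply, chi_one_apply, Units.val_one, sub_self, zero_smul] at h0
  have hcoc : ∀ u, (twistSys h).coc γ u = γ := fun u => by
    refine ((twistSys h).eq_of_mul (inj_twistSys h) (j := u) ?_).1
    have e : ((twistSys h).β u : HeckeH.M2) = 1 := by
      show transMat 1 (u : ZMod 1) = 1
      rw [Subsingleton.elim (u : ZMod 1) 0, transMat, ZMod.val_zero]
      simp [Matrix.one_fin_two]
    rw [e, Matrix.one_mul, Matrix.mul_one]
  rw [Sys.coe_op, Fintype.sum_subsingleton _ (1 : (ZMod 1)ˣ), hcoc] at h0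
  have hw : (twistSys h).w 1 = 1 := by
    show (((η 1)⁻¹ : Rˣ) : R) = 1
    rw [map_one, inv_one, Units.val_one]
  rw [hw, one_smul] at h0
  exact h0.symm

/-- The twist at a squarefree modulus is injective up to torsion, in general position. -/
theorem exists_nsmul_eq_zero_of_twist_squarefree [IsAddTorsionFree R] {m : ℕ} :
    ∀ (Q : ℕ) [NeZero Q] {L M : ℕ} [NeZero L] (hQ : Q ∣ L) (hM : L * Q ∣ M), L * Q = M →
      Squarefree Q → (∀ k, L = k * Q → Nat.Coprime k Q) → ∀ (η : (ZMod Q)ˣ →* Rˣ),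
      (∀ a, η a ^ (2 * m + 1) = 1) → ∀ (ψ : (ZMod L)ˣ →* Rˣ)
      (h : TwistRel hQ hM η ψ (1 : (ZMod M)ˣ →* Rˣ)) (x : H1 R R (chi ψ)),
      (twistSys h).map R x = 0 → ∃ n : ℕ, n ≠ 0 ∧ n • x = 0 := by
  intro Q
  induction Q using Nat.strong_induction_on with
  | _ Q ih =>
    intro _ L M _ hQ hM hMeq hsq hco η hodd ψ h x hx
    rcases eq_or_ne Q 1 with rfl | hQ1
    · exact ⟨1, one_ne_zero, by rw [one_nsmul, eq_zero_of_twist_one (by omega) h hx]⟩
    obtain ⟨v, hv, w, rfl⟩ : ∃ v, v.Prime ∧ ∃ w, Q = v * w :=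
      ⟨Q.minFac, Nat.minFac_prime hQ1, Q.minFac_dvd⟩
    have hvw : Nat.Coprime v w := Nat.coprime_of_squarefree_mul hsq
    haveI : NeZero v := ⟨hv.ne_zero⟩
    haveI : NeZero w := ⟨fun h0 => NeZero.ne (v * w) (by rw [h0, mul_zero])⟩
    obtain ⟨k, hk⟩ : ∃ k, L = k * (v * w) := ⟨_, (Nat.div_mul_cancel hQ).symm⟩
    obtain ⟨hkv, hkw⟩ := Nat.coprime_mul_iff_right.mp (hco k hk)
    obtain ⟨N₁, hN₁⟩ : ∃ N₁, N₁ = k * w := ⟨_, rfl⟩
    obtain rfl : L = N₁ * v := by rw [hN₁, hk, mul_comm v w, mul_assoc]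
    haveI : NeZero N₁ := ⟨fun h0 => NeZero.ne (N₁ * v) (by rw [h0, zero_mul])⟩
    have hvN₁ : ¬ v ∣ N₁ := by
      rw [hN₁]
      exact hv.coprime_iff_not_dvd.mp (Nat.Coprime.mul_right hkv.symm hvw)
    have hwN₁ : w ∣ N₁ := ⟨k, by rw [hN₁, mul_comm]⟩
    obtain ⟨ηv, ηw, hv1, hw1, hη⟩ := exists_char_components hvw η hodd
    have hM2 : N₁ * v * v * w ∣ M := dvd_of_eq (by rw [← hMeq, mul_assoc (N₁ * v)])
    have hdL : N₁ * v ∣ N₁ * v * v := dvd_mul_right _ _
    have hMv : N₁ * v * v ∣ M := (dvd_mul_right _ w).trans hM2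
    haveI : NeZero M := ⟨by
      rw [← hMeq]; exact mul_ne_zero (NeZero.ne _) (NeZero.ne _)⟩
    haveI : NeZero (N₁ * v * v) := ⟨mul_ne_zero (NeZero.ne _) hv.ne_zero⟩
    let ψ₁ : (ZMod N₁)ˣ →* Rˣ := ((ηw.comp (ZMod.unitsMap hwN₁)) ^ 2)⁻¹
    let ψi : (ZMod (N₁ * v * v))ˣ →* Rˣ :=
      ψ₁.comp (ZMod.unitsMap ((dvd_mul_right N₁ v).trans (dvd_mul_right _ v)))
    have hum : ∀ {a b c : ℕ} (hab : a ∣ b) (hbc : b ∣ c) (u : (ZMod c)ˣ),
        ZMod.unitsMap hab (ZMod.unitsMap hbc u) = ZMod.unitsMap (hab.trans hbc) u :=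
      fun hab hbc u => DFunLike.congr_fun (ZMod.unitsMap_comp hab hbc) u
    have h₁ : TwistRel (dvd_mul_left v N₁) (dvd_refl (N₁ * v * v)) ηv ψ ψi := by
      intro y
      obtain ⟨z, rfl⟩ := ZMod.unitsMap_surjective hMv y
      have hz := h z
      rw [MonoidHom.one_apply, hη, hum, hum, mul_pow, ← mul_assoc] at hz
      simp only [ψi, ψ₁, MonoidHom.comp_apply, MonoidHom.inv_apply, MonoidHom.pow_apply, hum]
      exact eq_inv_of_mul_eq_one_left hz
    have h₂ : TwistRel (hwN₁.trans ((dvd_mul_right N₁ v).trans hdL)) hM2 ηw ψi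
        (1 : (ZMod M)ˣ →* Rˣ) := by
      intro y
      simp only [ψi, ψ₁, MonoidHom.comp_apply, MonoidHom.inv_apply, MonoidHom.pow_apply, hum,
        MonoidHom.one_apply]
      exact inv_mul_cancel _
    have hc := twist_comp hvw η hη h₁ h₂ h x
    rw [hx, smul_zero] at hc
    obtain ⟨n, hn, hn0⟩ := ih w (lt_mul_of_one_lt_left (Nat.pos_of_ne_zero (NeZero.ne w)) hv.one_lt)
      _ hM2 (by rw [← hMeq, mul_assoc (N₁ * v)])
      (hsq.of_mul_right) (fun k' hk' => by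
        have : k' = k * v * v := Nat.eq_of_mul_eq_mul_right (Nat.pos_of_ne_zero (NeZero.ne w)) (by
          rw [← hk', hN₁]; ring)
        rw [this]
        exact Nat.Coprime.mul_left (Nat.Coprime.mul_left hkw hvw) hvw)
      ηw hw1 ψi h₂ _ hc
    rw [← map_nsmul] at hn0
    have hneg : ηv (-1) = 1 := by
      have := hv1 (-1)
      rwa [← map_pow, Odd.neg_one_pow ⟨m, rfl⟩] at this
    obtain ⟨n', hn', hn0'⟩ :=
      exists_nsmul_eq_zero_of_twist_eq_zero hv hvN₁ hneg ⟨m, hv1⟩ ψ₁ rfl h₁ hn0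
    exact ⟨n' * n, mul_ne_zero hn' hn, by rw [mul_nsmul', hn0']⟩

/-- The twist at a squarefree modulus is injective up to torsion. -/
theorem exists_nsmul_eq_zero_of_twistMap [NeZero L] [NeZero Q] [IsAddTorsionFree R]
    (hQ : Q ∣ L) (hsq : Squarefree Q) (hco : Nat.Coprime (L / Q) Q) {η : (ZMod Q)ˣ →* Rˣ}
    {m : ℕ} (hodd : ∀ a, η a ^ (2 * m + 1) = 1) {x : H1 R R (chi (twistChar hQ η))}
    (hx : twistMap hQ η x = 0) : ∃ n : ℕ, n ≠ 0 ∧ n • x = 0 := by
  refine exists_nsmul_eq_zero_of_twist_squarefree Q hQ (dvd_refl _) rfl hsq (fun k hk => ?_) η hodd _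
    (twistRel_twistChar hQ η) x hx
  rwa [hk, Nat.mul_div_cancel _ (Nat.pos_of_ne_zero (NeZero.ne Q))] at hco

/-- Some prime `≡ 1` modulo the level has non-Eisenstein eigenvalue. -/
def ParHyp {k : Type} [Field k] {ι : Type} (L : ℕ) (pr : ι → Nat.Primes) (θ : ι → k) : Prop :=
  ∃ i, L ∣ (pr i : ℕ) - 1 ∧ θ i ≠ ((pr i : ℕ) : k) + 1

theorem ParHyp.of_dvd {k : Type} [Field k] {ι : Type} {L L' : ℕ} {pr : ι → Nat.Primes}
    {θ : ι → k} (h : ParHyp L pr θ) (hL : L' ∣ L) : ParHyp L' pr θ :=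
  let ⟨i, hi, hne⟩ := h
  ⟨i, hL.trans hi, hne⟩

theorem ParHyp.not_eis {k : Type} [Field k] {ι : Type} {L : ℕ} {pr : ι → Nat.Primes}
    {θ : ι → k} (h : ParHyp L pr θ) :
    ∃ i, ¬ (pr i : ℕ) ∣ L ∧ θ i ≠ 1 + ((pr i : ℕ) : k) := by
  obtain ⟨i, hi, hne⟩ := h
  refine ⟨i, fun hd => ?_, by rwa [add_comm]⟩
  have h2 := (pr i).2.two_le
  have := Nat.le_of_dvd (by omega) (hd.trans hi)
  omega

variable {k : Type} [Field k] [Finite k] {ι : Type} {pr : ι → Nat.Primes} {σ : R →+* k}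
  {θ : ι → k} {d : ℕ}

/-- The part is embedded in the period module of level `L Q`, intertwining `η(ℓ) T_ℓ` with
`T_ℓ`. -/
theorem exists_periodEmb [NeZero L] [NeZero Q] [NeZero (L * Q)] [IsLocalRing R]
    [IsNoetherianRing R] [IsAdicComplete (IsLocalRing.maximalIdeal R) R] [IsAddTorsionFree R]
    (hQ : Q ∣ L) (hsq : Squarefree Q) (hco : Nat.Coprime (L / Q) Q) {η : (ZMod Q)ˣ →* Rˣ}
    {m : ℕ} (hodd : ∀ a, η a ^ (2 * m + 1) = 1) (hres : ∀ a, σ (η a : R) = 1)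
    (hfam : FamHyp L pr σ θ) (hpar : ParHyp (L * Q) pr θ)
    (F : Frame (twistChar hQ η) pr σ θ d) :
    ∃ emb : (Fin d → R) →ₗ[R] Period.H (L * Q) R R, Function.Injective emb ∧
      (∀ x, (emb x : Additive (Gamma0 (L * Q)) →+ R) =
        h1Triv (L * Q) R R (twistMap hQ η (F.combo x))) ∧
      ∀ i : ι, ¬ (pr i : ℕ) ∣ L → ∀ x, HeckeH.heckeH (L * Q) (pr i).2 R R (emb x) =
        emb (((η (primeUnit Q (pr i).2) : R) • F.mat (MvPolynomial.X i)) *ᵥ x) := by
  obtain ⟨i₀, hi₀, hne⟩ := hpar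
  have hℓ := (pr i₀).2
  have hℓ2 := hℓ.two_le
  have hℓN : ¬ (pr i₀ : ℕ) ∣ L * Q := fun hd => by
    have := Nat.le_of_dvd (by omega) (hd.trans hi₀)
    omega
  have hu : primeUnit Q hℓ = 1 := by
    refine Units.ext ?_
    rw [coe_primeUnit hℓ fun hd => hℓN (hd.mul_left L), Units.val_one]
    have h2 : (((pr i₀ : ℕ) - 1 : ℕ) : ZMod Q) = 0 :=
      (ZMod.natCast_eq_zero_iff _ Q).mpr ((dvd_mul_left Q L).trans hi₀)
    rwa [Nat.cast_sub hℓ.one_le, Nat.cast_one, sub_eq_zero] at h2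
  set s : MvPolynomial ι R :=
    MvPolynomial.X i₀ - MvPolynomial.C (((pr i₀ : ℕ) : R) + 1) with hsdef
  have hs : s ∉ eigIdeal σ θ := fun h => hne (by
    rw [mem_eigIdeal, hsdef, map_sub, MvPolynomial.eval₂Hom_X', MvPolynomial.eval₂Hom_C, map_add,
      map_one, map_natCast, sub_eq_zero] at h
    exact h)
  have hU := F.isUnit_mat hfam.surjective hs
  let g : (Fin d → R) →ₗ[R] (Additive (Gamma0 (L * Q)) →+ R) :=
    (h1Triv (L * Q) R R).toLinearMap ∘ₗ twistMap hQ η ∘ₗ F.combo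
  have hmem : ∀ x, g x ∈ Period.H (L * Q) R R := by
    intro x
    obtain ⟨M, hM⟩ := hU
    obtain ⟨y, rfl⟩ : ∃ y, F.mat s *ᵥ y = x :=
      ⟨(↑M⁻¹ : Matrix (Fin d) (Fin d) R) *ᵥ x, by
        rw [Matrix.mulVec_mulVec, ← hM, Units.mul_inv, Matrix.one_mulVec]⟩
    show h1Triv (L * Q) R R (twistMap hQ η (F.combo (F.mat s *ᵥ y))) ∈ _
    have e : twistMap hQ η (heckeOp hℓ (twistChar hQ η) R (F.combo y)) =
        heckeOp hℓ 1 R (twistMap hQ η (F.combo y)) := by
      have := twist_heckeOp (A := R) (twistRel_twistChar hQ η) hℓ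
        (fun hd => hℓN (hd.mul_left L)) (fun hd => absurd hd hℓN) (F.combo y)
      rwa [hu, map_one, inv_one, Units.val_one, one_smul] at this
    rw [F.combo_mat, hsdef, map_sub, MvPolynomial.algHom_C, famAct_X, LinearMap.sub_apply,
      Module.algebraMap_end_apply, map_sub, map_smul (twistMap hQ η), e]
    exact heckeOp_sub_mem_H hℓ hi₀ _
  refine ⟨g.codRestrict _ hmem, ?_, fun x => rfl, fun i hi x => ?_⟩
  · refine (injective_iff_map_eq_zero _).mpr fun x hx => ?_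
    have h0 : twistMap hQ η (F.combo x) = 0 :=
      (h1Triv (L * Q) R R).map_eq_zero_iff.mp (congrArg Subtype.val hx)
    obtain ⟨n, hn, hn0⟩ := exists_nsmul_eq_zero_of_twistMap hQ hsq hco hodd h0
    rw [← map_nsmul] at hn0
    exact (smul_eq_zero_iff_right hn).mp (F.inj (hn0.trans (map_zero _).symm))
  · refine Subtype.ext ?_
    rw [HeckeH.coe_heckeH]
    show (HeckeH.heckeReps (L * Q) (pr i).2).transfer R
        (h1Triv (L * Q) R R (twistMap hQ η (F.combo x))) =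
      h1Triv (L * Q) R R (twistMap hQ η (F.combo ((_ • F.mat (MvPolynomial.X i)) *ᵥ x)))
    rw [← h1Triv_heckeOp]
    refine congrArg _ ?_
    have e := twist_heckeOp (A := R) (twistRel_twistChar hQ η) (pr i).2
      (fun hd => hi (hd.trans hQ))
      (fun hd => ((pr i).2.dvd_mul.mp hd).elim id fun h' => h'.trans hQ) (F.combo x)
    rw [Matrix.smul_mulVec, map_smul, map_smul, F.combo_mat, famAct_X]
    show _ = _ • (twistSys (twistRel_twistChar hQ η)).map R _
    rw [e, smul_smul, Units.mul_inv, one_smul]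
    rfl

variable {O : Type} [CommRing O] [Algebra O R] {I : Type}

/-- The polynomial of `η(ℓ) T_ℓ`. -/
def levelPoly (pr : ι → Nat.Primes) (η : (ZMod Q)ˣ →* Rˣ) (j : I → ι) :
    MvPolynomial I O →ₐ[O] MvPolynomial ι R :=
  MvPolynomial.aeval fun i =>
    MvPolynomial.C (η (primeUnit Q (pr (j i)).2) : R) * MvPolynomial.X (j i)

/-- The twisted operators on a frame. -/
def levelAct {ψ : (ZMod L)ˣ →* Rˣ} (F : Frame ψ pr σ θ d) (η : (ZMod Q)ˣ →* Rˣ) (j : I → ι) :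
    MvPolynomial I O →ₐ[O] Matrix (Fin d) (Fin d) R :=
  (F.mat.restrictScalars O).comp (levelPoly pr η j)

theorem levelAct_X {ψ : (ZMod L)ˣ →* Rˣ} (F : Frame ψ pr σ θ d) (η : (ZMod Q)ˣ →* Rˣ)
    (j : I → ι) (i : I) :
    levelAct (O := O) F η j (MvPolynomial.X i) =
      (η (primeUnit Q (pr (j i)).2) : R) • F.mat (MvPolynomial.X (j i)) := by
  show F.mat (levelPoly pr η j (MvPolynomial.X i)) = _
  rw [levelPoly, MvPolynomial.aeval_X, map_mul, MvPolynomial.algHom_C, ← Algebra.smul_def]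

theorem unitAway_levelAct [NeZero L] [IsLocalRing R] [IsNoetherianRing R]
    [IsAdicComplete (IsLocalRing.maximalIdeal R) R] {ψ : (ZMod L)ˣ →* Rˣ}
    (hσ : Function.Surjective σ) (F : Frame ψ pr σ θ d) {η : (ZMod Q)ˣ →* Rˣ}
    (hres : ∀ a, σ (η a : R) = 1) (j : I → ι) :
    UnitAway (levelAct (O := O) F η j) (σ.comp (algebraMap O R)) (θ ∘ j) := by
  intro s hs
  refine F.isUnit_mat hσ fun h => hs ?_
  rw [mem_eigIdeal] at h
  rw [← h]
  have key : (MvPolynomial.eval₂Hom σ θ).comp (levelPoly (O := O) pr η j).toRingHom =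
      MvPolynomial.eval₂Hom (σ.comp (algebraMap O R)) (θ ∘ j) := by
    refine MvPolynomial.ringHom_ext (fun a => ?_) fun i => ?_
    · simp [levelPoly, IsScalarTower.algebraMap_apply O R (MvPolynomial ι R)]
    · simp [levelPoly, hres]
  exact (RingHom.congr_fun key s).symm

set_option maxHeartbeats 1000000 in
/-- The Hecke algebra maps onto the ring cut out by an embedded module. -/
theorem exists_hecke_hom {N' : ℕ} [NeZero N'] {S : Finset ℕ}
    (hS : ∀ l : ℕ, l.Prime → l ∣ N' → l ∈ S)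
    (act : MvPolynomial {l : Nat.Primes // (l : ℕ) ∉ S} O →ₐ[O] Matrix (Fin d) (Fin d) R)
    (emb : (Fin d → R) →ₗ[R] Period.H N' R R) (hinj : Function.Injective emb)
    (hT : ∀ (l : {l : Nat.Primes // (l : ℕ) ∉ S}) (x : Fin d → R),
      HeckeH.heckeH N' l.1.2 R R (emb x) = emb (act (MvPolynomial.X l) *ᵥ x)) :
    ∃ π : ↥(CuspForm.heckeAlgebra N' 2 (↑S : Set ℕ)) →+* ImgRing act,
      (∀ (l : ℕ) (hl : l.Prime) (hlN : ¬ l ∣ N') (hlS : l ∉ (↑S : Set ℕ)),
        π (CuspForm.heckeAlgebra.T hl hlN hlS) = imgGen act ⟨⟨l, hl⟩, hlS⟩) ∧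
      Algebra.adjoin O (Set.range π) = ⊤ ∧
      ∀ t x, emb (imgAct act (π t) *ᵥ x) =
        HeckeH.heckeEnd N' R R
          (Subalgebra.inclusion (CuspForm.heckeAlgebra_mono (Set.empty_subset (↑S : Set ℕ))) t)
          (emb x) := by
  classical
  set Φ : ↥(CuspForm.heckeAlgebra N' 2 (↑S : Set ℕ)) →+* Module.End R (Period.H N' R R) :=
    (HeckeH.heckeEnd N' R R).comp (Subalgebra.inclusion
      (CuspForm.heckeAlgebra_mono (Set.empty_subset (↑S : Set ℕ)))).toRingHom with hΦ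
  have huniq : ∀ u u' : ImgRing act,
      (∀ x, emb (imgAct act u *ᵥ x) = emb (imgAct act u' *ᵥ x)) → u = u' := fun u u' h =>
    imgAct_injective act (Matrix.ext_iff_mulVec.mpr fun x => hinj (h x))
  have hgenΦ : ∀ (l : ℕ) (hl : l.Prime) (hlN : ¬ l ∣ N') (hlS : l ∉ (↑S : Set ℕ)) x,
      emb (imgAct act (imgGen act ⟨⟨l, hl⟩, hlS⟩) *ᵥ x) =
        Φ (CuspForm.heckeAlgebra.T hl hlN hlS) (emb x) := fun l hl hlN hlS x => by
    rw [imgGen, imgAct_mk, ← hT ⟨⟨l, hl⟩, hlS⟩ x]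
    show _ = HeckeH.heckeEnd N' R R (CuspForm.heckeAlgebra.T hl hlN (Set.notMem_empty l)) (emb x)
    rw [HeckeH.heckeEnd_T]
  have hex : ∀ t, ∃ u : ImgRing act, ∀ x, emb (imgAct act u *ᵥ x) = Φ t (emb x) := by
    intro t
    obtain ⟨t, ht⟩ := t
    induction ht using Algebra.adjoin_induction with
    | mem y hy =>
      rcases hy with ⟨l, hl, hlN, hlS, rfl⟩ | ⟨q, hqN, hq, hqS, rfl⟩
      · exact ⟨_, hgenΦ l hl hlN hlS⟩
      · exact absurd (hS q hq hqN) hqS
    | algebraMap n =>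
      refine ⟨(n : ImgRing act), fun x => ?_⟩
      have e : Φ.comp (algebraMap ℤ ↥(CuspForm.heckeAlgebra N' 2 (↑S : Set ℕ))) =
          Int.castRingHom (Module.End R (Period.H N' R R)) := RingHom.ext_int _ _
      refine Eq.trans ?_ (congrArg (fun f : Module.End R (Period.H N' R R) => f (emb x))
        (RingHom.congr_fun e n)).symm
      show _ = ((n : ℤ) : Module.End R (Period.H N' R R)) (emb x)
      rw [map_intCast (imgAct act), ← zsmul_one n (R := Matrix (Fin d) (Fin d) R),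
        Matrix.smul_mulVec, Matrix.one_mulVec, map_zsmul, Module.End.intCast_apply]
    | add y z hy hz iy iz =>
      obtain ⟨u, hu⟩ := iy
      obtain ⟨u', hu'⟩ := iz
      refine ⟨u + u', fun x => ?_⟩
      rw [map_add, Matrix.add_mulVec, map_add, hu, hu', ← LinearMap.add_apply, ← map_add]
      rfl
    | mul y z hy hz iy iz =>
      obtain ⟨u, hu⟩ := iy
      obtain ⟨u', hu'⟩ := iz
      refine ⟨u * u', fun x => ?_⟩
      rw [map_mul, ← Matrix.mulVec_mulVec, hu, hu', ← Module.End.mul_apply, ← map_mul]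
      rfl
  choose π hπ using hex
  let πh : ↥(CuspForm.heckeAlgebra N' 2 (↑S : Set ℕ)) →+* ImgRing act :=
    { toFun := π
      map_one' := huniq _ _ fun x => by rw [hπ, map_one, map_one, Matrix.one_mulVec]; rfl
      map_mul' := fun a b => huniq _ _ fun x => by
        rw [hπ, map_mul Φ, map_mul (imgAct act), ← Matrix.mulVec_mulVec, hπ, Module.End.mul_apply,
          hπ]
      map_zero' := huniq _ _ fun x => by
        rw [hπ, map_zero, map_zero, Matrix.zero_mulVec, map_zero]; rfl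
      map_add' := fun a b => huniq _ _ fun x => by
        rw [hπ, map_add Φ, map_add (imgAct act), Matrix.add_mulVec, map_add emb, hπ, hπ,
          LinearMap.add_apply] }
  have hπT : ∀ (l : ℕ) (hl : l.Prime) (hlN : ¬ l ∣ N') (hlS : l ∉ (↑S : Set ℕ)),
      π (CuspForm.heckeAlgebra.T hl hlN hlS) = imgGen act ⟨⟨l, hl⟩, hlS⟩ :=
    fun l hl hlN hlS => huniq _ _ fun x => (hπ _ x).trans (hgenΦ l hl hlN hlS x).symm
  refine ⟨πh, hπT, ?_, fun t x => hπ t x⟩
  rw [eq_top_iff, ← adjoin_range_imgGen act]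
  refine Algebra.adjoin_mono ?_
  rintro _ ⟨⟨⟨l, hl⟩, hlS⟩, rfl⟩
  exact ⟨CuspForm.heckeAlgebra.T hl (fun hd => hlS (hS l hl hd)) hlS, hπT l hl _ hlS⟩

end FLTAgent.Lower.Levels
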