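import Fermat.Agent.Lower.Levels.StabFrame
import Fermat.Agent.Lower.Levels.Embed
import Fermat.Agent.Lower.Lift.Systems
import Fermat.Agent.Local.Eigenforms
import Fermat.Agent.Reps.Coeff

/-!
# Descent to levels prime to `p`

`part_eq_bot_of_noSystem`: if `ρbar` has no system at squarefree levels prime to `p`, the part of
level `N Q` with trivial character and `U_v ^ 2 ≠ 1` at the primes `v` of `Q` vanishes. The `Q`-new
part is removed one prime at a time (`part_eq_bot_of_old`: everything old dies and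
`y + U (W y) = res (cor y)`), and a nonzero part at level `N` would give a system
(`hasSystem_of_part_ne_bot`). `h1Part_eq_bot_of_residual` passes to any coefficients and character.
-/

set_option autoImplicit false
set_option linter.style.haveILetI false
set_option linter.unusedSectionVars false

noncomputable section

open CongruenceSubgroup
open scoped MatrixGroups Matrix

namespace FLTAgent.Lower.Levels

open IsLocalRing (maximalIdeal)
open FLTAgent.Lower.Lift (HasSystem NoSystemPrimeTo levelPrimes charpoly_eq_of_frobenius)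
open Polynomial (X C)

local notation "ℚ̄" => AlgebraicClosure ℚ
local notation "Γℚ" => (AlgebraicClosure ℚ ≃ₐ[ℚ] AlgebraicClosure ℚ)

section System

variable {p : ℕ} [Fact p.Prime] {k : Type} [Field k] {N : ℕ} [NeZero N]

open Classical in
/-- Eigenvalues with the traces of `ρbar` outside a finite set give a system of `ρbar`. -/
theorem hasSystem_of_traces (ρbar : ResidualGaloisRep k)
    (hdet : (GaloisRepAdic.ofResidualGaloisRep ρbar).DetIsCyclotomic p) (S : Finset ℕ)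
    (χ : ↥(CuspForm.heckeAlgebra N 2 (↑S : Set ℕ)) →+* k)
    (hχ : ∀ (l : ℕ) (hl : l.Prime) (hlN : ¬ l ∣ N) (hlS : l ∉ (↑S : Set ℕ)), l ≠ p →
      ∀ (A : ValuationSubring ℚ̄) (φ : Γℚ), A.LiesOverPrime l → A.IsFrobeniusAt φ l →
        χ (CuspForm.heckeAlgebra.T hl hlN hlS) = LinearMap.trace k ρbar.V (ρbar.ρ φ)) :
    HasSystem p N ρbar := by
  have hpk : (p : k) = 0 := not_not.mp fun h =>
    (IsLocalRing.mem_maximalIdeal _).mp hdet.1 (isUnit_iff_ne_zero.mpr h)
  haveI : CharP k p := (CharP.charP_iff_prime_eq_zero Fact.out).2 hpk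
  let Ω := AlgebraicClosure k
  let j : k →+* Ω := algebraMap k Ω
  haveI : CharP Ω p := charP_of_injective_ringHom (RingHom.injective j) p
  -- a system of the whole algebra and its representation
  obtain ⟨χ', hχ'⟩ := Reps.exists_ringHom_extension (Local.inclS_injective (N := N) (↑S : Set ℕ))
    (Local.inclS_isIntegral _) (j.comp χ)
  obtain ⟨G⟩ := Reps.nonempty_galModel N p
  haveI := G.moduleFinite_TZ
  obtain ⟨O, _, _, _, _, _, _, hp, χO, ι, hι⟩ :=
    Reps.exists_coeff_of_residual (p := p) (Reps.TZ N) χ'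
  let ρ' : ResidualGaloisRep Ω := (G.rep hp χO).residual.baseChangeAlong ι
  have hρ' : ∀ (l : ℕ) (hl : l.Prime) (hlN : ¬ l ∣ N), l ≠ p → ∀ (A : ValuationSubring ℚ̄)
      (φ : Γℚ), A.LiesOverPrime l → A.IsFrobeniusAt φ l →
      LinearMap.charpoly (ρ'.ρ φ) = X ^ 2 - C (χ' (Reps.heckeTOf hl hlN)) * X + C (l : Ω) := by
    intro l hl hlN hlp A φ hA hφ
    letI : Algebra (IsLocalRing.ResidueField O) Ω := ι.toAlgebra
    show LinearMap.charpoly
      ((((G.rep hp χO).ρ φ).baseChange (IsLocalRing.ResidueField O)).baseChange Ω) = _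
    rw [LinearMap.charpoly_baseChange, LinearMap.charpoly_baseChange,
      G.rep_charpoly hp χO hl hlN hlp hA hφ]
    simp only [Polynomial.map_add, Polynomial.map_sub, Polynomial.map_mul, Polynomial.map_pow,
      Polynomial.map_X, Polynomial.map_C, IsLocalRing.ResidueField.algebraMap_eq, map_natCast,
      RingHom.algebraMap_toAlgebra, Polynomial.map_natCast, hι]
    rw [map_natCast C]
  let ρΩ : ResidualGaloisRep Ω := ρbar.baseChange Ω
  have hΩ : ∀ g, LinearMap.charpoly (ρΩ.ρ g) = X ^ 2 -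
      C (j (LinearMap.trace k ρbar.V (ρbar.ρ g))) * X + C (j (LinearMap.det (ρbar.ρ g))) := by
    intro g
    show LinearMap.charpoly ((ρbar.ρ g).baseChange Ω) = _
    rw [LinearMap.charpoly_baseChange, Reps.charpoly_of_finrank_eq_two ρbar.finrank_eq]
    simp [j]
  -- the two representations agree
  have heq := charpoly_eq_of_frobenius ρ' ρΩ (S ∪ N.primeFactors ∪ {p})
    fun l hl hlS A hA φ hφ => by
      simp only [Finset.mem_union, Finset.mem_singleton, not_or] at hlS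
      have hlN : ¬ l ∣ N := fun h => hlS.1.2 (Nat.mem_primeFactors.2 ⟨hl, h, NeZero.ne N⟩)
      have hlS' : l ∉ (↑S : Set ℕ) := fun h => hlS.1.1 (Finset.mem_coe.1 h)
      rw [hρ' l hl hlN hlS.2 A φ hA hφ, hΩ,
        show LinearMap.det (ρbar.ρ φ) = (l : k) from
          det_frobenius (ρ := GaloisRepAdic.ofResidualGaloisRep ρbar) Fact.out hl hlS.2 hA hdet hφ,
        map_natCast j, ← hχ l hl hlN hlS' hlS.2 A φ hA hφ]
      rw [show χ' (Reps.heckeTOf hl hlN) = j (χ (CuspForm.heckeAlgebra.T hl hlN hlS')) from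
        RingHom.congr_fun hχ' (CuspForm.heckeAlgebra.T hl hlN hlS')]
  have hT : ∀ (l : ℕ) (hl : l.Prime) (hlN : ¬ l ∣ N), l ≠ p → ∀ (A : ValuationSubring ℚ̄)
      (φ : Γℚ), A.LiesOverPrime l → A.IsFrobeniusAt φ l →
      χ' (Reps.heckeTOf hl hlN) = j (LinearMap.trace k ρbar.V (ρbar.ρ φ)) := by
    intro l hl hlN hlp A φ hA hφ
    rw [← (Reps.trace_det_of_charpoly_eq ρ'.finrank_eq (hρ' l hl hlN hlp A φ hA hφ)).1,
      (Reps.trace_det_of_charpoly_eq ρ'.finrank_eq ((heq φ).trans (hΩ φ))).1]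
  -- the values lie in `k`
  let H := CuspForm.heckeAlgebra N 2 (↑(levelPrimes p N) : Set ℕ)
  let incl : H →+* Reps.TZ N :=
    (Subalgebra.inclusion (CuspForm.heckeAlgebra_mono (Set.empty_subset _))).toRingHom
  have hrange : ∀ t : H, χ' (incl t) ∈ j.range := by
    rintro ⟨t, ht⟩
    induction ht using Algebra.adjoin_induction with
    | mem x hx =>
      rcases hx with ⟨l, hl, hlN, hlS, rfl⟩ | ⟨q, hqN, hq, hqS, rfl⟩
      · obtain ⟨A, hA, τ, hτ⟩ := GalCommon.exists_place_frobenius hl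
        exact ⟨_, (hT l hl hlN (fun h => hlS (by simp [levelPrimes, h])) A τ hA hτ).symm⟩
      · exact absurd (Finset.mem_coe.2 (Finset.mem_insert_of_mem
          (Nat.mem_primeFactors.2 ⟨hq, hqN, NeZero.ne N⟩))) hqS
    | algebraMap r =>
      rw [show (⟨_, Subalgebra.algebraMap_mem _ r⟩ : H) = ((r : ℤ) : H) from
        Subtype.ext (by simp [eq_intCast]), map_intCast, map_intCast]
      exact intCast_mem _ r
    | add x y hx hy ihx ihy =>
      rw [show (⟨x + y, add_mem hx hy⟩ : H) = ⟨x, hx⟩ + ⟨y, hy⟩ from rfl, map_add, map_add]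
      exact add_mem ihx ihy
    | mul x y hx hy ihx ihy =>
      rw [show (⟨x * y, mul_mem hx hy⟩ : H) = ⟨x, hx⟩ * ⟨y, hy⟩ from rfl, map_mul, map_mul]
      exact mul_mem ihx ihy
  let e : k ≃+* j.range :=
    RingEquiv.ofBijective j.rangeRestrict ⟨RingHom.injective _, j.rangeRestrict_surjective⟩
  refine ⟨e.symm.toRingHom.comp ((χ'.comp incl).codRestrict _ hrange),
    fun l hl hlN hlS A φ hA hφ => e.symm_apply_eq.2 (Subtype.ext ?_)⟩
  exact hT l hl hlN (fun h => hlS (by simp [levelPrimes, h])) A φ hA hφ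

end System

section Stab

variable {N v : ℕ} {k : Type} [Field k]

/-- A larger family has a smaller part. -/
theorem h1Part_le_comp {L : ℕ} {ι ι₀ : Type} (pr : ι → Nat.Primes) (θ : ι → k) (g : ι₀ → ι) :
    h1Part (1 : (ZMod L)ˣ →* kˣ) pr (RingHom.id k) θ k ≤
      h1Part (1 : (ZMod L)ˣ →* kˣ) (pr ∘ g) (RingHom.id k) (θ ∘ g) k := fun x hx =>
  mem_part.mpr fun s hs => by
    obtain ⟨y, hy⟩ := mem_part.mp hx (MvPolynomial.rename g s) fun h => hs (by
      rw [mem_eigIdeal, MvPolynomial.coe_eval₂Hom, MvPolynomial.eval₂_rename] at h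
      rw [mem_eigIdeal, MvPolynomial.coe_eval₂Hom]
      exact h)
    exact ⟨y, by
      rw [← hy]
      exact LinearMap.congr_fun (famAct_comp_rename g s) y⟩

variable {ι : Type} {pr : ι → Nat.Primes} {θ : ι → k}

set_option maxHeartbeats 1600000 in
/-- If the part at level `N` away from `v` vanishes, so does the part at level `N v` with
`U_v ^ 2 ≠ 1`. -/
theorem part_eq_bot_of_old [NeZero N] [NeZero (N * v)] [Finite k] (hv : v.Prime) (hvN : ¬ v ∣ N)
    {i₀ : ι} (hi₀ : (pr i₀ : ℕ) = v) (hα : θ i₀ * θ i₀ ≠ 1)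
    (h : h1Part (1 : (ZMod N)ˣ →* kˣ) (fun i : {i : ι // (pr i : ℕ) ≠ v} => pr i.1)
      (RingHom.id k) (fun i => θ i.1) k = ⊥) :
    h1Part (1 : (ZMod (N * v))ˣ →* kˣ) pr (RingHom.id k) θ k = ⊥ := by
  classical
  set pr₀ : {i : ι // (pr i : ℕ) ≠ v} → Nat.Primes := fun i => pr i.1 with hpr₀
  set m := eigIdeal (RingHom.id k) θ
  set m₀ := eigIdeal (RingHom.id k) fun i : {i : ι // (pr i : ℕ) ≠ v} => θ i.1
  haveI : m.IsMaximal := isMaximal_eigIdeal (σ := RingHom.id k) Function.surjective_id θ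
  haveI : m₀.IsMaximal := isMaximal_eigIdeal (σ := RingHom.id k) Function.surjective_id _
  have hm : m ≠ ⊤ := Ideal.IsMaximal.ne_top inferInstance
  have hm₀ : m₀ ≠ ⊤ := Ideal.IsMaximal.ne_top inferInstance
  set act := famAct (1 : (ZMod (N * v))ˣ →* kˣ) pr k
  obtain ⟨e, he⟩ := exists_isProj act m
  obtain ⟨e₀, he₀⟩ := exists_isProj (famAct (1 : (ZMod N)ˣ →* kˣ) pr₀ k) m₀
  -- everything old dies
  have hres : ∀ (T : H1 k k (tchi N k) →ₗ[k] H1 k k (tchi (N * v) k)),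
      (∀ (i : {i : ι // (pr i : ℕ) ≠ v}) x,
        T (heckeOp (pr i.1).2 1 k x) = heckeOp (pr i.1).2 1 k (T x)) →
      ∀ z, act e (T z) = 0 := by
    intro T hT z
    obtain ⟨s, hs, hs0⟩ := (he₀.apply_eq_zero_iff hm₀).mp
      (show famAct (1 : (ZMod N)ˣ →* kˣ) pr₀ k e₀ z = 0 from
        (Submodule.mem_bot k).mp (h ▸ he₀.mem_part hm₀ z))
    refine (he.apply_eq_zero_iff hm).mpr ⟨MvPolynomial.rename Subtype.val s, fun h1 => hs (by
      rw [mem_eigIdeal, MvPolynomial.coe_eval₂Hom, MvPolynomial.eval₂_rename] at h1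
      rw [mem_eigIdeal, MvPolynomial.coe_eval₂Hom]
      exact h1), ?_⟩
    have hcomm : ∀ (t : MvPolynomial {i : ι // (pr i : ℕ) ≠ v} k) x,
        T (famAct (1 : (ZMod N)ˣ →* kˣ) pr₀ k t x) =
          famAct (1 : (ZMod (N * v))ˣ →* kˣ) pr₀ k t (T x) := by
      intro t
      induction t using MvPolynomial.induction_on with
      | C c => intro x; simp [Module.algebraMap_end_apply]
      | add s t hs ht =>
        intro x
        rw [map_add, LinearMap.add_apply, map_add, hs, ht, map_add, LinearMap.add_apply]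
      | mul_X s i hs =>
        intro x
        rw [map_mul, Module.End.mul_apply, hs, famAct_X, hT, map_mul, Module.End.mul_apply, famAct_X]
    have h2 := hcomm s z
    rw [hs0, map_zero] at h2
    exact (LinearMap.congr_fun (famAct_comp_rename Subtype.val s) _).symm.trans h2.symm
  rw [eq_bot_iff]
  intro y hy
  set c : MvPolynomial ι k := 1 - MvPolynomial.X i₀ * MvPolynomial.X i₀
  have hc : c ∉ m := by
    rw [mem_eigIdeal]
    simp only [c, map_sub, map_one, map_mul, MvPolynomial.eval₂Hom_X']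
    exact fun h0 => hα (sub_eq_zero.mp h0).symm
  refine (Submodule.mem_bot k).mpr (he.eq_zero_of_mem hm hy hc ?_)
  have hX : ∀ a, act (MvPolynomial.X i₀) a = heckeOp hv (1 : (ZMod (N * v))ˣ →* kˣ) k a :=
    fun a => by rw [famAct_X]; congr! 3
  set W := (wSys k hv hvN).map k
  set z₁ := (corSys k hv hvN).map k y
  set z₂ := (corSys k hv hvN).map k (W y)
  have i1 : y + act (MvPolynomial.X i₀) (W y) = (degOne N k v).map k z₁ := by
    rw [hX]; exact add_hecke_w hv hvN y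
  have i2 : W y + act (MvPolynomial.X i₀) y = (degOne N k v).map k z₂ := by
    rw [hX]
    have := add_hecke_w hv hvN (W y)
    rwa [w_w] at this
  have hold : act c y = (degOne N k v).map k (z₁ - heckeOp hv 1 k z₂) +
      (degV N k hv).map k z₂ := by
    have i3 := congrArg (act (MvPolynomial.X i₀)) i2
    rw [map_add, hX ((degOne N k v).map k z₂), hecke_degOne hv hvN] at i3
    simp only [c, map_sub, LinearMap.sub_apply, map_one, Module.End.one_apply, map_mul,
      Module.End.mul_apply]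
    linear_combination (norm := abel) i1 - i3
  rw [← he.apply_eq_self hm (act_mem_part hy c), hold, map_add,
    hres _ (fun i x => degOne_hecke (pr i.1).2 hv i.2 x),
    hres _ (fun i x => degV_hecke (pr i.1).2 hv i.2 x), add_zero]

set_option maxHeartbeats 1600000 in
/-- If the part at level `N` away from the primes of `Q` vanishes, so does the part at level
`N Q` with `U_v ^ 2 ≠ 1` at the primes `v` of `Q`. -/
theorem part_eq_bot_of_old_squarefree [Finite k] (N : ℕ) [NeZero N] (Q : ℕ) (hQ : Squarefree Q)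
    (hco : Nat.Coprime N Q) {ι : Type} {pr : ι → Nat.Primes} {θ : ι → k}
    (hat : ∀ v : ℕ, v.Prime → v ∣ Q → ∃ i, (pr i : ℕ) = v ∧ θ i * θ i ≠ 1)
    {ι₀ : Type} (g : ι₀ → ι) (hg : ∀ j, ¬ (pr (g j) : ℕ) ∣ Q)
    (h : h1Part (1 : (ZMod N)ˣ →* kˣ) (pr ∘ g) (RingHom.id k) (θ ∘ g) k = ⊥)
    {L : ℕ} [NeZero L] (hL : L = N * Q) :
    h1Part (1 : (ZMod L)ˣ →* kˣ) pr (RingHom.id k) θ k = ⊥ := by
  induction Q using Nat.strong_induction_on generalizing ι L with
  | _ Q ih =>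
  rcases eq_or_ne Q 1 with rfl | hQ1
  · rw [mul_one] at hL
    subst hL
    exact eq_bot_iff.mpr ((h1Part_le_comp pr θ g).trans h.le)
  obtain ⟨v, hv, hvQ⟩ := Nat.exists_prime_and_dvd hQ1
  obtain ⟨Q₁, rfl⟩ := hvQ
  obtain ⟨hco₁, -, hQ₁⟩ := Nat.squarefree_mul_iff.mp hQ
  have hvN : ¬ v ∣ N := fun h1 => hv.one_lt.ne'
    (Nat.eq_one_of_dvd_coprimes hco h1 (dvd_mul_right v Q₁))
  have hvQ₁ : ¬ v ∣ Q₁ := fun h1 => hv.one_lt.ne' (Nat.eq_one_of_dvd_coprimes hco₁ dvd_rfl h1)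
  have hQ0 : Q₁ ≠ 0 := fun h0 => hvQ₁ (h0 ▸ dvd_zero v)
  haveI : NeZero (N * Q₁) := ⟨mul_ne_zero (NeZero.ne N) hQ0⟩
  obtain rfl : L = (N * Q₁) * v := by rw [hL]; ring
  obtain ⟨i₀, hi₀, hα⟩ := hat v hv (dvd_mul_right v Q₁)
  refine part_eq_bot_of_old hv (fun h1 => (hv.dvd_mul.mp h1).elim hvN hvQ₁) hi₀ hα ?_
  refine ih Q₁ (lt_mul_of_one_lt_left (Nat.pos_of_ne_zero hQ0) hv.one_lt) hQ₁
    (hco.coprime_dvd_right (dvd_mul_left Q₁ v)) (fun w hw hwQ => ?_)
    (pr := fun i : {i : ι // (pr i : ℕ) ≠ v} => pr i.1) (θ := fun i => θ i.1)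
    (fun j => ⟨g j, fun e => hg j (e ▸ dvd_mul_right v Q₁)⟩)
    (fun j hj => hg j (hj.trans (dvd_mul_left Q₁ v))) ?_ (L := N * Q₁) rfl
  · obtain ⟨i, hi, hi2⟩ := hat w hw (hwQ.trans (dvd_mul_left Q₁ v))
    exact ⟨⟨i, fun e => hvQ₁ (by rw [← e, hi]; exact hwQ)⟩, hi, hi2⟩
  · exact h

end Stab

section Descent

variable {p : ℕ} [Fact p.Prime] {k : Type} [Field k] [Finite k] {R : Type} [CommRing R]
  {σ : R →+* k} {ι : Type} {pr : ι → Nat.Primes} {θ : ι → k} {S₀ : Finset ℕ}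

/-- A residual part that vanishes stays zero over every coefficient ring and character. -/
theorem h1Part_eq_bot_of_residual {L : ℕ} [NeZero L] [IsLocalRing R] [IsNoetherianRing R]
    [IsAdicComplete (maximalIdeal R) R] {ψ : (ZMod L)ˣ →* Rˣ} (hfam : FamHyp L pr σ θ)
    (hψ : CharHyp ψ σ)
    (h : h1Part (1 : (ZMod L)ˣ →* kˣ) pr (RingHom.id k) θ k = ⊥) :
    h1Part ψ pr σ θ R = ⊥ := by
  obtain ⟨d, ⟨Fk⟩⟩ := exists_frame_residual (L := L) pr θ
  obtain rfl : d = 0 := by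
    by_contra hd
    exact part_ne_bot hd Fk h
  obtain ⟨F, -⟩ := exists_frame_lift hfam hψ Fk
  refine eq_bot_iff.mpr fun x hx => ?_
  obtain ⟨c, rfl⟩ := F.span x hx
  rw [Subsingleton.elim c 0, map_zero]
  exact zero_mem _

variable [IsDomain R] [IsDiscreteValuationRing R] [IsAdicComplete (maximalIdeal R) R] [CharZero R]

open Classical in
/-- A nonzero part with the traces of `ρbar` gives a system of `ρbar`. -/
theorem hasSystem_of_part_ne_bot {N : ℕ} [NeZero N] (hfam : FamHyp N pr σ θ)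
    (ρbar : ResidualGaloisRep k)
    (hdet : (GaloisRepAdic.ofResidualGaloisRep ρbar).DetIsCyclotomic p)
    (hall : ∀ l : Nat.Primes, (l : ℕ) ∉ S₀ → ∃ i, pr i = l)
    (htr : ∀ i, (pr i : ℕ) ∉ S₀ → ¬ (pr i : ℕ) ∣ N → (pr i : ℕ) ≠ p →
      ∀ (A : ValuationSubring ℚ̄) (φ : Γℚ), A.LiesOverPrime (pr i : ℕ) →
        A.IsFrobeniusAt φ (pr i : ℕ) → θ i = LinearMap.trace k ρbar.V (ρbar.ρ φ))
    (hpar : ParHyp N pr θ)
    (hne : h1Part (1 : (ZMod N)ˣ →* kˣ) pr (RingHom.id k) θ k ≠ ⊥) :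
    HasSystem p N ρbar := by
  obtain ⟨d, ⟨Fk⟩⟩ := exists_frame_residual (L := N) pr θ
  have hd : d ≠ 0 := by
    rintro rfl
    refine hne (eq_bot_iff.mpr fun x hx => ?_)
    obtain ⟨c, rfl⟩ := Fk.span x hx
    rw [Subsingleton.elim c 0, map_zero]
    exact zero_mem _
  obtain ⟨F, -⟩ := exists_frame_lift hfam (charHyp_one (R := R)) Fk
  haveI : Nonempty (Fin d) := Fin.pos_iff_nonempty.mp (Nat.pos_of_ne_zero hd)
  set S : Finset ℕ := S₀ ∪ N.primeFactors ∪ {p} with hS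
  have hidx : ∀ l : {l : Nat.Primes // (l : ℕ) ∉ S}, ∃ i, pr i = l.1 := fun l =>
    hall l.1 fun h => l.2 (by simp [hS, h])
  choose g hg using hidx
  let act : MvPolynomial {l : Nat.Primes // (l : ℕ) ∉ S} R →ₐ[R] Matrix (Fin d) (Fin d) R :=
    F.mat.comp (MvPolynomial.rename g)
  -- parts are parabolic
  have hmem : ∀ c, h1Triv N R R (F.combo c) ∈ Period.H N R R := by
    intro c
    obtain ⟨i, hiN, hi⟩ := hpar
    obtain ⟨y, hy⟩ := mem_part.mp (F.combo_mem c)
      (MvPolynomial.X i - MvPolynomial.C (((pr i : ℕ) : R) + 1)) fun h0 => hi (by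
        rw [mem_eigIdeal, map_sub, MvPolynomial.eval₂Hom_X', MvPolynomial.eval₂Hom_C, map_add,
          map_natCast, map_one, sub_eq_zero] at h0
        exact h0)
    rw [← hy, map_sub, LinearMap.sub_apply, famAct_X, MvPolynomial.algHom_C,
      Module.algebraMap_end_apply]
    exact heckeOp_sub_mem_H (pr i).2 hiN y
  let emb : (Fin d → R) →ₗ[R] Period.H N R R :=
    ((h1Triv N R R).toLinearMap ∘ₗ F.combo).codRestrict _ hmem
  have hinj : Function.Injective emb := fun c c' e =>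
    F.inj ((h1Triv N R R).injective (congrArg Subtype.val e))
  obtain ⟨π, hπ, -, -⟩ := exists_hecke_hom (N' := N) (S := S)
    (fun l hl hlN => by simp [hS, Nat.mem_primeFactors, hl, hlN, NeZero.ne N]) act emb hinj
    fun l c => Subtype.ext (by
      show (HeckeH.heckeH N l.1.2 R R (emb c) : Additive (Gamma0 N) →+ R) =
        h1Triv N R R (F.combo (F.mat (MvPolynomial.rename g (MvPolynomial.X l)) *ᵥ c))
      rw [HeckeH.coe_heckeH, MvPolynomial.rename_X, F.combo_mat, famAct_X, h1Triv_heckeOp]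
      congr! <;> rw [hg])
  have hU : UnitAway act σ (θ ∘ g) := fun s hs => by
    refine F.isUnit_mat hfam.surjective fun h => hs ?_
    rw [mem_eigIdeal, MvPolynomial.coe_eval₂Hom] at h
    exact (MvPolynomial.eval₂_rename σ g θ s).symm.trans h
  refine hasSystem_of_traces ρbar hdet S ((imgTheta hU).comp π)
    fun l hl hlN hlS hlp A φ hA hφ => ?_
  rw [RingHom.comp_apply, hπ l hl hlN hlS, imgTheta_gen, Function.comp_apply]
  have hl' : (pr (g ⟨⟨l, hl⟩, hlS⟩) : ℕ) = l := congrArg Subtype.val (hg ⟨⟨l, hl⟩, hlS⟩)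
  exact htr _ (by rw [hl']; exact fun h => hlS (by simp [hS, h])) (by rw [hl']; exact hlN)
    (by rw [hl']; exact hlp) A φ (by rw [hl']; exact hA) (by rw [hl']; exact hφ)

/-- **Descent.** If `ρbar` has no system prime to `p`, the part of level `N Q` vanishes. -/
theorem part_eq_bot_of_noSystem (hp2 : p ≠ 2) (hσ : Function.Surjective σ)
    (ρbar : ResidualGaloisRep k)
    (hdet : (GaloisRepAdic.ofResidualGaloisRep ρbar).DetIsCyclotomic p)
    (hno : NoSystemPrimeTo p ρbar) {N Q L : ℕ} [NeZero N] [NeZero L] (hL : L = N * Q)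
    (hN : Squarefree N) (hpN : ¬ p ∣ N) (hQ : Squarefree Q) (hco : Nat.Coprime N Q)
    (hall : ∀ l : Nat.Primes, (l : ℕ) ∉ S₀ → ∃ i, pr i = l)
    (htr : ∀ i, (pr i : ℕ) ∉ S₀ → ¬ (pr i : ℕ) ∣ L → (pr i : ℕ) ≠ p →
      ∀ (A : ValuationSubring ℚ̄) (φ : Γℚ), A.LiesOverPrime (pr i : ℕ) →
        A.IsFrobeniusAt φ (pr i : ℕ) → θ i = LinearMap.trace k ρbar.V (ρbar.ρ φ))
    (hat : ∀ v : ℕ, v.Prime → v ∣ Q → (v : k) = 1 ∧ ∃ i, (pr i : ℕ) = v ∧ θ i * θ i ≠ 1)
    (hpar : ParHyp L pr θ)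
    (h3 : (3 : k) ≠ 0 ∨ ∃ i, (pr i : ℕ) % 3 = 2 ∧ θ i ≠ 0) :
    h1Part (1 : (ZMod L)ˣ →* kˣ) pr (RingHom.id k) θ k = ⊥ := by
  classical
  have hpk : (p : k) = 0 := not_not.mp fun h =>
    (IsLocalRing.mem_maximalIdeal _).mp hdet.1 (isUnit_iff_ne_zero.mpr h)
  have hQ0 : Q ≠ 0 := hQ.ne_zero
  refine part_eq_bot_of_old_squarefree N Q hQ hco (fun v hv hvQ => (hat v hv hvQ).2)
    (Subtype.val : {i : ι // ¬ (pr i : ℕ) ∣ Q} → ι) (fun j => j.2) ?_ hL
  by_contra hne
  obtain ⟨l, hlL, hl⟩ := hpar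
  have hlQ : ¬ (pr l : ℕ) ∣ Q := fun h1 => by
    have h2 := (pr l).2.two_le
    have := Nat.le_of_dvd (by omega) ((h1.trans (hL ▸ dvd_mul_left Q N)).trans hlL)
    omega
  have hpar₀ : ParHyp N (pr ∘ (Subtype.val : {i : ι // ¬ (pr i : ℕ) ∣ Q} → ι))
      (θ ∘ Subtype.val) := ⟨⟨l, hlQ⟩, (hL ▸ dvd_mul_right N Q).trans hlL, hl⟩
  refine hno N hN hpN (hasSystem_of_part_ne_bot (σ := σ) (S₀ := S₀ ∪ Q.primeFactors)
    { surjective := hσ
      two := two_ne_zero_of_cast hp2 hpk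
      not_eis := hpar₀.not_eis
      order_three := ?_ } ρbar hdet (fun w hw => ?_) (fun i hi hiN => ?_) hpar₀ hne)
  · rcases h3 with h3 | ⟨i, hi, hi0⟩
    · exact Or.inl h3
    · by_cases h3' : (3 : k) = 0
      · exact Or.inr ⟨⟨i, fun h1 => mod_three_ne_two h3' (hat _ (pr i).2 h1).1 hi⟩, hi, hi0⟩
      · exact Or.inl h3'
  · rw [Finset.mem_union, not_or] at hw
    obtain ⟨i, hi⟩ := hall w hw.1
    exact ⟨⟨i, fun h1 => hw.2 (Nat.mem_primeFactors.2 ⟨w.2, hi ▸ h1, hQ0⟩)⟩, hi⟩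
  · rw [Finset.mem_union, not_or] at hi
    exact htr i.1 hi.1 fun h1 => by
      rw [hL] at h1
      rcases (pr i.1).2.dvd_mul.mp h1 with h2 | h2
      · exact hiN h2
      · exact i.2 h2

end Descent

end FLTAgent.Lower.Levels
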