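import Fermat.Agent.Lower.Levels.AuxLevel
import Fermat.Agent.Lower.Levels.Descent
import Fermat.Agent.Lower.Lift.HopTW.Frames
import Fermat.Agent.Lower.Lift.HopTW.Twist

/-!
# No system at levels prime to `p`

If no level prime to `p` carries the residual system, the part at an auxiliary level prime to `p`
vanishes (`h1Part_eq_bot_of_noSystem`), so the classes of the part at a level divisible by `p` are
killed by both corestrictions at `p`, also after twisting by a character congruent to one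
(`corT_eq_zero_of_noSystem`, `corU_eq_zero_of_noSystem`, `corU_twistMap_eq_zero_of_noSystem`).
-/

set_option autoImplicit false
set_option linter.unusedSectionVars false

noncomputable section

open CongruenceSubgroup
open scoped MatrixGroups

namespace FLTAgent.Lower.Levels

open IsLocalRing (maximalIdeal ResidueField residue)
open FLTAgent.Lower.Lift (NoSystemPrimeTo)
open FLTAgent.Lower.Lift.HopTW (IsRaise corU corWU)

open FLTAgent.Lower.Lift.HopTW (upChar corT corWT cor_hecke corW_hecke tw_cor tw_corW Commutes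
  upChar_twistChar)

variable {p : ℕ} [Fact p.Prime] {O : Type} [CommRing O] [IsDomain O] [IsDiscreteValuationRing O]
  [IsAdicComplete (maximalIdeal O) O] [Finite (ResidueField O)] [CharZero O]
  {S : Finset ℕ} {ρbar : ResidualGaloisRep (ResidueField O)}
  {n r : ℕ} {Qv : Fin r → ℕ} {θ' : AwayPrimes S → ResidueField O}
  {R : Type} [CommRing R] [IsLocalRing R] [IsNoetherianRing R] [IsAdicComplete (maximalIdeal R) R]
  {σ : R →+* ResidueField O}

/-- The part at the auxiliary level prime to `p` vanishes. -/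
theorem h1Part_eq_bot_of_noSystem (h : ResHyp p S ρbar) (hno : NoSystemPrimeTo p ρbar)
    (hQ : AuxHyp p n S ρbar Qv) (hθ : StabEig ρbar (∏ i, Qv i) θ') {N L : ℕ} [NeZero N]
    [NeZero L] (hN : Squarefree N) (hpN : ¬ p ∣ N)
    (hNS : ∀ l : ℕ, l.Prime → l ∣ N → l ∈ S) (hL : L = N * ∏ i, Qv i)
    (hσ : Function.Surjective σ) {ψ : (ZMod L)ˣ →* Rˣ} (hψ : CharHyp ψ σ) :
    h1Part ψ (awPr S) σ θ' R = ⊥ := by
  have : NeZero (∏ i, Qv i) := ⟨hQ.prod_ne_zero⟩
  refine h1Part_eq_bot_of_residual (hθ.famHyp h L hσ) hψ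
    (part_eq_bot_of_noSystem (σ := residue O) (S₀ := S) h.ne_two IsLocalRing.residue_surjective
      ρbar h.det hno hL hN hpN hQ.squarefree (hQ.coprime hNS) (fun l hl => ⟨⟨l, hl⟩, rfl⟩)
      (fun i hi hiL _ A φ hA hφ => ?_) (fun v hv hd => ?_) (hθ.parHyp h L)
      (hθ.famHyp h L hσ).order_three)
  · rw [hθ.away i fun hd => hiL (hL ▸ hd.mul_left N)]
    exact frobTrace_eq ρbar i.1.2 (h.unramified _ i.1.2 hi) hA hφ
  · obtain ⟨j, rfl⟩ := hQ.exists_eq hv hd
    exact ⟨cast_eq_one_of_dvd h.char hv.ne_zero (hQ.p_dvd j), ⟨⟨Qv j, hv⟩, hQ.notMem j⟩, rfl,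
      (hθ.dvd ⟨⟨Qv j, hv⟩, hQ.notMem j⟩ hd).2⟩

/-- The two corestrictions at `p` of a class of the auxiliary part vanish. -/
theorem corT_eq_zero_of_noSystem (h : ResHyp p S ρbar) (hno : NoSystemPrimeTo p ρbar)
    (hQ : AuxHyp p n S ρbar Qv) (hθ : StabEig ρbar (∏ i, Qv i) θ') {N L M : ℕ} [NeZero N]
    [NeZero L] (hN : Squarefree N) (hpN : ¬ p ∣ N)
    (hNS : ∀ l : ℕ, l.Prime → l ∣ N → l ∈ S) (hL : L = N * ∏ i, Qv i) (hraise : IsRaise L M p)
    (hσ : Function.Surjective σ) {ψ : (ZMod L)ˣ →* Rˣ} (hψ : CharHyp ψ σ)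
    {z : H1 R R (chi (upChar hraise ψ))}
    (hz : z ∈ h1Part (upChar hraise ψ) (awPr S) σ θ' R) :
    (corT hraise ψ).map R z = 0 ∧ (corWT hraise ψ).map R z = 0 := by
  have hbot := h1Part_eq_bot_of_noSystem h hno hQ hθ hN hpN hNS hL hσ hψ
  have hne : ∀ i : AwayPrimes S, (i.1 : ℕ) ≠ p := fun i e => i.2 (e ▸ h.mem)
  have hcor : Commutes (awPr S) ((corT hraise ψ).map R) :=
    fun i x => cor_hecke hraise ψ i.1.2 (hne i) x
  have hcorW : Commutes (awPr S) ((corWT hraise ψ).map R) :=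
    fun i x => corW_hecke hraise ψ i.1.2 (hne i) x
  exact ⟨(Submodule.mem_bot R).mp (hbot ▸ hcor.mem_part hz),
    (Submodule.mem_bot R).mp (hbot ▸ hcorW.mem_part hz)⟩

/-- With trivial character. -/
theorem corU_eq_zero_of_noSystem (h : ResHyp p S ρbar) (hno : NoSystemPrimeTo p ρbar)
    (hQ : AuxHyp p n S ρbar Qv) (hθ : StabEig ρbar (∏ i, Qv i) θ') {N L M : ℕ} [NeZero N]
    [NeZero L] [NeZero M] (hN : Squarefree N) (hpN : ¬ p ∣ N)
    (hNS : ∀ l : ℕ, l.Prime → l ∣ N → l ∈ S) (hL : L = N * ∏ i, Qv i) (hraise : IsRaise L M p)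
    (hσ : Function.Surjective σ) {z : H1 R R (tchi M R)}
    (hz : z ∈ h1Part (1 : (ZMod M)ˣ →* Rˣ) (awPr S) σ θ' R) :
    (corU R hraise).map R z = 0 ∧ (corWU R hraise).map R z = 0 :=
  corT_eq_zero_of_noSystem h hno hQ hθ hN hpN hNS hL hraise hσ charHyp_one hz

/-- After twisting by a character congruent to one. -/
theorem corU_twistMap_eq_zero_of_noSystem (h : ResHyp p S ρbar) (hno : NoSystemPrimeTo p ρbar)
    (hQ : AuxHyp p n S ρbar Qv) (hθ : StabEig ρbar (∏ i, Qv i) θ') {N L M : ℕ} [NeZero N]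
    [NeZero L] [NeZero M] (hN : Squarefree N) (hpN : ¬ p ∣ N)
    (hNS : ∀ l : ℕ, l.Prime → l ∣ N → l ∈ S) (hL : L = N * ∏ i, Qv i) (hraise : IsRaise L M p)
    (hσ : Function.Surjective σ) {Q' : ℕ} [NeZero Q'] [NeZero (M * Q')] (hQ' : Q' ∣ L)
    {η : (ZMod Q')ˣ →* Rˣ} (hη : ∀ a, σ (η a : R) = 1)
    (z : H1 R R (chi (twistChar (hQ'.trans hraise.dvd) η)))
    (hz : z ∈ h1Part (twistChar (hQ'.trans hraise.dvd) η) (awPr S) σ θ' R) :
    (corU R (hraise.mul_aux hQ')).map R (twistMap (hQ'.trans hraise.dvd) η z) = 0 ∧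
      (corWU R (hraise.mul_aux hQ')).map R (twistMap (hQ'.trans hraise.dvd) η z) = 0 := by
  have hψ : CharHyp (twistChar hQ' η) σ := by
    refine ⟨fun u => ?_, ?_⟩
    · rw [twistChar, MonoidHom.inv_apply, MonoidHom.pow_apply, MonoidHom.comp_apply, ← map_pow,
        ← map_inv, hη]
    · rw [twistChar, MonoidHom.inv_apply, MonoidHom.pow_apply, ← map_pow, neg_one_sq, map_one,
        inv_one]
  suffices key : ∀ (ψ : (ZMod M)ˣ →* Rˣ)
      (hr : TwistRel (hQ'.trans hraise.dvd) (dvd_refl (M * Q')) η ψ 1) (z : H1 R R (chi ψ)),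
      z ∈ h1Part ψ (awPr S) σ θ' R → ψ = upChar hraise (twistChar hQ' η) →
      (corU R (hraise.mul_aux hQ')).map R ((twistSys hr).map R z) = 0 ∧
        (corWU R (hraise.mul_aux hQ')).map R ((twistSys hr).map R z) = 0 from
    key _ (twistRel_twistChar _ η) z hz (upChar_twistChar hraise hQ' η).symm
  rintro ψ hr z hz rfl
  obtain ⟨h1, h2⟩ :=
    corT_eq_zero_of_noSystem h hno hQ hθ hN hpN hNS hL hraise hσ hψ hz
  refine ⟨(tw_cor hraise hQ' η z).symm.trans ?_, (tw_corW hraise hQ' η z).symm.trans ?_⟩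
  · rw [h1, map_zero]
  · rw [h2, smul_zero, map_zero]

end FLTAgent.Lower.Levels
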