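import Fermat.Agent.Lower.Levels.Embed
import Fermat.Agent.Lower.Levels.TraceRep
import Fermat.Agent.GalCommon.Carayol
import Fermat.Agent.Density.Main
import Fermat.Agent.Lower.Galois

/-!
# The Hecke ring of a lattice with commuting operators

`HeckeLattice`: commuting operators on `R ^ d` indexed by the primes away from `S`, embedded in the
periods of level `N` as the Hecke operators. Its ring `HeckeLattice.T` is local, finite over the
coefficients, with their residue field; it carries a representation attached to it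
(`HeckeLattice.exists_rep`), and relations between operators give maps of rings (`HeckeLattice.map`)
carrying one representation to the other (`HeckeLattice.isEquiv_map`).
-/

set_option autoImplicit false
set_option linter.style.haveILetI false
set_option linter.unusedSectionVars false

noncomputable section

open CongruenceSubgroup CuspForm
open scoped MatrixGroups Matrix TensorProduct

namespace FLTAgent.Lower.Levels

open IsLocalRing (maximalIdeal ResidueField residue)
open Polynomial (X C)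

local notation "ℚ̄" => AlgebraicClosure ℚ
local notation "Γℚ" => (AlgebraicClosure ℚ ≃ₐ[ℚ] AlgebraicClosure ℚ)

/-- The indices of the operators away from `S`. -/
abbrev AwayIdx (S : Finset ℕ) : Type := {l : Nat.Primes // (l : ℕ) ∉ S}

/-- The prime `l` as an index. -/
abbrev awayIdx {S : Finset ℕ} {l : ℕ} (hl : l.Prime) (hlS : l ∉ S) : AwayIdx S := ⟨⟨l, hl⟩, hlS⟩

/-- Commuting operators on `R ^ d` indexed by the primes away from `S`, embedded in the periods of
level `N` as the Hecke operators, invertible away from the residual traces of `ρbar`. -/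
structure HeckeLattice {O : Type} [CommRing O] [IsLocalRing O] (p N : ℕ) [NeZero N]
    (S : Finset ℕ) (ρbar : ResidualGaloisRep (ResidueField O)) (R : Type) [CommRing R]
    [Algebra O R] (d : ℕ) : Type where
  act : MvPolynomial (AwayIdx S) O →ₐ[O] Matrix (Fin d) (Fin d) R
  emb : (Fin d → R) →ₗ[R] Period.H N R R
  emb_injective : Function.Injective emb
  emb_X : ∀ (l : AwayIdx S) (x : Fin d → R),
    HeckeH.heckeH N l.1.2 R R (emb x) = emb (act (MvPolynomial.X l) *ᵥ x)
  θ : AwayIdx S → ResidueField O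
  unitAway : UnitAway act (residue O) θ
  trace_eq : ∀ (l : AwayIdx S) (A : ValuationSubring ℚ̄), A.LiesOverPrime l.1 →
    ∀ φ : Γℚ, A.IsFrobeniusAt φ l.1 →
      LinearMap.trace (ResidueField O) ρbar.V (ρbar.ρ φ) = θ l
  p_mem : p ∈ S
  level_mem : ∀ l : ℕ, l.Prime → l ∣ N → l ∈ S

/-- Base change preserves spanning of the endomorphisms. -/
theorem span_baseChange_eq_top {A B V G : Type} [CommRing A] [CommRing B] [Algebra A B]
    [AddCommGroup V] [Module A V] [Module.Free A V] [Module.Finite A V] (f : G → Module.End A V)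
    (hf : Submodule.span A (Set.range f) = ⊤) :
    Submodule.span B (Set.range fun g => (f g).baseChange B) = ⊤ := by
  classical
  let b := Module.Free.chooseBasis A V
  set P := Submodule.span B (Set.range fun g => (f g).baseChange B)
  have himg : ∀ E : Module.End A V, E.baseChange B ∈ P := fun E => by
    have hE : E ∈ Submodule.span A (Set.range f) := hf ▸ Submodule.mem_top
    induction hE using Submodule.span_induction with
    | mem x hx => obtain ⟨g, rfl⟩ := hx; exact Submodule.subset_span ⟨g, rfl⟩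
    | zero => rw [LinearMap.baseChange_zero]; exact P.zero_mem
    | add x y _ _ hx hy => rw [LinearMap.baseChange_add]; exact P.add_mem hx hy
    | smul a x _ hx =>
      rw [LinearMap.baseChange_smul, algebra_compatible_smul B a]
      exact P.smul_mem _ hx
  rw [eq_top_iff]
  intro E _
  have key : E = ∑ i, ∑ j, (b.baseChange B).repr (E ((b.baseChange B) j)) i •
      ((b.coord j).smulRight (b i)).baseChange B := by
    refine (b.baseChange B).ext fun l => ?_
    simp only [LinearMap.sum_apply, LinearMap.smul_apply]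
    conv_lhs => rw [← (b.baseChange B).sum_repr (E ((b.baseChange B) l))]
    refine Finset.sum_congr rfl fun i _ => ?_
    rw [Finset.sum_eq_single l (fun j _ hj => ?_) fun h => absurd (Finset.mem_univ l) h]
    · rw [Module.Basis.baseChange_apply, Module.Basis.baseChange_apply, LinearMap.baseChange_tmul,
        LinearMap.smulRight_apply, Module.Basis.coord_apply, Module.Basis.repr_self,
        Finsupp.single_eq_same, one_smul]
    · rw [Module.Basis.baseChange_apply, Module.Basis.baseChange_apply, LinearMap.baseChange_tmul,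
        LinearMap.smulRight_apply, Module.Basis.coord_apply, Module.Basis.repr_self,
        Finsupp.single_eq_of_ne hj, zero_smul, TensorProduct.tmul_zero, smul_zero]
  rw [key]
  exact P.sum_mem fun i _ => P.sum_mem fun j _ => P.smul_mem _ (himg _)

/-- A representation spanning the endomorphisms is absolutely irreducible. -/
theorem isAbsolutelyIrreducible_of_span {k : Type} [Field k] (ρ : ResidualGaloisRep k)
    (h : Submodule.span k (Set.range ρ.ρ) = ⊤) : ρ.IsAbsolutelyIrreducible := by
  intro W hW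
  have hall : ∀ (E : Module.End (AlgebraicClosure k) (ρ.baseChange (AlgebraicClosure k)).V),
      ∀ x ∈ W, E x ∈ W := fun E => by
    have hE : E ∈ Submodule.span (AlgebraicClosure k)
        (Set.range fun σ => (ρ.ρ σ).baseChange (AlgebraicClosure k)) :=
      span_baseChange_eq_top (B := AlgebraicClosure k) ρ.ρ h ▸ Submodule.mem_top
    induction hE using Submodule.span_induction with
    | mem y hy => obtain ⟨σ, rfl⟩ := hy; exact hW σ
    | zero => exact fun x _ => W.zero_mem
    | add y z _ _ hy hz => exact fun x hx => W.add_mem (hy x hx) (hz x hx)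
    | smul a y _ hy => exact fun x hx => W.smul_mem a (hy x hx)
  refine or_iff_not_imp_left.mpr fun hne => eq_top_iff.mpr fun y _ => ?_
  obtain ⟨x, hx, hx0⟩ := Submodule.exists_mem_ne_zero_of_ne_bot hne
  obtain ⟨ψ, hψ⟩ := Module.Projective.exists_dual_ne_zero (AlgebraicClosure k) hx0
  have h1 := hall (((ψ x)⁻¹ • ψ).smulRight y) x hx
  rwa [LinearMap.smulRight_apply, LinearMap.smul_apply, smul_eq_mul, inv_mul_cancel₀ hψ,
    one_smul] at h1

/-- Residual absolute irreducibility survives base change. -/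
theorem residual_absIrr_baseChangeAlong {A B : Type} [CommRing A] [IsLocalRing A] [CommRing B]
    [IsLocalRing B] (g : A →+* B) (hg : IsLocalHom g) (ρ : GaloisRepAdic A)
    (h : ρ.residual.IsAbsolutelyIrreducible) :
    (ρ.baseChangeAlong g hg).residual.IsAbsolutelyIrreducible := by
  letI := g.toAlgebra
  refine isAbsolutelyIrreducible_of_span _ ?_
  exact span_baseChange_eq_top (B := ResidueField B)
    (fun σ => (ρ.ρ σ).baseChange B) (span_baseChange_eq_top ρ.ρ (GalCommon.span_range_eq_top ρ h))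

/-- Absolute irreducibility survives base change. -/
theorem absIrr_baseChangeAlong {k k' : Type} [Field k] [Field k'] (g : k →+* k')
    (ρ : ResidualGaloisRep k) (h : ρ.IsAbsolutelyIrreducible) :
    (ρ.baseChangeAlong g).IsAbsolutelyIrreducible := by
  letI := g.toAlgebra
  refine isAbsolutelyIrreducible_of_span _ ?_
  exact span_baseChange_eq_top (B := k') ρ.ρ (GalCommon.span_range_eq_top_residual ρ h)

/-- Traces and determinants agreeing at almost all Frobenius elements agree everywhere. -/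
theorem trace_eq_of_forall_frobenius {A : Type} [CommRing A] [IsLocalRing A] [IsNoetherianRing A]
    (ρ₁ ρ₂ : GaloisRepAdic A) (S : Finset ℕ)
    (h : ∀ ℓ : ℕ, ℓ.Prime → ℓ ∉ S → ∀ P : ValuationSubring ℚ̄, P.LiesOverPrime ℓ →
      ∀ φ : Γℚ, P.IsFrobeniusAt φ ℓ →
        ρ₁.trace φ = ρ₂.trace φ ∧ LinearMap.det (ρ₁.ρ φ) = LinearMap.det (ρ₂.ρ φ)) (g : Γℚ) :
    ρ₁.trace g = ρ₂.trace g := by
  let b₁ := Module.finBasisOfFinrankEq A ρ₁.V ρ₁.finrank_eq
  let b₂ := Module.finBasisOfFinrankEq A ρ₂.V ρ₂.finrank_eq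
  rw [← sub_eq_zero, ← Ideal.mem_bot, ← Ideal.iInf_pow_eq_bot_of_isLocalRing (maximalIdeal A)
    (IsLocalRing.maximalIdeal.isMaximal A).ne_top, Ideal.mem_iInf]
  intro n
  set q := Ideal.Quotient.mk (maximalIdeal A ^ n)
  obtain ⟨L₁, hL₁, h₁⟩ := exists_level ρ₁ b₁ n
  obtain ⟨L₂, hL₂, h₂⟩ := exists_level ρ₂ b₂ n
  have key : ∀ g : Γℚ, q (ρ₁.trace g) = q (ρ₂.trace g) ∧
      q (LinearMap.det (ρ₁.ρ g)) = q (LinearMap.det (ρ₂.ρ g)) := by
    refine Density.forall_of_forall_isFrobeniusAt
      (P := fun g => q (ρ₁.trace g) = q (ρ₂.trace g) ∧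
        q (LinearMap.det (ρ₁.ρ g)) = q (LinearMap.det (ρ₂.ρ g)))
      (L₁.fixingSubgroup ⊓ L₂.fixingSubgroup)
      (L₁.fixingSubgroup_isOpen.inter L₂.fixingSubgroup_isOpen) S ?_ ?_ fun ℓ hℓ hS P hP φ hφ => ?_
    · intro g u hu hg
      have e₁ := h₁ u ((IntermediateField.mem_fixingSubgroup_iff L₁ u).1 hu.1)
      have e₂ := h₂ u ((IntermediateField.mem_fixingSubgroup_iff L₂ u).1 hu.2)
      simp only [← trace_matHom ρ₁ b₁, ← trace_matHom ρ₂ b₂, ← det_matHom ρ₁ b₁,
        ← det_matHom ρ₂ b₂] at hg ⊢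
      simp only [AddMonoidHom.map_trace q, RingHom.map_det] at hg ⊢
      rw [← RingHom.mapMatrix_apply, ← RingHom.mapMatrix_apply] at hg ⊢
      rw [map_mul, map_mul, map_mul, map_mul, e₁, e₂, mul_one, mul_one]
      exact hg
    · intro g k hg
      rw [GaloisRepAdic.trace, GaloisRepAdic.trace] at hg ⊢
      rw [map_pow ρ₁.ρ, map_pow ρ₂.ρ, Reps.trace_pow_eq_luc ρ₁.finrank_eq,
        Reps.trace_pow_eq_luc ρ₂.finrank_eq, Reps.map_luc, Reps.map_luc, map_pow, map_pow, map_pow,
        map_pow, hg.1, hg.2]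
      exact ⟨rfl, rfl⟩
    · exact ⟨congrArg q (h ℓ hℓ hS P hP φ hφ).1, congrArg q (h ℓ hℓ hS P hP φ hφ).2⟩
  exact Ideal.Quotient.eq.mp (key g).1

namespace HeckeLattice

variable {p N : ℕ} [Fact p.Prime] [NeZero N] {S : Finset ℕ} {O : Type} [CommRing O] [IsDomain O]
  [IsDiscreteValuationRing O] {ρbar : ResidualGaloisRep (ResidueField O)} {R : Type} [CommRing R]
  [Algebra O R] [Nontrivial R] {d : ℕ} [NeZero d] (X : HeckeLattice p N S ρbar R d)

/-- The Hecke ring. -/
abbrev T : Type := ImgRing X.act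

/-- The operator at `l`. -/
abbrev op (l : AwayIdx S) : X.T := imgGen X.act l

variable [Module.Finite O R]

instance instFiniteEnd : Module.Finite O (Matrix (Fin d) (Fin d) R) :=
  inferInstanceAs (Module.Finite O (Fin d → Fin d → R))

instance instIsNoetherianRing : IsNoetherianRing X.T := IsNoetherianRing.of_finite O X.T

instance instNontrivial : Nontrivial X.T := (imgTheta X.unitAway).domain_nontrivial

instance instIsLocalRing : IsLocalRing X.T := isLocalRing_imgRing X.unitAway

instance instIsLocalHom : IsLocalHom (algebraMap O X.T) := isLocalHom_imgRing X.unitAway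

theorem residue_surjective : Function.Surjective (residue X.T ∘ algebraMap O X.T) :=
  residue_surjective_imgRing X.unitAway IsLocalRing.residue_surjective

instance instFiniteResidueField [Finite (ResidueField O)] : Finite (ResidueField X.T) :=
  Finite.of_surjective (ResidueField.map (algebraMap O X.T)) fun x => by
    obtain ⟨a, rfl⟩ := X.residue_surjective x
    exact ⟨residue O a, rfl⟩

theorem algebraMap_injective [Module.IsTorsionFree O R] :
    Function.Injective (algebraMap O X.T) := by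
  refine (injective_iff_map_eq_zero _).mpr fun a ha => ?_
  have h1 := congrArg (imgAct X.act) ha
  rw [AlgHom.commutes, map_zero, Algebra.algebraMap_eq_smul_one] at h1
  exact (smul_eq_zero.mp h1).resolve_right one_ne_zero

instance instCharZero [CharZero O] [Module.IsTorsionFree O R] : CharZero X.T :=
  charZero_of_injective_ringHom X.algebraMap_injective

theorem residue_op (l : AwayIdx S) :
    residue X.T (X.op l) = ResidueField.map (algebraMap O X.T) (X.θ l) := by
  obtain ⟨c, hc⟩ := IsLocalRing.residue_surjective (X.θ l)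
  rw [← hc, IsLocalRing.ResidueField.map_residue, ← sub_eq_zero, ← map_sub,
    IsLocalRing.residue_eq_zero_iff, IsLocalRing.mem_maximalIdeal]
  intro hu
  refine (hu.map (imgTheta X.unitAway)).ne_zero ?_
  rw [map_sub, imgTheta_gen, imgTheta_algebraMap, hc, sub_self]

/-- The image of the Hecke algebra. -/
theorem exists_hom : ∃ π : ↥(heckeAlgebra N 2 (↑S : Set ℕ)) →+* X.T,
    (∀ (l : ℕ) (hl : l.Prime) (hlN : ¬ l ∣ N) (hlS : l ∉ (↑S : Set ℕ)),
      π (heckeAlgebra.T hl hlN hlS) = X.op ⟨⟨l, hl⟩, hlS⟩) ∧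
    Algebra.adjoin O (Set.range π) = ⊤ ∧
    ∀ t x, X.emb (imgAct X.act (π t) *ᵥ x) =
      HeckeH.heckeEnd N R R
        (Subalgebra.inclusion (heckeAlgebra_mono (Set.empty_subset (↑S : Set ℕ))) t) (X.emb x) :=
  exists_hecke_hom X.level_mem X.act X.emb X.emb_injective X.emb_X

/-- The map from the Hecke algebra. -/
def hom : ↥(heckeAlgebra N 2 (↑S : Set ℕ)) →+* X.T := X.exists_hom.choose

theorem hom_T {l : ℕ} (hl : l.Prime) (hlN : ¬ l ∣ N) (hlS : l ∉ (↑S : Set ℕ)) :
    X.hom (heckeAlgebra.T hl hlN hlS) = X.op ⟨⟨l, hl⟩, hlS⟩ :=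
  X.exists_hom.choose_spec.1 l hl hlN hlS

theorem adjoin_range_hom : Algebra.adjoin O (Set.range X.hom) = ⊤ := X.exists_hom.choose_spec.2.1

theorem emb_hom (t : ↥(heckeAlgebra N 2 (↑S : Set ℕ))) (x : Fin d → R) :
    X.emb (imgAct X.act (X.hom t) *ᵥ x) =
      HeckeH.heckeEnd N R R
        (Subalgebra.inclusion (heckeAlgebra_mono (Set.empty_subset (↑S : Set ℕ))) t) (X.emb x) :=
  X.exists_hom.choose_spec.2.2 t x

variable [IsAdicComplete (maximalIdeal O) O]

instance instIsAdicComplete : IsAdicComplete (maximalIdeal X.T) X.T := isAdicComplete_imgRing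

/-- The representation of the Hecke ring. -/
structure IsRep (f : ℤ_[p] →+* O) (ρ : GaloisRepAdic X.T) : Prop where
  attached : Local.IsAttached X.hom ρ p
  residual : ρ.residual.IsEquiv (ρbar.baseChangeAlong (ResidueField.map (algebraMap O X.T)))
  adjoin_trace : Algebra.adjoin O (Set.range ρ.trace) = ⊤
  galH_rel : ∀ σ x,
    galH N ((algebraMap O R).comp f) σ (galH N ((algebraMap O R).comp f) σ (X.emb x)) -
      galH N ((algebraMap O R).comp f) σ (X.emb (imgAct X.act (ρ.trace σ) *ᵥ x)) +
      X.emb (imgAct X.act (LinearMap.det (ρ.ρ σ)) *ᵥ x) = 0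

/-- The representation exists. -/
theorem exists_rep [Finite (ResidueField O)] [CharZero O] [Module.Free O R] (hp2 : p ≠ 2)
    (hp : (p : O) ∈ maximalIdeal O) (f : ℤ_[p] →+* O) (habs : ρbar.IsAbsolutelyIrreducible)
    (hdet : (GaloisRepAdic.ofResidualGaloisRep ρbar).DetIsCyclotomic p) :
    ∃ ρ : GaloisRepAdic X.T, X.IsRep f ρ := by
  obtain ⟨ρ, h₁, h₂, h₃, h₄⟩ := exists_rep_of_module hp2 N X.p_mem X.level_mem hp f
    X.residue_surjective X.hom X.adjoin_range_hom (imgAct X.act) (imgAct_injective X.act) X.emb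
    X.emb_injective X.emb_hom ρbar habs hdet fun l hl hlN hlS A hA σ hσ => by
      rw [X.hom_T, X.residue_op, X.trace_eq ⟨⟨l, hl⟩, hlS⟩ A hA σ hσ]
  exact ⟨ρ, h₁, h₂, h₃, h₄⟩

variable {X}

theorem IsRep.trace_frobenius {f : ℤ_[p] →+* O} {ρ : GaloisRepAdic X.T} (h : X.IsRep f ρ)
    (l : AwayIdx S) {A : ValuationSubring ℚ̄} (hA : A.LiesOverPrime l.1) {φ : Γℚ}
    (hφ : A.IsFrobeniusAt φ l.1) : ρ.trace φ = X.op l := by
  have hlN : ¬ (l.1 : ℕ) ∣ N := fun hd => l.2 (X.level_mem _ l.1.2 hd)
  rw [GaloisRepAdic.trace, (Reps.trace_det_of_charpoly_eq ρ.finrank_eq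
    (h.attached.charpoly_frob _ l.1.2 hlN (mod_cast l.2) A hA φ hφ)).1]
  exact X.hom_T _ _ _

theorem IsRep.det_frobenius {f : ℤ_[p] →+* O} {ρ : GaloisRepAdic X.T} (h : X.IsRep f ρ)
    (l : AwayIdx S) {A : ValuationSubring ℚ̄} (hA : A.LiesOverPrime l.1) {φ : Γℚ}
    (hφ : A.IsFrobeniusAt φ l.1) : LinearMap.det (ρ.ρ φ) = ((l.1 : ℕ) : X.T) := by
  have hlN : ¬ (l.1 : ℕ) ∣ N := fun hd => l.2 (X.level_mem _ l.1.2 hd)
  exact (Reps.trace_det_of_charpoly_eq ρ.finrank_eq
    (h.attached.charpoly_frob _ l.1.2 hlN (mod_cast l.2) A hA φ hφ)).2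

theorem IsRep.residual_absIrr {f : ℤ_[p] →+* O} {ρ : GaloisRepAdic X.T} (h : X.IsRep f ρ)
    (habs : ρbar.IsAbsolutelyIrreducible) :
    ρ.residual.IsAbsolutelyIrreducible := by
  obtain ⟨e⟩ := h.residual
  exact GalCommon.isAbsolutelyIrreducible_of_isEquiv ⟨e.symm⟩
    (absIrr_baseChangeAlong _ _ habs)

section Map

variable {N' : ℕ} [NeZero N'] {S' : Finset ℕ} {R' : Type} [CommRing R'] [Algebra O R']
  [Nontrivial R'] [Module.Finite O R'] {d' : ℕ} [NeZero d'] {X' : HeckeLattice p N' S' ρbar R' d'}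

/-- The inclusion of indices. -/
def awayMap (hS : S' ⊆ S) (l : AwayIdx S) : AwayIdx S' := ⟨l.1, fun h => l.2 (hS h)⟩

/-- The map of rings given by a relation of operators. -/
def map (hS : S' ⊆ S)
    (hker : ∀ s, X.act s = 0 → X'.act (MvPolynomial.rename (awayMap hS) s) = 0) :
    X.T →ₐ[O] X'.T := imgMap (MvPolynomial.rename (awayMap hS)) hker

theorem map_op (hS : S' ⊆ S)
    (hker : ∀ s, X.act s = 0 → X'.act (MvPolynomial.rename (awayMap hS) s) = 0) (l : AwayIdx S) :
    map hS hker (X.op l) = X'.op (awayMap hS l) := by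
  show imgMap _ hker (Ideal.Quotient.mk _ (MvPolynomial.X l)) = _
  rw [imgMap_mk, MvPolynomial.rename_X]
  rfl

theorem map_mk (hS : S' ⊆ S)
    (hker : ∀ s, X.act s = 0 → X'.act (MvPolynomial.rename (awayMap hS) s) = 0)
    (s : MvPolynomial (AwayIdx S) O) :
    map hS hker (Ideal.Quotient.mk _ s) =
      Ideal.Quotient.mk _ (MvPolynomial.rename (awayMap hS) s) :=
  imgMap_mk _ hker s

theorem θ_awayMap (hS : S' ⊆ S) (l : AwayIdx S) : X'.θ (awayMap hS l) = X.θ l := by
  obtain ⟨A, hA, φ, hφ⟩ := GalCommon.exists_place_frobenius l.1.2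
  rw [← X.trace_eq l A hA φ hφ, ← X'.trace_eq (awayMap hS l) A hA φ hφ]

theorem isLocalHom_map (hS : S' ⊆ S)
    (hker : ∀ s, X.act s = 0 → X'.act (MvPolynomial.rename (awayMap hS) s) = 0) :
    IsLocalHom (map hS hker : X.T →+* X'.T) := by
  refine ⟨fun t ht => ?_⟩
  obtain ⟨s, rfl⟩ := Ideal.Quotient.mk_surjective t
  refine isUnit_of_imgTheta_ne_zero X.unitAway fun h0 => (ht.map (imgTheta X'.unitAway)).ne_zero ?_
  rw [RingHom.coe_coe, map_mk, ← h0]
  show MvPolynomial.eval₂ _ X'.θ _ = MvPolynomial.eval₂ _ X.θ s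
  rw [MvPolynomial.eval₂_rename]
  exact congrArg (MvPolynomial.eval₂ (residue O) · s) (funext (θ_awayMap hS))

/-- The map carries one representation to the other. -/
theorem isEquiv_map [Finite (ResidueField O)] [CharZero O] (hS : S' ⊆ S)
    (hker : ∀ s, X.act s = 0 → X'.act (MvPolynomial.rename (awayMap hS) s) = 0)
    (habs : ρbar.IsAbsolutelyIrreducible) {f : ℤ_[p] →+* O} {ρ : GaloisRepAdic X.T}
    (h : X.IsRep f ρ) {ρ' : GaloisRepAdic X'.T} (h' : X'.IsRep f ρ') :
    (ρ.baseChangeAlong (map hS hker : X.T →+* X'.T) (isLocalHom_map hS hker)).IsEquiv ρ' := by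
  set g : X.T →+* X'.T := (map hS hker : X.T →+* X'.T) with hg
  have hgl : IsLocalHom g := isLocalHom_map hS hker
  have htr : ∀ σ, (ρ.baseChangeAlong g hgl).trace σ = g (ρ.trace σ) := fun σ => by
    letI := g.toAlgebra
    exact LinearMap.trace_baseChange _ _
  have hde : ∀ σ, LinearMap.det ((ρ.baseChangeAlong g hgl).ρ σ) = g (LinearMap.det (ρ.ρ σ)) :=
    fun σ => by
      letI := g.toAlgebra
      exact LinearMap.det_baseChange _
  refine GalCommon.isEquiv_of_trace_eq _ _ ?_ (h'.residual_absIrr habs) fun σ => ?_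
  · exact residual_absIrr_baseChangeAlong g hgl ρ
      (h.residual_absIrr habs)
  refine trace_eq_of_forall_frobenius _ ρ' (S ∪ S') (fun ℓ hℓ hℓS P hP φ hφ => ?_) σ
  rw [Finset.mem_union, not_or] at hℓS
  rw [htr, hde, h.trace_frobenius (awayIdx hℓ hℓS.1) hP hφ,
    h.det_frobenius (awayIdx hℓ hℓS.1) hP hφ, map_natCast,
    h'.det_frobenius (awayIdx hℓ hℓS.2) hP hφ, h'.trace_frobenius (awayIdx hℓ hℓS.2) hP hφ]
  exact ⟨map_op hS hker _, rfl⟩

end Map

end HeckeLattice

end FLTAgent.Lower.Levels
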