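import Fermat.Agent.Lower.Levels.Frame
import Fermat.Agent.Lower.Levels.Parabolic
import Fermat.Agent.Lower.Levels.RepModule
import Fermat.Agent.GalCommon.Basic
import Fermat.Agent.HeckeH.Action

/-!
# Hecke operators at good primes as polynomials in the others

On `H` the operator at a good prime lies in the algebra generated by those outside a finite set,
via the trace operator at a Frobenius (`heckeH_mem_adjoin`), so on a part with trivial character it
is a polynomial in the family (`exists_span_poly`), and omitting such variables does not change a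
nonzero part (`part_subfamily`).  Also: restriction of classes to a higher level (`resSys`) and
projections onto parts (`partProj`).
-/

set_option autoImplicit false

noncomputable section

open CongruenceSubgroup
open scoped MatrixGroups Matrix

namespace FLTAgent.Lower.Levels

open FLTAgent.HeckeH (M2 matOf matOf_mul heckeIdx heckeBeta)

section Proj

variable {R : Type} [CommRing R] {ι : Type} {X : Type} [AddCommGroup X] [Module R X]

open Classical in
/-- The projection onto a part (zero if there is none). -/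
def partProj (act : MvPolynomial ι R →ₐ[R] Module.End R X) (m : Ideal (MvPolynomial ι R)) :
    Module.End R X :=
  if h : ∃ e, IsProj act m e then act h.choose else 0

theorem partProj_eq {act : MvPolynomial ι R →ₐ[R] Module.End R X}
    {m : Ideal (MvPolynomial ι R)} (hm : m ≠ ⊤) {e : MvPolynomial ι R} (he : IsProj act m e) :
    partProj act m = act e := by
  classical
  have h : ∃ e, IsProj act m e := ⟨e, he⟩
  rw [partProj, dif_pos h]
  refine LinearMap.ext fun x => ?_
  have h1 := he.apply_eq_self hm (h.choose_spec.mem_part hm x)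
  have h2 := h.choose_spec.apply_eq_self hm (he.mem_part hm x)
  rw [← h1, act_comm_apply, h2]

/-- A semilinear map intertwining two actions commutes with the projections. -/
theorem partProj_map {R' : Type} [CommRing R'] {τ : R →+* R'} [RingHomSurjective τ] {X' : Type}
    [AddCommGroup X'] [Module R' X'] {act : MvPolynomial ι R →ₐ[R] Module.End R X}
    {act' : MvPolynomial ι R' →ₐ[R'] Module.End R' X'} {m : Ideal (MvPolynomial ι R)}
    {m' : Ideal (MvPolynomial ι R')} (hmm : m'.comap (MvPolynomial.map τ) = m) (hm : m ≠ ⊤)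
    (hm' : m' ≠ ⊤) {e : MvPolynomial ι R} {e' : MvPolynomial ι R'} (he : IsProj act m e)
    (he' : IsProj act' m' e') (g : X →ₛₗ[τ] X')
    (hg : ∀ s x, g (act s x) = act' (MvPolynomial.map τ s) (g x)) (x : X) :
    g (partProj act m x) = partProj act' m' (g x) := by
  rw [partProj_eq hm he, partProj_eq hm' he']
  have h1 : g (act e x) ∈ part act' m' := map_mem_part g hg hmm (he.mem_part hm x)
  obtain ⟨s, hs, hs0⟩ := (he.apply_eq_zero_iff hm).mp
    (show act e (x - act e x) = 0 by rw [map_sub, ← Module.End.mul_apply, ← map_mul, he.idem, sub_self])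
  have h2 : act' e' (g x - g (act e x)) = 0 :=
    (he'.apply_eq_zero_iff hm').mpr ⟨MvPolynomial.map τ s,
      fun h => hs (by rw [← hmm]; exact h), by rw [← map_sub g, ← hg, hs0, map_zero]⟩
  rw [map_sub, he'.apply_eq_self hm' h1, sub_eq_zero] at h2
  exact h2.symm

/-- If every omitted variable acts as a polynomial in the others on the smaller part, a nonzero
part does not change. -/
theorem part_subfamily {k : Type} [Field k] {σ : R →+* k} {θ : ι → k} {P : Set ι}
    {act : MvPolynomial ι R →ₐ[R] Module.End R X}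
    {sub : MvPolynomial {i : ι // i ∉ P} R →ₐ[R] Module.End R X}
    (hsub : ∀ s, sub s = act (MvPolynomial.rename Subtype.val s))
    {e : MvPolynomial ι R} (he : IsProj act (eigIdeal σ θ) e) (hm : eigIdeal σ θ ≠ ⊤)
    {e₀ : MvPolynomial {i : ι // i ∉ P} R}
    (he₀ : IsProj sub (eigIdeal σ fun i => θ i.1) e₀)
    (hm₀ : eigIdeal σ (fun i : {i : ι // i ∉ P} => θ i.1) ≠ ⊤)
    (hne : part act (eigIdeal σ θ) ≠ ⊥)
    (hz : ∀ i ∈ P, ∃ z : MvPolynomial {i : ι // i ∉ P} R,
      ∀ x ∈ part sub (eigIdeal σ fun i => θ i.1), act (MvPolynomial.X i) x = sub z x) :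
    part sub (eigIdeal σ fun i => θ i.1) = part act (eigIdeal σ θ) := by
  classical
  set rn := MvPolynomial.rename (R := R) (Subtype.val : {i : ι // i ∉ P} → ι)
  set m := eigIdeal σ θ
  set m₀ := eigIdeal σ fun i : {i : ι // i ∉ P} => θ i.1
  have heval : ∀ s, rn s ∈ m ↔ s ∈ m₀ := fun s => by
    rw [mem_eigIdeal, mem_eigIdeal, MvPolynomial.coe_eval₂Hom, MvPolynomial.coe_eval₂Hom,
      MvPolynomial.eval₂_rename]
    rfl
  have hle : part act m ≤ part sub m₀ := fun x hx => mem_part.mpr fun s hs => by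
    obtain ⟨y, hy⟩ := mem_part.mp hx (rn s) fun h => hs ((heval s).mp h)
    exact ⟨y, by rw [hsub]; exact hy⟩
  refine le_antisymm (fun x hx => ?_) hle
  obtain ⟨x₀, hx₀, hx₀0⟩ := (Submodule.ne_bot_iff _).mp hne
  -- a substitution for every variable
  have hz' : ∀ i : ι, ∃ z : MvPolynomial {i : ι // i ∉ P} R,
      (∀ x ∈ part sub m₀, act (MvPolynomial.X i) x = sub z x) ∧
      MvPolynomial.eval₂Hom σ (fun i => θ i.1) z = θ i := by
    intro i
    by_cases hi : i ∈ P
    · obtain ⟨z, hz⟩ := hz i hi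
      refine ⟨z, hz, ?_⟩
      by_contra hne'
      refine hx₀0 (he.eq_zero_of_mem hm hx₀ (s := MvPolynomial.X i - rn z) ?_ ?_)
      · rw [mem_eigIdeal, map_sub, MvPolynomial.eval₂Hom_X', sub_eq_zero]
        intro h0
        refine hne' (Eq.trans ?_ h0.symm)
        rw [MvPolynomial.coe_eval₂Hom, MvPolynomial.coe_eval₂Hom, MvPolynomial.eval₂_rename]
        rfl
      · rw [map_sub, LinearMap.sub_apply, hz x₀ (hle hx₀), hsub, sub_self]
    · refine ⟨MvPolynomial.X ⟨i, hi⟩, fun x _ => ?_, MvPolynomial.eval₂Hom_X' _ _ _⟩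
      rw [hsub]
      exact congrArg (fun s => act s x)
        (MvPolynomial.rename_X Subtype.val (⟨i, hi⟩ : {i : ι // i ∉ P})).symm
  choose z hz1 hz2 using hz'
  let subst : MvPolynomial ι R →ₐ[R] MvPolynomial {i : ι // i ∉ P} R := MvPolynomial.aeval z
  have hact : ∀ s, ∀ y ∈ part sub m₀, act s y = sub (subst s) y := by
    intro s
    induction s using MvPolynomial.induction_on with
    | C c =>
      intro y _
      rw [show subst (MvPolynomial.C c) = MvPolynomial.C c from MvPolynomial.aeval_C _ _,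
        MvPolynomial.algHom_C, MvPolynomial.algHom_C]
    | add s t hs ht =>
      intro y hy
      rw [map_add, LinearMap.add_apply, hs y hy, ht y hy, map_add subst, map_add sub,
        LinearMap.add_apply]
    | mul_X s i hs =>
      intro y hy
      rw [map_mul, Module.End.mul_apply, hz1 i y hy, hs _ (act_mem_part hy _), map_mul subst,
        map_mul sub, Module.End.mul_apply]
      simp only [subst, MvPolynomial.aeval_X]
  have hsubst : ∀ s, MvPolynomial.eval₂Hom σ (fun i : {i : ι // i ∉ P} => θ i.1) (subst s) =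
      MvPolynomial.eval₂Hom σ θ s := by
    intro s
    induction s using MvPolynomial.induction_on with
    | C c => simp [subst]
    | add s t hs ht => rw [map_add subst, map_add, hs, ht, map_add]
    | mul_X s i hs =>
      rw [map_mul subst, map_mul, hs, map_mul, MvPolynomial.eval₂Hom_X']
      simp only [subst, MvPolynomial.aeval_X, hz2]
  refine mem_part.mpr fun s hs => ?_
  obtain ⟨c, hc⟩ := he₀.inv (subst s) fun h => hs (by rwa [mem_eigIdeal, hsubst, ← mem_eigIdeal] at h)
  refine ⟨sub c x, ?_⟩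
  rw [hact s _ (act_mem_part hx c), ← Module.End.mul_apply, ← map_mul, mul_comm]
  conv_lhs => rw [← he₀.apply_eq_self hm₀ hx, ← Module.End.mul_apply, ← map_mul, hc]
  exact he₀.apply_eq_self hm₀ hx

end Proj

variable {N L : ℕ} {R : Type} [CommRing R] {A : Type} [AddCommGroup A] [Module R A]

variable (R) in
/-- Restriction of classes to a higher level. -/
def resSys (h : N ∣ L) : Sys R Unit (tchi N R) (tchi L R) :=
  Sys.mk' (fun _ => 1) (fun _ => by simp) (fun _ _ _ _ => rfl)
    (fun γ _ => ⟨_, (), mat_one_coc N h γ⟩) (fun _ => 1)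
    (fun _ _ _ _ _ => by simp)

theorem inj_resSys (h : N ∣ L) : (resSys R h).Inj := fun _ _ _ _ => rfl

theorem degOne_eq_resSys (v : ℕ) : degOne N R v = resSys R (dvd_mul_right N v) := rfl

theorem resSys_self (x : H1 R A (tchi N R)) : (resSys R (dvd_refl N)).map A x = x := by
  rw [Sys.map_eq_sum_smul (resSys R (dvd_refl N)) (fun _ => 1)
    (fun _ => by simp [resSys])]
  simp [resSys]

theorem resSys_trans {M : ℕ} (h : N ∣ M) (h' : M ∣ L) (x : H1 R A (tchi N R)) :
    (resSys R h').map A ((resSys R h).map A x) = (resSys R (h.trans h')).map A x := by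
  rw [← Sys.map_comp]
  refine LinearMap.congr_fun (Sys.map_eq_of_twist ((resSys R h).comp (resSys R h'))
    (resSys R (h.trans h')) (inj_resSys _) (Equiv.prodPUnit Unit) (fun _ => 1) (fun p => ?_)
    fun p => ?_) x
  · simp [resSys]
  · simp [resSys]

/-- Restriction commutes with the Hecke operators at primes dividing neither or both levels. -/
theorem resSys_hecke (h : N ∣ L) {ℓ : ℕ} (hℓ : ℓ.Prime) (hℓL : ℓ ∣ L → ℓ ∣ N)
    (x : H1 R A (tchi N R)) :
    (resSys R h).map A (heckeOp hℓ 1 A x) = heckeOp hℓ 1 A ((resSys R h).map A x) := by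
  rw [heckeOp, heckeOp, ← Sys.map_comp, ← Sys.map_comp]
  let e : Unit × heckeIdx L ℓ ≃ heckeIdx N ℓ × Unit :=
    ((Equiv.punitProd _).trans (Equiv.subtypeEquivRight fun o => imp_congr_right fun _ =>
      not_congr ⟨hℓL, fun h0 => h0.trans h⟩)).trans (Equiv.prodPUnit _).symm
  refine (LinearMap.congr_fun (Sys.map_eq_of_twist ((resSys R h).comp (heckeSys (R := R) hℓ 1))
    ((heckeSys (R := R) hℓ 1).comp (resSys R h)) ?_ e (fun _ => 1) (fun p => ?_) fun p => ?_) x).symm
  · intro δ p q hpq
    refine Prod.ext (inj_heckeSys (R := R) hℓ (1 : (ZMod N)ˣ →* Rˣ) δ p.1 q.1 ?_) rfl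
    simpa [resSys, Matrix.mul_assoc] using hpq
  · obtain ⟨_, ⟨_ | j, hj⟩⟩ := p <;> simp [e, resSys, heckeBeta]
  · simp [resSys]

theorem resSys_famAct {ι : Type} {pr : ι → Nat.Primes} (h : N ∣ L)
    (hpr : ∀ i, (pr i : ℕ) ∣ L → (pr i : ℕ) ∣ N) (s : MvPolynomial ι R) (x : H1 R A (tchi N R)) :
    (resSys R h).map A (famAct (1 : (ZMod N)ˣ →* Rˣ) pr A s x) =
      famAct (1 : (ZMod L)ˣ →* Rˣ) pr A s ((resSys R h).map A x) := by
  induction s using MvPolynomial.induction_on generalizing x with
  | C c => simp [Module.algebraMap_end_apply]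
  | add s t hs ht =>
    rw [map_add, LinearMap.add_apply, map_add, hs, ht, map_add, LinearMap.add_apply]
  | mul_X s i hs =>
    rw [map_mul, Module.End.mul_apply, hs, famAct_X, resSys_hecke h (pr i).2 (hpr i), map_mul,
      Module.End.mul_apply, famAct_X]

theorem famAct_comp_rename {ι κ : Type} {pr : ι → Nat.Primes} {ψ : (ZMod N)ˣ →* Rˣ} (j : κ → ι)
    (s : MvPolynomial κ R) :
    famAct ψ (pr ∘ j) A s = famAct ψ pr A (MvPolynomial.rename j s) := by
  induction s using MvPolynomial.induction_on with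
  | C c => rw [MvPolynomial.rename_C, MvPolynomial.algHom_C, MvPolynomial.algHom_C]
  | add s t hs ht => rw [map_add, hs, ht, map_add (MvPolynomial.rename j), map_add]
  | mul_X s i hs =>
    rw [map_mul, hs, famAct_X, map_mul (MvPolynomial.rename j), MvPolynomial.rename_X, map_mul,
      famAct_X]

section Span

open IsLocalRing (maximalIdeal)
open Local (traceOp icast)

variable {p : ℕ} [Fact p.Prime] [NeZero N] {k : Type} [Field k] {ι : Type}
  {pr : ι → Nat.Primes} {σ : R →+* k} {θ : ι → k}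

theorem tauM_apply (S : Finset ℕ) (t : ↥(CuspForm.heckeAlgebra N 2 (↑S : Set ℕ))) :
    RepModule.tauM N S t = HeckeH.heckeMat N
      (Subalgebra.inclusion (CuspForm.heckeAlgebra_mono (Set.empty_subset (↑S : Set ℕ))) t) := rfl

theorem heckeEnd_apply (u : ↥(CuspForm.heckeAlgebra N 2 ∅)) :
    HeckeH.heckeEnd N R R u = HeckeH.matAct N R R (HeckeH.heckeMat N u) := rfl

/-- The trace operator at a Frobenius element is the Hecke operator. -/
theorem traceOp_frobenius {w : ℕ} (hw : w.Prime) (hwN : ¬ w ∣ N) (hwp : w ≠ p)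
    {A' : ValuationSubring (AlgebraicClosure ℚ)} (hA' : A'.LiesOverPrime w)
    {τ : AlgebraicClosure ℚ ≃ₐ[ℚ] AlgebraicClosure ℚ} (hτ : A'.IsFrobeniusAt τ w) :
    traceOp (RepModule.tateHom p N) τ =
      icast ℤ_[p] (HeckeH.transferMat (HeckeH.heckeReps N hw)) := by
  have hwS : w ∉ ({p} : Finset ℕ) := by simpa using hwp
  have hwS' : w ∉ (↑({p} : Finset ℕ) : Set ℕ) := fun h => hwS (Finset.mem_coe.mp h)
  have hrel := RepModule.tateHom_frobenius p N {p} (Finset.mem_singleton_self p) hw hwN hwS hA' hτ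
  have hu : Subalgebra.inclusion
      (CuspForm.heckeAlgebra_mono (Set.empty_subset (↑({p} : Finset ℕ) : Set ℕ)))
        (CuspForm.heckeAlgebra.T (k := 2) hw hwN hwS') =
      CuspForm.heckeAlgebra.T hw hwN (Set.notMem_empty w) := Subtype.ext (by simp)
  have hT : RepModule.tauM N {p} (CuspForm.heckeAlgebra.T hw hwN hwS') =
      HeckeH.transferMat (HeckeH.heckeReps N hw) := by
    rw [tauM_apply, hu]
    exact HeckeH.heckeMat_eq N
      (HeckeH.intertwines_transfer N hw (HeckeH.periodHomPair_heckeTLin hw hwN))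
  rw [hT] at hrel
  generalize icast ℤ_[p] (HeckeH.transferMat (HeckeH.heckeReps N hw)) = T at hrel ⊢
  have hrel' := congrArg (fun X => X * RepModule.tateHom p N τ⁻¹) hrel
  have hinv : RepModule.tateHom p N τ * RepModule.tateHom p N τ⁻¹ = 1 := by
    rw [← map_mul, mul_inv_cancel, map_one]
  simp only [add_mul, sub_mul, zero_mul, mul_assoc, hinv, mul_one] at hrel'
  rw [sub_add_eq_add_sub, sub_eq_zero] at hrel'
  refine Eq.trans ?_ hrel'
  rw [traceOp, Reps.cyc_frobenius hw hwp hA' hτ, Nat.cast_smul_eq_nsmul, nsmul_eq_mul]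

variable (N) in
/-- Matrices over `ℤ_p` acting on `H` through coordinates. -/
def padicAct (f : ℤ_[p] →+* R) :
    Matrix (Fin (Period.rankH N)) (Fin (Period.rankH N)) ℤ_[p] →+
      Module.End R (Period.H N R R) where
  toFun X := (Period.evalEquiv N R R).symm.toLinearMap ∘ₗ
    Matrix.mulVecLin (X.map f) ∘ₗ (Period.evalEquiv N R R).toLinearMap
  map_zero' := by
    refine LinearMap.ext fun φ => (Period.evalEquiv N R R).injective ?_
    simp [Matrix.map_zero]
  map_add' X Y := by
    refine LinearMap.ext fun φ => (Period.evalEquiv N R R).injective ?_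
    simp [Matrix.map_add f (map_add f) X Y]

theorem padicAct_icast (f : ℤ_[p] →+* R) (M : HeckeH.HMat N) :
    padicAct N f (icast ℤ_[p] M) = HeckeH.matAct N R R M := by
  refine LinearMap.ext fun φ => (Period.evalEquiv N R R).injective (funext fun i => ?_)
  rw [HeckeH.evalEquiv_matAct]
  simp [padicAct, icast, Matrix.mulVec, dotProduct, zsmul_eq_mul]

theorem padicAct_smul (f : ℤ_[p] →+* R) (c : ℤ_[p])
    (X : Matrix (Fin (Period.rankH N)) (Fin (Period.rankH N)) ℤ_[p]) :
    padicAct N f (c • X) = f c • padicAct N f X := by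
  refine LinearMap.ext fun φ => (Period.evalEquiv N R R).injective ?_
  simp only [padicAct, AddMonoidHom.coe_mk, ZeroHom.coe_mk, LinearMap.smul_apply, map_smul,
    LinearMap.comp_apply, LinearEquiv.coe_coe, LinearEquiv.apply_symm_apply,
    Matrix.mulVecLin_apply]
  rw [← Matrix.smul_mulVec]
  congr 1
  ext i j
  simp

/-- A subalgebra containing the operators away from `S` contains the algebra away from `S`. -/
theorem matAct_tauM_mem (S : Finset ℕ) (hNS : ∀ l : ℕ, l.Prime → l ∣ N → l ∈ S)
    (𝒜 : Subalgebra R (Module.End R (Period.H N R R)))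
    (hgen : ∀ (l : ℕ) (hl : l.Prime), l ∉ S → HeckeH.heckeH N hl R R ∈ 𝒜)
    (t : ↥(CuspForm.heckeAlgebra N 2 (↑S : Set ℕ))) :
    HeckeH.matAct N R R (RepModule.tauM N S t) ∈ 𝒜 := by
  rw [tauM_apply, ← heckeEnd_apply]
  obtain ⟨t, ht⟩ := t
  suffices h : ∀ u : ↥(CuspForm.heckeAlgebra N 2 ∅),
      (u : Module.End ℂ (CuspForm (Gamma0 N) 2)) = t → HeckeH.heckeEnd N R R u ∈ 𝒜 from
    h _ rfl
  induction ht using Algebra.adjoin_induction with
  | mem x hx =>
    intro u hu
    rcases hx with ⟨l, hl, hlN, hlS, rfl⟩ | ⟨q, hqN, hq, hqS, rfl⟩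
    · obtain rfl : u = CuspForm.heckeAlgebra.T hl hlN (Set.notMem_empty l) := Subtype.ext hu
      rw [HeckeH.heckeEnd_T]
      exact hgen l hl fun h => hlS (Finset.mem_coe.mpr h)
    · exact absurd (hNS q hq hqN) fun h => hqS (Finset.mem_coe.mpr h)
  | algebraMap n =>
    intro u hu
    obtain rfl : u = algebraMap ℤ _ n := Subtype.ext (hu.trans (by simp))
    have e : HeckeH.heckeEnd N R R (algebraMap ℤ _ n) =
        algebraMap R (Module.End R (Period.H N R R)) (n : R) := by
      rw [eq_intCast, map_intCast]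
      refine LinearMap.ext fun φ => ?_
      rw [Module.algebraMap_end_apply, Module.End.intCast_apply, Int.cast_smul_eq_zsmul]
    rw [e]
    exact 𝒜.algebraMap_mem _
  | add x y hx hy hx' hy' =>
    intro u hu
    have h0 := CuspForm.heckeAlgebra_mono (N := N) (k := 2) (Set.empty_subset (↑S : Set ℕ))
    obtain rfl : u = ⟨x, h0 hx⟩ + ⟨y, h0 hy⟩ := Subtype.ext hu
    rw [map_add]
    exact add_mem (hx' _ rfl) (hy' _ rfl)
  | mul x y hx hy hx' hy' =>
    intro u hu
    have h0 := CuspForm.heckeAlgebra_mono (N := N) (k := 2) (Set.empty_subset (↑S : Set ℕ))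
    obtain rfl : u = ⟨x, h0 hx⟩ * ⟨y, h0 hy⟩ := Subtype.ext hu
    rw [map_mul]
    exact mul_mem (hx' _ rfl) (hy' _ rfl)

/-- On `H` the operator at a good prime is in the algebra generated by the others. -/
theorem heckeH_mem_adjoin (f : ℤ_[p] →+* R) (S : Finset ℕ) (hpS : p ∈ S)
    (hNS : ∀ l : ℕ, l.Prime → l ∣ N → l ∈ S) {w : ℕ} (hw : w.Prime) (hwN : ¬ w ∣ N) (hwp : w ≠ p) :
    HeckeH.heckeH N hw R R ∈ Algebra.adjoin R
      {E : Module.End R (Period.H N R R) | ∃ (l : ℕ) (hl : l.Prime), l ∉ S ∧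
        E = HeckeH.heckeH N hl R R} := by
  obtain ⟨A', hA'⟩ := GalCommon.exists_liesOverPrime hw
  obtain ⟨τ, hτ⟩ := GalCommon.exists_isFrobeniusAt hw hA'
  have hspan := Local.traceOp_mem_span (RepModule.tauM N S) (RepModule.tateHom p N)
    (RepModule.tateHom_continuous p N) S hpS (fun l hl hlS B hB g hg =>
      ⟨_, RepModule.tateHom_frobenius p N S hpS hl (fun h => hlS (hNS l hl h)) hlS hB hg⟩) τ
  rw [traceOp_frobenius hw hwN hwp hA' hτ] at hspan
  set 𝒜 := Algebra.adjoin R
    {E : Module.End R (Period.H N R R) | ∃ (l : ℕ) (hl : l.Prime), l ∉ S ∧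
      E = HeckeH.heckeH N hl R R}
  have hmem : ∀ X ∈ Submodule.span ℤ_[p]
      (Set.range fun t => icast ℤ_[p] (RepModule.tauM N S t)), padicAct N f X ∈ 𝒜 := by
    intro X hX
    induction hX using Submodule.span_induction with
    | mem X hX =>
      obtain ⟨t, rfl⟩ := hX
      rw [padicAct_icast]
      exact matAct_tauM_mem S hNS 𝒜 (fun l hl hlS => Algebra.subset_adjoin ⟨l, hl, hlS, rfl⟩) t
    | zero => rw [map_zero]; exact zero_mem _
    | add X Y _ _ hX hY => rw [map_add]; exact add_mem hX hY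
    | smul c X _ hX => rw [padicAct_smul]; exact Subalgebra.smul_mem _ hX _
  have h := hmem _ hspan
  rw [padicAct_icast, HeckeH.matAct_transferMat] at h
  exact h

/-- On the part the operator at a good prime is a polynomial in the family. -/
theorem exists_span_poly [IsLocalRing R] [IsNoetherianRing R]
    [IsAdicComplete (maximalIdeal R) R] [IsAddTorsionFree R] (hσ : Function.Surjective σ)
    (f : ℤ_[p] →+* R) (S₀ : Finset ℕ)
    (hall : ∀ l : Nat.Primes, (l : ℕ) ∉ S₀ → ∃ i, pr i = l)
    (hpar : ∃ i, N ∣ (pr i : ℕ) - 1 ∧ θ i ≠ ((pr i : ℕ) : k) + 1)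
    {w : ℕ} (hw : w.Prime) (hwN : ¬ w ∣ N) (hwp : w ≠ p) :
    ∃ z : MvPolynomial ι R, ∀ x ∈ h1Part (1 : (ZMod N)ˣ →* Rˣ) pr σ θ R,
      heckeOp hw (1 : (ZMod N)ˣ →* Rˣ) R x = famAct (1 : (ZMod N)ˣ →* Rˣ) pr R z x := by
  classical
  set S : Finset ℕ := S₀ ∪ N.primeFactors ∪ {p}
  have hE := heckeH_mem_adjoin f S (by simp [S])
    (fun l hl hlN => by simp [S, Nat.mem_primeFactors, hl, hlN, NeZero.ne N]) hw hwN hwp
  -- elements of the algebra come from polynomials
  have hpoly : ∀ E ∈ Algebra.adjoin R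
      {E : Module.End R (Period.H N R R) | ∃ (l : ℕ) (hl : l.Prime), l ∉ S ∧
        E = HeckeH.heckeH N hl R R},
      ∃ s : MvPolynomial ι R, ∀ (x : H1 R R (tchi N R)) (φ : Period.H N R R),
        h1Triv N R R x = (φ : Additive (Gamma0 N) →+ R) →
        h1Triv N R R (famAct (1 : (ZMod N)ˣ →* Rˣ) pr R s x) =
          (E φ : Additive (Gamma0 N) →+ R) := by
    intro E hE
    induction hE using Algebra.adjoin_induction with
    | mem E hE =>
      obtain ⟨l, hl, hlS, rfl⟩ := hE
      obtain ⟨i, hi⟩ := hall ⟨l, hl⟩ fun h => hlS (by simp [S, h])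
      refine ⟨MvPolynomial.X i, fun x φ hx => ?_⟩
      rw [HeckeH.coe_heckeH, ← hx, famAct_X]
      rw [h1Triv_heckeOp]
      congr 2 <;> rw [hi]
    | algebraMap c =>
      refine ⟨MvPolynomial.C c, fun x φ hx => ?_⟩
      rw [MvPolynomial.algHom_C, Module.algebraMap_end_apply, Module.algebraMap_end_apply,
        map_smul, hx]
      rfl
    | add E E' _ _ h h' =>
      obtain ⟨s, hs⟩ := h
      obtain ⟨s', hs'⟩ := h'
      refine ⟨s + s', fun x φ hx => ?_⟩
      rw [map_add, LinearMap.add_apply, map_add, hs x φ hx, hs' x φ hx, LinearMap.add_apply]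
      rfl
    | mul E E' _ _ h h' =>
      obtain ⟨s, hs⟩ := h
      obtain ⟨s', hs'⟩ := h'
      refine ⟨s * s', fun x φ hx => ?_⟩
      rw [map_mul, Module.End.mul_apply, Module.End.mul_apply]
      exact hs _ _ (hs' x φ hx)
  obtain ⟨z, hz⟩ := hpoly _ hE
  refine ⟨z, fun x hx => (h1Triv N R R).injective ?_⟩
  -- parts are parabolic
  obtain ⟨i, hiN, hi⟩ := hpar
  obtain ⟨y, hy⟩ := mem_part.mp hx
    (MvPolynomial.X i - MvPolynomial.C (((pr i : ℕ) : R) + 1)) fun h0 => hi (by
      rw [mem_eigIdeal, map_sub, MvPolynomial.eval₂Hom_X', MvPolynomial.eval₂Hom_C, map_add,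
        map_natCast, map_one, sub_eq_zero] at h0
      exact h0)
  have hmemH : h1Triv N R R x ∈ Period.H N R R := by
    rw [← hy, map_sub, LinearMap.sub_apply, famAct_X, MvPolynomial.algHom_C,
      Module.algebraMap_end_apply]
    exact heckeOp_sub_mem_H (pr i).2 hiN y
  rw [hz x ⟨_, hmemH⟩ rfl, h1Triv_heckeOp, HeckeH.coe_heckeH]

end Span

end FLTAgent.Lower.Levels
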