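import Fermat.Agent.Lower.Levels.Sys
import Fermat.Agent.Period.Cocycle

/-!
# Finiteness and lifting for twisted first cohomology of `Γ₀(N)`

`finite_H1`, exactness in the middle (`exists_mapCoef_eq_of_exact`) and surjectivity along
surjections of coefficients (`exists_lift_of_fix`): by the presentation of `SL(2, ℤ)` the
obstruction lies at the elements of order three, and it is killed by the operators without fixed
indices there, for instance `T_ℓ` with `ℓ ≡ 2 (mod 3)` (`Sys.exists_op_eq_one_sub_smul`).
-/

set_option autoImplicit false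

noncomputable section

open CongruenceSubgroup
open scoped MatrixGroups

namespace FLTAgent.Lower.Levels

open FLTAgent.HeckeH (matOf matOf_mul)
open FLTAgent.Period (Cosets twist twist_mul twist_one genU S_sq genU_pow_three neg_one_smul_coset
  exists_hom_SL2_of_relations OrbitsOf toOrbit toOrbit_smul)

variable {N : ℕ} [NeZero N] {R : Type} [CommRing R] {A : Type} [AddCommGroup A] [Module R A]
  {B : Type} [AddCommGroup B] [Module R B] {χ : Gamma0 N →* Rˣ}

theorem Z1_inv (c : Z1 R A χ) (γ : Gamma0 N) :
    (c : Gamma0 N → A) γ⁻¹ = -((χ γ⁻¹ : R) • (c : Gamma0 N → A) γ) := by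
  have h := Z1_mul c γ⁻¹ γ
  rw [inv_mul_cancel, Z1_one_apply] at h
  exact eq_neg_of_add_eq_zero_left h.symm

instance finite_Z1 [IsNoetherianRing R] [Module.Finite R A] : Module.Finite R (Z1 R A χ) := by
  have : Group.FG SL(2, ℤ) :=
    Group.fg_iff.mpr ⟨_, SpecialLinearGroup.SL2Z_generators, Set.toFinite _⟩
  have : Group.FG (Gamma0 N) := Subgroup.fg_of_index_ne_zero _
  obtain ⟨s, hs⟩ := (inferInstance : Group.FG (Gamma0 N)).out
  let f : Z1 R A χ →ₗ[R] (s → A) :=
    { toFun := fun c g => (c : Gamma0 N → A) g.1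
      map_add' := fun _ _ => rfl
      map_smul' := fun _ _ => rfl }
  refine Module.Finite.of_injective f ?_
  rw [← LinearMap.ker_eq_bot, LinearMap.ker_eq_bot']
  intro c hc
  refine Subtype.ext (funext fun γ => ?_)
  have hγ : γ ∈ Subgroup.closure (s : Set (Gamma0 N)) := by rw [hs]; trivial
  induction hγ using Subgroup.closure_induction with
  | mem g hg => exact congrFun hc ⟨g, hg⟩
  | one => exact Z1_one_apply c
  | mul a b _ _ ha hb => rw [Z1_mul, ha, hb]; simp
  | inv a _ ha => rw [Z1_inv, ha]; simp

instance finite_H1 [IsNoetherianRing R] [Module.Finite R A] : Module.Finite R (H1 R A χ) :=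
  Module.Finite.quotient R _

omit [NeZero N] in
/-- On classes killed by an injection of coefficients every operator acts as its total weight. -/
theorem Sys.map_eq_of_mapCoef_eq_zero {ι : Type} [Fintype ι] (S : Sys R ι χ χ) (f : A →ₗ[R] B)
    (hf : Function.Injective f) {x : H1 R A χ}
    (hx : H1.mapCoef f (fun _ => rfl) x = (0 : H1 R B χ)) :
    S.map A x = (∑ i, S.w i) • x := by
  induction x using Submodule.Quotient.induction_on with
  | _ c =>
    obtain ⟨b, hb⟩ := (Submodule.Quotient.mk_eq_zero _).mp hx
    refine congrArg Submodule.Quotient.mk (Subtype.ext (funext fun γ => hf ?_))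
    have h1 : ∀ δ, f ((c : Gamma0 N → A) δ) = (cobd χ b : Gamma0 N → B) δ := fun δ => by
      rw [hb]; rfl
    rw [Sys.coe_op, map_sum]
    simp only [map_smul, h1]
    show (S.op (cobd χ b) : Gamma0 N → B) γ = f ((∑ i, S.w i) • (c : Gamma0 N → A) γ)
    rw [S.op_cobd, map_smul f, h1, map_smul]
    rfl

omit [NeZero N] in
/-- Exactness in the middle. -/
theorem exists_mapCoef_eq_of_exact {C : Type} [AddCommGroup C] [Module R C] (f : A →ₗ[R] B)
    (g : B →ₗ[R] C) (hf : Function.Injective f) (hg : Function.Surjective g)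
    (hex : ∀ b, g b = 0 → b ∈ LinearMap.range f) {x : H1 R B χ}
    (hx : H1.mapCoef g (fun _ => rfl) x = (0 : H1 R C χ)) :
    ∃ y : H1 R A χ, H1.mapCoef f (fun _ => rfl) y = x := by
  induction x using Submodule.Quotient.induction_on with
  | _ c =>
    obtain ⟨z, hz⟩ := (Submodule.Quotient.mk_eq_zero _).mp hx
    obtain ⟨b, rfl⟩ := hg z
    have h1 : ∀ γ, g (((c - cobd χ b : Z1 R B χ) : Gamma0 N → B) γ) = 0 := fun γ => by
      have h2 : (cobd χ (g b) : Gamma0 N → C) γ = g ((c : Gamma0 N → B) γ) := by rw [hz]; rfl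
      show g ((c : Gamma0 N → B) γ - (cobd χ b : Gamma0 N → B) γ) = 0
      rw [map_sub, ← h2, cobd_apply, cobd_apply, map_smul, sub_self]
    choose a ha using fun γ => hex _ (h1 γ)
    refine ⟨Submodule.Quotient.mk ⟨a, fun γ δ => hf ?_⟩, ?_⟩
    · rw [map_add, map_smul, ha, ha, ha]
      exact Z1_mul _ γ δ
    · rw [H1.mapCoef_mk, Submodule.Quotient.eq]
      refine ⟨-b, Subtype.ext (funext fun γ => ?_)⟩
      show (cobd χ (-b) : Gamma0 N → B) γ = f (a γ) - (c : Gamma0 N → B) γ
      rw [ha, map_neg]
      show -(cobd χ b : Gamma0 N → B) γ =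
        ((c : Gamma0 N → B) γ - (cobd χ b : Gamma0 N → B) γ) - (c : Gamma0 N → B) γ
      abel

/-- A function with sum one on each free orbit of an element acting with period three. -/
theorem exists_indicator {G Y : Type*} [Group G] [MulAction G Y] (g : G)
    (h3 : ∀ y : Y, g • g • g • y = y) :
    ∃ e : Y → R, ∀ y, g • y ≠ y → e y + e (g • g • y) + e (g • y) = 1 := by
  classical
  refine ⟨fun y => if (toOrbit g y).out = y then 1 else 0, fun y n1 => ?_⟩
  have hy : ((toOrbit g y).out = y ∨ (toOrbit g y).out = g • y) ∨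
      (toOrbit g y).out = g • g • y := by
    obtain ⟨n, hn⟩ := Period.toOrbit_eq_iff.mp (Quotient.out_eq' (toOrbit g y))
    rw [← hn]
    have hg3 : (g ^ (3 : ℤ)) • y = y := by
      rw [show g ^ (3 : ℤ) = g ^ (3 : ℕ) from zpow_natCast _ 3, pow_three, mul_smul, mul_smul, h3]
    have hst : g ^ (3 * (n / 3)) • y = y := by
      rw [zpow_mul]
      exact MulAction.mem_stabilizer_iff.mp
        (Subgroup.zpow_mem _ (MulAction.mem_stabilizer_iff.mpr hg3) _)
    rw [← Int.emod_add_mul_ediv n 3, zpow_add, mul_smul, hst]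
    rcases (show n % 3 = 0 ∨ n % 3 = 1 ∨ n % 3 = 2 by omega) with h | h | h <;> rw [h]
    · exact Or.inl (Or.inl (by rw [zpow_zero, one_smul]))
    · exact Or.inl (Or.inr (by rw [zpow_one]))
    · exact Or.inr (by rw [show (2 : ℤ) = 1 + 1 from rfl, zpow_add, zpow_one, mul_smul])
  have ho1 : toOrbit g (g • y) = toOrbit g y := toOrbit_smul _ _
  have ho2 : toOrbit g (g • g • y) = toOrbit g y := (toOrbit_smul _ _).trans ho1
  have n2 : g • g • y ≠ y := fun h => n1 (by
    conv_rhs => rw [← h3 y]
    rw [h])
  have n3 : g • g • y ≠ g • y := fun h => n1 (smul_left_cancel g h)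
  simp only [ho1, ho2]
  rcases hy with (h | h) | h <;> rw [h] <;> simp [n1, n2, n3, n1.symm, n2.symm, n3.symm]

/-- An affine permutation. -/
def affEquiv (a : A) (u : Rˣ) : A ≃ A where
  toFun x := a + (u : R) • x
  invFun y := (↑u⁻¹ : R) • (y - a)
  left_inv x := by simp [smul_smul]
  right_inv y := by simp [smul_smul]

/-- **Lifting along surjections of coefficients**: it suffices to lift the values at the elements
of order three. -/
theorem exists_lift_of_fix (hR : IsUnit (2 : R))
    (hneg : ∀ γ : Gamma0 N, (γ : SL(2, ℤ)) = -1 → χ γ = 1) (g : A →ₗ[R] B)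
    (hg : Function.Surjective g) (c : Z1 R B χ)
    (hfix : ∀ γ : Gamma0 N, (γ : SL(2, ℤ)) ^ 3 = -1 → ∃ a : A, g a = (c : Gamma0 N → B) γ ∧
      (1 + (χ γ : R) + (χ γ : R) * χ γ) • a = 0) :
    ∃ y : H1 R A χ, H1.mapCoef g (fun _ => rfl) y = (Submodule.Quotient.mk c : H1 R B χ) := by
  classical
  have sm : ∀ {V : Type} [AddCommGroup V] [Module R V] (r r' : R) (z : V),
      r • r' • z = (r * r') • z := fun r r' z => smul_smul r r' z
  obtain ⟨y, hy⟩ : ∃ y : H1 R A χ,
      H1.mapCoef g (fun _ => rfl) y = (Submodule.Quotient.mk c : H1 R B χ) := by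
    let X : SL(2, ℤ) → Cosets N → R := fun h x => (χ (twist h x) : R)
    let C₀ : SL(2, ℤ) → Cosets N → B := fun h x => (c : Gamma0 N → B) (twist h x)
    have hX : ∀ h k x, X (h * k) x = X h (k • x) * X k x := fun h k x => by
      simp only [X, twist_mul, map_mul, Units.val_mul]
    have hC₀ : ∀ h k x, C₀ (h * k) x = C₀ h (k • x) + X h (k • x) • C₀ k x := fun h k x => by
      simp only [C₀, X, twist_mul, Z1_mul]
    have hX1 : ∀ x, X 1 x = 1 := fun x => by simp [X, twist_one]
    have hXm : ∀ x, X (-1) x = 1 := fun x => by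
      simp only [X, hneg _ (Period.twist_neg_one x), Units.val_one]
    obtain ⟨half, hhalf⟩ := hR.exists_left_inv
    have hC₀m : ∀ x, C₀ (-1) x = 0 := fun x => by
      have h := hC₀ (-1) (-1) x
      rw [neg_one_smul_coset, hXm, one_smul, show (-1 : SL(2, ℤ)) * -1 = 1 by simp,
        show C₀ 1 x = 0 by simp only [C₀, twist_one, Z1_one_apply], ← two_smul R] at h
      rw [← one_smul R (C₀ (-1) x), ← hhalf, ← sm, ← h, smul_zero]
    have hSS : ∀ x : Cosets N, (ModularGroup.S : SL(2, ℤ)) • ModularGroup.S • x = x := fun x => by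
      rw [← mul_smul, ← sq, S_sq, neg_one_smul_coset]
    have hUUU : ∀ x : Cosets N, genU • genU • genU • x = x := fun x => by
      rw [← mul_smul, ← mul_smul, ← sq, ← pow_succ, genU_pow_three, neg_one_smul_coset]
    choose lift hlift using hg
    -- the values at `S`
    let a₀ : Cosets N → A := fun x => lift (C₀ ModularGroup.S x)
    have hXS : ∀ x, X ModularGroup.S (ModularGroup.S • x) * X ModularGroup.S x = 1 := fun x => by
      rw [← hX, ← sq, S_sq, hXm]
    let α : Cosets N → A := fun x =>
      half • (a₀ x - X ModularGroup.S x • a₀ (ModularGroup.S • x))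
    have hαS : ∀ x, α (ModularGroup.S • x) + X ModularGroup.S (ModularGroup.S • x) • α x = 0 := by
      intro x
      simp only [α, hSS, smul_sub, sm]
      rw [show X ModularGroup.S (ModularGroup.S • x) * (half * X ModularGroup.S x) = half by
        rw [mul_left_comm, hXS, mul_one], mul_comm half]
      abel
    have hgα : ∀ x, g (α x) = C₀ ModularGroup.S x := by
      intro x
      have h := hC₀ ModularGroup.S ModularGroup.S x
      rw [← sq, S_sq, hC₀m] at h
      have h' : X ModularGroup.S x • C₀ ModularGroup.S (ModularGroup.S • x) =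
          -C₀ ModularGroup.S x := by
        rw [eq_neg_of_add_eq_zero_left h.symm, smul_neg, sm, mul_comm, hXS, one_smul]
      simp only [α, a₀, map_smul, map_sub, hlift, h', sub_neg_eq_add, ← two_smul R, sm,
        hhalf, one_smul]
    -- the values at `genU`
    have hfix' : ∀ x, genU • x = x →
        ∃ a : A, g a = C₀ genU x ∧ (1 + X genU x + X genU x * X genU x) • a = 0 := by
      intro x hx
      refine hfix (twist genU x) ?_
      show ((genU • x).out⁻¹ * genU * x.out) ^ 3 = (-1 : SL(2, ℤ))
      rw [hx, show ((x.out⁻¹ * genU * x.out) ^ 3 : SL(2, ℤ)) = x.out⁻¹ * genU ^ 3 * x.out by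
        simp [pow_three, mul_assoc], genU_pow_three]
      simp
    let b₀ : Cosets N → A := fun x =>
      if h : genU • x = x then (hfix' x h).choose else lift (C₀ genU x)
    have hb₀ : ∀ x, g (b₀ x) = C₀ genU x := fun x => by
      simp only [b₀]
      split
      · exact (hfix' x ‹_›).choose_spec.1
      · exact hlift _
    have hXU : ∀ x, X genU x * X genU (genU • genU • x) * X genU (genU • x) = 1 := fun x => by
      rw [mul_assoc, mul_comm, ← hX, ← hX, show genU * genU * genU = (-1 : SL(2, ℤ)) by
        rw [← genU_pow_three, pow_three, mul_assoc], hXm]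
    let Nm : (Cosets N → A) → Cosets N → A := fun b x =>
      b x + X genU x • b (genU • genU • x) +
        (X genU x * X genU (genU • genU • x)) • b (genU • x)
    have hNU : ∀ b x, X genU (genU • x) • Nm b x = Nm b (genU • x) := by
      intro b x
      simp only [Nm, hUUU, smul_add, sm]
      rw [show X genU (genU • x) * (X genU x * X genU (genU • genU • x)) = 1 by
        rw [mul_comm]; exact hXU x, one_smul]
      abel
    obtain ⟨e, he⟩ := exists_indicator (R := R) (genU : SL(2, ℤ)) hUUU
    let β : Cosets N → A := fun x => b₀ x - e x • Nm b₀ x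
    have hNβ : ∀ x, Nm β x = 0 := by
      intro x
      have key : Nm β x = Nm b₀ x -
          (e x + e (genU • genU • x) + e (genU • x)) • Nm b₀ x := by
        have e1 : Nm b₀ (genU • x) = X genU (genU • x) • Nm b₀ x := (hNU b₀ x).symm
        have e2 : Nm b₀ (genU • genU • x) =
            (X genU (genU • genU • x) * X genU (genU • x)) • Nm b₀ x := by
          rw [← hNU b₀ (genU • x), e1, sm]
        have eN : Nm b₀ x = b₀ x + X genU x • b₀ (genU • genU • x) +
            (X genU x * X genU (genU • genU • x)) • b₀ (genU • x) := rfl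
        show (b₀ x - e x • Nm b₀ x) +
            X genU x • (b₀ (genU • genU • x) - e (genU • genU • x) • Nm b₀ (genU • genU • x)) +
            (X genU x * X genU (genU • genU • x)) •
              (b₀ (genU • x) - e (genU • x) • Nm b₀ (genU • x)) = _
        rw [e1, e2]
        simp only [smul_sub, sm, add_smul]
        rw [show X genU x * (e (genU • genU • x) *
              (X genU (genU • genU • x) * X genU (genU • x))) = e (genU • genU • x) by
            rw [mul_left_comm, ← mul_assoc (X genU x), hXU, mul_one],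
          show X genU x * X genU (genU • genU • x) * (e (genU • x) * X genU (genU • x)) =
              e (genU • x) by
            rw [mul_left_comm, hXU, mul_one]]
        generalize Nm b₀ x = Z at eN
        linear_combination (norm := abel) -eN
      rw [key]
      by_cases hx : genU • x = x
      · have h0 : Nm b₀ x = 0 := by
          simp only [Nm, hx, b₀, dite_true]
          have h := (hfix' x hx).choose_spec.2
          rw [add_smul, add_smul, one_smul] at h
          exact h
        rw [h0, smul_zero, sub_self]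
      · rw [he x hx, one_smul, sub_self]
    have hgβ : ∀ x, g (β x) = C₀ genU x := by
      intro x
      have h := hC₀ genU (genU * genU) x
      rw [hC₀ genU genU x, show genU * (genU * genU) = (-1 : SL(2, ℤ)) by rw [← genU_pow_three, pow_three],
        hC₀m, mul_smul] at h
      have h0 : g (Nm b₀ x) = 0 := by
        simp only [Nm, map_add, map_smul, hb₀]
        have h' := congrArg (fun z => X genU x • z) h.symm
        simp only [smul_add, sm, smul_zero] at h'
        rw [← h']
        rw [show X genU x * (X genU (genU • genU • x) * X genU (genU • x)) = 1 by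
          rw [← mul_assoc]; exact hXU x, one_smul]
        abel
      simp only [β, map_sub, map_smul, h0, smul_zero, sub_zero, hb₀]
    -- the permutations
    let s : Equiv.Perm (Cosets N × A) := Equiv.prodShear
      (MulAction.toPerm (ModularGroup.S : SL(2, ℤ)))
      fun x => affEquiv (α x) (χ (twist ModularGroup.S x))
    let u : Equiv.Perm (Cosets N × A) := Equiv.prodShear (MulAction.toPerm genU)
      fun x => affEquiv (β x) (χ (twist genU x))
    have hs_apply : ∀ x a, s (x, a) =
        ((ModularGroup.S : SL(2, ℤ)) • x, α x + X ModularGroup.S x • a) := fun _ _ => rfl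
    have hu_apply : ∀ x a, u (x, a) = (genU • x, β x + X genU x • a) := fun _ _ => rfl
    have hs : s ^ 2 = 1 := Equiv.ext fun ⟨x, a⟩ => by
      rw [sq, Equiv.Perm.mul_apply, hs_apply, hs_apply]
      refine Prod.ext (hSS x) ?_
      show α (ModularGroup.S • x) +
        X ModularGroup.S (ModularGroup.S • x) • (α x + X ModularGroup.S x • a) = a
      rw [smul_add, sm (X ModularGroup.S (ModularGroup.S • x)) (X ModularGroup.S x) a, hXS, one_smul,
        ← add_assoc, hαS, zero_add]
    have hu : u ^ 3 = 1 := Equiv.ext fun ⟨x, a⟩ => by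
      rw [pow_succ, sq, Equiv.Perm.mul_apply, Equiv.Perm.mul_apply, hu_apply, hu_apply, hu_apply,
        hUUU, Equiv.Perm.one_apply]
      refine Prod.ext rfl ?_
      have h := hNβ (genU • genU • x)
      simp only [Nm, hUUU] at h
      simp only [smul_add, sm]
      rw [show X genU (genU • genU • x) * (X genU (genU • x) * X genU x) = 1 by
        rw [← hXU x]; ring, one_smul]
      linear_combination (norm := abel) h
    obtain ⟨f, hfS, hfU, hfm⟩ := exists_hom_SL2_of_relations s u hs hu
    let C : SL(2, ℤ) → Cosets N → A := fun h x => (f h (x, 0)).2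
    have hCm : ∀ x, C (-1) x = 0 := fun x => by simp only [C, hfm, Equiv.Perm.one_apply]
    have hC1 : ∀ x, C 1 x = 0 := fun x => by simp only [C, map_one, Equiv.Perm.one_apply]
    have key : ∀ h x a, f h (x, a) = (h • x, C h x + X h x • a) := by
      intro h
      have hh : h ∈ Subgroup.closure ({ModularGroup.S, ModularGroup.T} : Set SL(2, ℤ)) := by
        rw [SpecialLinearGroup.SL2Z_generators]; trivial
      induction hh using Subgroup.closure_induction with
      | mem y hy =>
        rcases hy with rfl | rfl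
        · intro x a; simp only [C, hfS, hs_apply, smul_zero, add_zero]
        · have hT : (ModularGroup.T : SL(2, ℤ)) = -1 * (genU * ModularGroup.S) := by
            rw [neg_one_mul, ← Period.T_eq]
          intro x a
          simp only [C]
          rw [hT, map_mul, map_mul, hfm, hfS, hfU, one_mul]
          simp only [Equiv.Perm.mul_apply, hs_apply, hu_apply, hX, hXm, one_mul, smul_zero, add_zero,
            smul_add, sm]
          simp only [mul_smul genU, mul_smul (-1 : SL(2, ℤ)), neg_one_smul_coset]
          exact Prod.ext rfl (by abel)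
      | one => intro x a; simp [hC1, hX1]
      | mul y z _ _ hy hz =>
        intro x a
        have h0 : C (y * z) x = C y (z • x) + X y (z • x) • C z x := by
          simp only [C, map_mul, Equiv.Perm.mul_apply]
          rw [hz, smul_zero, add_zero, hy]
        rw [h0, map_mul, Equiv.Perm.mul_apply, hz, hy, mul_smul, hX, smul_add, sm, add_assoc]
      | inv y _ hy =>
        intro x a
        have hinv : ∀ b, f y⁻¹ (x, b) =
            (y⁻¹ • x, (↑(χ (twist y (y⁻¹ • x)))⁻¹ : R) • (b - C y (y⁻¹ • x))) := by
          intro b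
          rw [map_inv, Equiv.Perm.inv_def, Equiv.symm_apply_eq, hy, smul_inv_smul, sm]
          simp [X]
        have hC : C y⁻¹ x = (↑(χ (twist y (y⁻¹ • x)))⁻¹ : R) • (0 - C y (y⁻¹ • x)) :=
          congrArg Prod.snd (hinv 0)
        have hXi : X y⁻¹ x = (↑(χ (twist y (y⁻¹ • x)))⁻¹ : R) := by
          have h := hX y y⁻¹ x
          rw [mul_inv_cancel, hX1] at h
          exact (Units.mul_eq_one_iff_inv_eq.mp h.symm).symm
        rw [hinv, hC, hXi, zero_sub, smul_neg, smul_sub]
        exact Prod.ext rfl (by abel)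
    have hC : ∀ h k x, C (h * k) x = C h (k • x) + X h (k • x) • C k x := fun h k x => by
      simp only [C, map_mul, Equiv.Perm.mul_apply]
      rw [key k, smul_zero, add_zero, key h]
    have hgC : ∀ h x, g (C h x) = C₀ h x := by
      intro h
      have hh : h ∈ Subgroup.closure ({ModularGroup.S, ModularGroup.T} : Set SL(2, ℤ)) := by
        rw [SpecialLinearGroup.SL2Z_generators]; trivial
      have hU : ∀ x, g (C genU x) = C₀ genU x := fun x => by
        simp only [C, hfU, hu_apply, smul_zero, add_zero, hgβ]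
      have hS : ∀ x, g (C ModularGroup.S x) = C₀ ModularGroup.S x := fun x => by
        simp only [C, hfS, hs_apply, smul_zero, add_zero, hgα]
      induction hh using Subgroup.closure_induction with
      | mem y hy =>
        rcases hy with rfl | rfl
        · exact hS
        · intro x
          rw [show (ModularGroup.T : SL(2, ℤ)) = -1 * (genU * ModularGroup.S) by
            rw [neg_one_mul, ← Period.T_eq], hC, hC₀, hCm, hC₀m, hC, hC₀, map_add, map_zero,
            map_smul, map_add, hU, map_smul, hS]
      | one => intro x; rw [hC1, map_zero]; simp only [C₀, twist_one, Z1_one_apply]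
      | mul y z _ _ hy hz => intro x; rw [hC, hC₀, map_add, map_smul, hy, hz]
      | inv y _ hy =>
        intro x
        have e1 := congrArg g (hC y y⁻¹ x)
        have e2 := hC₀ y y⁻¹ x
        rw [mul_inv_cancel, hC1, map_zero, map_add, map_smul, hy] at e1
        rw [mul_inv_cancel, show C₀ 1 x = 0 by simp only [C₀, twist_one, Z1_one_apply], e1,
          add_right_inj] at e2
        simpa [X, sm] using congrArg
          (fun z => (↑(χ (twist y (y⁻¹ • x)))⁻¹ : R) • z) e2
    -- restriction to the base coset
    let x₀ : Cosets N := Period.baseCoset N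
    have ho : x₀.out ∈ Gamma0 N := by
      have h : ((x₀.out : SL(2, ℤ)) : Cosets N) = ((1 : SL(2, ℤ)) : Cosets N) :=
        (QuotientGroup.out_eq' x₀).trans rfl
      simpa using QuotientGroup.eq.mp h
    let o : Gamma0 N := ⟨x₀.out, ho⟩
    have htw : ∀ γ : Gamma0 N, twist (γ : SL(2, ℤ)) x₀ = o⁻¹ * γ * o := fun γ => by
      refine Subtype.ext ?_
      show ((γ : SL(2, ℤ)) • x₀).out⁻¹ * (γ : SL(2, ℤ)) * x₀.out = _
      rw [Period.Gamma0_smul_baseCoset γ]
      rfl
    have hXγ : ∀ γ : Gamma0 N, X (γ : SL(2, ℤ)) x₀ = (χ γ : R) := fun γ => by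
      simp only [X, htw, map_mul, map_inv]
      rw [mul_comm, ← mul_assoc, mul_inv_cancel, one_mul]
    refine ⟨Submodule.Quotient.mk ⟨fun γ => (χ o : R) • C γ x₀, fun γ δ => ?_⟩, ?_⟩
    · show (χ o : R) • C ((γ : SL(2, ℤ)) * δ) x₀ = _
      rw [hC, Period.Gamma0_smul_baseCoset δ, hXγ, smul_add, smul_comm]
    · rw [H1.mapCoef_mk, Submodule.Quotient.eq]
      refine ⟨(c : Gamma0 N → B) o, Subtype.ext (funext fun γ => ?_)⟩
      show ((χ γ : R) - 1) • (c : Gamma0 N → B) o =
        g ((χ o : R) • C γ x₀) - (c : Gamma0 N → B) γ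
      rw [map_smul, hgC]
      simp only [C₀, htw, Z1_mul, Z1_inv, smul_add, smul_neg, sm, map_mul, map_inv,
        Units.val_mul]
      rw [Units.mul_inv, ← mul_assoc, Units.mul_inv, one_mul, sub_smul, one_smul, one_smul]
      abel
  exact ⟨y, hy⟩

omit [NeZero N] in
/-- An operator without fixed indices at an element of order three sends crossed homomorphisms to
values which are multiples of `1 - χ γ`. -/
theorem Sys.exists_op_eq_one_sub_smul {M : ℕ} {χ' : Gamma0 M →* Rˣ} {ι : Type} [Fintype ι]
    (S : Sys R ι χ χ') (hS : S.Inj) (hR : IsUnit (2 : R))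
    (hneg : ∀ γ : Gamma0 N, (γ : SL(2, ℤ)) = -1 → χ γ = 1) (c : Z1 R A χ) (γ : Gamma0 M)
    (hγ : (γ : SL(2, ℤ)) ^ 3 = -1) (hfree : ∀ i, S.perm γ i ≠ i) :
    ∃ a, (S.op c : Gamma0 M → A) γ = (1 - (χ' γ : R)) • a := by
  classical
  let m : Gamma0 N := ⟨-1, by simp⟩
  have hm : ∀ i, matOf m * S.β i = S.β i * matOf (γ * γ * γ) := fun i => by
    have h : matOf (γ * γ * γ) = (-1 : HeckeH.M2) := by
      show (((γ * γ * γ : Gamma0 M) : SL(2, ℤ)) : HeckeH.M2) = _
      rw [Subgroup.coe_mul, Subgroup.coe_mul, mul_assoc, ← pow_three, hγ]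
      simp
    rw [h]
    show ((-1 : SL(2, ℤ)) : HeckeH.M2) * _ = _
    simp
  have hcube : ∀ i, S.coc (γ * γ * γ) i = m ∧ S.perm γ (S.perm γ (S.perm γ i)) = i := by
    intro i
    obtain ⟨h1, -⟩ := S.eq_of_mul hS (hm i).symm
    refine ⟨h1, ?_⟩
    have h := (hm i).symm
    rw [matOf_mul, matOf_mul, ← Matrix.mul_assoc, ← Matrix.mul_assoc, S.spec,
      Matrix.mul_assoc (matOf (S.coc γ i)), S.spec, ← Matrix.mul_assoc, ← matOf_mul,
      Matrix.mul_assoc, S.spec, ← Matrix.mul_assoc, ← matOf_mul] at h
    exact (Sys.unique_of_inj S.det_ne hS h).2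
  have hc0 : (c : Gamma0 N → A) m = 0 := by
    have h := Z1_mul c m m
    rw [show m * m = 1 from Subtype.ext (by show (-1 : SL(2, ℤ)) * -1 = 1; simp), Z1_one_apply,
      hneg m rfl, Units.val_one, one_smul, ← two_smul R] at h
    exact hR.smul_eq_zero.mp h.symm
  set u : R := (χ' γ : R)
  let F : ι → A := fun i => S.w i • (c : Gamma0 N → A) (S.coc γ i)
  have hF : ∀ i, F i + u • F (S.perm γ i) + (u * u) • F (S.perm γ (S.perm γ i)) = 0 := by
    intro i
    have h := congrArg (fun d : Gamma0 N => S.w i • (c : Gamma0 N → A) d) (hcube i).1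
    simp only [S.coc_mul, hc0, smul_zero, Z1_mul, smul_add, smul_smul, map_mul, Units.val_mul] at h
    have e : S.perm (γ * γ) i = S.perm γ (S.perm γ i) := by
      refine (S.eq_of_mul hS (δ := S.coc γ i * S.coc γ (S.perm γ i)) ?_).2
      rw [matOf_mul, ← Matrix.mul_assoc, S.spec, Matrix.mul_assoc, S.spec, ← Matrix.mul_assoc,
        ← matOf_mul]
    rw [e, ← mul_assoc, S.compat γ i, mul_assoc (χ' γ : R), S.compat γ (S.perm γ i)] at h
    simp only [F, smul_smul]
    rw [mul_assoc u u]
    exact h
  have h3 : ∀ i, S.perm γ • S.perm γ • S.perm γ • i = i := fun i => (hcube i).2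
  obtain ⟨e, he⟩ := exists_indicator (R := R) (S.perm γ) h3
  refine ⟨∑ i, e i • (F (S.perm γ i) + (1 + u) • F (S.perm γ (S.perm γ i))), ?_⟩
  have hsum : ∀ f : ι → A, ∑ i, f i = ∑ i, f (S.perm γ i) := fun f =>
    (Equiv.sum_comp (S.perm γ) f).symm
  calc (S.op c : Gamma0 M → A) γ = ∑ i, F i := rfl
    _ = ∑ i, (e i + e (S.perm γ (S.perm γ i)) + e (S.perm γ i)) • F i :=
        Finset.sum_congr rfl fun i _ => by
          rw [show e i + e (S.perm γ (S.perm γ i)) + e (S.perm γ i) = 1 from he i (hfree i), one_smul]
    _ = ∑ i, (e i • F i + e i • F (S.perm γ i) + e i • F (S.perm γ (S.perm γ i))) := by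
        simp only [add_smul, Finset.sum_add_distrib]
        congr 1
        congr 1
        · rw [hsum fun i => e i • F (S.perm γ i)]
          conv_rhs => rw [hsum]
          exact Finset.sum_congr rfl fun i _ => by rw [(hcube i).2]
        · rw [hsum fun i => e i • F (S.perm γ (S.perm γ i))]
          exact Finset.sum_congr rfl fun i _ => by rw [(hcube i).2]
    _ = (1 - u) • ∑ i, e i • (F (S.perm γ i) + (1 + u) • F (S.perm γ (S.perm γ i))) := by
        rw [Finset.smul_sum]
        refine Finset.sum_congr rfl fun i _ => ?_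
        rw [eq_neg_of_add_eq_zero_left
          ((add_assoc _ _ _).symm.trans (hF i) : F i + (u • F (S.perm γ i) +
            (u * u) • F (S.perm γ (S.perm γ i))) = 0)]
        module

end FLTAgent.Lower.Levels
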