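import Fermat.Agent.Lower.Levels.Degen
import Fermat.Agent.Lower.Levels.Coh

/-!
# Stabilisation at a prime, over a finite field

At a prime `v ∤ N`, `v = 1` in `k`, with residual eigenvalue `α` such that
`α ^ 2 - θ α + 1 = 0` and `α ^ 2 ≠ 1`, restriction followed by the projection is a bijection from
the part of level `N` to the part of level `N v` with `U_v = α` (`stab_bijective`).
-/

set_option autoImplicit false

noncomputable section

open CongruenceSubgroup
open scoped MatrixGroups

namespace FLTAgent.Lower.Levels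

variable {N v : ℕ} {k : Type} [Field k] {ι : Type} (pr : ι → Nat.Primes) (θ : ι → k) (i₀ : ι)
  (α : k)

open Classical in
/-- The eigenvalues at level `N v`. -/
def stabEig : ι → k := Function.update θ i₀ α

variable (N v) in
/-- The hypotheses of stabilisation: up to the factor `w`, the operator `T_v` is a polynomial in
the others. -/
structure StabHyp (hv : v.Prime) : Prop where
  not_dvd : ¬ v ∣ N
  index : pr i₀ = ⟨v, hv⟩
  other : ∀ i, i ≠ i₀ → (pr i : ℕ) ≠ v
  cast_v : (v : k) = 1
  root : α * α - θ i₀ * α + 1 = 0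
  alpha_sq : α * α ≠ 1
  span : ∃ w z : MvPolynomial {i : ι // i ≠ i₀} k,
    MvPolynomial.eval (fun i => θ i.1) w ≠ 0 ∧ ∀ a : H1 k k (tchi N k),
      famAct 1 pr k (MvPolynomial.rename Subtype.val w) (famAct 1 pr k (MvPolynomial.X i₀) a) =
        famAct 1 pr k (MvPolynomial.rename Subtype.val w)
          (famAct 1 pr k (MvPolynomial.rename Subtype.val z) a)

variable {pr θ i₀ α} {hv : v.Prime}

/-- A map intertwining the variables intertwines all polynomials. -/
private theorem intertwine {σ : Type} {X Y : Type} [AddCommGroup X] [Module k X] [AddCommGroup Y]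
    [Module k Y] (actN : MvPolynomial σ k →ₐ[k] Module.End k X)
    (actM : MvPolynomial σ k →ₐ[k] Module.End k Y) (g : X →ₗ[k] Y)
    (hg : ∀ i a, g (actN (MvPolynomial.X i) a) = actM (MvPolynomial.X i) (g a))
    (s : MvPolynomial σ k) (a : X) : g (actN s a) = actM s (g a) := by
  induction s using MvPolynomial.induction_on generalizing a with
  | C c => simp [Module.algebraMap_end_apply]
  | add s t hs ht => rw [map_add, map_add, LinearMap.add_apply, map_add, hs, ht, LinearMap.add_apply]
  | mul_X s i hs => rw [map_mul, map_mul, Module.End.mul_apply, hs, hg, Module.End.mul_apply]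

theorem degOne_famAct (h : StabHyp N v pr θ i₀ α hv) (s : MvPolynomial {i : ι // i ≠ i₀} k)
    (a : H1 k k (tchi N k)) :
    (degOne N k v).map k (famAct 1 pr k (MvPolynomial.rename Subtype.val s) a) =
      famAct 1 pr k (MvPolynomial.rename Subtype.val s) ((degOne N k v).map k a) :=
  intertwine ((famAct 1 pr k).comp (MvPolynomial.rename Subtype.val))
    ((famAct 1 pr k).comp (MvPolynomial.rename Subtype.val)) ((degOne N k v).map k)
    (fun i a => by
      rw [AlgHom.comp_apply, AlgHom.comp_apply, MvPolynomial.rename_X, famAct_X, famAct_X,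
        degOne_hecke (pr i.1).2 hv (h.other _ i.2)]) s a

theorem degV_famAct (h : StabHyp N v pr θ i₀ α hv) (i : ι) (hi : i ≠ i₀) (a : H1 k k (tchi N k)) :
    (degV N k hv).map k (famAct 1 pr k (MvPolynomial.X i) a) =
      famAct 1 pr k (MvPolynomial.X i) ((degV N k hv).map k a) := by
  rw [famAct_X, famAct_X, degV_hecke (pr i).2 hv (h.other _ hi)]

theorem famAct_X_self (h : StabHyp N v pr θ i₀ α hv) {L : ℕ} (a : H1 k k (tchi L k)) :
    famAct 1 pr k (MvPolynomial.X i₀) a = heckeOp hv 1 k a := by
  rw [famAct_X]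
  congr! 3; rw [h.index]

private theorem stab_bijective_aux [Finite k] {X Y : Type} [AddCommGroup X] [Module k X]
    [Finite X] [AddCommGroup Y] [Module k Y] [Finite Y]
    (actN : MvPolynomial ι k →ₐ[k] Module.End k X) (actM : MvPolynomial ι k →ₐ[k] Module.End k Y)
    (dOne dV : X →ₗ[k] Y) (cor : Y →ₗ[k] X) (W : Y →ₗ[k] Y)
    (hroot : α * α - θ i₀ * α + 1 = 0) (halpha : α * α ≠ 1)
    {w z : MvPolynomial {i : ι // i ≠ i₀} k} (hw : MvPolynomial.eval (fun i => θ i.1) w ≠ 0)
    (hwz : ∀ a, actN (MvPolynomial.rename Subtype.val w) (actN (MvPolynomial.X i₀) a) =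
      actN (MvPolynomial.rename Subtype.val w) (actN (MvPolynomial.rename Subtype.val z) a))
    (hOne : ∀ (t : MvPolynomial {i : ι // i ≠ i₀} k) a,
      dOne (actN (MvPolynomial.rename Subtype.val t) a) =
        actM (MvPolynomial.rename Subtype.val t) (dOne a))
    (hV : ∀ i, i ≠ i₀ → ∀ a, dV (actN (MvPolynomial.X i) a) = actM (MvPolynomial.X i) (dV a))
    (hU : ∀ a, actM (MvPolynomial.X i₀) (dOne a) = dOne (actN (MvPolynomial.X i₀) a) - dV a)
    (hUV : ∀ a, actM (MvPolynomial.X i₀) (dV a) = dOne a)
    (hcorOne : ∀ x, cor (dOne x) = ((1 : k) + 1) • x)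
    (hcorV : ∀ x, cor (dV x) = actN (MvPolynomial.X i₀) x)
    (hadd : ∀ y, y + actM (MvPolynomial.X i₀) (W y) = dOne (cor y)) (hww : ∀ y, W (W y) = y)
    {e : MvPolynomial ι k} (he : IsProj actM (eigIdeal (RingHom.id k) (stabEig θ i₀ α)) e)
    (hQ : part actN (eigIdeal (RingHom.id k) θ) ≠ ⊥) :
    (∀ x ∈ part actN (eigIdeal (RingHom.id k) θ), actM e (dOne x) = 0 → x = 0) ∧
    ∀ y ∈ part actM (eigIdeal (RingHom.id k) (stabEig θ i₀ α)),
      ∃ x ∈ part actN (eigIdeal (RingHom.id k) θ), actM e (dOne x) = y := by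
  classical
  set m := eigIdeal (RingHom.id k) θ
  set m' := eigIdeal (RingHom.id k) (stabEig θ i₀ α)
  have hm : m ≠ ⊤ := (isMaximal_eigIdeal Function.surjective_id θ).ne_top
  have hm' : m' ≠ ⊤ := (isMaximal_eigIdeal Function.surjective_id _).ne_top
  obtain ⟨eN, heN⟩ := @exists_isProj k _ X _ _ ι _ _ _ _ actN m
    (isMaximal_eigIdeal Function.surjective_id θ)
  set rn := MvPolynomial.rename (R := k) (Subtype.val : {i : ι // i ≠ i₀} → ι)
  have hθ' : ∀ i, i ≠ i₀ → stabEig θ i₀ α i = θ i := fun i hi => by simp [stabEig, Function.update_of_ne hi]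
  have hθ0 : stabEig θ i₀ α i₀ = α := by simp [stabEig]
  -- the evaluation of `z`
  have hz : MvPolynomial.eval (fun i => θ i.1) z = θ i₀ := by
    obtain ⟨x, hxQ, hx0, hx⟩ := exists_eigen_mem (actk := actN) (θ := θ) hQ
      (fun i y hy => act_mem_part hy _) fun s hs y hy h0 => heN.eq_zero_of_mem hm hy hs h0
    have h1 : actN (rn w) (actN (MvPolynomial.X i₀) x) = actN (rn w) (actN (rn z) x) := hwz x
    rw [hx, map_smul, act_eigen hx, act_eigen hx, map_smul, act_eigen hx] at h1
    simp only [rn, MvPolynomial.eval_rename, smul_smul] at h1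
    rw [← sub_eq_zero, ← sub_smul, smul_eq_zero_iff_left hx0] at h1
    have h2 : MvPolynomial.eval (θ ∘ Subtype.val) w *
        (θ i₀ - MvPolynomial.eval (θ ∘ Subtype.val) z) = 0 := by linear_combination h1
    exact (sub_eq_zero.mp ((mul_eq_zero.mp h2).resolve_left hw)).symm
  -- elimination of the variable at `v`
  let sub : MvPolynomial ι k →ₐ[k] MvPolynomial {i : ι // i ≠ i₀} k :=
    MvPolynomial.aeval fun i => if hi : i = i₀ then z else MvPolynomial.X ⟨i, hi⟩
  have hsub_act : ∀ (s : MvPolynomial ι k) (a : X),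
      actN (rn w) (actN s a) = actN (rn w) (actN (rn (sub s)) a) := by
    intro s
    induction s using MvPolynomial.induction_on with
    | C c =>
      intro a
      rw [show sub (MvPolynomial.C c) = MvPolynomial.C c from MvPolynomial.aeval_C _ _,
        show rn (MvPolynomial.C c) = MvPolynomial.C c from MvPolynomial.rename_C _ _]
    | add s t hs ht =>
      intro a
      rw [map_add, LinearMap.add_apply, map_add, hs, ht, map_add sub, map_add rn, map_add actN,
        LinearMap.add_apply, map_add]
    | mul_X s i hs =>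
      intro a
      rw [map_mul, Module.End.mul_apply, hs, map_mul sub, map_mul rn, map_mul actN,
        Module.End.mul_apply, act_comm_apply (rn w) (rn (sub s)), act_comm_apply (rn w) (rn (sub s))]
      congr 1
      by_cases hi : i = i₀
      · subst hi
        simp only [sub, MvPolynomial.aeval_X, dite_true]
        exact hwz a
      · simp only [sub, MvPolynomial.aeval_X, dif_neg hi, rn, MvPolynomial.rename_X]
  have hsub_eval : ∀ s : MvPolynomial ι k,
      MvPolynomial.eval (stabEig θ i₀ α) (rn (sub s)) = MvPolynomial.eval θ s := by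
    intro s
    rw [MvPolynomial.eval_rename,
      show (stabEig θ i₀ α) ∘ Subtype.val = fun i : {i : ι // i ≠ i₀} => θ i.1 from
        funext fun i => hθ' _ i.2]
    induction s using MvPolynomial.induction_on with
    | C c => simp [sub]
    | add s t hs ht => rw [map_add sub, map_add, hs, ht, map_add]
    | mul_X s i hs =>
      rw [map_mul sub, map_mul, hs, map_mul, MvPolynomial.eval_X]
      congr 1
      by_cases hi : i = i₀
      · subst hi; simp only [sub, MvPolynomial.aeval_X, dite_true]; exact hz
      · simp only [sub, MvPolynomial.aeval_X, dif_neg hi, MvPolynomial.eval_X]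
  set S₁ : X →ₗ[k] Y := actM e ∘ₗ dOne
  -- the complement of the part dies
  have hcomp : ∀ a, S₁ a = S₁ (actN eN a) := by
    intro a
    rw [← sub_eq_zero, ← map_sub]
    obtain ⟨s, hs, hs0⟩ := (heN.apply_eq_zero_iff hm).mp (show actN eN (a - actN eN a) = 0 by
      rw [map_sub, ← Module.End.mul_apply, ← map_mul, heN.idem, sub_self])
    refine (he.apply_eq_zero_iff hm').mpr ⟨rn (w * sub s), ?_, ?_⟩
    · rw [mem_eigIdeal]
      intro h0
      change MvPolynomial.eval (stabEig θ i₀ α) (rn (w * sub s)) = 0 at h0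
      rw [map_mul rn, map_mul, hsub_eval, MvPolynomial.eval_rename,
        show (stabEig θ i₀ α) ∘ Subtype.val = fun i : {i : ι // i ≠ i₀} => θ i.1 from
          funext fun i => hθ' _ i.2] at h0
      exact (mul_ne_zero hw fun h1 => hs (mem_eigIdeal.mpr h1)) h0
    · rw [← hOne, map_mul rn, map_mul, Module.End.mul_apply, ← hsub_act, hs0, map_zero,
        map_zero]
  have hUS : ∀ a, actM (MvPolynomial.X i₀) (S₁ a) =
      actM e (dOne (actN (MvPolynomial.X i₀) a) - dV a) := fun a => by
    rw [← hU]
    exact act_comm_apply _ _ _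
  have hUUS : ∀ a, actM (MvPolynomial.X i₀) (actM (MvPolynomial.X i₀) (S₁ a)) =
      actM (MvPolynomial.X i₀) (S₁ (actN (MvPolynomial.X i₀) a)) - S₁ a := fun a => by
    rw [hUS, map_sub, map_sub, act_comm_apply _ e (dV a), hUV]
    rfl
  have hSQ : ∀ a, S₁ a ∈ part actM m' := fun a => he.mem_part hm' _
  constructor
  · -- injectivity
    intro x hx hx0
    by_contra hne
    let K : Submodule k (X) := part actN m ⊓ LinearMap.ker S₁
    have hKst : ∀ i, ∀ y ∈ K, actN (MvPolynomial.X i) y ∈ K := by
      rintro i y ⟨hy, hy0⟩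
      refine ⟨act_mem_part hy _, ?_⟩
      show S₁ (actN (MvPolynomial.X i) y) = 0
      have hy0' : S₁ y = 0 := hy0
      have key : ∀ t, S₁ (actN (rn t) y) = 0 := fun t => by
        show actM e (dOne (actN (rn t) y)) = 0
        rw [hOne, act_comm_apply, show actM e (dOne y) = 0 from hy0',
          map_zero]
      have h1 := hsub_act (MvPolynomial.X i) y
      rw [← sub_eq_zero, ← map_sub] at h1
      have h2 : actN (MvPolynomial.X i) y - actN (rn (sub (MvPolynomial.X i))) y = 0 :=
        heN.eq_zero_of_mem hm (sub_mem (act_mem_part hy _) (act_mem_part hy _)) (s := rn w)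
          (fun h0 => hw (by
            have := mem_eigIdeal.mp h0
            change MvPolynomial.eval θ (rn w) = 0 at this
            rwa [MvPolynomial.eval_rename] at this)) h1
      rw [sub_eq_zero.mp h2]
      exact key _
    obtain ⟨x₀, ⟨hx₀, hx₀0⟩, hne₀, hx₀e⟩ := exists_eigen_mem (actk := actN) (θ := θ) (P := K)
      (fun hK => hne ((Submodule.mem_bot k).mp (hK ▸ (⟨hx, hx0⟩ : x ∈ K)))) hKst
      fun s hs y hy h0 => heN.eq_zero_of_mem hm hy.1 hs h0
    have hx₀0' : S₁ x₀ = 0 := hx₀0
    have hα : α ≠ 0 := fun h0 => by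
      have := hroot; rw [h0] at this; simp at this
    let y₀ := dOne x₀ - α⁻¹ • dV x₀
    have hy₀ : ∀ i, actM (MvPolynomial.X i) y₀ = stabEig θ i₀ α i • y₀ := by
      intro i
      by_cases hi : i = i₀
      · subst hi
        rw [hθ0]
        simp only [y₀, map_sub, map_smul, hU, hUV, hx₀e, smul_sub, smul_smul,
          mul_inv_cancel₀ hα, one_smul]
        have hb : θ i - α⁻¹ = α := by
          field_simp
          linear_combination -hroot
        linear_combination (norm := module) (congrArg (· • dOne x₀) hb)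
      · rw [hθ' i hi]
        have e1 := hOne (MvPolynomial.X (⟨i, hi⟩ : {i : ι // i ≠ i₀})) x₀
        rw [MvPolynomial.rename_X] at e1
        have e2 : dV (actN (MvPolynomial.X i) x₀) =
            actM (MvPolynomial.X i) (dV x₀) := hV i hi x₀
        simp only [y₀, map_sub, map_smul, smul_sub]
        rw [← show dOne (actN (MvPolynomial.X i) x₀) =
          actM (MvPolynomial.X i) (dOne x₀) from e1, ← e2, hx₀e, map_smul, map_smul,
          smul_comm α⁻¹]
    have h1 : actM e y₀ = y₀ := he.apply_eq_self hm' (mem_part_of_eigen hy₀)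
    have h2 : actM e (dV x₀) = 0 := by
      have h3 := hUS x₀
      rw [hx₀0', map_zero, map_sub, hx₀e, map_smul, map_smul,
        show actM e (dOne x₀) = 0 from hx₀0', smul_zero, zero_sub] at h3
      exact neg_eq_zero.mp h3.symm
    have h4 : y₀ = 0 := by
      rw [← h1]
      simp only [y₀, map_sub, map_smul, h2, show actM e (dOne x₀) = 0 from hx₀0',
        smul_zero, sub_zero]
    have h5 := congrArg cor h4
    simp only [y₀, map_sub, map_smul, hcorOne, hcorV, hx₀e, smul_smul, ← sub_smul,
      map_zero] at h5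
    have hcoef : (1 + 1 - α⁻¹ * θ i₀ : k) ≠ 0 := by
      intro h0
      field_simp at h0
      apply halpha
      linear_combination α * h0 - hroot
    exact hne₀ ((smul_eq_zero.mp h5).resolve_left hcoef)
  · -- surjectivity
    let Q₁ : Submodule k (Y) := (part actN m).map S₁
    let D : MvPolynomial ι k := MvPolynomial.X i₀ - MvPolynomial.C (θ i₀)
    let G : ℕ → Submodule k (X) := fun j =>
      part actN m ⊓ LinearMap.ker (actN (D ^ j))
    have hGstab : ∀ j, ∀ g ∈ G j, ∃ g' ∈ G j, actM (MvPolynomial.X i₀) (S₁ g) = S₁ g' := by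
      intro j
      induction j with
      | zero =>
        rintro g ⟨-, hg⟩
        refine ⟨0, zero_mem _, ?_⟩
        rw [show g = 0 by simpa using hg, map_zero, map_zero]
      | succ j ih =>
        rintro g ⟨hg, hg0⟩
        have hg' : actN D g ∈ G j := ⟨act_mem_part hg _, by
          show actN (D ^ j) (actN D g) = 0
          rw [← Module.End.mul_apply, ← map_mul, ← pow_succ]
          exact hg0⟩
        let Gj : Submodule k (Y) := (G j).map S₁
        let β := θ i₀ - α
        set Ub : MvPolynomial ι k := MvPolynomial.X i₀ - MvPolynomial.C β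
        have hUb : Ub ∉ m' := by
          rw [mem_eigIdeal]
          simp only [Ub, map_sub, MvPolynomial.eval₂Hom_X', MvPolynomial.eval₂Hom_C, hθ0,
            RingHom.id_apply, β]
          intro h0
          apply halpha
          linear_combination α * h0 - hroot
        have hGjst : ∀ q ∈ Gj, actM Ub q ∈ Gj := by
          rintro _ ⟨g₁, hg₁, rfl⟩
          obtain ⟨g₂, hg₂, e2⟩ := ih g₁ hg₁
          refine ⟨g₂ - β • g₁, sub_mem hg₂ (Submodule.smul_mem _ _ hg₁), ?_⟩
          simp only [Ub, map_sub, LinearMap.sub_apply, e2, MvPolynomial.algHom_C,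
            Module.algebraMap_end_apply, map_smul]
        let f : Gj → Gj := fun q => ⟨actM Ub q.1, hGjst _ q.2⟩
        have hf : Function.Injective f := by
          intro a b hab
          refine Subtype.ext (sub_eq_zero.mp (he.eq_zero_of_mem hm' (s := Ub) ?_ hUb ?_))
          · obtain ⟨a', -, ha'⟩ := a.2
            obtain ⟨b', -, hb'⟩ := b.2
            rw [← ha', ← hb', ← map_sub]
            exact hSQ _
          · rw [map_sub, sub_eq_zero]
            exact congrArg Subtype.val hab
        set y := actM (MvPolynomial.X i₀ - MvPolynomial.C α) (S₁ g)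
        have hy : actM Ub y ∈ Gj := by
          obtain ⟨g₂, hg₂, e2⟩ := ih _ hg'
          refine ⟨g₂, hg₂, ?_⟩
          rw [← e2]
          simp only [y, Ub, D, map_sub, LinearMap.sub_apply, MvPolynomial.algHom_C,
            Module.algebraMap_end_apply, map_smul, hUUS]
          have hr : β * α = 1 := by simp only [β]; linear_combination -hroot
          rw [show θ i₀ = β + α by simp only [β]; ring]
          linear_combination (norm := module) -(congrArg (· • S₁ g) hr)
        obtain ⟨q, hq⟩ := (Finite.injective_iff_surjective.mp hf) ⟨_, hy⟩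
        have hyq : y = q.1 := by
          refine sub_eq_zero.mp (he.eq_zero_of_mem hm' (s := Ub) ?_ hUb ?_)
          · refine sub_mem (act_mem_part (hSQ _) _) ?_
            obtain ⟨q', -, hq'⟩ := q.2
            rw [← hq']
            exact hSQ _
          · rw [map_sub, sub_eq_zero]
            exact (congrArg Subtype.val hq).symm
        obtain ⟨g₃, hg₃, e3⟩ := q.2
        refine ⟨α • g + g₃, add_mem (Submodule.smul_mem _ _ ⟨hg, hg0⟩) ⟨hg₃.1, ?_⟩, ?_⟩
        · show actN (D ^ (j + 1)) g₃ = 0
          rw [pow_succ', map_mul, Module.End.mul_apply, show actN (D ^ j) g₃ = 0 from hg₃.2,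
            map_zero]
        · rw [map_add, map_smul, e3, ← hyq]
          simp only [y, map_sub, LinearMap.sub_apply, MvPolynomial.algHom_C,
            Module.algebraMap_end_apply]
          abel
    have hnil : ∀ x ∈ part actN m, ∃ j, x ∈ G j := by
      intro x hx
      obtain ⟨i, j, hij, heq⟩ := Finite.exists_ne_map_eq_of_infinite fun j : ℕ => actN (D ^ j) x
      wlog hlt : i < j generalizing i j
      · exact this j i hij.symm heq.symm (by omega)
      refine ⟨i, hx, ?_⟩
      refine heN.eq_zero_of_mem hm (act_mem_part hx _) (s := 1 - D ^ (j - i)) ?_ ?_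
      · rw [mem_eigIdeal]
        simp [D, zero_pow (show j - i ≠ 0 by omega)]
      · rw [map_sub, LinearMap.sub_apply, map_one, Module.End.one_apply, ← Module.End.mul_apply,
          ← map_mul, ← pow_add, show j - i + i = j by omega, sub_eq_zero]
        exact heq
    have hQ₁ : ∀ q ∈ Q₁, actM (MvPolynomial.X i₀) q ∈ Q₁ := by
      rintro _ ⟨g, hg, rfl⟩
      obtain ⟨j, hj⟩ := hnil g hg
      obtain ⟨g', hg', e'⟩ := hGstab j g hj
      exact ⟨g', hg'.1, e'.symm⟩
    intro y hy
    set z₁ := cor y
    set z₂ := cor (W y)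
    have i1 : y + actM (MvPolynomial.X i₀) (W y) = dOne z₁ := hadd y
    have i2 : W y + actM (MvPolynomial.X i₀) y = dOne z₂ := by
      have := hadd (W y)
      rwa [hww] at this
    set c : MvPolynomial ι k := 1 - MvPolynomial.X i₀ * MvPolynomial.X i₀
    have hc : c ∉ m' := by
      rw [mem_eigIdeal]
      simp only [c, map_sub, map_one, map_mul, MvPolynomial.eval₂Hom_X', hθ0]
      exact fun h0 => halpha (sub_eq_zero.mp h0).symm
    have hold : actM c y = dOne (z₁ - actN (MvPolynomial.X i₀) z₂) +
        dV z₂ := by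
      have i3 := congrArg (actM (MvPolynomial.X i₀)) i2
      rw [map_add, hU] at i3
      simp only [c, map_sub, LinearMap.sub_apply, map_one, Module.End.one_apply, map_mul,
        Module.End.mul_apply]
      linear_combination (norm := abel) i1 - i3
    have hyQ : actM c y ∈ Q₁ := by
      rw [← he.apply_eq_self hm' (act_mem_part hy c), hold, map_add]
      refine add_mem ⟨actN eN (z₁ - actN (MvPolynomial.X i₀) z₂), heN.mem_part hm _,
        (hcomp _).symm⟩ ?_
      have h6 : actM e (dV z₂) =
          S₁ (actN eN (actN (MvPolynomial.X i₀) z₂)) -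
            actM (MvPolynomial.X i₀) (S₁ (actN eN z₂)) := by
        rw [← hcomp, ← hcomp, hUS, map_sub]
        show _ = S₁ (actN (MvPolynomial.X i₀) z₂) - (S₁ (actN (MvPolynomial.X i₀) z₂) - _)
        abel
      rw [h6]
      exact sub_mem ⟨_, heN.mem_part hm _, rfl⟩ (hQ₁ _ ⟨_, heN.mem_part hm _, rfl⟩)
    have hQ₁c : ∀ q ∈ Q₁, actM c q ∈ Q₁ := fun q hq => by
      rw [map_sub, LinearMap.sub_apply, map_one, Module.End.one_apply, map_mul,
        Module.End.mul_apply]
      exact sub_mem hq (hQ₁ _ (hQ₁ _ hq))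
    let fc : Q₁ → Q₁ := fun q => ⟨actM c q.1, hQ₁c _ q.2⟩
    have hQP : ∀ q ∈ Q₁, q ∈ part actM m' := by
      rintro _ ⟨g, -, rfl⟩
      exact hSQ g
    have hfc : Function.Injective fc := fun a b hab => Subtype.ext (sub_eq_zero.mp
      (he.eq_zero_of_mem hm' (sub_mem (hQP _ a.2) (hQP _ b.2)) hc (by
        rw [map_sub, sub_eq_zero]; exact congrArg Subtype.val hab)))
    obtain ⟨q, hq⟩ := (Finite.injective_iff_surjective.mp hfc) ⟨_, hyQ⟩
    have hyq : y = q.1 := sub_eq_zero.mp (he.eq_zero_of_mem hm' (sub_mem hy (hQP _ q.2)) hc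
      (by rw [map_sub, sub_eq_zero]; exact (congrArg Subtype.val hq).symm))
    obtain ⟨g, hg, hgq⟩ := q.2
    exact ⟨g, hg, by rw [hyq, ← hgq]; rfl⟩

/-- **Stabilisation.** For every projection `e` at level `N v` the map `x ↦ e (res x)` is a
bijection between the parts. -/
theorem stab_bijective [NeZero N] [NeZero (N * v)] [Finite k] (h : StabHyp N v pr θ i₀ α hv)
    {e : MvPolynomial ι k}
    (he : IsProj (famAct (1 : (ZMod (N * v))ˣ →* kˣ) pr k)
      (eigIdeal (RingHom.id k) (stabEig θ i₀ α)) e)
    (hQ : part (famAct (1 : (ZMod N)ˣ →* kˣ) pr k) (eigIdeal (RingHom.id k) θ) ≠ ⊥) :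
    (∀ x ∈ part (famAct (1 : (ZMod N)ˣ →* kˣ) pr k) (eigIdeal (RingHom.id k) θ),
      famAct 1 pr k e ((degOne N k v).map k x) = 0 → x = 0) ∧
    ∀ y ∈ part (famAct (1 : (ZMod (N * v))ˣ →* kˣ) pr k)
        (eigIdeal (RingHom.id k) (stabEig θ i₀ α)),
      ∃ x ∈ part (famAct (1 : (ZMod N)ˣ →* kˣ) pr k) (eigIdeal (RingHom.id k) θ),
        famAct 1 pr k e ((degOne N k v).map k x) = y := by
  have : Finite (H1 k k (tchi N k)) := Module.finite_of_finite k
  have : Finite (H1 k k (tchi (N * v) k)) := Module.finite_of_finite k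
  obtain ⟨w, z, hw, hwz⟩ := h.span
  refine stab_bijective_aux _ _ ((degOne N k v).map k) ((degV N k hv).map k)
    ((corSys k hv h.not_dvd).map k) ((wSys k hv h.not_dvd).map k) h.root h.alpha_sq hw hwz
    (degOne_famAct h) (degV_famAct h) (fun a => ?_) (fun a => ?_) (fun x => ?_) (fun x => ?_)
    (fun y => ?_) (w_w hv h.not_dvd) he hQ
  · rw [famAct_X_self h, famAct_X_self h]
    exact hecke_degOne hv h.not_dvd a
  · rw [famAct_X_self h, hecke_degV hv h.not_dvd, h.cast_v, one_smul]
  · rw [cor_degOne, h.cast_v]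
  · exact (cor_degV hv h.not_dvd x).trans (famAct_X_self h x).symm
  · rw [famAct_X_self h]
    exact add_hecke_w hv h.not_dvd y

end FLTAgent.Lower.Levels
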