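import Fermat.Agent.Lower.Levels.Embed
import Fermat.Agent.Lower.Levels.Span
import Fermat.Agent.Lower.Levels.Stab

/-!
# Stabilisation of frames

`stabMap`: restriction to a higher level followed by the projection at the stabilised eigenvalues;
it is natural in intertwining maps (`stabMap_natural`).  By induction on the auxiliary primes, the
images of a frame of level `N` form a frame of level `N Q` with unchanged matrices away from `Q`
(`exists_stab_frame_residual`, `exists_stab_frame`).  `h1Part_subfamily`: omitting finitely many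
good primes of the family does not change a nonzero part.
-/

set_option autoImplicit false

noncomputable section

open CongruenceSubgroup
open scoped MatrixGroups Matrix

namespace FLTAgent.Lower.Levels

open IsLocalRing (maximalIdeal ResidueField residue)

/-- A map intertwining two actions commutes with the projections. -/
theorem partProj_natural {R : Type} [CommRing R] {ι : Type} {X : Type} [AddCommGroup X] [Module R X]
    {X' : Type} [AddCommGroup X'] [Module R X']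
    {act : MvPolynomial ι R →ₐ[R] Module.End R X} {act' : MvPolynomial ι R →ₐ[R] Module.End R X'}
    {m : Ideal (MvPolynomial ι R)} (hm : m ≠ ⊤) {e e' : MvPolynomial ι R} (he : IsProj act m e)
    (he' : IsProj act' m e') (g : X →ₗ[R] X') (hg : ∀ s x, g (act s x) = act' s (g x)) (x : X) :
    g (partProj act m x) = partProj act' m (g x) :=
  partProj_map (τ := RingHom.id R) (by ext s; rw [Ideal.mem_comap, MvPolynomial.map_id]) hm hm he he'
    g (fun s x => by rw [MvPolynomial.map_id]; exact hg s x) x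

/-- A projection kills what remains after projecting. -/
private theorem act_sub_proj {R : Type} [CommRing R] {ι : Type} {X : Type} [AddCommGroup X]
    [Module R X] {act : MvPolynomial ι R →ₐ[R] Module.End R X} {m : Ideal (MvPolynomial ι R)}
    {e : MvPolynomial ι R} (he : IsProj act m e) (x : X) : act e (x - act e x) = 0 := by
  rw [map_sub, ← Module.End.mul_apply, ← map_mul, he.idem, sub_self]

variable {N L : ℕ} {R : Type} [CommRing R]

variable {k : Type} [Field k] {ι : Type}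

/-- Restriction followed by the projection at the stabilised eigenvalues `θ'`. -/
def stabMap (pr : ι → Nat.Primes) (σ : R →+* k) (θ' : ι → k) (h : N ∣ L) :
    H1 R R (tchi N R) →ₗ[R] H1 R R (tchi L R) :=
  partProj (famAct (1 : (ZMod L)ˣ →* Rˣ) pr R) (eigIdeal σ θ') ∘ₗ (resSys R h).map R

/-- The data of stabilisation at the primes of `Q`. -/
structure StabData (p N Q : ℕ) (pr : ι → Nat.Primes) (S₀ : Finset ℕ) (θ θ' : ι → k) : Prop where
  squarefree : Squarefree Q
  coprime : Nat.Coprime N Q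
  injective : Function.Injective pr
  all_primes : ∀ l : Nat.Primes, (l : ℕ) ∉ S₀ → ∃ i, pr i = l
  not_dvd_p : ¬ p ∣ Q
  cast_prime : (p : k) = 0
  at_prime : ∀ v : ℕ, v.Prime → v ∣ Q → (v : k) = 1 ∧ ∃ i, (pr i : ℕ) = v ∧
    θ' i * θ' i - θ i * θ' i + 1 = 0 ∧ θ' i * θ' i ≠ 1
  away : ∀ i, ¬ (pr i : ℕ) ∣ Q → θ' i = θ i
  order_three : (3 : k) ≠ 0 ∨ ∃ i, (pr i : ℕ) % 3 = 2 ∧ θ i ≠ 0

/-- `stabMap` commutes with maps that intertwine the families and commute with restriction. -/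
theorem stabMap_natural [Finite k] [IsLocalRing R] [IsNoetherianRing R]
    [IsAdicComplete (maximalIdeal R) R] {pr : ι → Nat.Primes} {σ : R →+* k} {θ' : ι → k}
    {N' L' : ℕ} [NeZero L] [NeZero L'] (hσ : Function.Surjective σ)
    (h : N ∣ L) (h' : N' ∣ L')
    (g : H1 R R (tchi N R) →ₗ[R] H1 R R (tchi N' R))
    (gL : H1 R R (tchi L R) →ₗ[R] H1 R R (tchi L' R))
    (hcomm : ∀ x, gL ((resSys R h).map R x) = (resSys R h').map R (g x))
    (hgL : ∀ s x, gL (famAct (1 : (ZMod L)ˣ →* Rˣ) pr R s x) =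
      famAct (1 : (ZMod L')ˣ →* Rˣ) pr R s (gL x))
    (x : H1 R R (tchi N R)) :
    gL (stabMap pr σ θ' h x) = stabMap pr σ θ' h' (g x) := by
  have : (eigIdeal σ θ').IsMaximal := isMaximal_eigIdeal hσ θ'
  obtain ⟨e, he⟩ := exists_isProj (famAct (1 : (ZMod L)ˣ →* Rˣ) pr R) (eigIdeal σ θ')
  obtain ⟨e', he'⟩ := exists_isProj (famAct (1 : (ZMod L')ˣ →* Rˣ) pr R) (eigIdeal σ θ')
  rw [stabMap, stabMap, LinearMap.comp_apply, LinearMap.comp_apply, ← hcomm]
  exact partProj_natural (isMaximal_eigIdeal hσ θ').ne_top he he' gL hgL _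


variable [Finite k] {p : ℕ} [Fact p.Prime] [IsDomain R] [IsDiscreteValuationRing R]
  [IsAdicComplete (maximalIdeal R) R] [CharZero R] {pr : ι → Nat.Primes} {σ : R →+* k}
  {S₀ : Finset ℕ} {θ θ' : ι → k} {d : ℕ}

omit [Finite k] [IsDiscreteValuationRing R] [IsAdicComplete (maximalIdeal R) R] [CharZero R]
  [IsDomain R] in
theorem part_ne_bot {ψ : (ZMod N)ˣ →* Rˣ} [Nontrivial R] (hd : d ≠ 0) (F : Frame ψ pr σ θ d) :
    h1Part ψ pr σ θ R ≠ ⊥ := by
  intro h
  have h0 := F.mem ⟨0, Nat.pos_of_ne_zero hd⟩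
  rw [h, Submodule.mem_bot, ← F.combo_single, ← map_zero F.combo] at h0
  have h1 : (Pi.single (⟨0, Nat.pos_of_ne_zero hd⟩ : Fin d) (1 : R) : Fin d → R) = 0 := F.inj h0
  exact one_ne_zero (α := R) (by simpa using congrFun h1 ⟨0, Nat.pos_of_ne_zero hd⟩)

/-- Omitting finitely many primes of the family does not change a nonzero part. -/
theorem h1Part_subfamily {P : Set ι} (_hp2 : p ≠ 2) [NeZero N] (hσ : Function.Surjective σ)
    (f : ℤ_[p] →+* R) (_hp : (p : k) = 0) (_hinj : Function.Injective pr)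
    (hall : ∀ l : Nat.Primes, (l : ℕ) ∉ S₀ → ∃ i, pr i = l)
    (_h3 : (3 : k) ≠ 0 ∨ ∃ i, i ∉ P ∧ (pr i : ℕ) % 3 = 2 ∧ θ i ≠ 0) (hP : P.Finite)
    (hex : ∀ i ∈ P, ¬ (pr i : ℕ) ∣ N ∧ (pr i : ℕ) ≠ p)
    (hkeep : ParHyp N (fun i : {i : ι // i ∉ P} => pr i.1) (fun i => θ i.1))
    (hd : d ≠ 0) (F : Frame (1 : (ZMod N)ˣ →* Rˣ) pr σ θ d) :
    h1Part (1 : (ZMod N)ˣ →* Rˣ) (fun i : {i : ι // i ∉ P} => pr i.1) σ (fun i => θ i.1) R =
      h1Part (1 : (ZMod N)ˣ →* Rˣ) pr σ θ R := by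
  classical
  have : (eigIdeal σ θ).IsMaximal := isMaximal_eigIdeal hσ θ
  have : (eigIdeal σ fun i : {i : ι // i ∉ P} => θ i.1).IsMaximal := isMaximal_eigIdeal hσ _
  obtain ⟨e, he⟩ := exists_isProj (famAct (1 : (ZMod N)ˣ →* Rˣ) pr R) (eigIdeal σ θ)
  obtain ⟨e₀, he₀⟩ := exists_isProj
    (famAct (1 : (ZMod N)ˣ →* Rˣ) (fun i : {i : ι // i ∉ P} => pr i.1) R)
    (eigIdeal σ fun i => θ i.1)
  refine part_subfamily (fun s => famAct_comp_rename Subtype.val s) he
    (isMaximal_eigIdeal hσ θ).ne_top he₀ (isMaximal_eigIdeal hσ _).ne_top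
    (part_ne_bot hd F) fun i hi => ?_
  obtain ⟨z, hz⟩ := exists_span_poly (pr := fun i : {i : ι // i ∉ P} => pr i.1)
    (θ := fun i => θ i.1) (R := R) hσ f (S₀ ∪ hP.toFinset.image fun i => (pr i : ℕ))
    (fun l hl => by
      rw [Finset.mem_union, not_or] at hl
      obtain ⟨j, hj⟩ := hall l hl.1
      exact ⟨⟨j, fun hjP => hl.2 (Finset.mem_image.mpr ⟨j, hP.mem_toFinset.mpr hjP,
        congrArg Subtype.val hj⟩)⟩, hj⟩)
    hkeep (pr i).2 (hex i hi).1 (hex i hi).2
  exact ⟨z, fun x hx => by rw [famAct_X]; exact hz x hx⟩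

omit [IsDomain R] [IsDiscreteValuationRing R] [IsAdicComplete (maximalIdeal R) R] [CharZero R] in
theorem coefMap_stabMap {R' : Type} [CommRing R'] [IsLocalRing R'] [IsNoetherianRing R']
    [IsAdicComplete (maximalIdeal R') R'] [IsLocalRing R] [IsNoetherianRing R]
    [IsAdicComplete (maximalIdeal R) R] [NeZero L] {σ' : R' →+* k} {τ : R →+* R'}
    (hτ : Function.Surjective τ) (hσ' : Function.Surjective σ') (hτσ : σ'.comp τ = σ)
    (hone : ∀ (M : ℕ) (u : (ZMod M)ˣ),
      τ (((1 : (ZMod M)ˣ →* Rˣ) u : Rˣ) : R) = (((1 : (ZMod M)ˣ →* R'ˣ) u : R'ˣ) : R'))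
    (h : N ∣ L) (x : H1 R R (tchi N R)) :
    coefMap (A := R) (B := R') τ.toSemilinearMap (hone L) (stabMap pr σ θ' h x) =
      stabMap pr σ' θ' h (coefMap (A := R) (B := R') τ.toSemilinearMap (hone N) x) := by
  have : RingHomSurjective τ := ⟨hτ⟩
  have hσ : Function.Surjective σ := hτσ ▸ hσ'.comp hτ
  have : (eigIdeal σ θ').IsMaximal := isMaximal_eigIdeal hσ θ'
  have : (eigIdeal σ' θ').IsMaximal := isMaximal_eigIdeal hσ' θ'
  obtain ⟨e, he⟩ := exists_isProj (famAct (1 : (ZMod L)ˣ →* Rˣ) pr R) (eigIdeal σ θ')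
  obtain ⟨e', he'⟩ := exists_isProj (famAct (1 : (ZMod L)ˣ →* R'ˣ) pr R') (eigIdeal σ' θ')
  rw [stabMap, stabMap, LinearMap.comp_apply, LinearMap.comp_apply]
  rw [partProj_map (by rw [comap_eigIdeal, hτσ]) (isMaximal_eigIdeal hσ θ').ne_top
    (isMaximal_eigIdeal hσ' θ').ne_top he he' _
    (fun s x => coefMap_famAct τ.toSemilinearMap (hone L) pr s x) _]
  congr 1
  exact H1.mapCoef_map _ _ _ (resSys R h) (resSys R' h) (inj_resSys h) (fun _ => rfl)
    (fun _ => (map_one τ).symm) x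

omit [IsDomain R] [IsDiscreteValuationRing R] [IsAdicComplete (maximalIdeal R) R] [CharZero R]
  [Finite k] in
theorem one_compat {R' : Type} [CommRing R'] (τ : R →+* R') (M : ℕ) (u : (ZMod M)ˣ) :
    τ (((1 : (ZMod M)ˣ →* Rˣ) u : Rˣ) : R) = (((1 : (ZMod M)ˣ →* R'ˣ) u : R'ˣ) : R') := by
  simp

omit [IsDomain R] [IsDiscreteValuationRing R] [IsAdicComplete (maximalIdeal R) R] [CharZero R]
  [Finite k] in
theorem charHyp_one : CharHyp (1 : (ZMod L)ˣ →* Rˣ) σ :=
  ⟨fun u => by simp, rfl⟩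

omit [IsDomain R] [IsDiscreteValuationRing R] [IsAdicComplete (maximalIdeal R) R] [CharZero R]
  [Finite k] in
theorem two_ne_zero_of_cast (hp2 : p ≠ 2) (hp : (p : k) = 0) : (2 : k) ≠ 0 := by
  intro h2
  obtain ⟨m, hm⟩ := (Fact.out : p.Prime).odd_of_ne_two hp2
  rw [hm, Nat.cast_add, Nat.cast_mul, Nat.cast_two, h2, zero_mul, zero_add, Nat.cast_one] at hp
  exact one_ne_zero hp

omit [IsDomain R] [IsDiscreteValuationRing R] [IsAdicComplete (maximalIdeal R) R] [CharZero R]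
  [Finite k] in
theorem mod_three_ne_two {v : ℕ} (h3 : (3 : k) = 0) (hv : (v : k) = 1) : v % 3 ≠ 2 := by
  intro h
  rw [← Nat.mod_add_div v 3, h, Nat.cast_add, Nat.cast_mul, Nat.cast_ofNat, Nat.cast_ofNat, h3,
    zero_mul, add_zero] at hv
  exact one_ne_zero (show (1 : k) = 0 by linear_combination hv)

variable (θ) in
/-- Stabilisation over the residue field. -/
theorem exists_stab_frame_residual (hp2 : p ≠ 2) [NeZero N] (hσ : Function.Surjective σ)
    (f : ℤ_[p] →+* R)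
    (Fk : Frame (1 : (ZMod N)ˣ →* kˣ) pr (RingHom.id k) θ d) (hd : d ≠ 0) :
    ∀ (Q : ℕ) (L : ℕ) [NeZero L], L = N * Q → ∀ (h : N ∣ L) (θ' : ι → k),
      StabData p N Q pr S₀ θ θ' → ParHyp L pr θ →
      ∃ Fk' : Frame (1 : (ZMod L)ˣ →* kˣ) pr (RingHom.id k) θ' d,
        ∀ i, Fk'.vec i = stabMap pr (RingHom.id k) θ' h (Fk.vec i) := by
  classical
  intro Q
  induction Q using Nat.strong_induction_on with
  | _ Q ih =>
  intro L _ hL h θ' hdat hpar
  rcases eq_or_ne Q 1 with rfl | hQ1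
  · rw [mul_one] at hL
    subst hL
    obtain rfl : θ' = θ := funext fun i => hdat.away i fun hd' =>
      (pr i).2.ne_one (Nat.dvd_one.mp hd')
    have : (eigIdeal (RingHom.id k) θ').IsMaximal :=
      isMaximal_eigIdeal (σ := RingHom.id k) Function.surjective_id θ'
    obtain ⟨e, he⟩ := exists_isProj (famAct (1 : (ZMod L)ˣ →* kˣ) pr k) (eigIdeal (RingHom.id k) θ')
    refine ⟨Fk, fun i => ?_⟩
    rw [stabMap, LinearMap.comp_apply, resSys_self,
      partProj_eq (isMaximal_eigIdeal (σ := RingHom.id k) Function.surjective_id θ').ne_top he,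
      he.apply_eq_self (isMaximal_eigIdeal (σ := RingHom.id k) Function.surjective_id θ').ne_top (Fk.mem i)]
  obtain ⟨v, hv, hvQ⟩ := Nat.exists_prime_and_dvd hQ1
  obtain ⟨Q₁, hQ₁⟩ := hvQ
  have hQ : Q = Q₁ * v := hQ₁.trans (mul_comm _ _)
  obtain ⟨hco, -, hsq₁⟩ := Nat.squarefree_mul_iff.mp (hQ ▸ hdat.squarefree)
  have hvN : ¬ v ∣ N := fun hvN => hv.one_lt.ne'
    (Nat.eq_one_of_dvd_coprimes hdat.coprime hvN (hQ ▸ dvd_mul_left v Q₁))
  have hvQ₁ : ¬ v ∣ Q₁ := fun h1 => hv.one_lt.ne' (Nat.eq_one_of_dvd_coprimes hco h1 dvd_rfl)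
  have hQ0 : Q₁ ≠ 0 := fun h0 => hvQ₁ (h0 ▸ dvd_zero v)
  have : NeZero (N * Q₁) := ⟨mul_ne_zero (NeZero.ne N) hQ0⟩
  have hL₁ : L = (N * Q₁) * v := by rw [hL, hQ, mul_assoc]
  subst hL₁
  -- the data at `v`
  obtain ⟨hv1, i₀, hi₀, hroot, halpha⟩ := hdat.at_prime v hv (hQ ▸ dvd_mul_left v Q₁)
  have hvp : v ≠ p := fun e => hdat.not_dvd_p (e ▸ hQ ▸ dvd_mul_left v Q₁)
  -- the middle level
  set θm : ι → k := fun i => if (pr i : ℕ) ∣ Q₁ then θ' i else θ i with hθm
  have hθm₀ : θm i₀ = θ i₀ := by simp [hθm, hi₀, hvQ₁]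
  have hne₀ : ∀ i, i ≠ i₀ → (pr i : ℕ) ≠ v := fun i hi e =>
    hi (hdat.injective (Subtype.ext (e.trans hi₀.symm)))
  have hθ'eq : θ' = stabEig θm i₀ (θ' i₀) := funext fun i => by
    by_cases hi : i = i₀
    · subst hi; simp [stabEig]
    · simp only [stabEig, Function.update_of_ne hi, hθm]
      split_ifs with h1
      · rfl
      · refine hdat.away i fun h2 => ?_
        rcases (pr i).2.dvd_mul.mp (hQ ▸ h2) with h3 | h3
        · exact h1 h3
        · exact hne₀ i hi ((Nat.prime_dvd_prime_iff_eq (pr i).2 hv).mp h3)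
  obtain ⟨l, hl, hlne⟩ := hpar
  have hlQ₁ : N * Q₁ ∣ (pr l : ℕ) - 1 := (dvd_mul_right _ v).trans hl
  have hl_ndvd : ∀ M, M ∣ N * Q₁ * v → ¬ (pr l : ℕ) ∣ M := fun M hM hlM => by
    have h1 := (hlM.trans hM).trans hl
    have h2 := (pr l).2.two_le
    exact absurd (Nat.le_of_dvd (by omega) h1) (by omega)
  have hθml : θm l = θ l := by
    simp [hθm, hl_ndvd Q₁ ((dvd_mul_left Q₁ N).mul_right v)]
  have hlv : l ≠ i₀ := fun e => hl_ndvd v (dvd_mul_left v _) (by rw [e, hi₀])
  have hdat₁ : StabData p N Q₁ pr S₀ θ θm :=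
    { squarefree := (Nat.squarefree_mul_iff.mp (hQ ▸ hdat.squarefree)).2.1
      coprime := hdat.coprime.coprime_dvd_right (hQ ▸ dvd_mul_right Q₁ v)
      injective := hdat.injective
      all_primes := hdat.all_primes
      not_dvd_p := fun hp => hdat.not_dvd_p (hp.trans (hQ ▸ dvd_mul_right Q₁ v))
      cast_prime := hdat.cast_prime
      at_prime := fun w hw hwQ => by
        obtain ⟨h1, j, hj, h2, h3⟩ := hdat.at_prime w hw (hwQ.trans (hQ ▸ dvd_mul_right Q₁ v))
        have hj' : θm j = θ' j := by simp [hθm, hj, hwQ]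
        exact ⟨h1, j, hj, by rw [hj']; exact h2, by rw [hj']; exact h3⟩
      away := fun i hi => by simp [hθm, hi]
      order_three := hdat.order_three }
  obtain ⟨Fm, hFm⟩ := ih Q₁
    (hQ ▸ lt_mul_of_one_lt_right (Nat.pos_of_ne_zero hQ0) hv.one_lt)
    (N * Q₁) rfl (dvd_mul_right N Q₁) θm hdat₁ ⟨l, hlQ₁, hlne⟩
  -- the family without `v`
  set pr₀ : {i : ι // i ∉ {i : ι | i = i₀}} → Nat.Primes := fun i => pr i.1
  set θ₀ : {i : ι // i ∉ {i : ι | i = i₀}} → k := fun i => θm i.1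
  have hfam₀ : FamHyp (N * Q₁) pr₀ σ θ₀ :=
    { surjective := hσ
      two := two_ne_zero_of_cast hp2 hdat.cast_prime
      not_eis := ⟨⟨l, hlv⟩, hl_ndvd _ (dvd_mul_right _ v), fun e => hlne (by
        rw [← hθml, show θm l = θ₀ ⟨l, hlv⟩ from rfl, e, add_comm])⟩
      order_three := by
        by_cases h3 : (3 : k) = 0
        · obtain ⟨j, hj, hj0⟩ := hdat.order_three.resolve_left (fun h => h h3)
          refine Or.inr ⟨⟨j, fun e => mod_three_ne_two h3 hv1 ?_⟩, hj, ?_⟩
          · rw [show j = i₀ from e, hi₀] at hj; exact hj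
          · show θm j ≠ 0
            have hjQ : ¬ (pr j : ℕ) ∣ Q₁ := fun h1 =>
              mod_three_ne_two h3 (hdat₁.at_prime _ (pr j).2 h1).1 hj
            simpa [hθm, hjQ] using hj0
        · exact Or.inl h3 }
  have : (eigIdeal (RingHom.id k) θ₀).IsMaximal := isMaximal_eigIdeal (σ := RingHom.id k) Function.surjective_id θ₀
  have : (eigIdeal (RingHom.id k) θm).IsMaximal := isMaximal_eigIdeal (σ := RingHom.id k) Function.surjective_id θm
  have : (eigIdeal (RingHom.id k) θ').IsMaximal :=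
      isMaximal_eigIdeal (σ := RingHom.id k) Function.surjective_id θ'
  obtain ⟨e₀, he₀⟩ := exists_isProj (famAct (1 : (ZMod (N * Q₁))ˣ →* kˣ) pr₀ k)
    (eigIdeal (RingHom.id k) θ₀)
  obtain ⟨em, hem⟩ := exists_isProj (famAct (1 : (ZMod (N * Q₁))ˣ →* kˣ) pr k)
    (eigIdeal (RingHom.id k) θm)
  obtain ⟨e', he'⟩ := exists_isProj (famAct (1 : (ZMod (N * Q₁ * v))ˣ →* kˣ) pr k)
    (eigIdeal (RingHom.id k) θ')
  have hm₀ := (isMaximal_eigIdeal (σ := RingHom.id k) Function.surjective_id θ₀).ne_top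
  have hmm := (isMaximal_eigIdeal (σ := RingHom.id k) Function.surjective_id θm).ne_top
  have hm' := (isMaximal_eigIdeal (σ := RingHom.id k) Function.surjective_id θ').ne_top
  -- the operator at `v` on the part without `v`
  obtain ⟨z, hz⟩ := exists_span_poly (pr := pr₀) (θ := θ₀) (R := R) hσ f (insert v S₀)
    (fun w hw => by
      rw [Finset.mem_insert, not_or] at hw
      obtain ⟨j, hj⟩ := hdat.all_primes w hw.2
      exact ⟨⟨j, fun e => hw.1 (by rw [← hj, show j = i₀ from e, hi₀])⟩, hj⟩)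
    ⟨⟨l, hlv⟩, hlQ₁, by show θm l ≠ _; rw [hθml]; exact hlne⟩
    hv (fun hd' => by
      rcases hv.dvd_mul.mp hd' with h1 | h1
      · exact hvN h1
      · exact hvQ₁ h1) hvp
  set zk := MvPolynomial.map σ z
  obtain ⟨d₀, ⟨F₀k⟩⟩ := exists_frame_residual (L := N * Q₁) pr₀ θ₀
  obtain ⟨F₀, hF₀⟩ := exists_frame_lift hfam₀ charHyp_one F₀k
  have hTz : ∀ a ∈ h1Part (1 : (ZMod (N * Q₁))ˣ →* kˣ) pr₀ (RingHom.id k) θ₀ k,
      heckeOp hv (1 : (ZMod (N * Q₁))ˣ →* kˣ) k a = famAct 1 pr₀ k zk a := by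
    intro a ha
    obtain ⟨c, rfl⟩ := F₀k.span a ha
    choose c₀ hc₀ using fun i => hσ (c i)
    set g := coefMap (A := R) (B := k) σ.toSemilinearMap
      (residual_char (charHyp_one (L := N * Q₁) (σ := σ)))
    have hlift : g (F₀.combo c₀) = Fintype.linearCombination k F₀k.vec c := by
      rw [Frame.combo, Fintype.linearCombination_apply, Fintype.linearCombination_apply, map_sum]
      exact Finset.sum_congr rfl fun i _ => by
        rw [LinearMap.map_smulₛₗ, hF₀ i]
        exact congrArg (· • F₀k.vec i) (hc₀ i)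
    rw [← hlift, ← coefMap_heckeOp, hz _ (F₀.combo_mem c₀), coefMap_famAct]
  have hrn : ∀ s, famAct (1 : (ZMod (N * Q₁))ˣ →* kˣ) pr₀ k s =
      famAct 1 pr k (MvPolynomial.rename Subtype.val s) :=
    fun s => famAct_comp_rename Subtype.val s
  have hX : ∀ a, famAct (1 : (ZMod (N * Q₁))ˣ →* kˣ) pr k (MvPolynomial.X i₀) a =
      heckeOp hv (1 : (ZMod (N * Q₁))ˣ →* kˣ) k a := fun a => by
    rw [famAct_X]
    congr! 3
  have hpart : h1Part (1 : (ZMod (N * Q₁))ˣ →* kˣ) pr₀ (RingHom.id k) θ₀ k =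
      h1Part (1 : (ZMod (N * Q₁))ˣ →* kˣ) pr (RingHom.id k) θm k :=
    part_subfamily hrn hem hmm he₀ hm₀ (part_ne_bot hd Fm) fun i hi => ⟨zk, fun a ha => by
      rw [show i = i₀ from hi, hX, hTz a ha]⟩
  have heval : MvPolynomial.eval (fun i => θm i.1) e₀ ≠ 0 := fun h0 => by
    have h1 := he₀.sub_one_mem
    rw [mem_eigIdeal, map_sub, map_one, sub_eq_zero] at h1
    exact one_ne_zero (h1.symm.trans h0)
  have hspan : ∀ a, famAct 1 pr₀ k e₀ (famAct 1 pr k (MvPolynomial.X i₀) a) =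
      famAct 1 pr₀ k e₀ (famAct 1 pr₀ k zk a) := fun a => by
    rw [act_comm_apply e₀ zk, ← hTz _ (he₀.mem_part hm₀ a), ← hX, hrn e₀]
    exact act_comm_apply _ _ _
  -- stabilisation at `v`
  have hstab : StabHyp (N * Q₁) v pr θm i₀ (θ' i₀) hv :=
    { not_dvd := fun hd' => by
        rcases hv.dvd_mul.mp hd' with h1 | h1
        · exact hvN h1
        · exact hvQ₁ h1
      index := Subtype.ext hi₀
      other := hne₀
      cast_v := hv1
      root := by rw [hθm₀]; exact hroot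
      alpha_sq := halpha
      span := ⟨e₀, zk, heval, fun a => by
        have h1 := hspan a
        rw [hrn, hrn] at h1
        exact h1⟩ }
  have hq : part (famAct (1 : (ZMod (N * Q₁))ˣ →* kˣ) pr k) (eigIdeal (RingHom.id k) θm) ≠ ⊥ :=
    part_ne_bot hd Fm
  have : NeZero (N * Q₁ * v) := inferInstance
  obtain ⟨hinj, hsurj⟩ := stab_bijective hstab (e := e') (by rw [← hθ'eq]; exact he') hq
  rw [← hθ'eq] at hsurj
  set S₁ : H1 k k (tchi (N * Q₁) k) →ₗ[k] H1 k k (tchi (N * Q₁ * v) k) :=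
    famAct (1 : (ZMod (N * Q₁ * v))ˣ →* kˣ) pr k e' ∘ₗ (degOne (N * Q₁) k v).map k
  have hcomb : ∀ c, Fintype.linearCombination k (fun i => S₁ (Fm.vec i)) c = S₁ (Fm.combo c) := by
    intro c
    rw [Frame.combo, Fintype.linearCombination_apply, Fintype.linearCombination_apply, map_sum]
    exact Finset.sum_congr rfl fun i _ => (map_smul S₁ _ _).symm
  refine ⟨⟨fun i => S₁ (Fm.vec i), fun i => he'.mem_part hm' _, fun c c' e => ?_, fun y hy => ?_⟩,
    fun i => ?_⟩
  · rw [hcomb, hcomb, ← sub_eq_zero, ← map_sub, ← map_sub] at e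
    exact sub_eq_zero.mp (Fm.inj ((hinj _ (Fm.combo_mem _) e).trans (map_zero _).symm))
  · obtain ⟨a, ha, rfl⟩ := hsurj y hy
    obtain ⟨c, rfl⟩ := Fm.span a ha
    exact ⟨c, hcomb c⟩
  · show S₁ (Fm.vec i) = _
    have hsm : stabMap pr (RingHom.id k) θ' h (Fk.vec i) =
        famAct (1 : (ZMod (N * Q₁ * v))ˣ →* kˣ) pr k e' ((resSys k h).map k (Fk.vec i)) :=
      LinearMap.congr_fun (partProj_eq hm' he') _
    rw [hsm, hFm]
    show famAct (1 : (ZMod (N * Q₁ * v))ˣ →* kˣ) pr k e' ((degOne (N * Q₁) k v).map k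
      (partProj (famAct (1 : (ZMod (N * Q₁))ˣ →* kˣ) pr k) (eigIdeal (RingHom.id k) θm)
        ((resSys k (dvd_mul_right N Q₁)).map k (Fk.vec i)))) = _
    obtain ⟨r, hr⟩ : ∃ r, r = (resSys k (dvd_mul_right N Q₁)).map k (Fk.vec i) := ⟨_, rfl⟩
    rw [← hr]
    -- the projection at the middle level is the one without `v`
    have hproj : partProj (famAct (1 : (ZMod (N * Q₁))ˣ →* kˣ) pr k) (eigIdeal (RingHom.id k) θm) r =
        famAct 1 pr₀ k e₀ r := by
      rw [partProj_eq hmm hem]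
      obtain ⟨s, hs, hs0⟩ := (he₀.apply_eq_zero_iff hm₀).mp (act_sub_proj he₀ r)
      have h0 : famAct 1 pr k em (r - famAct 1 pr₀ k e₀ r) = 0 :=
        (hem.apply_eq_zero_iff hmm).mpr ⟨MvPolynomial.rename Subtype.val s, fun h1 => hs (by
          rw [mem_eigIdeal, MvPolynomial.coe_eval₂Hom, MvPolynomial.eval₂_rename] at h1
          rw [mem_eigIdeal, MvPolynomial.coe_eval₂Hom]
          exact h1), by rw [← hrn]; exact hs0⟩
      rw [map_sub, sub_eq_zero] at h0
      rw [h0]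
      exact hem.apply_eq_self hmm (by
        show famAct 1 pr₀ k e₀ r ∈ h1Part (1 : (ZMod (N * Q₁))ˣ →* kˣ) pr (RingHom.id k) θm k
        rw [← hpart]; exact he₀.mem_part hm₀ r)
    rw [hproj, degOne_eq_resSys, ← resSys_trans (dvd_mul_right N Q₁) (dvd_mul_right (N * Q₁) v),
      ← hr]
    -- what the projection without `v` kills dies at the top
    obtain ⟨s, hs, hs0⟩ := (he₀.apply_eq_zero_iff hm₀).mp (act_sub_proj he₀ r)
    have h0 : famAct 1 pr k e' ((resSys k (dvd_mul_right (N * Q₁) v)).map k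
        (r - famAct 1 pr₀ k e₀ r)) = 0 :=
      (he'.apply_eq_zero_iff hm').mpr ⟨MvPolynomial.rename Subtype.val s, fun h1 => hs (by
        rw [mem_eigIdeal, MvPolynomial.coe_eval₂Hom, MvPolynomial.eval₂_rename] at h1
        rw [mem_eigIdeal, MvPolynomial.coe_eval₂Hom,
          show θ₀ = θ' ∘ Subtype.val from funext fun j => by
            show θm j.1 = θ' j.1
            rw [hθ'eq]
            exact (Function.update_of_ne (show j.1 ≠ i₀ from j.2) _ _).symm]
        exact h1), by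
      have hc := resSys_famAct (R := k) (A := k) (pr := pr₀) (dvd_mul_right (N * Q₁) v)
        (fun j hj => by
          rcases (pr₀ j).2.dvd_mul.mp hj with h1 | h1
          · exact h1
          · exact absurd ((Nat.prime_dvd_prime_iff_eq (pr₀ j).2 hv).mp h1) (hne₀ j.1 j.2))
        s (r - famAct 1 pr₀ k e₀ r)
      rw [hs0, map_zero] at hc
      exact (LinearMap.congr_fun (famAct_comp_rename Subtype.val s) _).symm.trans hc.symm⟩
    rw [map_sub, map_sub, sub_eq_zero] at h0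
    exact h0.symm

/-- **Stabilisation of frames.** The vectors `stabMap v` form a frame at level `N Q`, and the
matrices away from `Q` are unchanged. -/
theorem exists_stab_frame (hp2 : p ≠ 2) {Q : ℕ} [NeZero N] [NeZero (N * Q)]
    (hσ : Function.Surjective σ) (f : ℤ_[p] →+* R) (hdat : StabData p N Q pr S₀ θ θ')
    (hpar : ParHyp (N * Q) pr θ) (hd : d ≠ 0)
    (F : Frame (1 : (ZMod N)ˣ →* Rˣ) pr σ θ d) :
    ∃ F' : Frame (1 : (ZMod (N * Q))ˣ →* Rˣ) pr σ θ' d,
      (∀ i, F'.vec i = stabMap pr σ θ' (dvd_mul_right N Q) (F.vec i)) ∧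
      ∀ s : MvPolynomial {i : ι // ¬ (pr i : ℕ) ∣ Q} R,
        F'.mat (MvPolynomial.rename Subtype.val s) = F.mat (MvPolynomial.rename Subtype.val s) := by
  have h2 := two_ne_zero_of_cast hp2 hdat.cast_prime
  have hfam : FamHyp N pr σ θ :=
    { surjective := hσ
      two := h2
      not_eis := (hpar.of_dvd (dvd_mul_right N Q)).not_eis
      order_three := hdat.order_three }
  obtain ⟨l, hl, hlne⟩ := hpar
  have hlQ : ¬ (pr l : ℕ) ∣ Q := fun h => by
    have h1 := (h.trans (dvd_mul_left Q N)).trans hl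
    have h2 := (pr l).2.two_le
    exact absurd (Nat.le_of_dvd (by omega) h1) (by omega)
  have hfam' : FamHyp (N * Q) pr σ θ' :=
    { surjective := hσ
      two := h2
      not_eis := ParHyp.not_eis ⟨l, hl, by rw [hdat.away l hlQ]; exact hlne⟩
      order_three := by
        by_cases h3 : (3 : k) = 0
        · obtain ⟨j, hj, hj0⟩ := hdat.order_three.resolve_left (fun h => h h3)
          refine Or.inr ⟨j, hj, ?_⟩
          rwa [hdat.away j fun h => mod_three_ne_two h3 (hdat.at_prime _ (pr j).2 h).1 hj]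
        · exact Or.inl h3 }
  obtain ⟨Fk, hFk⟩ := exists_frame_reduce hfam charHyp_one F
  obtain ⟨Fk', hFk'⟩ := exists_stab_frame_residual (σ := σ) θ hp2 hσ f Fk hd Q (N * Q) rfl
    (dvd_mul_right N Q) θ' hdat ⟨l, hl, hlne⟩
  have : (eigIdeal σ θ').IsMaximal := isMaximal_eigIdeal hσ θ'
  obtain ⟨e, he⟩ := exists_isProj (famAct (1 : (ZMod (N * Q))ˣ →* Rˣ) pr R) (eigIdeal σ θ')
  have hm := (isMaximal_eigIdeal hσ θ').ne_top
  have hproj : ∀ x, stabMap pr σ θ' (dvd_mul_right N Q) x =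
      famAct (1 : (ZMod (N * Q))ˣ →* Rˣ) pr R e
        ((resSys R (dvd_mul_right N Q)).map R x) := fun x => by
    rw [stabMap, LinearMap.comp_apply, partProj_eq hm he]
  obtain ⟨F', hF'v, -⟩ := exists_frame_of_lift hfam' charHyp_one Fk'
    (fun i => stabMap pr σ θ' (dvd_mul_right N Q) (F.vec i))
    (fun i => by rw [hproj]; exact he.mem_part hm _) fun i => by
      rw [hFk', ← hFk i]
      exact coefMap_stabMap hσ Function.surjective_id (RingHom.id_comp σ)
        (fun M u => one_compat σ M u) _ _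
  refine ⟨F', fun i => by rw [hF'v], fun s => F'.mat_unique fun c => ?_⟩
  have hvec : ∀ c, F'.combo c = stabMap pr σ θ' (dvd_mul_right N Q) (F.combo c) := fun c => by
    rw [Frame.combo, Frame.combo, Fintype.linearCombination_apply, Fintype.linearCombination_apply,
      map_sum, hF'v]
    exact Finset.sum_congr rfl fun i _ => (map_smul _ _ _).symm
  rw [F'.combo_mat, hvec, hvec, F.combo_mat, hproj, hproj, act_comm_apply]
  congr 1
  rw [← famAct_comp_rename, ← famAct_comp_rename]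
  refine (resSys_famAct (pr := fun i : {i : ι // ¬ (pr i : ℕ) ∣ Q} => pr i.1) _ (fun j hj => ?_)
    s _).symm
  exact ((pr j.1).2.dvd_mul.mp hj).resolve_right j.2

end FLTAgent.Lower.Levels
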