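import Fermat.Agent.Lower.Levels.MinimalLevel
import Fermat.Agent.Lower.Levels.OrdLevel
import Fermat.Agent.Lower.Lift.HopP.NewOrd
import Fermat.Agent.Lower.Lift.Descend
import Fermat.Agent.TW.Transport

/-!
# Strict ordinarity of the levels

When no level prime to `p` carries the residual system, the lattice of a twisted frame at a level
divisible by `p` is strictly ordinary (`ord_twisted`, from the vanishing of both corestrictions at
`p`), hence so is the pair lattice of an auxiliary level (`level_ord`, as its projections to the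
two components are jointly injective).
-/

set_option autoImplicit false
set_option linter.unusedSectionVars false
set_option linter.style.haveILetI false

noncomputable section

open CongruenceSubgroup
open scoped MatrixGroups Matrix

namespace FLTAgent.Lower.Levels

open IsLocalRing (maximalIdeal ResidueField residue)
open FLTAgent.Lower.Lift (levelPrimes NoSystemPrimeTo isStrictOrdinaryAt_of_corU
  isStrictOrdinaryAt_of_jointly_injective)
open FLTAgent.Lower.Lift.HopTW (IsRaise)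

local notation "ℚ̄" => AlgebraicClosure ℚ
local notation "Γℚ" => (AlgebraicClosure ℚ ≃ₐ[ℚ] AlgebraicClosure ℚ)

variable {p : ℕ} [Fact p.Prime] {O : Type} [CommRing O] [IsDomain O] [IsDiscreteValuationRing O]
  [IsAdicComplete (maximalIdeal O) O] [Finite (ResidueField O)] [CharZero O]
  {M : ℕ} [NeZero M] {ρbar : ResidualGaloisRep (ResidueField O)} {d : ℕ} [NeZero d]

/-- The lattice of a twisted frame at a level divisible by `p` is strictly ordinary. -/
theorem ord_twisted (hp : (p : O) ∈ maximalIdeal O) (h : ResHyp p (levelPrimes p M) ρbar)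
    (hno : NoSystemPrimeTo p ρbar) (hM : Squarefree M) (hpM : p ∣ M) {n r : ℕ} {Qv : Fin r → ℕ}
    (hQ : AuxHyp p n (levelPrimes p M) ρbar Qv) [NeZero (∏ i, Qv i)]
    {θ' : AwayPrimes (levelPrimes p M) → ResidueField O} (hθ : StabEig ρbar (∏ i, Qv i) θ')
    {R : Type} [CommRing R] [IsLocalRing R] [IsNoetherianRing R]
    [IsAdicComplete (maximalIdeal R) R] [Algebra O R] [Module.Finite O R] [Module.Free O R]
    {σ : R →+* ResidueField O} (hσ : Function.Surjective σ) {Qt : ℕ} [NeZero Qt]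
    (hQt : Qt ∣ M / p * ∏ i, Qv i) {hdiv : Qt ∣ M * ∏ i, Qv i}
    [NeZero (M * (∏ i, Qv i) * Qt)]
    {η : (ZMod Qt)ˣ →* Rˣ} (hη : ∀ a, σ (η a : R) = 1)
    (F : Frame (twistChar hdiv η) (awPr (levelPrimes p M)) σ θ' d) {S' : Finset ℕ}
    (X : HeckeLattice p (M * (∏ i, Qv i) * Qt) S' ρbar R d)
    (hX : ∀ x, (X.emb x : Additive (Gamma0 (M * (∏ i, Qv i) * Qt)) →+ R) =
      h1Triv (M * (∏ i, Qv i) * Qt) R R (twistMap hdiv η (F.combo x)))
    {f : ℤ_[p] →+* O} {ρ : GaloisRepAdic X.T} (hρ : X.IsRep f ρ) : ρ.IsStrictOrdinaryAt p := by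
  have hpp : p.Prime := Fact.out
  have hpN : ¬ p ∣ M / p := fun h' => hpp.not_isUnit (hM p (Nat.mul_dvd_of_dvd_div hpM h'))
  have hr : IsRaise (M / p * ∏ i, Qv i) (M * ∏ i, Qv i) p := by
    refine ⟨hpp, fun h' => ?_, by rw [mul_right_comm, Nat.div_mul_cancel hpM]⟩
    refine (hpp.dvd_mul.mp h').elim hpN fun hd => ?_
    obtain ⟨i, hi⟩ := hQ.exists_eq hpp hd
    exact hQ.ne_p h.mem i hi
  haveI : NeZero (M / p) := ⟨fun h0 => hpN (h0 ▸ dvd_zero p)⟩
  haveI : NeZero (M / p * ∏ i, Qv i) := ⟨mul_ne_zero (NeZero.ne _) (NeZero.ne _)⟩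
  haveI : NeZero (M * ∏ i, Qv i) := ⟨mul_ne_zero (NeZero.ne M) (NeZero.ne _)⟩
  haveI : NeZero (M / p * (∏ i, Qv i) * Qt) := ⟨mul_ne_zero (NeZero.ne _) (NeZero.ne _)⟩
  refine isStrictOrdinaryAt_of_corU h.ne_two hp h.absIrr h.det (hr.mul_aux hQt) X hρ fun x => ?_
  exact ⟨_, (hX x).symm, corU_twistMap_eq_zero_of_noSystem (N := M / p) h hno hQ hθ
    (hM.squarefree_of_dvd (Nat.div_dvd_of_dvd hpM)) hpN
    (fun l hl hd => mem_levelPrimes_of_dvd l hl (hd.trans (Nat.div_dvd_of_dvd hpM))) rfl hr hσ hQt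
    hη (F.combo x) (F.combo_mem x)⟩

variable {n r : ℕ} {Qv : Fin r → ℕ} [NeZero (∏ i, Qv i)] {q : ℕ} [NeZero q]
  {h : ResHyp p (levelPrimes p M) ρbar}
  {F₀ : Frame (1 : (ZMod M)ˣ →* Oˣ) (awPr (levelPrimes p M)) (residue O)
    (fun l => frobTrace ρbar l.1) d}
  {θ' : AwayPrimes (levelPrimes p M) → ResidueField O}
  {η : (ZMod (∏ i, Qv i))ˣ →* (DeltaRing O p n r)ˣ} {χ : (ZMod q)ˣ →* Oˣ}
  {Smin Saux : Finset ℕ} (hyp : LevelHyp p M Smin Saux ρbar n Qv θ' η χ)
  (D : AuxFrames F₀ θ' η) (C : QFrame D χ hyp.char.hdiv) [IsLocalRing (DeltaRing O p n r)]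
  {f : ℤ_[p] →+* O}

/-- The level is strictly ordinary. -/
theorem level_ord (hno : NoSystemPrimeTo p ρbar) (hpM : p ∣ M)
    {ρ : GaloisRepAdic (levelP (h := h) hyp D C).T}
    (hρ : (levelP (h := h) hyp D C).IsRep f ρ)
    {ρY : GaloisRepAdic (levelY (h := h) hyp D).T}
    (hY : (levelY (h := h) hyp D).IsRep f ρY)
    {ρc : GaloisRepAdic (levelYc (h := h) hyp D C).T}
    (hc : (levelYc (h := h) hyp D C).IsRep f ρc) : (Lift.ordType p).cond ρ := by
  haveI := isAdicComplete_deltaRing (O := O) p n r hyp.p_mem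
  haveI : IsNoetherianRing (DeltaRing O p n r) := IsNoetherianRing.of_finite O _
  have hσ := deltaRes_surjective (O := O) p n r
  have hqd : q ∣ M / p := by
    have hqp : q ≠ p := (hyp.prop (Finset.mem_union_right Smin hyp.mem)).2.1
    have h1 : q ∣ M / p * p := by rw [Nat.div_mul_cancel hpM]; exact hyp.char.dvd
    exact (hyp.char.prime.dvd_mul.mp h1).resolve_right fun hd =>
      hqp ((Nat.prime_dvd_prime_iff_eq hyp.char.prime Fact.out).mp hd)
  have h₁ := ord_twisted (f := f) hyp.p_mem h hno hyp.squarefree hpM hyp.aux hyp.stab hσ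
    (dvd_mul_left (∏ i, Qv i) (M / p)) hyp.eta.residual D.F (levelY (h := h) hyp D)
    (D.coe_lattice_emb hyp.p_mem h mem_levelPrimes_of_dvd hyp.aux hyp.stab hyp.eta) hY
  have h₂ := ord_twisted (f := f) hyp.p_mem h hno hyp.squarefree hpM hyp.aux hyp.stab hσ
    (Nat.mul_dvd_mul_right hqd _) (hyp.char.residual hyp.eta) C.F (levelYc (h := h) hyp D C)
    (C.coe_lattice_emb hyp.p_mem h mem_levelPrimes_of_dvd hyp.aux hyp.stab hyp.eta hyp.char) hc
  obtain ⟨e₁⟩ := HeckeLattice.isEquiv_map (X := levelP (h := h) hyp D C)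
    (X' := levelY (h := h) hyp D) le_rfl (HeckeLattice.pair_ker_fst _ _ _ _ _) h.absIrr hρ hY
  obtain ⟨e₂⟩ := HeckeLattice.isEquiv_map (X := levelP (h := h) hyp D C)
    (X' := levelYc (h := h) hyp D C) le_rfl (HeckeLattice.pair_ker_snd _ _ _ _ _) h.absIrr hρ hc
  exact isStrictOrdinaryAt_of_jointly_injective h.ne_two hyp.p_mem (levelFst hyp D C)
    (levelSnd hyp D C) (HeckeLattice.isLocalHom_map _ _) (HeckeLattice.isLocalHom_map _ _)
    (level_joint hyp D C) ρ (detIsCyclotomic_of_attached hρ.attached)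
    (TW.isStrictOrdinaryAt_of_isEquiv ⟨e₁.symm⟩ h₁)
    (TW.isStrictOrdinaryAt_of_isEquiv ⟨e₂.symm⟩ h₂)

end FLTAgent.Lower.Levels
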