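import Fermat.Prelude.Def_GaloisRep_Residual
import Fermat.Prelude.Def_GaloisRep_LocalConditions
import Fermat.Prelude.Def_FLTPrelim_Ramification
import Fermat.Agent.Reps.Unramified
import Fermat.Agent.GalCommon.Burnside
import Fermat.Agent.GalCommon.Frobenius

/-!
# Primes detecting that a residual representation is not Eisenstein

`exists_prime_trace_ne_two`: an absolutely irreducible representation with cyclotomic determinant
has, for every `m`, a prime `l ≡ 1 (mod m)` outside `S` with Frobenius trace `≠ 2` (otherwise the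
kernel of the cyclotomic character acts by commuting unipotents, whose common kernel is an invariant
line). `exists_prime_two_mod_three_trace_ne_zero`: at `p = 3`, if no subgroup of index two has an
invariant line, some prime `l ≡ 2 (mod 3)` has Frobenius trace `≠ 0`.
-/

set_option autoImplicit false

noncomputable section

namespace FLTAgent.Lower.Levels

local notation "ℚ̄" => AlgebraicClosure ℚ
local notation "Γℚ" => (AlgebraicClosure ℚ ≃ₐ[ℚ] AlgebraicClosure ℚ)

theorem units_three_cases : ∀ u v : (ZMod (3 ^ 1))ˣ, v ≠ 1 → u = 1 ∨ u = v := by decide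

theorem card_units_three : Fintype.card (ZMod (3 ^ 1))ˣ = 2 := by decide

section Two

variable {F : Type} [Field F] {V : Type} [AddCommGroup V] [Module F V]

/-- Cayley–Hamilton in dimension two. -/
theorem mul_self_of_finrank_two (h : Module.finrank F V = 2) (f : Module.End F V) :
    f * f = LinearMap.trace F V f • f - LinearMap.det f • (1 : Module.End F V) := by
  have := Module.finite_of_finrank_eq_succ h
  have h2 := LinearMap.aeval_self_charpoly f
  rw [Reps.charpoly_of_finrank_eq_two h] at h2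
  simp only [Polynomial.aeval_sub, Polynomial.aeval_add, Polynomial.aeval_mul,
    Polynomial.aeval_C, Polynomial.aeval_X,
    Algebra.algebraMap_eq_smul_one, sq, smul_mul_assoc, one_mul] at h2
  exact eq_sub_of_add_eq (sub_eq_zero.mp (by rw [← h2]; abel))

/-- Pairwise trace-orthogonal nilpotents of square zero have a common kernel. -/
theorem exists_common_kernel (h : Module.finrank F V = 2) (h2 : (2 : F) ≠ 0) {ι : Type}
    (n : ι → Module.End F V) (hn : ∀ i, n i * n i = 0)
    (ht : ∀ i j, LinearMap.trace F V (n i * n j) = 0) :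
    ∃ v, v ≠ 0 ∧ ∀ i, n i v = 0 := by
  have := Module.finite_of_finrank_eq_succ h
  have : Nontrivial V := Module.nontrivial_of_finrank_eq_succ h
  by_cases hall : ∀ i, n i = 0
  · obtain ⟨v, hv⟩ := exists_ne (0 : V)
    exact ⟨v, hv, fun i => by rw [hall i, LinearMap.zero_apply]⟩
  obtain ⟨i₀, hi₀⟩ := not_forall.mp hall
  have htr : ∀ i, LinearMap.trace F V (n i) = 0 := fun i =>
    (LinearMap.isNilpotent_trace_of_isNilpotent
      ⟨2, by rw [sq]; exact hn i⟩).eq_zero
  obtain ⟨w, hw⟩ : ∃ w, n i₀ w ≠ 0 := by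
    by_contra hc
    push Not at hc
    exact hi₀ (LinearMap.ext hc)
  refine ⟨n i₀ w, hw, fun i => ?_⟩
  -- the range of `n i₀` is the line of `n i₀ w`
  have hrk : ∀ y, ∃ c : F, c • n i₀ w = n i₀ y := by
    have hle : LinearMap.range (n i₀) ≤ LinearMap.ker (n i₀) := by
      rintro _ ⟨y, rfl⟩
      rw [LinearMap.mem_ker, ← Module.End.mul_apply, hn, LinearMap.zero_apply]
    have h3 := LinearMap.finrank_range_add_finrank_ker (n i₀)
    have h4 := Submodule.finrank_mono hle
    have h5 : 0 < Module.finrank F (LinearMap.range (n i₀)) :=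
      Module.finrank_pos_iff_exists_ne_zero.mpr
        ⟨⟨_, LinearMap.mem_range_self _ w⟩, fun hc => hw (congrArg Subtype.val hc)⟩
    have h6 : Module.finrank F (LinearMap.range (n i₀)) = 1 := by omega
    intro y
    obtain ⟨c, hc⟩ := (finrank_eq_one_iff_of_nonzero'
      (⟨_, LinearMap.mem_range_self _ w⟩ : LinearMap.range (n i₀))
      (fun hc => hw (congrArg Subtype.val hc))).mp h6 ⟨_, LinearMap.mem_range_self _ y⟩
    exact ⟨c, congrArg Subtype.val hc⟩
  have hsum : LinearMap.trace F V (n i + n i₀) = 0 := by rw [map_add, htr, htr, add_zero]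
  have h7 := mul_self_of_finrank_two h (n i + n i₀)
  rw [hsum, zero_smul, zero_sub, add_mul, mul_add, mul_add, hn, hn, zero_add, add_zero] at h7
  have hdet : LinearMap.det (n i + n i₀) = 0 := by
    have h8 := congrArg (LinearMap.trace F V) h7
    rw [map_add, ht, ht, add_zero, map_neg, map_smul, LinearMap.trace_one, h] at h8
    have h9 : LinearMap.det (n i + n i₀) * 2 = 0 := by simpa using h8.symm
    exact (mul_eq_zero.mp h9).resolve_right h2
  rw [hdet, zero_smul, neg_zero] at h7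
  have h10 : n i (n i₀ w) = n i₀ (-(n i w)) := by
    have := LinearMap.congr_fun h7 w
    simp only [LinearMap.add_apply, Module.End.mul_apply, LinearMap.zero_apply] at this
    rw [map_neg, eq_neg_iff_add_eq_zero, this]
  obtain ⟨c, hc⟩ := hrk (-(n i w))
  rw [← hc] at h10
  have h11 : n i (n i (n i₀ w)) = 0 := by rw [← Module.End.mul_apply, hn, LinearMap.zero_apply]
  rw [h10, map_smul, h10, smul_smul] at h11
  rw [h10]
  rcases smul_eq_zero.mp h11 with h12 | h12
  · rw [mul_self_eq_zero.mp h12, zero_smul]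
  · rw [h12, smul_zero]

end Two

variable {k : Type} [Field k] [Finite k] {p : ℕ} [Fact p.Prime] {ρbar : ResidualGaloisRep k}

omit [Finite k] in
theorem trace_eq_of_frobenius {l : ℕ} (hl : l.Prime) (hur : ρbar.IsUnramifiedAt l)
    {A A' : ValuationSubring ℚ̄} {φ φ' : Γℚ} (hA : A.LiesOverPrime l) (hA' : A'.LiesOverPrime l)
    (h : A.IsFrobeniusAt φ l) (h' : A'.IsFrobeniusAt φ' l) :
    LinearMap.trace k ρbar.V (ρbar.ρ φ') = LinearMap.trace k ρbar.V (ρbar.ρ φ) := by
  obtain ⟨g, hg⟩ := GalCommon.map_frobenius_isConj ρbar.ρ hl hA hA' (hur A' hA') h h'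
  rw [hg, map_mul, LinearMap.trace_mul_comm, ← map_mul, ← mul_assoc, inv_mul_cancel, one_mul]

omit [Finite k] in
theorem det_eq_natCast_of_spec (hdet : (GaloisRepAdic.ofResidualGaloisRep ρbar).DetIsCyclotomic p)
    (σ : Γℚ) (a : ℕ) (ha : ∀ μ : ℚ̄, μ ^ p = 1 → σ μ = μ ^ a) :
    LinearMap.det (ρbar.ρ σ) = (a : k) := by
  obtain ⟨hp, h⟩ := hdet
  rw [IsLocalRing.maximalIdeal_eq_bot, Ideal.mem_bot] at hp
  have h1 := h 1 σ a (by simpa using ha)
  rw [pow_one, hp, Ideal.span_singleton_eq_bot.mpr rfl, Ideal.mem_bot, sub_eq_zero] at h1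
  exact h1

/-- In every congruence class `1 (mod m)` some Frobenius trace differs from `2`. -/
theorem exists_prime_trace_ne_two (hp2 : p ≠ 2) (hchar : (p : k) = 0)
    (habs : ρbar.IsAbsolutelyIrreducible)
    (hdet : (GaloisRepAdic.ofResidualGaloisRep ρbar).DetIsCyclotomic p)
    (S : Finset ℕ) (hunr : ∀ l : ℕ, l.Prime → l ∉ S → ρbar.IsUnramifiedAt l) (m : ℕ) [NeZero m] :
    ∃ l : ℕ, l.Prime ∧ l ∉ S ∧ m ∣ l - 1 ∧
      ∀ (A : ValuationSubring ℚ̄) (φ : Γℚ), A.LiesOverPrime l → A.IsFrobeniusAt φ l →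
        LinearMap.trace k ρbar.V (ρbar.ρ φ) ≠ 2 := by
  classical
  by_contra hcon
  push Not at hcon
  have hp : p.Prime := Fact.out
  have h2 : (2 : k) ≠ 0 := fun h => hp2 <| by
    have := ringChar.charP k
    have e1 : ringChar k ∣ p := (CharP.cast_eq_zero_iff k (ringChar k) p).mp hchar
    have e2 : ringChar k ∣ 2 := (CharP.cast_eq_zero_iff k (ringChar k) 2).mp (by exact_mod_cast h)
    have e3 := (hp.eq_one_or_self_of_dvd _ e1).resolve_left CharP.ringChar_ne_one
    rw [e3] at e2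
    exact (Nat.prime_dvd_prime_iff_eq hp Nat.prime_two).mp e2
  set n := m * p with hn
  have : NeZero n := ⟨mul_ne_zero (NeZero.ne m) hp.ne_zero⟩
  have hn1 : 1 < n := lt_of_lt_of_le hp.one_lt (Nat.le_mul_of_pos_left p (NeZero.pos m))
  obtain ⟨ζ, hζ⟩ := HasEnoughRootsOfUnity.exists_primitiveRoot ℚ̄ n
  obtain ⟨L₀, hL₀, hfix⟩ := ρbar.factorsThroughFiniteLevel
  have := hL₀
  have : FiniteDimensional ℚ (IntermediateField.adjoin ℚ ({ζ} : Set ℚ̄)) :=
    IntermediateField.adjoin.finiteDimensional ((hζ.isIntegral (NeZero.pos n)).tower_top)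
  have key : ∀ g : Γℚ, g ζ = ζ → (ρbar.ρ g - 1) * (ρbar.ρ g - 1) = 0 := by
    intro g hg
    obtain ⟨l, hl, hlS, -, A, hA, τ, hτ, i, j, hi, hj⟩ :=
      Density.exists_isFrobeniusAt_pow_coset
        (L₀ ⊔ IntermediateField.adjoin ℚ {ζ}).fixingSubgroup
        (IntermediateField.fixingSubgroup_isOpen _) g (S ∪ n.primeFactors)
    rw [Finset.mem_union, not_or] at hlS
    have hln : ¬ l ∣ n := fun h => hlS.2 (Nat.mem_primeFactors.mpr ⟨hl, h, NeZero.ne n⟩)
    rw [IntermediateField.mem_fixingSubgroup_iff] at hi hj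
    have hu : ((g ^ i)⁻¹ * τ) ζ = ζ := hi ζ
      (le_sup_right (a := L₀) (IntermediateField.mem_adjoin_simple_self ℚ ζ))
    have hgi : ∀ i : ℕ, (g ^ i) ζ = ζ := fun i => by
      induction i with
      | zero => rfl
      | succ i ih => rw [pow_succ, AlgEquiv.mul_apply, hg, ih]
    have hτζ : τ ζ = ζ := by
      have e : τ = g ^ i * ((g ^ i)⁻¹ * τ) := by rw [mul_inv_cancel_left]
      rw [e, AlgEquiv.mul_apply, hu, hgi]
    have hl1 : n ∣ l - 1 := by
      have e := GalCommon.frobenius_apply_of_pow_eq_one hl hA hln hτ hζ.pow_eq_one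
      rw [hτζ] at e
      rw [← hζ.pow_eq_one_iff_dvd]
      refine mul_left_cancel₀ (hζ.ne_zero (NeZero.ne n)) ?_
      rw [mul_one, ← pow_succ', Nat.sub_add_cancel hl.one_le, ← e]
    obtain ⟨A', φ', hA', hφ', htr'⟩ := hcon l hl hlS.1 ((dvd_mul_right m p).trans hl1)
    have htr : LinearMap.trace k ρbar.V (ρbar.ρ τ) = 2 :=
      (trace_eq_of_frobenius hl (hunr l hl hlS.1) hA' hA hφ' hτ).trans htr'
    have hd : LinearMap.det (ρbar.ρ τ) = 1 := by
      rw [det_eq_natCast_of_spec hdet τ 1 fun μ hμ => ?_, Nat.cast_one]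
      obtain ⟨a, -, rfl⟩ := hζ.eq_pow_of_pow_eq_one
        (ξ := μ) (by rw [hn, mul_comm, pow_mul, hμ, one_pow])
      rw [map_pow, hτζ, pow_one]
    have hsq : (ρbar.ρ τ - 1) * (ρbar.ρ τ - 1) = 0 := by
      rw [sub_mul, mul_sub, mul_one, one_mul, mul_self_of_finrank_two ρbar.finrank_eq, htr, hd,
        one_smul, two_smul]
      abel
    have hpow : ∀ j : ℕ, ρbar.ρ τ ^ j - 1 = j • (ρbar.ρ τ - 1) := fun j => by
      induction j with
      | zero => simp
      | succ j ih =>
        have e : ρbar.ρ τ ^ (j + 1) - 1 = (ρbar.ρ τ ^ j - 1) * (ρbar.ρ τ - 1) +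
            (ρbar.ρ τ ^ j - 1) + (ρbar.ρ τ - 1) := by
          rw [pow_succ, mul_sub, sub_mul, one_mul, mul_one]; abel
        rw [e, ih, smul_mul_assoc, hsq, smul_zero, zero_add, succ_nsmul]
    have e : ρbar.ρ g = ρbar.ρ τ ^ j := by
      have h1 : ρbar.ρ ((τ ^ j)⁻¹ * g) = 1 :=
        hfix _ fun x hx => hj x (le_sup_left (b := IntermediateField.adjoin ℚ {ζ}) hx)
      have h2 : g = τ ^ j * ((τ ^ j)⁻¹ * g) := by rw [mul_inv_cancel_left]
      rw [h2, map_mul, h1, mul_one, map_pow]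
    rw [e, hpow, smul_mul_assoc, mul_smul_comm, hsq, smul_zero, smul_zero]
  -- the kernel of the cyclotomic character acts by commuting unipotents
  let H := {g : Γℚ // g ζ = ζ}
  let N : H → Module.End k ρbar.V := fun g => ρbar.ρ g.1 - 1
  have hN : ∀ g, N g * N g = 0 := fun g => key g.1 g.2
  have htrN : ∀ g : Γℚ, g ζ = ζ → LinearMap.trace k ρbar.V (ρbar.ρ g) = 2 := by
    intro g hg
    have e := (LinearMap.isNilpotent_trace_of_isNilpotent
      (f := ρbar.ρ g - 1) ⟨2, by rw [sq]; exact key g hg⟩).eq_zero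
    rw [map_sub, LinearMap.trace_one, ρbar.finrank_eq, sub_eq_zero] at e
    exact_mod_cast e
  obtain ⟨v, hv, hvN⟩ := exists_common_kernel ρbar.finrank_eq h2 N hN fun g g' => by
    show LinearMap.trace k ρbar.V ((ρbar.ρ g.1 - 1) * (ρbar.ρ g'.1 - 1)) = 0
    rw [sub_mul, mul_sub, mul_one, one_mul, ← map_mul, map_sub, map_sub, map_sub, htrN _ g.2,
      htrN _ g'.2, htrN (g.1 * g'.1) (by rw [AlgEquiv.mul_apply, g'.2, g.2]), LinearMap.trace_one,
      ρbar.finrank_eq]
    norm_num
  have hspan := GalCommon.span_range_eq_top_residual ρbar habs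
  have hexp : ∀ g : Γℚ, ∃ a : ℕ, g ζ = ζ ^ a := fun g => by
    obtain ⟨a, -, ha⟩ := hζ.eq_pow_of_pow_eq_one
      (show (g ζ) ^ n = 1 by rw [← map_pow, hζ.pow_eq_one, map_one])
    exact ⟨a, ha.symm⟩
  -- the common kernel is invariant
  have hstab : ∀ (f : Module.End k ρbar.V) (i : H), N i (f v) = 0 := by
    intro f
    have hf : f ∈ Submodule.span k (Set.range ρbar.ρ) := hspan ▸ Submodule.mem_top
    induction hf using Submodule.span_induction with
    | zero => intro i; rw [LinearMap.zero_apply, map_zero]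
    | add x y _ _ hx hy => intro i; rw [LinearMap.add_apply, map_add, hx, hy, add_zero]
    | smul c x _ hx => intro i; rw [LinearMap.smul_apply, map_smul, hx, smul_zero]
    | mem x hx =>
      obtain ⟨g, rfl⟩ := hx
      intro i
      have hc : (g⁻¹ * i.1 * g) ζ = ζ := by
        obtain ⟨a, ha⟩ := hexp g
        rw [AlgEquiv.mul_apply, AlgEquiv.mul_apply, ha, map_pow, i.2, ← ha,
          ← AlgEquiv.mul_apply, inv_mul_cancel, AlgEquiv.one_apply]
      have e := hvN ⟨g⁻¹ * i.1 * g, hc⟩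
      have e2 : N i * ρbar.ρ g = ρbar.ρ g * N ⟨g⁻¹ * i.1 * g, hc⟩ := by
        show (_ - 1) * _ = _ * (_ - 1)
        rw [sub_mul, mul_sub, one_mul, mul_one, ← map_mul, ← map_mul]
        simp only [mul_assoc, mul_inv_cancel_left]
      rw [← Module.End.mul_apply, e2, Module.End.mul_apply, e, map_zero]
  have htriv : ∀ g : Γℚ, g ζ = ζ → ρbar.ρ g = 1 := by
    intro g hg
    refine sub_eq_zero.mp (LinearMap.ext fun y => ?_)
    obtain ⟨ψ, hψ⟩ := Module.Projective.exists_dual_ne_zero k hv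
    have e := hstab (((ψ v)⁻¹ • ψ).smulRight y) ⟨g, hg⟩
    rw [LinearMap.smulRight_apply, LinearMap.smul_apply, smul_eq_mul, inv_mul_cancel₀ hψ,
      one_smul] at e
    exact e
  have hcomm : ∀ g g' : Γℚ, ρbar.ρ g * ρbar.ρ g' = ρbar.ρ g' * ρbar.ρ g := by
    intro g g'
    obtain ⟨a, ha⟩ := hexp g
    obtain ⟨b, hb⟩ := hexp g'
    have e : ((g' * g)⁻¹ * (g * g')) ζ = ζ := by
      have e1 : (g * g') ζ = (g' * g) ζ := by
        rw [AlgEquiv.mul_apply, AlgEquiv.mul_apply, hb, ha, map_pow, map_pow, ha, hb, ← pow_mul,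
          ← pow_mul, mul_comm]
      rw [AlgEquiv.mul_apply, e1, ← AlgEquiv.mul_apply, inv_mul_cancel, AlgEquiv.one_apply]
    have e2 := congrArg (fun x => ρbar.ρ (g' * g) * x) (htriv _ e)
    simp only [← map_mul, mul_inv_cancel_left, mul_one] at e2
    rw [← map_mul, e2, map_mul]
  have hall : ∀ f f' : Module.End k ρbar.V, f * f' = f' * f := by
    have h1 : ∀ (g : Γℚ) (f : Module.End k ρbar.V), ρbar.ρ g * f = f * ρbar.ρ g := by
      intro g f
      have hf : f ∈ Submodule.span k (Set.range ρbar.ρ) := hspan ▸ Submodule.mem_top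
      induction hf using Submodule.span_induction with
      | zero => rw [mul_zero, zero_mul]
      | add x y _ _ hx hy => rw [mul_add, add_mul, hx, hy]
      | smul c x _ hx => rw [mul_smul_comm, smul_mul_assoc, hx]
      | mem x hx => obtain ⟨g', rfl⟩ := hx; exact hcomm g g'
    intro f f'
    have hf : f ∈ Submodule.span k (Set.range ρbar.ρ) := hspan ▸ Submodule.mem_top
    induction hf using Submodule.span_induction with
    | zero => rw [mul_zero, zero_mul]
    | add x y _ _ hx hy => rw [mul_add, add_mul, hx, hy]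
    | smul c x _ hx => rw [mul_smul_comm, smul_mul_assoc, hx]
    | mem x hx => obtain ⟨g', rfl⟩ := hx; exact h1 g' f'
  let b := Module.finBasisOfFinrankEq k ρbar.V ρbar.finrank_eq
  have h01 := hall (Matrix.toLinAlgEquiv b (Matrix.single 0 1 1))
    (Matrix.toLinAlgEquiv b (Matrix.single 1 0 1))
  rw [← map_mul, ← map_mul] at h01
  have h00 := congrFun (congrFun ((Matrix.toLinAlgEquiv b).injective h01) 0) 0
  simp [Matrix.mul_apply, Matrix.single_apply] at h00

/-- At `p = 3`: some Frobenius at a prime `≡ 2 (mod 3)` has nonzero trace, unless induced. -/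
theorem exists_prime_two_mod_three_trace_ne_zero (hp : p = 3) (hchar : (p : k) = 0)
    (hdet : (GaloisRepAdic.ofResidualGaloisRep ρbar).DetIsCyclotomic p)
    (hbig : ∀ (K : Type) [Field K] [Algebra k K] (G : Subgroup Γℚ), G.index = 2 →
      ∀ V : Submodule K (ρbar.baseChange K).V,
        (∀ σ ∈ G, ∀ x ∈ V, (ρbar.baseChange K).ρ σ x ∈ V) → V = ⊥ ∨ V = ⊤)
    (S : Finset ℕ) (hunr : ∀ l : ℕ, l.Prime → l ∉ S → ρbar.IsUnramifiedAt l) :
    ∃ l : ℕ, l.Prime ∧ l ∉ S ∧ l % 3 = 2 ∧
      ∀ (A : ValuationSubring ℚ̄) (φ : Γℚ), A.LiesOverPrime l → A.IsFrobeniusAt φ l →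
        LinearMap.trace k ρbar.V (ρbar.ρ φ) ≠ 0 := by
  classical
  subst hp
  by_contra hcon
  push Not at hcon
  have h3 : (3 : k) = 0 := by exact_mod_cast hchar
  obtain ⟨ζ, hζ⟩ := HasEnoughRootsOfUnity.exists_primitiveRoot ℚ̄ 3
  obtain ⟨L₀, hL₀, hfix⟩ := ρbar.factorsThroughFiniteLevel
  have := hL₀
  have : FiniteDimensional ℚ (IntermediateField.adjoin ℚ ({ζ} : Set ℚ̄)) :=
    IntermediateField.adjoin.finiteDimensional ((hζ.isIntegral (by norm_num)).tower_top)
  let χ : Γℚ →* (ZMod (3 ^ 1))ˣ := (Reps.cycMod 3 1).toHomUnits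
  have hχ : ∀ (σ : Γℚ) (μ : ℚ̄), μ ^ 3 = 1 → σ μ = μ ^ (χ σ : ZMod (3 ^ 1)).val := fun σ μ hμ =>
    Reps.cycMod_spec 3 1 σ (by simpa using hμ)
  have hG : ∀ σ : Γℚ, σ ∈ χ.ker ↔ σ ζ = ζ := by
    intro σ
    rw [MonoidHom.mem_ker, hχ σ ζ hζ.pow_eq_one]
    constructor
    · intro h; rw [h]; simp [ZMod.val_one]
    · intro h
      have h4 := hζ.pow_inj (ZMod.val_lt _) (show 1 < 3 by norm_num) (h.trans (pow_one ζ).symm)
      refine Units.ext (ZMod.val_injective _ ?_)
      rw [h4]; rfl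
  have key : ∀ g : Γℚ, g ∉ χ.ker → LinearMap.trace k ρbar.V (ρbar.ρ g) = 0 := by
    intro g hg
    rw [hG] at hg
    obtain ⟨l, hl, hlS, -, A, hA, τ, hτ, i, j, -, hj⟩ :=
      Density.exists_isFrobeniusAt_pow_coset
        (L₀ ⊔ IntermediateField.adjoin ℚ {ζ}).fixingSubgroup
        (IntermediateField.fixingSubgroup_isOpen _) g (S ∪ {3})
    rw [Finset.mem_union, Finset.mem_singleton, not_or] at hlS
    have hl3' : ¬ l ∣ 3 := fun h => hlS.2 ((Nat.prime_dvd_prime_iff_eq hl Nat.prime_three).mp h)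
    rw [IntermediateField.mem_fixingSubgroup_iff] at hj
    have hu : ((τ ^ j)⁻¹ * g) ζ = ζ := hj ζ
      (le_sup_right (a := L₀) (IntermediateField.mem_adjoin_simple_self ℚ ζ))
    have hgτ : g = τ ^ j * ((τ ^ j)⁻¹ * g) := by rw [mul_inv_cancel_left]
    have hτl : ∀ μ : ℚ̄, μ ^ 3 = 1 → τ μ = μ ^ l := fun μ hμ =>
      GalCommon.frobenius_apply_of_pow_eq_one hl hA hl3' hτ hμ
    have hτj : ∀ j : ℕ, (τ ^ j) ζ = ζ ^ (l ^ j) := fun j => by
      induction j with
      | zero => simp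
      | succ j ih => rw [pow_succ, AlgEquiv.mul_apply, hτl ζ hζ.pow_eq_one, map_pow, ih,
          ← pow_mul, pow_succ]
    have hlj : l ^ j % 3 ≠ 1 := fun h => hg <| by
      rw [hgτ, AlgEquiv.mul_apply, hu, hτj, ← Nat.div_add_mod (l ^ j) 3, h, pow_add, pow_mul,
        hζ.pow_eq_one, one_pow, one_mul, pow_one]
    have hl2 : l % 3 = 2 := by
      rcases (show l % 3 = 0 ∨ l % 3 = 1 ∨ l % 3 = 2 by omega) with h | h | h
      · exact absurd ((Nat.prime_dvd_prime_iff_eq Nat.prime_three hl).mp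
          (Nat.dvd_of_mod_eq_zero h)).symm hlS.2
      · exact absurd (by simp [Nat.pow_mod, h]) hlj
      · exact h
    obtain ⟨A', φ', hA', hφ', htr'⟩ := hcon l hl hlS.1 hl2
    have htr : LinearMap.trace k ρbar.V (ρbar.ρ τ) = 0 :=
      (trace_eq_of_frobenius hl (hunr l hl hlS.1) hA' hA hφ' hτ).trans htr'
    have hlk : (l : k) = -1 := by
      rw [← Nat.div_add_mod l 3, hl2]
      push_cast
      linear_combination (((l / 3 : ℕ) : k) + 1) * h3
    have hsq : ρbar.ρ τ * ρbar.ρ τ = 1 := by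
      rw [mul_self_of_finrank_two ρbar.finrank_eq, htr, zero_smul,
        det_eq_natCast_of_spec hdet τ l hτl, hlk, zero_sub, neg_smul, neg_neg, one_smul]
    have hodd : j % 2 = 1 := by
      by_contra h
      refine hlj ?_
      rw [← Nat.div_add_mod j 2, show j % 2 = 0 by omega, Nat.add_zero, pow_mul, Nat.pow_mod,
        Nat.pow_mod l 2, hl2]
      norm_num
    have e : ρbar.ρ g = ρbar.ρ τ := by
      have h1 : ρbar.ρ ((τ ^ j)⁻¹ * g) = 1 :=
        hfix _ fun x hx => hj x (le_sup_left (b := IntermediateField.adjoin ℚ {ζ}) hx)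
      rw [hgτ, map_mul, h1, mul_one, map_pow, ← Nat.div_add_mod j 2, hodd, pow_add, pow_mul, sq,
        hsq, one_pow, one_mul, pow_one]
    rw [e, htr]
  obtain ⟨g₀, hg₀⟩ : ∃ g₀ : Γℚ, g₀ ∉ χ.ker := by
    obtain ⟨A, hA, τ, hτ⟩ := GalCommon.exists_place_frobenius Nat.prime_two
    refine ⟨τ, fun h => ?_⟩
    rw [hG, GalCommon.frobenius_apply_of_pow_eq_one Nat.prime_two hA (by decide) hτ hζ.pow_eq_one]
      at h
    have := hζ.pow_inj (show 2 < 3 by norm_num) (show 1 < 3 by norm_num) (h.trans (pow_one ζ).symm)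
    omega
  have hindex : χ.ker.index = 2 := by
    have hcard : ∀ u : (ZMod (3 ^ 1))ˣ, u = 1 ∨ u = χ g₀ := by
      exact fun u => units_three_cases u _ hg₀
    have hsurj : Function.Surjective χ := fun u => by
      rcases hcard u with rfl | rfl
      · exact ⟨1, map_one χ⟩
      · exact ⟨g₀, rfl⟩
    rw [Subgroup.index_ker, MonoidHom.range_eq_top.mpr hsurj, Nat.card_congr Subgroup.topEquiv.toEquiv,
      Nat.card_eq_fintype_card]
    convert card_units_three
  let K := AlgebraicClosure k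
  let ρK := ρbar.baseChange K
  have : Nontrivial ρK.V := Module.nontrivial_of_finrank_eq_succ ρK.finrank_eq
  let fK : χ.ker →* Module.End K ρK.V := ρK.ρ.comp χ.ker.subtype
  have hspan : Submodule.span K (Set.range fK) = ⊤ := by
    have h1 := GalCommon.subalgebra_eq_top_of_irreducible (Algebra.adjoin K (Set.range fK))
      fun W hW => hbig K χ.ker hindex W fun σ hσ x hx =>
        hW _ (Algebra.subset_adjoin ⟨⟨σ, hσ⟩, rfl⟩) x hx
    have h2 := congrArg Subalgebra.toSubmodule h1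
    rwa [Algebra.adjoin_eq_span, ← MonoidHom.coe_mrange, Submonoid.closure_eq,
      Algebra.top_toSubmodule, MonoidHom.coe_mrange] at h2
  have hzero : ρK.ρ g₀ = 0 := by
    refine GalCommon.eq_zero_of_forall_trace_mul_of_span hspan fun g => ?_
    show LinearMap.trace K _ (ρK.ρ g.1 * ρK.ρ g₀) = 0
    rw [← map_mul]
    show LinearMap.trace K _ ((ρbar.ρ (g.1 * g₀)).baseChange K) = 0
    rw [LinearMap.trace_baseChange, key _ (fun h => hg₀ ((Subgroup.mul_mem_cancel_left _ g.2).mp h)),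
      map_zero]
  have hone : (1 : Module.End K ρK.V) = 0 := by
    rw [← map_one ρK.ρ, ← mul_inv_cancel g₀, map_mul, hzero, zero_mul]
  exact one_ne_zero hone

end FLTAgent.Lower.Levels
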