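import Fermat.Agent.Lower.Levels.Family

/-!
# Cohomology with trivial character

`h1Triv`: with trivial character `H¹` is the group of homomorphisms `Γ₀(N) → A`, and the Hecke
operators become transfers (`h1Triv_heckeOp`).
-/

set_option autoImplicit false

noncomputable section

open CongruenceSubgroup
open scoped MatrixGroups

namespace FLTAgent.Lower.Levels

open FLTAgent.HeckeH (M2 matOf matOf_mul heckeIdx heckeReps)

variable {N M : ℕ} {R : Type} [CommRing R] {A : Type} [AddCommGroup A] [Module R A]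

theorem chi_one_apply (γ : Gamma0 N) : chi (1 : (ZMod N)ˣ →* Rˣ) γ = 1 := rfl

theorem range_cobd_one :
    LinearMap.range (cobd (A := A) (chi (1 : (ZMod N)ˣ →* Rˣ))) = ⊥ := by
  rw [eq_bot_iff]
  rintro _ ⟨a, rfl⟩
  exact (Submodule.mem_bot R).mpr (Subtype.ext (funext fun γ => by simp [cobd_apply]))

variable (N R A) in
/-- Crossed homomorphisms for the trivial character are homomorphisms. -/
def z1Triv : Z1 R A (chi (1 : (ZMod N)ˣ →* Rˣ)) ≃ₗ[R] (Additive (Gamma0 N) →+ A) where
  toFun c :=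
    { toFun := fun γ => (c : Gamma0 N → A) (Additive.toMul γ)
      map_zero' := Z1_one_apply c
      map_add' := fun γ δ => by simp [Z1_mul] }
  map_add' _ _ := rfl
  map_smul' _ _ := rfl
  invFun φ := ⟨fun γ => φ (Additive.ofMul γ), fun γ δ => by simp⟩
  left_inv _ := rfl
  right_inv _ := rfl

variable (N R A) in
/-- `H¹` with trivial character. -/
def h1Triv : H1 R A (chi (1 : (ZMod N)ˣ →* Rˣ)) ≃ₗ[R] (Additive (Gamma0 N) →+ A) :=
  (Submodule.quotEquivOfEqBot _ range_cobd_one).trans (z1Triv N R A)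

theorem h1Triv_mk (c : Z1 R A (chi (1 : (ZMod N)ˣ →* Rˣ))) (γ : Gamma0 N) :
    h1Triv N R A (Submodule.Quotient.mk c) (Additive.ofMul γ) = (c : Gamma0 N → A) γ := rfl

/-- With trivial character the Hecke operators are transfers. -/
theorem h1Triv_heckeOp {ℓ : ℕ} (hℓ : ℓ.Prime) (x : H1 R A (chi (1 : (ZMod N)ˣ →* Rˣ))) :
    h1Triv N R A (heckeOp hℓ 1 A x) = (heckeReps N hℓ).transfer R (h1Triv N R A x) := by
  induction x using Submodule.Quotient.induction_on with
  | _ c =>
    refine AddMonoidHom.ext fun γ => ?_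
    obtain ⟨γ, rfl⟩ := Additive.ofMul.surjective γ
    rw [heckeOp, Sys.map_mk, h1Triv_mk, HeckeH.Reps.transfer_apply, Sys.coe_op]
    refine Finset.sum_congr rfl fun i _ => ?_
    rw [h1Triv_mk, heckeSys_w, MonoidHom.one_apply, Units.val_one, one_smul,
      ((heckeSys hℓ (1 : (ZMod N)ˣ →* Rˣ)).eq_of_mul (inj_heckeSys hℓ _)
        ((heckeReps N hℓ).spec γ i)).1]

end FLTAgent.Lower.Levels
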