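import Fermat.Agent.Lower.Levels.Family
import Fermat.Agent.Lower.Levels.Triv
import Fermat.Agent.HeckeH.Action

/-!
# Characters of the Hecke algebra see all relations in cohomology

`aeval_eq_zero_of_famAct_eq_zero`: over a domain of characteristic zero a polynomial in the Hecke
operators killing the cohomology of level `N` is killed by every character of the Hecke algebra,
as the algebra acts faithfully on parabolic classes through integral matrices (`heckeMatO`).
-/

set_option autoImplicit false
set_option linter.unusedSectionVars false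

noncomputable section

open CongruenceSubgroup
open scoped MatrixGroups TensorProduct Matrix

namespace FLTAgent.Lower.Levels

variable {N : ℕ} [NeZero N] {O : Type} [CommRing O] [IsDomain O] [CharZero O] {ι : Type}
  (pr : ι → Nat.Primes) {S : Set ℕ} (hN : ∀ i, ¬ (pr i : ℕ) ∣ N) (hS : ∀ i, (pr i : ℕ) ∉ S)

/-- The Hecke algebra away from `S` as integral matrices. -/
def heckeMatAlg (N : ℕ) [NeZero N] (S : Set ℕ) :
    ↥(CuspForm.heckeAlgebra N 2 S) →ₐ[ℤ]
      Matrix (Fin (Period.rankH N)) (Fin (Period.rankH N)) ℤ :=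
  ((HeckeH.heckeMatHom N).comp
    (Subalgebra.inclusion (CuspForm.heckeAlgebra_mono (Set.empty_subset S))).toRingHom).toIntAlgHom

/-- The Hecke algebra over `O` as matrices. -/
def heckeMatO (N : ℕ) [NeZero N] (S : Set ℕ) (O : Type) [CommRing O] :
    O ⊗[ℤ] ↥(CuspForm.heckeAlgebra N 2 S) →ₐ[O]
      Matrix (Fin (Period.rankH N)) (Fin (Period.rankH N)) O :=
  Algebra.TensorProduct.lift (Algebra.ofId O _)
    ((Int.castRingHom O).toIntAlgHom.mapMatrix.comp (heckeMatAlg N S))
    fun a _ => Algebra.commutes a _

theorem heckeMatO_tmul (a : O) (t : ↥(CuspForm.heckeAlgebra N 2 S)) :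
    heckeMatO N S O (a ⊗ₜ t) = a • (heckeMatAlg N S t).map (Int.castRingHom O) := by
  exact (Algebra.TensorProduct.lift_tmul _ _ _ a t).trans (Algebra.smul_def a _).symm

theorem heckeMatO_injective : Function.Injective (heckeMatO N S O) := by
  have hinj : Function.Injective (heckeMatAlg N S) :=
    (HeckeH.heckeMatHom_injective N).comp (Subalgebra.inclusion_injective _)
  have h1 := Module.Flat.lTensor_preserves_injective_linearMap (M := O)
    (heckeMatAlg N S).toLinearMap hinj
  have heq : ∀ z, heckeMatO N S O z =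
      (matrixEquivTensor (Fin (Period.rankH N)) ℤ O).symm
        (LinearMap.lTensor O (heckeMatAlg N S).toLinearMap z) := by
    intro z
    induction z using TensorProduct.induction_on with
    | zero => simp
    | tmul a t =>
      rw [heckeMatO_tmul, LinearMap.lTensor_tmul, AlgHom.toLinearMap_apply,
        matrixEquivTensor_apply_symm]
      ext i j
      simp
    | add x y hx hy => simp only [map_add, hx, hy]
  intro z w h
  rw [heq, heq] at h
  exact h1 ((matrixEquivTensor (Fin (Period.rankH N)) ℤ O).symm.injective h)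

theorem evalEquiv_heckeEnd_eq (t : CuspForm.heckeAlgebra N 2 ∅) (φ : Period.H N O O) :
    Period.evalEquiv N O O (HeckeH.heckeEnd N O O t φ) =
      (HeckeH.heckeMatHom N t).map (Int.castRingHom O) *ᵥ Period.evalEquiv N O O φ := by
  funext i
  show Period.evalEquiv N O O (HeckeH.matAct N O O (HeckeH.heckeMatHom N t) φ) i = _
  rw [HeckeH.evalEquiv_matAct]
  simp [Matrix.mulVec, dotProduct, zsmul_eq_mul]

include hN hS in
/-- **Polynomials killing the cohomology are killed by characters.** -/
theorem aeval_eq_zero_of_famAct_eq_zero {s : MvPolynomial ι O}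
    (hs : famAct (1 : (ZMod N)ˣ →* Oˣ) pr O s = 0) {A : Type} [CommRing A] [Algebra O A]
    (χ : ↥(CuspForm.heckeAlgebra N 2 S) →+* A) :
    MvPolynomial.aeval (fun i => χ (CuspForm.heckeAlgebra.T (pr i).2 (hN i) (hS i))) s = 0 := by
  let g : ι → O ⊗[ℤ] ↥(CuspForm.heckeAlgebra N 2 S) := fun i =>
    (1 : O) ⊗ₜ CuspForm.heckeAlgebra.T (pr i).2 (hN i) (hS i)
  let ofP : Period.H N O O →ₗ[O] H1 O O (chi (1 : (ZMod N)ˣ →* Oˣ)) :=
    (h1Triv N O O).symm.toLinearMap ∘ₗ (Period.H N O O).subtype
  let Ψ : MvPolynomial ι O →ₐ[O]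
      Matrix (Fin (Period.rankH N)) (Fin (Period.rankH N)) O :=
    (heckeMatO N S O).comp (MvPolynomial.aeval g)
  -- the action on parabolic classes
  have hact : ∀ (s : MvPolynomial ι O) (φ : Period.H N O O),
      famAct (1 : (ZMod N)ˣ →* Oˣ) pr O s (ofP φ) = ofP ((Period.evalEquiv N O O).symm
        (Ψ s *ᵥ Period.evalEquiv N O O φ)) := by
    intro s
    induction s using MvPolynomial.induction_on with
    | C a =>
      intro φ
      rw [MvPolynomial.algHom_C, Module.algebraMap_end_apply, MvPolynomial.algHom_C Ψ,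
        Algebra.algebraMap_eq_smul_one, Matrix.smul_mulVec, Matrix.one_mulVec, map_smul, map_smul,
        LinearEquiv.symm_apply_apply]
    | add a b ha hb =>
      intro φ
      simp only [map_add, LinearMap.add_apply, ha, hb, Matrix.add_mulVec]
    | mul_X a i ha =>
      intro φ
      have hX : famAct (1 : (ZMod N)ˣ →* Oˣ) pr O (MvPolynomial.X i) (ofP φ) =
          ofP (HeckeH.heckeH N (pr i).2 O O φ) := by
        rw [famAct_X]
        refine (h1Triv N O O).injective ?_
        simp only [ofP, LinearMap.comp_apply, LinearEquiv.coe_coe, LinearEquiv.apply_symm_apply,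
          Submodule.coe_subtype, h1Triv_heckeOp, HeckeH.coe_heckeH]
      have hm : Period.evalEquiv N O O (HeckeH.heckeH N (pr i).2 O O φ) =
          Ψ (MvPolynomial.X i) *ᵥ
            Period.evalEquiv N O O φ := by
        rw [← HeckeH.heckeEnd_T N (pr i).2 (hN i) (Set.notMem_empty _) O O, evalEquiv_heckeEnd_eq,
          show Ψ (MvPolynomial.X i) = heckeMatO N S O (g i) from
            congrArg (heckeMatO N S O) (MvPolynomial.aeval_X g i), heckeMatO_tmul, one_smul]
        exact congrArg (fun t => (HeckeH.heckeMatHom N t).map (Int.castRingHom O) *ᵥ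
          Period.evalEquiv N O O φ) (Subtype.ext rfl :
            (CuspForm.heckeAlgebra.T (pr i).2 (hN i) (Set.notMem_empty _) :
                CuspForm.heckeAlgebra N 2 ∅) =
              Subalgebra.inclusion (CuspForm.heckeAlgebra_mono (Set.empty_subset S))
                (CuspForm.heckeAlgebra.T (pr i).2 (hN i) (hS i)))
      refine ((LinearMap.congr_fun (map_mul _ a (MvPolynomial.X i)) (ofP φ)).trans ?_)
      rw [Module.End.mul_apply, hX, ha, hm]
      refine congrArg (fun v => ofP ((Period.evalEquiv N O O).symm v)) ?_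
      exact (Matrix.mulVec_mulVec _ _ _).trans (congrArg (· *ᵥ Period.evalEquiv N O O φ)
        (map_mul Ψ a (MvPolynomial.X i)).symm)
  have hz : MvPolynomial.aeval g s = 0 := by
    refine heckeMatO_injective ?_
    rw [map_zero]
    refine Matrix.ext_iff_mulVec.mpr fun v => ?_
    obtain ⟨φ, rfl⟩ := (Period.evalEquiv N O O).surjective v
    have h := hact s φ
    rw [hs, LinearMap.zero_apply, eq_comm] at h
    have hofP : Function.Injective ofP :=
      (h1Triv N O O).symm.injective.comp Subtype.val_injective
    have h' := hofP (h.trans (map_zero ofP).symm)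
    rw [LinearEquiv.map_eq_zero_iff] at h'
    exact h'.trans (Matrix.zero_mulVec _).symm
  let Θ : O ⊗[ℤ] ↥(CuspForm.heckeAlgebra N 2 S) →ₐ[O] A :=
    Algebra.TensorProduct.lift (Algebra.ofId O A) χ.toIntAlgHom fun a b => Commute.all _ _
  have h : Θ (MvPolynomial.aeval g s) = 0 := by rw [hz, map_zero]
  rw [← h, ← AlgHom.comp_apply, MvPolynomial.comp_aeval]
  congr 2
  funext i
  simp [g, Θ]

end FLTAgent.Lower.Levels
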