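import Fermat.Agent.Lower.Lift.Defs
import Fermat.Agent.Lower.Levels.Embed
import Fermat.Agent.Lower.Levels.AuxPrimes
import Fermat.Agent.Lower.Levels.HeckeFaithful
import Fermat.Agent.Lower.Levels.TraceRep
import Fermat.Agent.GalCommon.Carayol

/-!
# The residual hypotheses and a frame at the base level

`ResHyp` packages the hypotheses on the residual representation used by frames
(`ResHyp.exists_good`, `ResHyp.order_three`, `ResHyp.famHyp`, `ResHyp.parHyp`), with `frobTrace` the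
residual eigenvalues indexed by `AwayPrimes`. `exists_base_frame`: if `ρbar` has a system at level
`N`, the part of `H¹(Γ₀(N), O)` at its eigenvalues has a frame of positive rank.
-/

set_option autoImplicit false
set_option linter.style.haveILetI false
set_option linter.unusedSectionVars false

noncomputable section

open CongruenceSubgroup
open scoped MatrixGroups Matrix

namespace FLTAgent.Lower.Levels

open IsLocalRing (maximalIdeal ResidueField residue)
open FLTAgent.Lower.Lift (HasSystem levelPrimes)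

local notation "ℚ̄" => AlgebraicClosure ℚ
local notation "Γℚ" => (AlgebraicClosure ℚ ≃ₐ[ℚ] AlgebraicClosure ℚ)

/-- The primes outside a finite set. -/
abbrev AwayPrimes (S : Finset ℕ) : Type := {l : Nat.Primes // (l : ℕ) ∉ S}

/-- The family of primes outside `S`. -/
abbrev awPr (S : Finset ℕ) : AwayPrimes S → Nat.Primes := Subtype.val

section Residual

variable {k : Type} [Field k] {p : ℕ} [Fact p.Prime]

/-- The trace of a chosen Frobenius at a prime. -/
def frobTrace (ρbar : ResidualGaloisRep k) (l : Nat.Primes) : k :=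
  LinearMap.trace k ρbar.V
    (ρbar.ρ (GalCommon.exists_place_frobenius (ℓ := (l : ℕ)) l.2).choose_spec.2.choose)

theorem frobTrace_eq (ρbar : ResidualGaloisRep k) {l : ℕ} (hl : l.Prime)
    (hur : ρbar.IsUnramifiedAt l) {A : ValuationSubring ℚ̄} (hA : A.LiesOverPrime l) {φ : Γℚ}
    (hφ : A.IsFrobeniusAt φ l) :
    frobTrace ρbar ⟨l, hl⟩ = LinearMap.trace k ρbar.V (ρbar.ρ φ) := by
  have h := (GalCommon.exists_place_frobenius (ℓ := l) hl).choose_spec
  exact trace_eq_of_frobenius hl hur hA h.1 hφ h.2.choose_spec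

/-- The residual hypotheses at a finite set `S` of primes outside which there is no ramification. -/
structure ResHyp (p : ℕ) (S : Finset ℕ) (ρbar : ResidualGaloisRep k) : Prop where
  ne_two : p ≠ 2
  mem : p ∈ S
  char : (p : k) = 0
  absIrr : ρbar.IsAbsolutelyIrreducible
  det : (GaloisRepAdic.ofResidualGaloisRep ρbar).DetIsCyclotomic p
  big : ∀ (K : Type) [Field K] [Algebra k K] (G : Subgroup Γℚ), G.index = 2 →
    ∀ V : Submodule K (ρbar.baseChange K).V,
      (∀ σ ∈ G, ∀ x ∈ V, (ρbar.baseChange K).ρ σ x ∈ V) → V = ⊥ ∨ V = ⊤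
  unramified : ∀ l : ℕ, l.Prime → l ∉ S → ρbar.IsUnramifiedAt l

variable {S : Finset ℕ} {ρbar : ResidualGaloisRep k}

theorem ResHyp.two_ne_zero (h : ResHyp p S ρbar) : (2 : k) ≠ 0 := fun h2 => by
  haveI : CharP k p := (CharP.charP_iff_prime_eq_zero Fact.out).mpr h.char
  have e := (CharP.cast_eq_zero_iff k p 2).mp (by exact_mod_cast h2)
  exact h.ne_two ((Nat.prime_dvd_prime_iff_eq Fact.out Nat.prime_two).mp e)

variable [Finite k]

/-- A prime `≡ 1` modulo `m p`, outside `S` and `S'`, with trace different from `2`. -/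
theorem ResHyp.exists_good (h : ResHyp p S ρbar) (m : ℕ) [NeZero m] :
    ∃ i : AwayPrimes S, ¬ ((i.1 : ℕ) ∣ m) ∧ m ∣ (i.1 : ℕ) - 1 ∧ ((i.1 : ℕ) : k) = 1 ∧
      (i.1 : ℕ) ≠ 2 ∧ frobTrace ρbar i.1 ≠ 2 := by
  haveI : NeZero (m * p) := ⟨mul_ne_zero (NeZero.ne m) (Fact.out : p.Prime).ne_zero⟩
  obtain ⟨l, hl, hlS, hd, htr⟩ := exists_prime_trace_ne_two h.ne_two h.char h.absIrr h.det S
    h.unramified (m * p)
  obtain ⟨A, hA, φ, hφ⟩ := GalCommon.exists_place_frobenius hl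
  have h1 : p ∣ l - 1 := (dvd_mul_left p m).trans hd
  have hmd : m ∣ l - 1 := (dvd_mul_right m p).trans hd
  have h2 := hl.two_le
  refine ⟨⟨⟨l, hl⟩, hlS⟩, fun hlm => ?_, hmd, ?_, fun h' => ?_, ?_⟩
  · have h3 : l ∣ l - 1 := hlm.trans hmd
    have h4 := Nat.le_of_dvd (by omega) h3
    omega
  · obtain ⟨c, hc⟩ := h1
    show ((l : ℕ) : k) = 1
    rw [show l = p * c + 1 by omega, Nat.cast_add, Nat.cast_mul, h.char, zero_mul, zero_add,
      Nat.cast_one]
  · change l = 2 at h'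
    rw [h'] at h1
    exact (Fact.out : p.Prime).not_dvd_one (by simpa using h1)
  · rw [frobTrace_eq ρbar hl (h.unramified l hl hlS) hA hφ]
    exact htr A φ hA hφ

theorem ResHyp.order_three (h : ResHyp p S ρbar) :
    (3 : k) ≠ 0 ∨ ∃ i : AwayPrimes S, (i.1 : ℕ) % 3 = 2 ∧ frobTrace ρbar i.1 ≠ 0 := by
  by_cases h3 : p = 3
  · refine Or.inr ?_
    obtain ⟨l, hl, hlS, hmod, htr⟩ :=
      exists_prime_two_mod_three_trace_ne_zero h3 h.char h.det h.big S h.unramified
    obtain ⟨A, hA, φ, hφ⟩ := GalCommon.exists_place_frobenius hl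
    refine ⟨⟨⟨l, hl⟩, hlS⟩, hmod, ?_⟩
    rw [frobTrace_eq ρbar hl (h.unramified l hl hlS) hA hφ]
    exact htr A φ hA hφ
  · refine Or.inl fun h0 => h3 ?_
    haveI : CharP k p := (CharP.charP_iff_prime_eq_zero Fact.out).mpr h.char
    exact (Nat.prime_dvd_prime_iff_eq Fact.out Nat.prime_three).mp
      ((CharP.cast_eq_zero_iff k p 3).mp (by exact_mod_cast h0))

/-- The family hypotheses, for eigenvalues `θ` equal to the traces away from `Q`. -/
theorem ResHyp.famHyp (h : ResHyp p S ρbar) {L : ℕ} [NeZero L] {R : Type} [CommRing R]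
    {σ : R →+* k} (hσ : Function.Surjective σ) (θ : AwayPrimes S → k) (Q : ℕ) [NeZero Q]
    (hθ : ∀ i : AwayPrimes S, ¬ (i.1 : ℕ) ∣ Q → θ i = frobTrace ρbar i.1)
    (hQ : ∀ i : AwayPrimes S, (i.1 : ℕ) ∣ Q → θ i ≠ 0) :
    FamHyp L (awPr S) σ θ := by
  refine ⟨hσ, h.two_ne_zero, ?_, ?_⟩
  · haveI : NeZero (L * Q) := ⟨mul_ne_zero (NeZero.ne L) (NeZero.ne Q)⟩
    obtain ⟨i, hi, -, h1, -, hne⟩ := h.exists_good (L * Q)
    refine ⟨i, fun hd => hi (hd.mul_right Q), ?_⟩
    rw [hθ i fun hd => hi (hd.mul_left L), h1, one_add_one_eq_two]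
    exact hne
  · refine h.order_three.imp_right fun ⟨i, hi, hne⟩ => ⟨i, hi, ?_⟩
    by_cases hd : (i.1 : ℕ) ∣ Q
    · exact hQ i hd
    · rw [hθ i hd]; exact hne

theorem ResHyp.parHyp (h : ResHyp p S ρbar) (L : ℕ) [NeZero L] (θ : AwayPrimes S → k) (Q : ℕ)
    [NeZero Q] (hθ : ∀ i : AwayPrimes S, ¬ (i.1 : ℕ) ∣ Q → θ i = frobTrace ρbar i.1) :
    ParHyp L (awPr S) θ := by
  haveI : NeZero (L * Q) := ⟨mul_ne_zero (NeZero.ne L) (NeZero.ne Q)⟩
  obtain ⟨i, hi, hd, h1, -, hne⟩ := h.exists_good (L * Q)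
  refine ⟨i, (dvd_mul_right L Q).trans hd, ?_⟩
  rw [hθ i fun hd => hi (hd.mul_left L), h1, one_add_one_eq_two]
  exact hne

end Residual

/-- Maps out of a Hecke algebra are determined by the `T_ℓ`. -/
theorem heckeHom_ext {N : ℕ} [NeZero N] {S : Finset ℕ} (hS : ∀ q : ℕ, q.Prime → q ∣ N → q ∈ S)
    {A : Type} [CommRing A] {f g : ↥(CuspForm.heckeAlgebra N 2 (↑S : Set ℕ)) →+* A}
    (h : ∀ (l : ℕ) (hl : l.Prime) (hlN : ¬ l ∣ N) (hlS : l ∉ (↑S : Set ℕ)),
      f (CuspForm.heckeAlgebra.T hl hlN hlS) = g (CuspForm.heckeAlgebra.T hl hlN hlS)) : f = g := by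
  refine RingHom.ext fun ⟨t, ht⟩ => ?_
  induction ht using Algebra.adjoin_induction with
  | mem x hx =>
    rcases hx with ⟨l, hl, hlN, hlS, rfl⟩ | ⟨q, hqN, hq, hqS, rfl⟩
    · exact h l hl hlN hlS
    · exact absurd (hS q hq hqN) hqS
  | algebraMap r =>
    rw [show (⟨_, Subalgebra.algebraMap_mem _ r⟩ : CuspForm.heckeAlgebra N 2 _) =
      ((r : ℤ) : CuspForm.heckeAlgebra N 2 (↑S : Set ℕ)) from
        Subtype.ext (by simp [eq_intCast]), map_intCast, map_intCast]
  | add x y hx hy ihx ihy =>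
    rw [show (⟨x + y, add_mem hx hy⟩ : CuspForm.heckeAlgebra N 2 (↑S : Set ℕ)) =
      ⟨x, hx⟩ + ⟨y, hy⟩ from rfl, map_add, map_add, ihx, ihy]
  | mul x y hx hy ihx ihy =>
    rw [show (⟨x * y, mul_mem hx hy⟩ : CuspForm.heckeAlgebra N 2 (↑S : Set ℕ)) =
      ⟨x, hx⟩ * ⟨y, hy⟩ from rfl, map_mul, map_mul, ihx, ihy]

section Base

variable {p : ℕ} [Fact p.Prime] {O : Type} [CommRing O] [IsDomain O] [IsDiscreteValuationRing O]
  [IsAdicComplete (maximalIdeal O) O] [Finite (ResidueField O)] [CharZero O]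

/-- A polynomial killing the part is killed by the residually congruent characters. -/
theorem aeval_eq_zero_of_mat_eq_zero {N : ℕ} [NeZero N] {ι : Type} {pr : ι → Nat.Primes}
    {S : Set ℕ} (hN : ∀ i, ¬ (pr i : ℕ) ∣ N) (hS : ∀ i, (pr i : ℕ) ∉ S)
    {θ : ι → ResidueField O} {d : ℕ} (F : Frame (1 : (ZMod N)ˣ →* Oˣ) pr (residue O) θ d)
    {s : MvPolynomial ι O} (hs : F.mat s = 0)
    (χ : ↥(CuspForm.heckeAlgebra N 2 S) →+* O)
    (hχ : ∀ i, residue O (χ (CuspForm.heckeAlgebra.T (pr i).2 (hN i) (hS i))) = θ i) :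
    MvPolynomial.aeval (fun i => χ (CuspForm.heckeAlgebra.T (pr i).2 (hN i) (hS i))) s = 0 := by
  have hmax := isMaximal_eigIdeal (σ := residue O) IsLocalRing.residue_surjective θ
  obtain ⟨e, he⟩ := exists_isProj (famAct (1 : (ZMod N)ˣ →* Oˣ) pr O) (eigIdeal (residue O) θ)
  have hkill : famAct (1 : (ZMod N)ˣ →* Oˣ) pr O (s * e) = 0 := by
    refine LinearMap.ext fun x => ?_
    obtain ⟨c, hc⟩ := F.span _ (he.mem_part hmax.ne_top x)
    rw [map_mul, Module.End.mul_apply, ← hc, LinearMap.zero_apply]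
    refine (F.combo_mat s c).symm.trans ?_
    rw [hs, Matrix.zero_mulVec, map_zero]
  have h0 := aeval_eq_zero_of_famAct_eq_zero pr hN hS hkill χ
  rw [map_mul] at h0
  refine (mul_eq_zero.mp h0).resolve_right fun hz => he.not_mem hmax.ne_top (mem_eigIdeal.mpr ?_)
  have h1 := congrArg (residue O) hz
  rw [map_zero, MvPolynomial.aeval_def, MvPolynomial.eval₂_comp_left] at h1
  simpa [Function.comp_def, hχ, MvPolynomial.coe_eval₂Hom] using h1

variable {N : ℕ} [NeZero N] {ρbar : ResidualGaloisRep (ResidueField O)}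

/-- **A nonzero frame at the minimal level.** -/
theorem exists_base_frame (h : ResHyp p (levelPrimes p N) ρbar) (hsys : HasSystem p N ρbar) :
    ∃ d, d ≠ 0 ∧ Nonempty (Frame (1 : (ZMod N)ˣ →* Oˣ) (awPr (levelPrimes p N)) (residue O)
      (fun i => frobTrace ρbar i.1) d) := by
  set S := levelPrimes p N
  obtain ⟨θ₀, hθ₀⟩ := hsys
  obtain ⟨d, ⟨Fk⟩⟩ := exists_frame_residual (L := N) (awPr S) fun i => frobTrace ρbar i.1
  obtain ⟨F, -⟩ := exists_frame_lift (σ := residue O) (ψ := (1 : (ZMod N)ˣ →* Oˣ))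
    (h.famHyp IsLocalRing.residue_surjective _ 1 (fun _ _ => rfl)
      (fun i hi => absurd (Nat.dvd_one.mp hi) i.1.2.ne_one))
    ⟨fun _ => by simp, by simp⟩ Fk
  refine ⟨d, fun hd => ?_, ⟨F⟩⟩
  subst hd
  have hN : ∀ i : AwayPrimes S, ¬ (i.1 : ℕ) ∣ N := fun i hi => i.2
    (Finset.mem_insert_of_mem (Nat.mem_primeFactors.mpr ⟨i.1.2, hi, NeZero.ne N⟩))
  have hmax := isMaximal_eigIdeal (σ := residue O) IsLocalRing.residue_surjective
    (fun i : AwayPrimes S => frobTrace ρbar i.1)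
  obtain ⟨e, he⟩ := exists_isProj (famAct (1 : (ZMod N)ˣ →* Oˣ) (awPr S) O)
    (eigIdeal (residue O) fun i : AwayPrimes S => frobTrace ρbar i.1)
  have hkill : famAct (1 : (ZMod N)ˣ →* Oˣ) (awPr S) O e = 0 := by
    refine LinearMap.ext fun x => ?_
    obtain ⟨c, hc⟩ := F.span _ (he.mem_part hmax.ne_top x)
    rw [← hc, LinearMap.zero_apply, show c = 0 from funext fun i => i.elim0, map_zero]
  have h0 := aeval_eq_zero_of_famAct_eq_zero (A := ResidueField O) (awPr S) hN (fun i => i.2)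
    hkill θ₀
  refine he.not_mem hmax.ne_top (mem_eigIdeal.mpr ?_)
  rw [MvPolynomial.aeval_def] at h0
  refine Eq.trans ?_ h0
  show MvPolynomial.eval₂ (residue O) _ e = _
  refine congrArg (MvPolynomial.eval₂ (residue O) · e) (funext fun i => ?_)
  obtain ⟨A, hA, φ, hφ⟩ := GalCommon.exists_place_frobenius i.1.2
  exact (frobTrace_eq ρbar i.1.2 (h.unramified _ i.1.2 i.2) hA hφ).trans
    (hθ₀ _ i.1.2 (hN i) i.2 A φ hA hφ).symm

end Base

end FLTAgent.Lower.Levels
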