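import Fermat.Agent.Local.Unramified

/-!
# Unramified points are not special

`trace_sq_ne_of_unramified`: if a residually absolutely irreducible representation is attached to
level `q N₀`, `q ∤ N₀`, and its specialization to a discrete valuation ring of characteristic zero
is unramified at `q ≠ p`, then the trace `a` of a Frobenius at `q` there satisfies
`a ^ 2 ≠ (q + 1) ^ 2`.
-/

set_option autoImplicit false
set_option linter.style.haveILetI false
set_option maxHeartbeats 400000

noncomputable section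

open CuspForm Matrix IsLocalRing Module
open scoped TensorProduct

namespace FLTAgent.Lower.Levels

open FLTAgent.Reps FLTAgent.Local

local notation "ℚ̄" => AlgebraicClosure ℚ
local notation "Γℚ" => (AlgebraicClosure ℚ ≃ₐ[ℚ] AlgebraicClosure ℚ)

variable {p : ℕ} [Fact p.Prime]

/-- A residually absolutely irreducible point of level `q N₀` unramified at `q` has
`a_q ^ 2 ≠ (q + 1) ^ 2`. -/
theorem trace_sq_ne_of_unramified {q N₀ : ℕ} [NeZero N₀] [NeZero (q * N₀)]
    (hq : q.Prime) (hqp : q ≠ p) (hN₀ : ¬ q ∣ N₀) {S : Finset ℕ}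
    {T : Type} [CommRing T] [IsLocalRing T] [IsNoetherianRing T]
    [IsAdicComplete (maximalIdeal T) T]
    {π : ↥(heckeAlgebra (q * N₀) 2 (↑S : Set ℕ)) →+* T} {ρ : GaloisRepAdic T}
    (h : IsAttached π ρ p) (hirr : ρ.residual.IsAbsolutelyIrreducible)
    (O' : Type) [CommRing O'] [IsDomain O'] [IsDiscreteValuationRing O']
    [IsAdicComplete (maximalIdeal O') O'] [Finite (ResidueField O')] [CharZero O']
    (φ : T →+* O') (hφ : IsLocalHom φ) (hunr : (ρ.baseChangeAlong φ hφ).IsUnramifiedAt q)
    {A : ValuationSubring ℚ̄} (hA : A.LiesOverPrime q) {F : Γℚ} (hF : A.IsFrobeniusAt F q) :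
    φ (ρ.trace F) ^ 2 ≠ ((q : O') + 1) ^ 2 := by
  haveI : NeZero q := ⟨hq.ne_zero⟩
  obtain ⟨M', hM', ⟨D⟩⟩ := Local.exists_dataOne (p := p) hq hqp N₀ hN₀
  haveI := IntStr.moduleFinite_heckeAlgebra_two (q * N₀)
  obtain ⟨O'', _, _, _, _, _, _, _, _, _, -, χ', hχ'⟩ :=
    exists_dvr_extension (inclS (N := q * N₀) (↑S : Set ℕ)) (inclS_injective _)
      (RingHom.Finite.of_comp_finite (f := algebraMap ℤ _) (g := inclS _) (by
        rw [Subsingleton.elim ((inclS (N := q * N₀) (↑S : Set ℕ)).comp _) (algebraMap ℤ (TZ (q * N₀)))]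
        exact RingHom.finite_algebraMap.mpr inferInstance)) (φ.comp π)
  let α : O' →+* O'' := algebraMap O' O''
  have hpT : (p : T) ∈ maximalIdeal T := h.p_max
  have hp' : (p : O') ∈ maximalIdeal O' := by
    rw [← map_natCast φ]; exact hφ |> fun _ => map_nonunit φ _ hpT
  have hp'' : (p : O'') ∈ maximalIdeal O'' := by
    rw [← map_natCast α]; exact map_nonunit α _ hp'
  let W : GaloisRepAdic O'' := D.g₁.rep hp'' χ'
  let π'' := χ'.comp (inclS (N := q * N₀) (↑S : Set ℕ))
  have hπ'' : ∀ t, π'' t = α (φ (π t)) := fun t => RingHom.congr_fun hχ' t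
  have hW : IsAttached π'' W p := ⟨h.p_mem, h.bad_mem, hp'', fun ℓ hℓ hℓN hℓS A hA σ hσ =>
    D.g₁.rep_charpoly hp'' χ' hℓ hℓN (fun e => hℓS (Finset.mem_coe.mpr (e ▸ h.p_mem))) hA hσ⟩
  let ιT : ℤ_[p] →+* T := padicHom (maximalIdeal T) hpT
  let ι'' : ℤ_[p] →+* O'' := α.comp (φ.comp ιT)
  have htr : ∀ g, LinearMap.trace O'' W.V (W.ρ g) = α.comp φ (LinearMap.trace T ρ.V (ρ.ρ g)) := by
    intro g
    have hmem : traceOp D.g₁.M g ∈
        Submodule.span ℤ_[p] (Set.range fun t => icast ℤ_[p] (tauS D.g₁ S t)) :=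
      traceOp_mem_span (tauS D.g₁ S) D.g₁.M D.g₁.continuous_level S h.p_mem
        (fun ℓ hℓ hℓS A hA σ hσ => by
          obtain ⟨t, ht, -⟩ := h.frob D.g₁ hℓ hℓS hA hσ
          exact ⟨t, ht⟩) g
    obtain ⟨c, hc⟩ := Finsupp.mem_span_range_iff_exists_finsupp.mp hmem
    rw [hW.trace_eq_sum D.g₁ ι'' g c.support c id (by rw [← hc]; rfl),
      h.trace_eq_sum D.g₁ ιT g c.support c id (by rw [← hc]; rfl), map_sum]
    refine Finset.sum_congr rfl fun t _ => ?_
    rw [map_mul, hπ'']
    rfl
  have hfix : ∀ i ∈ A.inertiaSubgroupIn ℚ, W.ρ i = 1 := by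
    intro i hi
    rw [← sub_eq_zero]
    refine eq_zero_of_trace_pairing (α.comp φ) ρ hirr W htr fun g => ?_
    rw [mul_sub, mul_one, map_sub, ← map_mul, htr, htr, RingHom.comp_apply, RingHom.comp_apply,
      ← trace_baseChangeAlong φ hφ ρ, ← trace_baseChangeAlong φ hφ ρ, map_mul, hunr A hA i hi,
      mul_one, sub_self]
  let K := AlgebraicClosure (FractionRing O'')
  let j : O'' →+* K := (algebraMap (FractionRing O'') K).comp (algebraMap O'' (FractionRing O''))
  have hj : Function.Injective j :=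
    (algebraMap (FractionRing O'') K).injective.comp (IsFractionRing.injective O'' (FractionRing O''))
  haveI : CharZero K := charZero_of_injective_ringHom hj
  set f : ℤ_[p] →+* K := j.comp (padicHom (maximalIdeal O'') hp'') with hfdef
  have hf : Function.Injective f := padicInt_hom_injective f
  set a := LinearMap.trace O'' W.V (W.ρ F) with ha
  have hsq : (j a) ^ 2 ≠ ((q : K) + 1) ^ 2 := by
    intro hcon
    have hcon' : a ^ 2 = ((q : O'') + 1) ^ 2 := hj (by
      rw [map_pow, map_pow, map_add, map_natCast, map_one, hcon])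
    have hdet := hW.det_frobenius hq hqp hA hF
    obtain ⟨s, hs, has⟩ : ∃ s : O'', s ^ 2 = 1 ∧ a = s * ((q : O'') + 1) := by
      rcases sq_eq_sq_iff_eq_or_eq_neg.mp hcon' with e | e
      · exact ⟨1, one_pow 2, by rw [e, one_mul]⟩
      · exact ⟨-1, by norm_num, by rw [e, neg_one_mul]⟩
    let b := Module.finBasisOfFinrankEq O'' W.V W.finrank_eq
    have hdet0 : LinearMap.det (W.ρ F - s • 1) = 0 := by
      rw [← LinearMap.det_toMatrix b, map_sub, map_smul, LinearMap.toMatrix_one, Matrix.det_fin_two]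
      have hd : LinearMap.det (W.ρ F) = (LinearMap.toMatrix b b (W.ρ F)).det :=
        (LinearMap.det_toMatrix b _).symm
      have ht : a = (LinearMap.toMatrix b b (W.ρ F)).trace :=
        LinearMap.trace_eq_matrix_trace O'' b _
      rw [hdet, Matrix.det_fin_two] at hd
      rw [Matrix.trace_fin_two, has] at ht
      simp only [Matrix.sub_apply, Matrix.smul_apply, Matrix.one_apply_eq, ne_eq, zero_ne_one,
        one_ne_zero, not_false_eq_true, Matrix.one_apply_ne, smul_eq_mul, mul_zero, sub_zero,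
        mul_one]
      linear_combination s * ht - hd + (-(q : O'')) * hs
    obtain ⟨u, hu0, hu⟩ : ∃ u : W.V, u ≠ 0 ∧ W.ρ F u = s • u := by
      rw [← LinearMap.det_toMatrix b] at hdet0
      obtain ⟨w, hw0, hw⟩ := Matrix.exists_mulVec_eq_zero_iff.mpr hdet0
      refine ⟨b.equivFun.symm w, fun e => hw0 ((LinearEquiv.map_eq_zero_iff _).mp e), ?_⟩
      rw [← sub_eq_zero]
      apply b.equivFun.injective
      have := LinearMap.toMatrix_mulVec_repr b b (W.ρ F - s • 1) (b.equivFun.symm w)
      simp only [← Module.Basis.equivFun_apply, LinearEquiv.apply_symm_apply, hw] at this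
      rw [map_zero, this]
      simp [LinearMap.sub_apply]
    let u' : Fin D.g₁.r → O'' := Subtype.val (show ↥(D.g₁.lattice χ') from u)
    let v : Fin D.g₁.r → K := j ∘ u'
    have hgal : ∀ g, galRep f D.g₁ g v = j ∘ (D.g₁.MO hp'' g *ᵥ u') := by
      intro g
      funext k
      rw [galRep_apply, linMap_apply, Function.comp_apply, RingHom.map_mulVec]
      refine congrFun (congrArg (· *ᵥ v) ?_) k
      ext x y
      simp [f, GalModel.MO]
    have hact : ∀ g, D.g₁.MO hp'' g *ᵥ u' = Subtype.val (show ↥(D.g₁.lattice χ') from W.ρ g u) :=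
      fun g => rfl
    have hFF : W.ρ F (W.ρ F u) = u := by rw [hu, map_smul, hu, smul_smul, ← sq, hs, one_smul]
    have hv0 : v = 0 := D.eq_zero_of_fixed_sq hf hq hqp hA hF
      (fun i hi => by
        rw [hgal, hact, hfix i hi]
        rfl)
      (by
        rw [hgal, hact]
        have h2 : galRep f D.g₁ F (j ∘ Subtype.val (show ↥(D.g₁.lattice χ') from W.ρ F u)) =
            j ∘ (D.g₁.MO hp'' F *ᵥ Subtype.val (show ↥(D.g₁.lattice χ') from W.ρ F u)) := by
          funext k
          rw [galRep_apply, linMap_apply, Function.comp_apply, RingHom.map_mulVec]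
          refine congrFun (congrArg (· *ᵥ _) ?_) k
          ext x y
          simp [f, GalModel.MO]
        rw [h2, show D.g₁.MO hp'' F *ᵥ Subtype.val (show ↥(D.g₁.lattice χ') from W.ρ F u) =
          Subtype.val (show ↥(D.g₁.lattice χ') from W.ρ F (W.ρ F u)) from rfl, hFF])
    apply hu0
    have hu'0 : u' = 0 := funext fun k => hj (by
      have := congrFun hv0 k
      simpa [v] using this)
    exact Subtype.ext hu'0
  intro hcon
  refine hsq ?_
  have h2 := congrArg (j.comp α) hcon
  rw [map_pow, map_pow, map_add, map_natCast, map_one] at h2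
  rw [ha, htr F]
  exact h2

end FLTAgent.Lower.Levels
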