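import Fermat.Agent.Lower.Levels.TraceRep
import Fermat.Agent.Lower.FlatType
import Fermat.Agent.Lower.Galois
import Fermat.Agent.Local.Unramified
import Fermat.Agent.GalCommon.Carayol
import Fermat.Agent.Lower.Levels.NotSpecialDvr

/-!
# Galois representations attached to Hecke rings

For a representation attached to a Hecke ring: its deformation conditions (`cond_of_attached`,
`cond_flat_of_attached`; unipotent inertia at primes dividing the level once), equivalences along
maps of Hecke rings (`isEquiv_of_attached`), systems of points (`system_of_point_of_attached`), and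
`not_special_of_attached`: a point unramified at a prime `l` exactly dividing the level has
`trace(Frob_l)² ≠ (l + 1)²`.
-/

set_option autoImplicit false
set_option linter.unusedSectionVars false
set_option linter.style.haveILetI false

noncomputable section

open CongruenceSubgroup CuspForm
open scoped MatrixGroups Matrix TensorProduct

namespace FLTAgent.Lower.Levels

open IsLocalRing (maximalIdeal ResidueField residue)

local notation "ℚ̄" => AlgebraicClosure ℚ
local notation "Γℚ" => (AlgebraicClosure ℚ ≃ₐ[ℚ] AlgebraicClosure ℚ)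

section Residual

/-- Spanning the endomorphisms survives base change. -/
theorem span_range_baseChange_eq_top {k : Type} [Field k] {k' : Type} [Field k'] [Algebra k k']
    (r : ResidualGaloisRep k) (h : Submodule.span k (Set.range r.ρ) = ⊤) :
    Submodule.span k' (Set.range (r.baseChange k').ρ) = ⊤ := by
  classical
  let b := Module.finBasis k r.V
  let b' : Module.Basis _ k' (r.baseChange k').V := b.baseChange k'
  have hall : ∀ g : Module.End k r.V,
      g.baseChange k' ∈ Submodule.span k' (Set.range (r.baseChange k').ρ) := by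
    intro g
    have hg : g ∈ Submodule.span k (Set.range r.ρ) := h ▸ Submodule.mem_top
    induction hg using Submodule.span_induction with
    | mem g hg => obtain ⟨σ, rfl⟩ := hg; exact Submodule.subset_span ⟨σ, rfl⟩
    | zero => rw [LinearMap.baseChange_zero]; exact zero_mem _
    | add g g' _ _ hg hg' => rw [LinearMap.baseChange_add]; exact add_mem hg hg'
    | smul c g _ hg =>
      rw [LinearMap.baseChange_smul, ← algebraMap_smul k' c (g.baseChange k')]
      exact Submodule.smul_mem _ _ hg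
  refine eq_top_iff.mpr fun X _ => ?_
  have hX : X = ∑ j, ∑ i, b'.repr (X (b' j)) i • ((b.coord j).smulRight (b i)).baseChange k' := by
    refine b'.ext fun l => ?_
    simp only [LinearMap.sum_apply, LinearMap.smul_apply, b', Module.Basis.baseChange_apply,
      LinearMap.baseChange_tmul, LinearMap.smulRight_apply, Module.Basis.coord_apply,
      Module.Basis.repr_self, Finsupp.single_apply]
    rw [Finset.sum_eq_single l (fun j _ hj => by simp [hj.symm])
      (fun hl => absurd (Finset.mem_univ l) hl)]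
    simp only [if_true, one_smul]
    exact ((b.baseChange k').sum_repr _).symm.trans (Finset.sum_congr rfl fun i _ => by
      rw [Module.Basis.baseChange_apply])
  rw [hX]
  exact sum_mem fun j _ => sum_mem fun i _ => Submodule.smul_mem _ _ (hall _)

/-- Absolute irreducibility survives extension of scalars. -/
theorem isAbsolutelyIrreducible_baseChangeAlong {k k' : Type} [Field k] [Field k'] (φ : k →+* k')
    {r : ResidualGaloisRep k} (h : r.IsAbsolutelyIrreducible) :
    (r.baseChangeAlong φ).IsAbsolutelyIrreducible := by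
  classical
  letI : Algebra k k' := φ.toAlgebra
  set K := AlgebraicClosure k'
  set r'' := (r.baseChange k').baseChange K
  have htop : Submodule.span K (Set.range r''.ρ) = ⊤ :=
    span_range_baseChange_eq_top _ (span_range_baseChange_eq_top r
      (GalCommon.span_range_eq_top_residual r h))
  intro W hW
  have hall : ∀ (f : Module.End K r''.V), ∀ x ∈ W, f x ∈ W := by
    intro f x hx
    have hf : f ∈ Submodule.span K (Set.range r''.ρ) := htop ▸ Submodule.mem_top
    induction hf using Submodule.span_induction with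
    | mem f hf => obtain ⟨σ, rfl⟩ := hf; exact hW σ x hx
    | zero => exact zero_mem _
    | add f f' _ _ hf hf' => exact add_mem hf hf'
    | smul c f _ hf => exact W.smul_mem c hf
  refine or_iff_not_imp_left.mpr fun hne => eq_top_iff.mpr fun v _ => ?_
  obtain ⟨w, hw, hw0⟩ := W.ne_bot_iff.mp hne
  let b := Module.finBasis K r''.V
  obtain ⟨i, hi⟩ : ∃ i, b.repr w i ≠ 0 := by
    by_contra hall0
    push Not at hall0
    exact hw0 (b.repr.map_eq_zero_iff.mp (Finsupp.ext hall0))
  have := hall ((b.coord i).smulRight ((b.repr w i)⁻¹ • v)) w hw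
  change (b.repr w i) • ((b.repr w i)⁻¹ • v) ∈ W at this
  rwa [smul_inv_smul₀ hi] at this

/-- The residual representation of an attached representation is absolutely irreducible. -/
theorem residual_absIrr {O : Type} [CommRing O] [IsLocalRing O] {T : Type} [CommRing T]
    [IsLocalRing T] [Algebra O T] [IsLocalHom (algebraMap O T)]
    {ρbar : ResidualGaloisRep (ResidueField O)} (habs : ρbar.IsAbsolutelyIrreducible)
    {ρ : GaloisRepAdic T}
    (h : ρ.residual.IsEquiv (ρbar.baseChangeAlong (ResidueField.map (algebraMap O T)))) :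
    ρ.residual.IsAbsolutelyIrreducible :=
  GalCommon.isAbsolutelyIrreducible_of_isEquiv ⟨h.some.symm⟩
    (isAbsolutelyIrreducible_baseChangeAlong _ habs)

end Residual

section Attached

variable {p : ℕ} [Fact p.Prime] {N : ℕ} [NeZero N] {S : Finset ℕ}
  {T : Type} [CommRing T] [IsLocalRing T] [IsNoetherianRing T]
  [IsAdicComplete (maximalIdeal T) T] [Finite (ResidueField T)] [CharZero T]
  {π : ↥(heckeAlgebra N 2 (↑S : Set ℕ)) →+* T} {ρ : GaloisRepAdic T}

/-- Inertia is unipotent at a prime dividing the level exactly once. -/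
theorem isUnipotentOnInertiaAt_of_attached (h : Local.IsAttached π ρ p) {q : ℕ} (hq : q.Prime)
    (hqp : q ≠ p) (hqN : q ∣ N) (hq2 : ¬ q ^ 2 ∣ N) : ρ.IsUnipotentOnInertiaAt q := by
  haveI : NeZero q := ⟨hq.ne_zero⟩
  obtain ⟨N₀, rfl⟩ := hqN
  haveI : NeZero N₀ := ⟨right_ne_zero_of_mul (NeZero.ne (q * N₀))⟩
  have hN₀ : ¬ q ∣ N₀ := fun h => hq2 (sq q ▸ Nat.mul_dvd_mul_left q h)
  obtain ⟨M, hM, ⟨D⟩⟩ := Local.exists_dataOne (p := p) hq hqp N₀ hN₀
  exact Local.IsAttached.isUnipotentOnInertiaAt h hq hqp D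

/-- **The deformation condition of an attached representation.** -/
theorem cond_of_attached (h : Local.IsAttached π ρ p) (habs : ρ.residual.IsAbsolutelyIrreducible)
    {loc : LocalType} (hloc : loc.cond ρ) {U S' : Finset ℕ}
    (hU : ∀ q ∈ U, q.Prime ∧ q ≠ p ∧ q ∣ N ∧ ¬ q ^ 2 ∣ N)
    (hS' : ∀ q : ℕ, q.Prime → q ∉ S' → q ≠ p ∧ ¬ q ∣ N) : Cond loc p U S' ρ where
  det := detIsCyclotomic_of_attached h
  local_p := hloc
  unramified q hq hqS := isUnramifiedAt_of_attached h habs hq (hS' q hq hqS).1 (hS' q hq hqS).2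
  unipotent q hq := isUnipotentOnInertiaAt_of_attached h (hU q hq).1 (hU q hq).2.1 (hU q hq).2.2.1
    (hU q hq).2.2.2

/-- The flat deformation condition of an attached representation. -/
theorem cond_flat_of_attached {O : Type} [CommRing O] [IsDomain O] [IsDiscreteValuationRing O]
    [IsAdicComplete (maximalIdeal O) O] [Algebra O T] [Module.Finite O T] [Module.Free O T]
    [IsLocalHom (algebraMap O T)] [Finite (ResidueField O)] (hp : (p : O) ∈ maximalIdeal O)
    (hp2 : p ≠ 2) (hpN : ¬ p ∣ N) (h : Local.IsAttached π ρ p)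
    (habs : ρ.residual.IsAbsolutelyIrreducible) {U S' : Finset ℕ}
    (hU : ∀ q ∈ U, q.Prime ∧ q ≠ p ∧ q ∣ N ∧ ¬ q ^ 2 ∣ N)
    (hS' : ∀ q : ℕ, q.Prime → q ∉ S' → q ≠ p ∧ ¬ q ∣ N) : Cond (flatType p) p U S' ρ :=
  cond_of_attached h habs (isFlatAt_of_attached hp h habs hp2 hpN) hU hS'

/-- Frobenius traces. -/
theorem trace_frobenius_of_attached (h : Local.IsAttached π ρ p) {l : ℕ} (hl : l.Prime)
    (hlN : ¬ l ∣ N) (hlS : l ∉ (↑S : Set ℕ)) {A : ValuationSubring ℚ̄} (hA : A.LiesOverPrime l)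
    {φ : Γℚ} (hφ : A.IsFrobeniusAt φ l) : ρ.trace φ = π (heckeAlgebra.T hl hlN hlS) :=
  (Reps.trace_det_of_charpoly_eq ρ.finrank_eq (h.charpoly_frob l hl hlN hlS A hA φ hφ)).1

/-- The Hecke system of a point. -/
theorem system_of_point_of_attached (h : Local.IsAttached π ρ p) (K : Type) [Field K]
    (f : T →+* K) :
    ∃ χ : ↥(heckeAlgebra N 2 (↑S : Set ℕ)) →+* K,
      ∀ (l : ℕ) (hl : l.Prime) (hlN : ¬ l ∣ N) (hlS : l ∉ (↑S : Set ℕ))
        (A : ValuationSubring ℚ̄) (φ : Γℚ), A.LiesOverPrime l → A.IsFrobeniusAt φ l →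
        χ (heckeAlgebra.T hl hlN hlS) = f (ρ.trace φ) :=
  ⟨f.comp π, fun l hl hlN hlS A φ hA hφ => by
    rw [trace_frobenius_of_attached h hl hlN hlS hA hφ]; rfl⟩

end Attached

section Equiv

/-- Representations with cyclotomic determinant and the same Frobenius traces outside a finite set
have the same traces. -/
theorem trace_eq_of_frobenius_attached {p : ℕ} [Fact p.Prime] {T : Type} [CommRing T] [IsLocalRing T]
    [IsNoetherianRing T] [IsAdicComplete (maximalIdeal T) T] (hp : (p : T) ∈ maximalIdeal T)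
    (ρ₁ ρ₂ : GaloisRepAdic T) (S : Finset ℕ) (hpS : p ∈ S)
    (hfrob : ∀ l : ℕ, l.Prime → l ∉ S → ∀ A : ValuationSubring ℚ̄, A.LiesOverPrime l →
      ∀ φ : Γℚ, A.IsFrobeniusAt φ l →
        LinearMap.det (ρ₁.ρ φ) = l ∧ LinearMap.det (ρ₂.ρ φ) = l ∧ ρ₁.trace φ = ρ₂.trace φ)
    (g : Γℚ) : ρ₁.trace g = ρ₂.trace g := by
  refine Local.eq_of_forall_mk fun n => ?_
  obtain ⟨L₁, hL₁, hfix₁⟩ := ρ₁.isAdicContinuous n
  obtain ⟨L₂, hL₂, hfix₂⟩ := ρ₂.isAdicContinuous n
  have hd₁ := fun h => Reps.mk_det_eq_cycMod hp ρ₁ S hpS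
    (fun l hl hlS A hA φ hφ => (hfrob l hl hlS A hA φ hφ).1) (le_refl n) h
  have hd₂ := fun h => Reps.mk_det_eq_cycMod hp ρ₂ S hpS
    (fun l hl hlS A hA φ hφ => (hfrob l hl hlS A hA φ hφ).2.1) (le_refl n) h
  refine Reps.forall_of_frobenius (P := fun g =>
    Ideal.Quotient.mk (maximalIdeal T ^ n) (ρ₁.trace g) =
      Ideal.Quotient.mk (maximalIdeal T ^ n) (ρ₂.trace g)) (L₁ ⊔ L₂) S ?_ ?_ ?_ g
  · intro g u hu hg
    have h1 : ∀ x ∈ L₁, u x = x := fun x hx => hu x (le_sup_left (a := L₁) hx)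
    have h2 : ∀ x ∈ L₂, u x = x := fun x hx => hu x (le_sup_right (b := L₂) hx)
    show Ideal.Quotient.mk _ (LinearMap.trace T ρ₁.V (ρ₁.ρ (g * u))) =
      Ideal.Quotient.mk _ (LinearMap.trace T ρ₂.V (ρ₂.ρ (g * u)))
    rw [← Reps.trace_matMod, ← Reps.trace_matMod, map_mul, map_mul,
      Reps.matMod_eq_one ρ₁ _ (hfix₁ u h1), Reps.matMod_eq_one ρ₂ _ (hfix₂ u h2), mul_one, mul_one,
      Reps.trace_matMod, Reps.trace_matMod]
    exact hg
  · intro g k hg
    show Ideal.Quotient.mk _ (LinearMap.trace T ρ₁.V (ρ₁.ρ (g ^ k))) =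
      Ideal.Quotient.mk _ (LinearMap.trace T ρ₂.V (ρ₂.ρ (g ^ k)))
    rw [map_pow ρ₁.ρ, map_pow ρ₂.ρ, Reps.trace_pow_eq_luc ρ₁.finrank_eq,
      Reps.trace_pow_eq_luc ρ₂.finrank_eq, Reps.map_luc, Reps.map_luc, hd₁, hd₂]
    exact congrArg (fun a => Reps.luc a _ k) hg
  · intro l hl hlS A hA φ hφ
    rw [(hfrob l hl hlS A hA φ hφ).2.2]

/-- Attached representations are carried to each other by compatible maps of Hecke rings. -/
theorem isEquiv_of_attached {p : ℕ} [Fact p.Prime] {N N' : ℕ} [NeZero N] [NeZero N']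
    {S S' : Finset ℕ} {T T' : Type} [CommRing T] [IsLocalRing T] [CommRing T'] [IsLocalRing T']
    [IsNoetherianRing T'] [IsAdicComplete (maximalIdeal T') T']
    {π : ↥(heckeAlgebra N 2 (↑S : Set ℕ)) →+* T} {π' : ↥(heckeAlgebra N' 2 (↑S' : Set ℕ)) →+* T'}
    {ρ : GaloisRepAdic T} {ρ' : GaloisRepAdic T'}
    (h : Local.IsAttached π ρ p) (h' : Local.IsAttached π' ρ' p) (φ : T →+* T') (hφ : IsLocalHom φ)
    (hπ : ∀ (l : ℕ) (hl : l.Prime) (hlN : ¬ l ∣ N) (hlN' : ¬ l ∣ N') (hlS : l ∉ (↑S : Set ℕ))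
      (hlS' : l ∉ (↑S' : Set ℕ)),
        φ (π (heckeAlgebra.T hl hlN hlS)) = π' (heckeAlgebra.T hl hlN' hlS'))
    (habs : (ρ.baseChangeAlong φ hφ).residual.IsAbsolutelyIrreducible)
    (habs' : ρ'.residual.IsAbsolutelyIrreducible) :
    (ρ.baseChangeAlong φ hφ).IsEquiv ρ' := by
  classical
  refine GalCommon.isEquiv_of_trace_eq _ _ habs habs' (trace_eq_of_frobenius_attached h'.p_max _ _ (S ∪ S')
    (Finset.mem_union_left _ h.p_mem) fun l hl hlS A hA g hg => ?_)
  rw [Finset.notMem_union] at hlS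
  have hlN : ¬ l ∣ N := fun hd => hlS.1 (h.bad_mem l hl hd)
  have hlN' : ¬ l ∣ N' := fun hd => hlS.2 (h'.bad_mem l hl hd)
  obtain ⟨ht, hd⟩ := Reps.trace_det_of_charpoly_eq ρ.finrank_eq
    (h.charpoly_frob l hl hlN (mod_cast hlS.1) A hA g hg)
  obtain ⟨ht', hd'⟩ := Reps.trace_det_of_charpoly_eq ρ'.finrank_eq
    (h'.charpoly_frob l hl hlN' (mod_cast hlS.2) A hA g hg)
  letI : Algebra T T' := φ.toAlgebra
  refine ⟨?_, hd', ?_⟩
  · show LinearMap.det ((ρ.ρ g).baseChange T') = _
    rw [LinearMap.det_baseChange, hd, RingHom.algebraMap_toAlgebra, map_natCast]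
  · show LinearMap.trace T' _ ((ρ.ρ g).baseChange T') = ρ'.trace g
    rw [LinearMap.trace_baseChange, ht, RingHom.algebraMap_toAlgebra, hπ l hl hlN hlN',
      show ρ'.trace g = _ from ht']

end Equiv

section Points

/-- A point unramified at a prime dividing the level exactly once is not special there. -/
theorem not_special_of_attached {p : ℕ} [Fact p.Prime] {N : ℕ} [NeZero N] {S : Finset ℕ}
    {O : Type} [CommRing O] [IsDomain O] [IsDiscreteValuationRing O]
    [IsAdicComplete (maximalIdeal O) O] [Finite (ResidueField O)] [CharZero O]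
    (hp : (p : O) ∈ maximalIdeal O)
    {T : Type} [CommRing T] [IsLocalRing T] [IsNoetherianRing T]
    [IsAdicComplete (maximalIdeal T) T] [Algebra O T] [IsLocalHom (algebraMap O T)]
    [Module.Finite O T]
    {π : ↥(heckeAlgebra N 2 (↑S : Set ℕ)) →+* T} {ρ : GaloisRepAdic T}
    (h : Local.IsAttached π ρ p) (habs : ρ.residual.IsAbsolutelyIrreducible)
    {K : Type} [Field K] [CharZero K] (f : T →+* K) {l : ℕ} (hl : l.Prime) (hlN : l ∣ N)
    (hl2 : ¬ l ^ 2 ∣ N) (hlp : l ≠ p)
    (hunr : ∀ A : ValuationSubring ℚ̄, A.LiesOverPrime l → ∀ τ ∈ A.inertiaSubgroupIn ℚ,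
      ∀ b : Module.Basis (Fin 2) T ρ.V, (matHom ρ b τ).map f = 1)
    {A : ValuationSubring ℚ̄} (hA : A.LiesOverPrime l) {φ : Γℚ} (hφ : A.IsFrobeniusAt φ l) :
    f (ρ.trace φ) ^ 2 ≠ ((l : K) + 1) ^ 2 := by
  intro hcon
  obtain ⟨N₀, rfl⟩ := hlN
  haveI : NeZero N₀ := ⟨right_ne_zero_of_mul (NeZero.ne (l * N₀))⟩
  have hN₀ : ¬ l ∣ N₀ := fun h => hl2 (sq l ▸ Nat.mul_dvd_mul_left l h)
  let P : Ideal T := RingHom.ker f
  let i : O →+* T ⧸ P := (Ideal.Quotient.mk P).comp (algebraMap O T)
  have hi : Function.Injective i := by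
    rw [injective_iff_map_eq_zero]
    intro a ha
    by_contra ha0
    obtain ⟨ϖ, hϖ⟩ := IsDiscreteValuationRing.exists_irreducible O
    obtain ⟨n, u, rfl⟩ := IsDiscreteValuationRing.eq_unit_mul_pow_irreducible ha0 hϖ
    have hfa : f (algebraMap O T (u * ϖ ^ n)) = 0 := by
      rw [← RingHom.mem_ker]
      exact Ideal.Quotient.eq_zero_iff_mem.mp ha
    have hpn : ϖ ^ n ∣ (p : O) ^ n := by
      refine pow_dvd_pow_of_dvd ?_ n
      rw [hϖ.maximalIdeal_eq, Ideal.mem_span_singleton] at hp
      exact hp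
    obtain ⟨c, hc⟩ := hpn
    have h0 : f (algebraMap O T ((p : O) ^ n)) = 0 := by
      rw [hc, show ϖ ^ n * c = (↑u * ϖ ^ n) * (↑u⁻¹ * c) by
        rw [mul_mul_mul_comm, Units.mul_inv, one_mul], map_mul, map_mul, hfa, zero_mul]
    rw [map_pow, map_natCast, map_pow, map_natCast] at h0
    exact pow_ne_zero n (Nat.cast_ne_zero.mpr (Fact.out : p.Prime).ne_zero) h0
  have hfin : i.Finite :=
    (RingHom.Finite.of_surjective _ Ideal.Quotient.mk_surjective).comp
      (RingHom.finite_algebraMap.mpr inferInstance)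
  obtain ⟨O', _, _, _, _, _, _, _, _, _, -, χ', hχ'⟩ :=
    Reps.exists_dvr_extension i hi hfin (RingHom.id O)
  let ψ : T →+* O' := χ'.comp (Ideal.Quotient.mk P)
  have hψalg : ∀ a, ψ (algebraMap O T a) = algebraMap O O' a := fun a => RingHom.congr_fun hχ' a
  have hψ : IsLocalHom ψ := by
    have hc : ((maximalIdeal O').comap ψ).IsMaximal := by
      haveI : ((maximalIdeal O').comap ψ).IsPrime := Ideal.IsPrime.comap ψ
      haveI : Algebra.IsIntegral O T := Algebra.IsIntegral.of_finite O T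
      refine Ideal.isMaximal_of_isIntegral_of_isMaximal_comap (R := O) _ ?_
      have hcm : ((maximalIdeal O').comap ψ).comap (algebraMap O T) = maximalIdeal O := by
        refine le_antisymm (IsLocalRing.le_maximalIdeal fun htop => ?_) fun a ha => ?_
        · have h1 : (1 : O) ∈ ((maximalIdeal O').comap ψ).comap (algebraMap O T) :=
            htop ▸ trivial
          simp at h1
        · rw [Ideal.mem_comap, Ideal.mem_comap, hψalg]
          exact map_nonunit _ a ha
      rw [hcm]
      exact IsLocalRing.maximalIdeal.isMaximal O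
    refine ⟨fun a ha => ?_⟩
    by_contra hna
    have hmem : a ∈ (maximalIdeal O').comap ψ := by
      rw [IsLocalRing.eq_maximalIdeal hc]
      exact hna
    exact (IsLocalRing.mem_maximalIdeal _).mp hmem ha
  refine trace_sq_ne_of_unramified hl hlp hN₀ h habs O' ψ hψ ?_ hA hφ ?_
  · intro B hB τ hτ
    let b := Module.finBasisOfFinrankEq T ρ.V ρ.finrank_eq
    have hmat : (matHom ρ b τ).map ψ = 1 := by
      ext a c
      have h1 := congrFun (congrFun (hunr B hB τ hτ b) a) c
      rw [Matrix.map_apply] at h1 ⊢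
      have h2 : matHom ρ b τ a c - (1 : Matrix (Fin 2) (Fin 2) T) a c ∈ P := by
        rw [RingHom.mem_ker, map_sub, h1, Matrix.one_apply, Matrix.one_apply]
        split_ifs <;> simp
      show χ' (Ideal.Quotient.mk P (matHom ρ b τ a c)) = _
      rw [Ideal.Quotient.eq.mpr h2, Matrix.one_apply, Matrix.one_apply]
      split_ifs <;> simp
    letI : Algebra T O' := ψ.toAlgebra
    show (ρ.ρ τ).baseChange O' = 1
    refine (LinearMap.toMatrix (Algebra.TensorProduct.basis O' b) (Algebra.TensorProduct.basis O' b)).injective ?_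
    rw [LinearMap.toMatrix_baseChange, LinearMap.toMatrix_one]
    exact hmat
  · have h2 : ρ.trace φ ^ 2 - ((l : T) + 1) ^ 2 ∈ P := by
      rw [RingHom.mem_ker, map_sub, map_pow, map_pow, map_add, map_natCast, map_one, hcon,
        sub_self]
    have h3 := congrArg χ' (Ideal.Quotient.eq_zero_iff_mem.mpr h2)
    rw [map_sub, map_sub, map_pow, map_pow, map_pow, map_pow, map_add, map_add, map_natCast,
      map_natCast, map_one, map_one, map_zero, sub_eq_zero] at h3
    exact h3

end Points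

end FLTAgent.Lower.Levels
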