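import Fermat.Agent.Lower.Levels.Construct
import Fermat.Agent.Lower.Levels.Galois

/-!
# Lattices from frames

`baseLattice`: a frame of level `N` with trivial character as a `HeckeLattice`, through the periods
(`periodEmb`; a non-Eisenstein eigenvalue makes the classes parabolic). `twistLattice`: a frame of
level `L` with character `η⁻²` as a lattice at level `L Q`, through the twist by `η`
(`exists_twistEmb`).
-/

set_option autoImplicit false
set_option linter.unusedSectionVars false

noncomputable section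

open CongruenceSubgroup
open scoped MatrixGroups Matrix

namespace FLTAgent.Lower.Levels

open IsLocalRing (maximalIdeal ResidueField residue)

local notation "ℚ̄" => AlgebraicClosure ℚ
local notation "Γℚ" => (AlgebraicClosure ℚ ≃ₐ[ℚ] AlgebraicClosure ℚ)

variable {O : Type} [CommRing O] [IsLocalRing O] {p : ℕ} {S : Finset ℕ}
  {ρbar : ResidualGaloisRep (ResidueField O)} {ι : Type}

/-- The family contains every prime away from `S`, with the traces of `ρbar` as residual
eigenvalues. -/
structure AwayFam (p L : ℕ) (S : Finset ℕ) (ρbar : ResidualGaloisRep (ResidueField O))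
    (pr : ι → Nat.Primes) (θ : ι → ResidueField O) (j : AwayIdx S → ι) : Prop where
  pr_eq : ∀ l, pr (j l) = l.1
  trace_eq : ∀ (l : AwayIdx S) (A : ValuationSubring ℚ̄), A.LiesOverPrime l.1 →
    ∀ φ : Γℚ, A.IsFrobeniusAt φ l.1 →
      LinearMap.trace (ResidueField O) ρbar.V (ρbar.ρ φ) = θ (j l)
  p_mem : p ∈ S
  level_mem : ∀ l : ℕ, l.Prime → l ∣ L → l ∈ S

variable {R : Type} [CommRing R] {σ : R →+* ResidueField O} {θ : ι → ResidueField O}
  {pr : ι → Nat.Primes} {d : ℕ}

namespace Frame

variable {N : ℕ} [NeZero N] [IsAddTorsionFree R]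
  (F : Frame (1 : (ZMod N)ˣ →* Rˣ) pr σ θ d)

/-- With a non-Eisenstein eigenvalue the vectors of a frame are parabolic. -/
theorem h1Triv_combo_mem (hpar : ParHyp N pr θ) (x : Fin d → R) :
    h1Triv N R R (F.combo x) ∈ Period.H N R R := by
  obtain ⟨i, hi, hne⟩ := hpar
  obtain ⟨y, hy⟩ := mem_part.mp (F.combo_mem x)
    (MvPolynomial.X i - MvPolynomial.C (((pr i : ℕ) : R) + 1)) (fun h => hne (by
      rw [mem_eigIdeal, map_sub, MvPolynomial.eval₂Hom_X', MvPolynomial.eval₂Hom_C, map_add,
        map_natCast, map_one, sub_eq_zero] at h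
      exact h))
  rw [← hy, map_sub, LinearMap.sub_apply, famAct_X, MvPolynomial.algHom_C,
    Module.algebraMap_end_apply]
  exact heckeOp_sub_mem_H (pr i).2 hi y

/-- The vectors of a frame as periods. -/
def periodEmb (hpar : ParHyp N pr θ) : (Fin d → R) →ₗ[R] Period.H N R R :=
  ((h1Triv N R R).toLinearMap.comp F.combo).codRestrict _ (F.h1Triv_combo_mem hpar)

theorem coe_periodEmb (hpar : ParHyp N pr θ) (x : Fin d → R) :
    (F.periodEmb hpar x : Additive (Gamma0 N) →+ R) = h1Triv N R R (F.combo x) := rfl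

theorem periodEmb_injective (hpar : ParHyp N pr θ) : Function.Injective (F.periodEmb hpar) :=
  fun _ _ h => F.inj ((h1Triv N R R).injective (congrArg Subtype.val h))

theorem heckeH_periodEmb (hpar : ParHyp N pr θ) (i : ι) (x : Fin d → R) :
    HeckeH.heckeH N (pr i).2 R R (F.periodEmb hpar x) =
      F.periodEmb hpar (F.mat (MvPolynomial.X i) *ᵥ x) := by
  refine Subtype.ext ?_
  rw [HeckeH.coe_heckeH, coe_periodEmb, coe_periodEmb, F.combo_mat, famAct_X, h1Triv_heckeOp]

end Frame

variable [IsDomain O] [IsDiscreteValuationRing O] [Algebra O R] [IsLocalRing R]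
  [IsNoetherianRing R] [IsAdicComplete (maximalIdeal R) R] [IsAddTorsionFree R] {j : AwayIdx S → ι}

theorem heckeH_congr {N : ℕ} [NeZero N] {l l' : Nat.Primes} (h : l = l') :
    (HeckeH.heckeH N l.2 R R : Module.End R (Period.H N R R)) = HeckeH.heckeH N l'.2 R R := by
  subst h
  rfl

theorem surjective_of_comp_algebraMap (hσ : σ.comp (algebraMap O R) = residue O) :
    Function.Surjective σ := fun c => by
  obtain ⟨a, rfl⟩ := IsLocalRing.residue_surjective c
  exact ⟨algebraMap O R a, RingHom.congr_fun hσ a⟩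

section Base

variable [Finite (ResidueField O)] {N : ℕ} [NeZero N]
  (F : Frame (1 : (ZMod N)ˣ →* Rˣ) pr σ θ d)

/-- The lattice of a frame at level `N` with trivial character. -/
def baseLattice (hσ : σ.comp (algebraMap O R) = residue O)
    (hpar : ParHyp N pr θ) (hfam : AwayFam p N S ρbar pr θ j) : HeckeLattice p N S ρbar R d where
  act := levelAct F (1 : (ZMod 1)ˣ →* Rˣ) j
  emb := F.periodEmb hpar
  emb_injective := F.periodEmb_injective hpar
  emb_X l x := by
    have h := F.heckeH_periodEmb hpar (j l) x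
    have hpr := heckeH_congr (R := R) (N := N) (hfam.pr_eq l).symm
    rw [hpr, h, levelAct_X, MonoidHom.one_apply, Units.val_one, one_smul]
  θ := θ ∘ j
  unitAway := hσ ▸ unitAway_levelAct (surjective_of_comp_algebraMap hσ) F
    (fun a => by rw [MonoidHom.one_apply, Units.val_one, map_one]) j
  trace_eq := hfam.trace_eq
  p_mem := hfam.p_mem
  level_mem := hfam.level_mem

/-- The operators of the base lattice are those of the frame. -/
theorem baseLattice_act (hσ : σ.comp (algebraMap O R) = residue O)
    (hpar : ParHyp N pr θ) (hfam : AwayFam p N S ρbar pr θ j) (s : MvPolynomial (AwayIdx S) O) :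
    (baseLattice F hσ hpar hfam).act s =
      F.mat (MvPolynomial.rename j (MvPolynomial.map (algebraMap O R) s)) := by
  show F.mat (levelPoly pr (1 : (ZMod 1)ˣ →* Rˣ) j s) = _
  refine congrArg F.mat ?_
  induction s using MvPolynomial.induction_on with
  | C a => simp [levelPoly, IsScalarTower.algebraMap_apply O R (MvPolynomial ι R)]
  | add a b ha hb => simp only [map_add, ha, hb]
  | mul_X a i ha =>
    rw [map_mul, ha, map_mul, map_mul, MvPolynomial.map_X, MvPolynomial.rename_X]
    congr 1
    simp [levelPoly]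

end Base

section Twisted

variable {L Q : ℕ} [NeZero L] [NeZero Q] [NeZero (L * Q)] {hQ : Q ∣ L} {η : (ZMod Q)ˣ →* Rˣ}

/-- The hypotheses on the twisting character. -/
structure TwistHyp (L Q : ℕ) (σ : R →+* ResidueField O) (η : (ZMod Q)ˣ →* Rˣ) : Prop where
  squarefree : Squarefree Q
  coprime : Nat.Coprime (L / Q) Q
  exists_odd : ∃ m : ℕ, ∀ a, η a ^ (2 * m + 1) = 1
  residual : ∀ a, σ (η a : R) = 1

variable [Finite (ResidueField O)] (F : Frame (twistChar hQ η) pr σ θ d)

/-- The embedding of a twisted frame. -/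
theorem exists_twistEmb (hη : TwistHyp L Q σ η) (hfam : FamHyp L pr σ θ)
    (hpar : ParHyp (L * Q) pr θ) :
    ∃ emb : (Fin d → R) →ₗ[R] Period.H (L * Q) R R, Function.Injective emb ∧
      (∀ x, (emb x : Additive (Gamma0 (L * Q)) →+ R) =
        h1Triv (L * Q) R R (twistMap hQ η (F.combo x))) ∧
      ∀ i : ι, ¬ (pr i : ℕ) ∣ L → ∀ x, HeckeH.heckeH (L * Q) (pr i).2 R R (emb x) =
        emb (((η (primeUnit Q (pr i).2) : R) • F.mat (MvPolynomial.X i)) *ᵥ x) :=
  let ⟨_, hm⟩ := hη.exists_odd
  exists_periodEmb hQ hη.squarefree hη.coprime hm hη.residual hfam hpar F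

/-- The lattice of a frame with character `η⁻²` at the twisted level. -/
def twistLattice (hσ : σ.comp (algebraMap O R) = residue O)
    (hη : TwistHyp L Q σ η) (hfh : FamHyp L pr σ θ) (hpar : ParHyp (L * Q) pr θ)
    (hfam : AwayFam p (L * Q) S ρbar pr θ j) : HeckeLattice p (L * Q) S ρbar R d where
  act := levelAct F η j
  emb := (exists_twistEmb F hη hfh hpar).choose
  emb_injective := (exists_twistEmb F hη hfh hpar).choose_spec.1
  emb_X l x := by
    have hlL : ¬ (pr (j l) : ℕ) ∣ L := fun h => l.2 (by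
      rw [hfam.pr_eq] at h
      exact hfam.level_mem _ l.1.2 (h.trans (dvd_mul_right L Q)))
    have h := (exists_twistEmb F hη hfh hpar).choose_spec.2.2 (j l) hlL x
    have hpr := heckeH_congr (R := R) (N := L * Q) (hfam.pr_eq l).symm
    rw [hpr, h, levelAct_X]
  θ := θ ∘ j
  unitAway := hσ ▸ unitAway_levelAct (surjective_of_comp_algebraMap hσ) F hη.residual j
  trace_eq := hfam.trace_eq
  p_mem := hfam.p_mem
  level_mem := hfam.level_mem

/-- The periods of the twisted lattice. -/
theorem coe_twistLattice_emb (hσ : σ.comp (algebraMap O R) = residue O)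
    (hη : TwistHyp L Q σ η) (hfh : FamHyp L pr σ θ) (hpar : ParHyp (L * Q) pr θ)
    (hfam : AwayFam p (L * Q) S ρbar pr θ j) (x : Fin d → R) :
    ((twistLattice F hσ hη hfh hpar hfam).emb x : Additive (Gamma0 (L * Q)) →+ R) =
      h1Triv (L * Q) R R (twistMap hQ η (F.combo x)) :=
  (exists_twistEmb F hη hfh hpar).choose_spec.2.1 x

theorem twistLattice_act_X (hσ : σ.comp (algebraMap O R) = residue O)
    (hη : TwistHyp L Q σ η) (hfh : FamHyp L pr σ θ) (hpar : ParHyp (L * Q) pr θ)
    (hfam : AwayFam p (L * Q) S ρbar pr θ j) (l : AwayIdx S) :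
    (twistLattice F hσ hη hfh hpar hfam).act (MvPolynomial.X l) =
      (η (primeUnit Q (pr (j l)).2) : R) • F.mat (MvPolynomial.X (j l)) :=
  levelAct_X F η j l

end Twisted

end FLTAgent.Lower.Levels
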