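import Fermat.Agent.Lower.Levels.TwRel
import Fermat.Agent.Lower.Lift.Construct

/-!
# Frames at an auxiliary level

Over a frame `F₀` of level `M` (trivial character): `nonempty_auxFrames` stabilises it at the primes
of `Q = ∏ Qv` and lifts it to a frame over the group ring `DeltaRing O p n r` for the character
`η⁻²` of level `M Q` (`AuxFrames`, with `η` as in `EtaHyp`). `AuxFrames.lattice` is the lattice it
gives in the periods of level `M Q Q`; `AuxFrames.latticeLift` says that it reduces to the lattice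
of `F₀` and `AuxFrames.tw_rel` gives its inertia trace relation at the primes of `Q`.
-/

set_option autoImplicit false
set_option linter.style.haveILetI false
set_option linter.unusedSectionVars false

noncomputable section

open CongruenceSubgroup
open scoped MatrixGroups Matrix

namespace FLTAgent.Lower.Levels

open IsLocalRing (maximalIdeal ResidueField residue)

local notation "ℚ̄" => AlgebraicClosure ℚ
local notation "Γℚ" => (AlgebraicClosure ℚ ≃ₐ[ℚ] AlgebraicClosure ℚ)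

variable {p : ℕ} [Fact p.Prime] {O : Type} [CommRing O] [IsDomain O] [IsDiscreteValuationRing O]
  [IsAdicComplete (maximalIdeal O) O] [Finite (ResidueField O)] [CharZero O]
  {S : Finset ℕ} {ρbar : ResidualGaloisRep (ResidueField O)} {M : ℕ} [NeZero M] {n r : ℕ}
  {Qv : Fin r → ℕ} {d : ℕ}

/-- The auxiliary character: of `p`-power order, trivial on augmenting, reaching the generators. -/
structure EtaHyp (O : Type) [CommRing O] (p n : ℕ) [Fact p.Prime] {r : ℕ} (Qv : Fin r → ℕ)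
    (η : (ZMod (∏ i, Qv i))ˣ →* (DeltaRing O p n r)ˣ) : Prop where
  pow : ∀ a, η a ^ p ^ n = 1
  aug : ∀ a, deltaAug O p n r (η a : DeltaRing O p n r) = 1
  gen : ∀ i, ∃ a : (ZMod (∏ j, Qv j))ˣ, η a = deltaGen O p n i ∧
    ∀ j, j ≠ i → ZMod.unitsMap (Finset.dvd_prod_of_mem Qv (Finset.mem_univ j)) a = 1

/-- The character exists. -/
theorem AuxHyp.exists_eta (hQ : AuxHyp p n S ρbar Qv) :
    ∃ η : (ZMod (∏ i, Qv i))ˣ →* (DeltaRing O p n r)ˣ, EtaHyp O p n Qv η := by
  obtain ⟨η, h1, h2, h3⟩ := exists_deltaChar (O := O) p n r Qv hQ.injective hQ.prime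
    fun i => (hQ.tw i).dvd
  exact ⟨η, h1, h2, h3⟩

theorem EtaHyp.exists_odd {η : (ZMod (∏ i, Qv i))ˣ →* (DeltaRing O p n r)ˣ}
    (hη : EtaHyp O p n Qv η) (hp2 : p ≠ 2) : ∃ m : ℕ, ∀ a, η a ^ (2 * m + 1) = 1 := by
  obtain ⟨m, hm⟩ : ∃ m, p ^ n = 2 * m + 1 :=
    Odd.pow ((Fact.out : p.Prime).odd_of_ne_two hp2)
  exact ⟨m, fun a => hm ▸ hη.pow a⟩

theorem EtaHyp.residual {η : (ZMod (∏ i, Qv i))ˣ →* (DeltaRing O p n r)ˣ}
    (hη : EtaHyp O p n Qv η) (a : (ZMod (∏ i, Qv i))ˣ) :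
    deltaRes (O := O) p n r (η a : DeltaRing O p n r) = 1 := by
  show residue O (deltaAug O p n r (η a : DeltaRing O p n r)) = 1
  rw [hη.aug, map_one]

theorem EtaHyp.reduces {η : (ZMod (∏ i, Qv i))ˣ →* (DeltaRing O p n r)ˣ}
    (hη : EtaHyp O p n Qv η) (u : (ZMod (M * ∏ i, Qv i))ˣ) :
    (deltaAug O p n r).toRingHom
        (twistChar (dvd_mul_left (∏ i, Qv i) M) η u : DeltaRing O p n r) =
      (((1 : (ZMod (M * ∏ i, Qv i))ˣ →* Oˣ) u : Oˣ) : O) := by
  have e : Units.map (deltaAug O p n r : DeltaRing O p n r →* O)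
      (η (ZMod.unitsMap (dvd_mul_left (∏ i, Qv i) M) u)) = 1 := Units.ext (hη.aug _)
  show ((Units.map (deltaAug O p n r : DeltaRing O p n r →* O)
    ((η (ZMod.unitsMap (dvd_mul_left (∏ i, Qv i) M) u) ^ 2)⁻¹) : Oˣ) : O) = _
  rw [map_inv, map_pow, e, one_pow, inv_one]
  rfl

/-- The frames of the auxiliary level over `F₀`. -/
structure AuxFrames (F₀ : Frame (1 : (ZMod M)ˣ →* Oˣ) (awPr S) (residue O)
      (fun l => frobTrace ρbar l.1) d)
    (θ' : AwayPrimes S → ResidueField O) (η : (ZMod (∏ i, Qv i))ˣ →* (DeltaRing O p n r)ˣ) :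
    Type where
  G : Frame (1 : (ZMod (M * ∏ i, Qv i))ˣ →* Oˣ) (awPr S) (residue O) θ' d
  G_vec : ∀ j, G.vec j = stabMap (awPr S) (residue O) θ' (dvd_mul_right M (∏ i, Qv i)) (F₀.vec j)
  G_mat : ∀ s : MvPolynomial
      {x : AwayPrimes S // ¬ ((awPr S x : Nat.Primes) : ℕ) ∣ ∏ i, Qv i} O,
    G.mat (MvPolynomial.rename Subtype.val s) = F₀.mat (MvPolynomial.rename Subtype.val s)
  F : Frame (twistChar (dvd_mul_left (∏ i, Qv i) M) η) (awPr S) (deltaRes p n r) θ' d
  reduces : ∀ u, (deltaAug O p n r).toRingHom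
      (twistChar (dvd_mul_left (∏ i, Qv i) M) η u : DeltaRing O p n r) =
    (((1 : (ZMod (M * ∏ i, Qv i))ˣ →* Oˣ) u : Oˣ) : O)
  F_lift : F.IsLift G (deltaAug O p n r).toRingHom reduces

/-- They exist. -/
theorem nonempty_auxFrames (hp : (p : O) ∈ maximalIdeal O) (f : ℤ_[p] →+* O)
    (h : ResHyp p S ρbar) (hM : ∀ l : ℕ, l.Prime → l ∣ M → l ∈ S) (hQ : AuxHyp p n S ρbar Qv)
    [NeZero (∏ i, Qv i)] {θ' : AwayPrimes S → ResidueField O}
    (hθ : StabEig ρbar (∏ i, Qv i) θ') {η : (ZMod (∏ i, Qv i))ˣ →* (DeltaRing O p n r)ˣ}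
    (hη : EtaHyp O p n Qv η) (hd : d ≠ 0)
    (F₀ : Frame (1 : (ZMod M)ˣ →* Oˣ) (awPr S) (residue O) (fun l => frobTrace ρbar l.1) d) :
    Nonempty (AuxFrames F₀ θ' η) := by
  haveI : NeZero (M * ∏ i, Qv i) := ⟨mul_ne_zero (NeZero.ne M) (NeZero.ne _)⟩
  haveI := isLocalRing_deltaRing (O := O) p n r hp
  haveI := isAdicComplete_deltaRing (O := O) p n r hp
  haveI : IsNoetherianRing (DeltaRing O p n r) := IsNoetherianRing.of_finite O _
  obtain ⟨G, hGv, hGm⟩ := exists_stab_frame h.ne_two (IsLocalRing.residue_surjective (R := O)) f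
    (hθ.stabData h hQ hM)
    (h.parHyp (M * ∏ i, Qv i) _ 1 fun _ _ => rfl) hd F₀
  obtain ⟨m, hm⟩ := hη.exists_odd h.ne_two
  have hψ : CharHyp (twistChar (dvd_mul_left (∏ i, Qv i) M) η) (deltaRes (O := O) p n r) :=
    charHyp_twistChar _ hm hη.residual
  have hfam := hθ.famHyp h (M * ∏ i, Qv i) (IsLocalRing.residue_surjective (R := O))
  have hfam' := hθ.famHyp h (M * ∏ i, Qv i) (deltaRes_surjective (O := O) p n r)
  have hψ0 : CharHyp (1 : (ZMod (M * ∏ i, Qv i))ˣ →* Oˣ) (residue O) := ⟨fun u => by simp, rfl⟩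
  obtain ⟨Fk, hFk⟩ := exists_frame_reduce hfam hψ0 G
  obtain ⟨F, hF, -⟩ := exists_frame_lift_along hfam' hψ hfam hψ0 (deltaAug O p n r).toRingHom
    (fun a => ⟨algebraMap O _ a, (deltaAug O p n r).commutes a⟩) rfl hη.reduces Fk G hFk
  exact ⟨⟨G, hGv, hGm, F, hη.reduces, hF⟩⟩

theorem not_dvd_prod_of_notMem (hQ : AuxHyp p n S ρbar Qv)
    (l : AwayIdx (S ∪ Finset.univ.image Qv)) : ¬ (l.1 : ℕ) ∣ ∏ i, Qv i := fun hd => by
  obtain ⟨i, hi⟩ := hQ.exists_eq l.1.2 hd
  exact l.2 (Finset.mem_union_right _ (Finset.mem_image.mpr ⟨i, Finset.mem_univ i, hi⟩))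

/-- The inclusion of the primes of an auxiliary level in the family. -/
abbrev auxIdx (l : AwayIdx (S ∪ Finset.univ.image Qv)) : AwayPrimes S :=
  HeckeLattice.awayMap Finset.subset_union_left l

theorem mem_union_of_dvd (hM : ∀ l : ℕ, l.Prime → l ∣ M → l ∈ S) (hQ : AuxHyp p n S ρbar Qv)
    {l : ℕ} (hl : l.Prime) (h : l ∣ M * (∏ i, Qv i) * ∏ i, Qv i) :
    l ∈ S ∪ Finset.univ.image Qv := by
  rcases hl.dvd_mul.1 h with h | h
  rcases hl.dvd_mul.1 h with h | h
  · exact Finset.mem_union_left _ (hM l hl h)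
  all_goals
    obtain ⟨i, hi⟩ := hQ.exists_eq hl h
    exact Finset.mem_union_right _ (Finset.mem_image.mpr ⟨i, Finset.mem_univ i, hi⟩)

namespace AuxFrames

variable [NeZero (∏ i, Qv i)]
  {F₀ : Frame (1 : (ZMod M)ˣ →* Oˣ) (awPr S) (residue O) (fun l => frobTrace ρbar l.1) d}
  {θ' : AwayPrimes S → ResidueField O} {η : (ZMod (∏ i, Qv i))ˣ →* (DeltaRing O p n r)ˣ}
  (D : AuxFrames F₀ θ' η) (hp : (p : O) ∈ maximalIdeal O) (h : ResHyp p S ρbar)
  (hM : ∀ l : ℕ, l.Prime → l ∣ M → l ∈ S) (hQ : AuxHyp p n S ρbar Qv)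
  (hθ : StabEig ρbar (∏ i, Qv i) θ') (hη : EtaHyp O p n Qv η)

include h hQ in
theorem twistHyp (hM : ∀ l : ℕ, l.Prime → l ∣ M → l ∈ S) (hη : EtaHyp O p n Qv η) :
    TwistHyp (M * ∏ i, Qv i) (∏ i, Qv i) (deltaRes (O := O) p n r) η where
  squarefree := hQ.squarefree
  coprime := by
    rw [Nat.mul_div_left _ (Nat.pos_of_ne_zero (NeZero.ne (∏ i, Qv i)))]
    exact hQ.coprime hM
  exists_odd := hη.exists_odd h.ne_two
  residual := hη.residual

include h hM hQ hθ in
theorem awayFam : AwayFam p (M * (∏ i, Qv i) * ∏ i, Qv i) (S ∪ Finset.univ.image Qv) ρbar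
    (awPr S) θ' auxIdx where
  pr_eq _ := rfl
  trace_eq l A hA φ hφ := by
    rw [hθ.away (auxIdx l) (not_dvd_prod_of_notMem hQ l)]
    exact (frobTrace_eq ρbar l.1.2
      (h.unramified _ l.1.2 fun hm => l.2 (Finset.mem_union_left _ hm)) hA hφ).symm
  p_mem := Finset.mem_union_left _ h.mem
  level_mem _ hl hd := mem_union_of_dvd hM hQ hl hd

/-- The lattice of the auxiliary level. -/
def lattice : HeckeLattice p (M * (∏ i, Qv i) * ∏ i, Qv i) (S ∪ Finset.univ.image Qv) ρbar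
    (DeltaRing O p n r) d :=
  haveI := isLocalRing_deltaRing (O := O) p n r hp
  haveI := isAdicComplete_deltaRing (O := O) p n r hp
  haveI : IsNoetherianRing (DeltaRing O p n r) := IsNoetherianRing.of_finite O _
  twistLattice D.F (RingHom.ext fun a => congrArg (residue O) ((deltaAug O p n r).commutes a))
    (twistHyp h hQ hM hη) (hθ.famHyp h _ (deltaRes_surjective (O := O) p n r))
    (hθ.parHyp h _) (awayFam h hM hQ hθ)

theorem lattice_act : (D.lattice hp h hM hQ hθ hη).act = levelAct D.F η auxIdx := rfl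

theorem lattice_act_X (l : AwayIdx (S ∪ Finset.univ.image Qv)) :
    (D.lattice hp h hM hQ hθ hη).act (MvPolynomial.X l) =
      (η (primeUnit (∏ i, Qv i) l.1.2) : DeltaRing O p n r) •
        D.F.mat (MvPolynomial.X (auxIdx l)) := by
  rw [lattice_act, levelAct_X]
  rfl

/-- The periods of the auxiliary lattice. -/
theorem coe_lattice_emb (x : Fin d → DeltaRing O p n r) :
    ((D.lattice hp h hM hQ hθ hη).emb x :
        Additive (Gamma0 (M * (∏ i, Qv i) * ∏ i, Qv i)) →+ DeltaRing O p n r) =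
      h1Triv (M * (∏ i, Qv i) * ∏ i, Qv i) (DeltaRing O p n r) (DeltaRing O p n r)
        (twistMap (dvd_mul_left (∏ i, Qv i) M) η (D.F.combo x)) := by
  haveI := isLocalRing_deltaRing (O := O) p n r hp
  haveI := isAdicComplete_deltaRing (O := O) p n r hp
  haveI : IsNoetherianRing (DeltaRing O p n r) := IsNoetherianRing.of_finite O _
  exact coe_twistLattice_emb D.F _ _ _ _ _ x

/-- The auxiliary lattice reduces to the lattice of `F₀`. -/
theorem latticeLift (X : HeckeLattice p M S ρbar O d)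
    (hX : ∀ l, X.act (MvPolynomial.X l) = F₀.mat (MvPolynomial.X l)) :
    Lift.LatticeLift X (D.lattice hp h hM hQ hθ hη) (deltaAug O p n r).toRingHom := by
  intro s
  have key : ((deltaAug O p n r).mapMatrix.comp (D.lattice hp h hM hQ hθ hη).act) =
      X.act.comp (MvPolynomial.rename
        (HeckeLattice.awayMap (Finset.subset_union_left (s₂ := Finset.univ.image Qv)))) := by
    refine MvPolynomial.algHom_ext fun l => ?_
    rw [AlgHom.comp_apply, AlgHom.comp_apply, MvPolynomial.rename_X, hX, D.lattice_act_X,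
      AlgHom.mapMatrix_apply, Matrix.map_smul' _ _ _ (map_mul _), hη.aug, one_smul]
    have h1 : D.G.mat (MvPolynomial.map (deltaAug O p n r).toRingHom
        (MvPolynomial.X (auxIdx l))) =
          (D.F.mat (MvPolynomial.X (auxIdx l))).map (deltaAug O p n r).toRingHom :=
      D.F.mat_of_isLift D.F_lift _
    rw [MvPolynomial.map_X] at h1
    refine Eq.trans h1.symm ?_
    have h2 := D.G_mat (MvPolynomial.X ⟨auxIdx l, not_dvd_prod_of_notMem hQ l⟩)
    simp only [MvPolynomial.rename_X] at h2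
    exact h2
  exact congrArg (fun g => g s) key

/-- The trace relation of the auxiliary lattice, in the form of `Lift.heckeLevelOf`. -/
theorem tw_rel [NeZero d] [IsLocalRing (DeltaRing O p n r)] {f : ℤ_[p] →+* O}
    (ρY : GaloisRepAdic (D.lattice hp h hM hQ hθ hη).T)
    (hY : (D.lattice hp h hM hQ hθ hη).IsRep f ρY)
    {φ : DeltaRing O p n r →ₐ[O] MvPowerSeries (Fin r) O ⧸ levelIdeal p n r O}
    (hφ : ∀ i, φ (deltaGen O p n i : DeltaRing O p n r) =
      Ideal.Quotient.mk _ (1 + MvPowerSeries.X i)) (i : Fin r) :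
    ∃ σ : Γℚ, (∃ A : ValuationSubring ℚ̄, A.LiesOverPrime (Qv i) ∧ σ ∈ A.inertiaSubgroupIn ℚ) ∧
      ∃ u : DeltaRing O p n r, φ u = Ideal.Quotient.mk _ (1 + MvPowerSeries.X i) ∧
        imgAct (D.lattice hp h hM hQ hθ hη).act (ρY.trace σ - 2) * Matrix.scalar (Fin d) u =
          Matrix.scalar (Fin d) ((u - 1) ^ 2) := by
  haveI : NeZero (M * ∏ i, Qv i) := ⟨mul_ne_zero (NeZero.ne M) (NeZero.ne _)⟩
  obtain ⟨σ, hσ, hrel⟩ := exists_trace_rel hp h hM hQ hθ hη.pow hη.aug hη.gen F₀ D.G D.G_vec D.F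
    D.F_lift _ (D.coe_lattice_emb hp h hM hQ hθ hη) ρY hY i
  exact ⟨σ, hσ, _, hφ i, hrel⟩

end AuxFrames

end FLTAgent.Lower.Levels
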