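import Fermat.Agent.Lower.Levels.Sys

/-!
# Hecke operators on twisted cohomology

`heckeSys` and `heckeOp` are `T_ℓ` (or `U_ℓ`) on `H¹(Γ₀(N))` with coefficients twisted by a
character `ψ` of `(ℤ/N)ˣ`; they commute (`heckeOp_comm`), by comparing upper triangular
representatives (`eq_of_triangular`).
-/

set_option autoImplicit false

noncomputable section

open CongruenceSubgroup
open scoped MatrixGroups

namespace FLTAgent.Lower.Levels

open FLTAgent.HeckeH (M2 matOf mkGamma0 matOf_mul matOf_dvd matOf_mkGamma0 det_entries heckeIdx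
  heckeBeta heckeBeta_some heckeBeta_none heckeReps)

variable {N M : ℕ} {R : Type} [CommRing R] {A : Type} [AddCommGroup A] [Module R A]

/-- The character of `Γ₀(N)` attached to a character of `(ℤ/N)ˣ`. -/
abbrev chi (ψ : (ZMod N)ˣ →* Rˣ) : Gamma0 N →* Rˣ := ψ.comp (dUnit dvd_rfl)

theorem dUnit_gammaT {m : ℕ} (hm : m ∣ N) (k : ℤ) : dUnit hm (gammaT N k) = 1 :=
  Units.ext (by simp [coe_dUnit, gammaT])

theorem chi_gammaT (ψ : (ZMod N)ˣ →* Rˣ) (k : ℤ) : chi ψ (gammaT N k) = 1 := by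
  rw [MonoidHom.comp_apply, dUnit_gammaT, map_one]

/-- In a relation `β γ = δ β'` between upper triangular matrices the upper left entries are
related through the characters. -/
theorem entry00_rel {m : ℕ} (hmM : m ∣ M) (hmN : m ∣ N) {β β' : M2} {γ : Gamma0 M} {δ : Gamma0 N}
    (h : β * matOf γ = matOf δ * β') (h' : β' 1 0 = 0) :
    (β 0 0 : ZMod m) * ((dUnit hmM γ)⁻¹ : (ZMod m)ˣ) =
      ((dUnit hmN δ)⁻¹ : (ZMod m)ˣ) * (β' 0 0 : ZMod m) := by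
  have e := congrArg (fun x : ℤ => (x : ZMod m)) (congrFun (congrFun h 0) 0)
  simp only [Matrix.mul_apply, Fin.sum_univ_two, h', mul_zero, add_zero] at e
  have hc : ((matOf γ 1 0 : ℤ) : ZMod m) = 0 :=
    (ZMod.intCast_zmod_eq_zero_iff_dvd _ m).mpr
      ((Int.natCast_dvd_natCast.mpr hmM).trans (matOf_dvd γ))
  push_cast at e
  rw [hc, mul_zero, add_zero] at e
  exact e

/-- Upper triangular matrices with positive upper left entry in one `Γ₀(N)`-orbit. -/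
theorem eq_of_triangular {a b d a' b' d' : ℤ} (ha : 0 < a) (ha' : 0 < a') {δ : Gamma0 N}
    (h : (!![a, b; 0, d] : M2) = matOf δ * !![a', b'; 0, d']) :
    a = a' ∧ d = d' ∧ d' ∣ b - b' ∧ ∃ k, δ = gammaT N k := by
  have e : ∀ i j, (!![a, b; 0, d] : M2) i j = (matOf δ * !![a', b'; 0, d']) i j := fun i j => by
    rw [h]
  have e00 := e 0 0
  have e01 := e 0 1
  have e10 := e 1 0
  have e11 := e 1 1
  simp [Matrix.mul_apply, Fin.sum_univ_two] at e00 e01 e10 e11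
  have hc : matOf δ 1 0 = 0 := by
    rcases e10 with h | h
    · exact h
    · omega
  have hdet := det_entries δ
  rw [hc, mul_zero, sub_zero] at hdet
  have hap : 0 < matOf δ 0 0 := by
    rw [e00] at ha
    exact pos_of_mul_pos_left ha ha'.le
  have hd1 : 0 < matOf δ 1 1 := pos_of_mul_pos_right (by rw [hdet]; exact one_pos) hap.le
  have hone : matOf δ 0 0 = 1 := Int.eq_one_of_mul_eq_one_right hap.le hdet
  rw [hone, one_mul] at hdet
  rw [hone, one_mul] at e00 e01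
  rw [hc, zero_mul, zero_add, hdet, one_mul] at e11
  refine ⟨e00, e11, ⟨matOf δ 0 1, by linear_combination e01⟩, matOf δ 0 1,
    FLTAgent.HeckeH.matOf_injective ?_⟩
  rw [gammaT, matOf_mkGamma0]
  ext i j
  fin_cases i <;> fin_cases j <;> simp [hone, hc, hdet]

variable (N) in
/-- `ℓ` modulo `N`, as a unit when it is prime to `N`. -/
def primeUnit {ℓ : ℕ} (hℓ : ℓ.Prime) : (ZMod N)ˣ :=
  if h : ℓ ∣ N then 1 else ZMod.unitOfCoprime ℓ ((Nat.Prime.coprime_iff_not_dvd hℓ).mpr h)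

theorem coe_primeUnit {ℓ : ℕ} (hℓ : ℓ.Prime) (h : ¬ ℓ ∣ N) :
    (primeUnit N hℓ : ZMod N) = (ℓ : ZMod N) := by
  rw [primeUnit, dif_neg h, ZMod.coe_unitOfCoprime]

/-- The unit of the upper left entry of a Hecke representative. -/
def heckeUnit {ℓ : ℕ} (hℓ : ℓ.Prime) (i : heckeIdx N ℓ) : (ZMod N)ˣ :=
  match i.1 with
  | none => primeUnit N hℓ
  | some _ => 1

theorem coe_heckeUnit {ℓ : ℕ} (hℓ : ℓ.Prime) (i : heckeIdx N ℓ) :
    (heckeUnit hℓ i : ZMod N) = (heckeBeta i 0 0 : ZMod N) := by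
  obtain ⟨_ | j, h⟩ := i
  · simp [heckeUnit, heckeBeta, coe_primeUnit hℓ (h rfl)]
  · simp [heckeUnit, heckeBeta]

theorem heckeBeta_10 {ℓ : ℕ} (i : heckeIdx N ℓ) : heckeBeta i 1 0 = 0 := by
  obtain ⟨_ | j, h⟩ := i <;> simp [heckeBeta]

/-- `T_ℓ` or `U_ℓ` with coefficients twisted by `ψ`. -/
def heckeSys {ℓ : ℕ} (hℓ : ℓ.Prime) (ψ : (ZMod N)ˣ →* Rˣ) :
    Sys R (heckeIdx N ℓ) (chi ψ) (chi ψ) :=
  Sys.mk' heckeBeta (heckeReps N hℓ).det_ne (heckeReps N hℓ).inj (heckeReps N hℓ).exists_coc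
    (fun i => (ψ (heckeUnit hℓ i) : R)) fun γ i δ j h => by
      have e : heckeUnit hℓ i * (dUnit dvd_rfl γ)⁻¹ = (dUnit dvd_rfl δ)⁻¹ * heckeUnit hℓ j := by
        refine Units.ext ?_
        rw [Units.val_mul, Units.val_mul, coe_heckeUnit, coe_heckeUnit]
        exact entry00_rel dvd_rfl dvd_rfl h (heckeBeta_10 j)
      have e2 : heckeUnit hℓ i * dUnit dvd_rfl δ = dUnit dvd_rfl γ * heckeUnit hℓ j := by
        rw [mul_inv_eq_iff_eq_mul] at e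
        rw [e]
        simp [mul_comm, mul_left_comm]
      rw [MonoidHom.comp_apply, MonoidHom.comp_apply, ← Units.val_mul, ← Units.val_mul,
        ← map_mul, ← map_mul, e2]

theorem inj_heckeSys {ℓ : ℕ} (hℓ : ℓ.Prime) (ψ : (ZMod N)ˣ →* Rˣ) : (heckeSys hℓ ψ).Inj :=
  (heckeReps N hℓ).inj

@[simp] theorem heckeSys_β {ℓ : ℕ} (hℓ : ℓ.Prime) (ψ : (ZMod N)ˣ →* Rˣ) (i : heckeIdx N ℓ) :
    (heckeSys hℓ ψ).β i = heckeBeta i := rfl

@[simp] theorem heckeSys_w {ℓ : ℕ} (hℓ : ℓ.Prime) (ψ : (ZMod N)ˣ →* Rˣ) (i : heckeIdx N ℓ) :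
    (heckeSys hℓ ψ).w i = (ψ (heckeUnit hℓ i) : R) := rfl

/-- The Hecke operator on `H1`. -/
def heckeOp {ℓ : ℕ} (hℓ : ℓ.Prime) (ψ : (ZMod N)ˣ →* Rˣ) (A : Type) [AddCommGroup A]
    [Module R A] : Module.End R (H1 R A (chi ψ)) :=
  (heckeSys hℓ ψ).map A

section Products

variable {ℓ m : ℕ}

theorem heckeProd_inj (hℓ : ℓ.Prime) (hm : m.Prime) (hne : ℓ ≠ m) (ψ : (ZMod N)ˣ →* Rˣ) :
    ((heckeSys hℓ ψ).comp (heckeSys hm ψ)).Inj := by
  have hl2 := hℓ.two_le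
  have hm2 := hm.two_le
  have hco : Nat.Coprime ℓ m := (Nat.coprime_primes hℓ hm).mpr hne
  have key : ∀ p : heckeIdx N ℓ × heckeIdx N m, ∃ a b d : ℕ, 0 < a ∧
      ((heckeSys hℓ ψ).comp (heckeSys hm ψ)).β p = !![(a : ℤ), (b : ℤ); 0, (d : ℤ)] ∧
      ((∃ j j', p.1.1 = some j ∧ p.2.1 = some j' ∧ a = 1 ∧ b = j' + j * m ∧ d = ℓ * m) ∨
       (∃ j', p.1.1 = none ∧ p.2.1 = some j' ∧ a = ℓ ∧ b = ℓ * j' ∧ d = m) ∨
       (∃ j, p.1.1 = some j ∧ p.2.1 = none ∧ a = m ∧ b = j ∧ d = ℓ) ∨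
       (p.1.1 = none ∧ p.2.1 = none ∧ a = ℓ * m ∧ b = 0 ∧ d = 1)) := by
    rintro ⟨⟨_ | j, h⟩, ⟨_ | j', h'⟩⟩
    · refine ⟨ℓ * m, 0, 1, by positivity, ?_, Or.inr (Or.inr (Or.inr ⟨rfl, rfl, rfl, rfl, rfl⟩))⟩
      rw [Sys.comp_β, heckeSys_β, heckeSys_β]
      simp [heckeBeta]
    · refine ⟨ℓ, ℓ * j', m, hℓ.pos, ?_, Or.inr (Or.inl ⟨j', rfl, rfl, rfl, rfl, rfl⟩)⟩
      rw [Sys.comp_β, heckeSys_β, heckeSys_β]
      simp [heckeBeta]
    · refine ⟨m, j, ℓ, hm.pos, ?_, Or.inr (Or.inr (Or.inl ⟨j, rfl, rfl, rfl, rfl, rfl⟩))⟩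
      rw [Sys.comp_β, heckeSys_β, heckeSys_β]
      simp [heckeBeta]
    · refine ⟨1, j' + j * m, ℓ * m, one_pos, ?_, Or.inl ⟨j, j', rfl, rfl, rfl, rfl, rfl⟩⟩
      rw [Sys.comp_β, heckeSys_β, heckeSys_β]
      simp [heckeBeta]
  intro δ p q h
  obtain ⟨a, b, d, ha, hp, hpc⟩ := key p
  obtain ⟨a', b', d', ha', hq, hqc⟩ := key q
  rw [hp, hq] at h
  obtain ⟨haa, hdd, hbb, -⟩ := eq_of_triangular (by exact_mod_cast ha) (by exact_mod_cast ha') h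
  have haa : a = a' := by exact_mod_cast haa
  have hdd : d = d' := by exact_mod_cast hdd
  subst haa hdd
  have hb : b % d = b' % d := by
    have := (Int.modEq_iff_dvd.mpr hbb)
    exact_mod_cast this.symm
  have hlm : ℓ < ℓ * m := lt_mul_of_one_lt_right hℓ.pos hm.one_lt
  have hml : m < ℓ * m := lt_mul_of_one_lt_left hm.pos hℓ.one_lt
  obtain ⟨⟨p1, _⟩, ⟨p2, _⟩⟩ := p
  obtain ⟨⟨q1, _⟩, ⟨q2, _⟩⟩ := q
  simp only [Prod.mk.injEq, Subtype.mk.injEq]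
  rcases hpc with ⟨j, j', rfl, rfl, rfl, rfl, rfl⟩ | ⟨j', rfl, rfl, rfl, rfl, rfl⟩ |
      ⟨j, rfl, rfl, rfl, rfl, rfl⟩ | ⟨rfl, rfl, rfl, rfl, rfl⟩ <;>
    rcases hqc with ⟨i, i', rfl, rfl, e1, rfl, -⟩ | ⟨i', rfl, rfl, e1, rfl, -⟩ |
      ⟨i, rfl, rfl, e1, rfl, -⟩ | ⟨rfl, rfl, e1, rfl, -⟩ <;>
    first
      | exact absurd e1 (by omega)
      | exact ⟨rfl, rfl⟩
      | skip
  · have hlt : ∀ (x : Fin ℓ) (y : Fin m), (y : ℕ) + x * m < ℓ * m := fun x y => by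
      have := x.2; have := y.2; nlinarith
    rw [Nat.mod_eq_of_lt (hlt j j'), Nat.mod_eq_of_lt (hlt i i')] at hb
    have h2 : (j' : ℕ) = i' := by
      have := congrArg (· % m) hb
      simpa [Nat.add_mul_mod_self_right, Nat.mod_eq_of_lt j'.2, Nat.mod_eq_of_lt i'.2] using this
    rw [h2, Nat.add_left_cancel_iff] at hb
    exact ⟨congrArg some (Fin.ext (Nat.eq_of_mul_eq_mul_right hm.pos hb)), congrArg some (Fin.ext h2)⟩
  · have := Nat.ModEq.cancel_left_of_coprime (hco.symm) hb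
    exact ⟨rfl, congrArg some (Fin.ext (this.eq_of_lt_of_lt j'.2 i'.2))⟩
  · exact ⟨congrArg some (Fin.ext (Nat.ModEq.eq_of_lt_of_lt hb j.2 i.2)), rfl⟩

theorem exists_heckeProd_translate (hℓ : ℓ.Prime) (hm : m.Prime) (hne : ℓ ≠ m)
    (ψ : (ZMod N)ˣ →* Rˣ) (p : heckeIdx N ℓ × heckeIdx N m) :
    ∃ (q : heckeIdx N m × heckeIdx N ℓ) (k : ℤ),
      ((heckeSys hℓ ψ).comp (heckeSys hm ψ)).β p =
          matOf (gammaT N k) * ((heckeSys hm ψ).comp (heckeSys hℓ ψ)).β q ∧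
        ((heckeSys hm ψ).comp (heckeSys hℓ ψ)).w q =
          ((heckeSys hℓ ψ).comp (heckeSys hm ψ)).w p := by
  obtain ⟨⟨_ | j, h⟩, ⟨_ | j', h'⟩⟩ := p
  · refine ⟨(⟨none, h'⟩, ⟨none, h⟩), 0, ?_, ?_⟩
    · simp only [Sys.comp_β, heckeSys_β]
      simp [heckeBeta, gammaT_zero, mul_comm]
    · exact mul_comm _ _
  · refine ⟨(⟨some ⟨(ℓ * j') % m, Nat.mod_lt _ hm.pos⟩, fun e => by simp at e⟩, ⟨none, h⟩),
      ((ℓ * j' / m : ℕ) : ℤ), ?_, ?_⟩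
    · simp only [Sys.comp_β, heckeSys_β]
      have e : ((ℓ * j' % m : ℕ) : ℤ) + ((ℓ * j' / m : ℕ) : ℤ) * m = (ℓ : ℤ) * (j' : ℕ) := by
        have h2 : ℓ * (j' : ℕ) % m + ℓ * (j' : ℕ) / m * m = ℓ * (j' : ℕ) := Nat.mod_add_div' _ _
        exact_mod_cast h2
      simp [heckeBeta, gammaT, -Int.natCast_ediv, -Int.natCast_emod]
      push_cast at e ⊢
      linear_combination -e
    · exact mul_comm _ _
  · have hco : Nat.Coprime m ℓ := (Nat.coprime_primes hm hℓ).mpr hne.symm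
    have : NeZero ℓ := ⟨hℓ.ne_zero⟩
    obtain ⟨i, hi, hdvd⟩ : ∃ i, i < ℓ ∧ (ℓ : ℤ) ∣ (j : ℕ) - (m : ℤ) * (i : ℕ) := by
      refine ⟨(((j : ℕ) : ZMod ℓ) * (ZMod.unitOfCoprime m hco)⁻¹.val).val, ZMod.val_lt _, ?_⟩
      rw [← ZMod.intCast_zmod_eq_zero_iff_dvd]
      push_cast
      rw [ZMod.natCast_zmod_val, mul_left_comm, ← ZMod.coe_unitOfCoprime m hco, ← Units.val_mul,
        mul_inv_cancel, Units.val_one, mul_one, sub_self]
    obtain ⟨k, hk⟩ := hdvd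
    refine ⟨(⟨none, h'⟩, ⟨some ⟨i, hi⟩, fun e => by simp at e⟩), k, ?_, ?_⟩
    · simp only [Sys.comp_β, heckeSys_β]
      have e : (m : ℤ) * (i : ℕ) + k * ℓ = (j : ℕ) := by linear_combination -hk
      simp [heckeBeta, gammaT, e]
    · exact mul_comm _ _
  · have hlt : (j' : ℕ) + j * m < ℓ * m := by
      have := j.2; have := j'.2; nlinarith
    refine ⟨(⟨some ⟨((j' : ℕ) + j * m) / ℓ, (Nat.div_lt_iff_lt_mul hℓ.pos).mpr
        (by rwa [mul_comm m ℓ])⟩, fun e => by simp at e⟩,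
      ⟨some ⟨((j' : ℕ) + j * m) % ℓ, Nat.mod_lt _ hℓ.pos⟩, fun e => by simp at e⟩), 0, ?_, ?_⟩
    · simp only [Sys.comp_β, heckeSys_β]
      have e : (((j' : ℕ) + j * m) % ℓ : ℕ) + ((((j' : ℕ) + j * m) / ℓ : ℕ) : ℤ) * ℓ =
          ((j' : ℕ) : ℤ) + (j : ℕ) * m := by exact_mod_cast Nat.mod_add_div' _ _
      simp [heckeBeta, gammaT_zero, -Int.natCast_ediv, -Int.natCast_emod,
        mul_comm (ℓ : ℤ) (m : ℤ)]
      push_cast at e ⊢
      linear_combination -e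
    · exact mul_comm _ _

end Products

/-- The Hecke operators commute. -/
theorem heckeOp_comm {ℓ m : ℕ} (hℓ : ℓ.Prime) (hm : m.Prime) (ψ : (ZMod N)ˣ →* Rˣ)
    (x : H1 R A (chi ψ)) :
    heckeOp hℓ ψ A (heckeOp hm ψ A x) = heckeOp hm ψ A (heckeOp hℓ ψ A x) := by
  rcases eq_or_ne ℓ m with rfl | hne
  · rfl
  choose e k he hw using exists_heckeProd_translate (N := N) hℓ hm hne ψ
  have hinj : Function.Injective e := by
    intro p q hpq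
    refine heckeProd_inj hℓ hm hne ψ (gammaT N (k p) * (gammaT N (k q))⁻¹) p q ?_
    rw [he p, he q, hpq, ← Matrix.mul_assoc, ← matOf_mul, inv_mul_cancel_right]
  let e' := Equiv.ofBijective e ((Fintype.bijective_iff_injective_and_card e).mpr
    ⟨hinj, by simp only [Fintype.card_prod, mul_comm]⟩)
  show (heckeSys hℓ ψ).map A ((heckeSys hm ψ).map A x) =
    (heckeSys hm ψ).map A ((heckeSys hℓ ψ).map A x)
  rw [← Sys.map_comp, ← Sys.map_comp,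
    Sys.map_eq_of_translate ((heckeSys hℓ ψ).comp (heckeSys hm ψ))
      ((heckeSys hm ψ).comp (heckeSys hℓ ψ)) (heckeProd_inj hm hℓ hne.symm ψ) (chi_gammaT ψ) e' k
      he hw]

end FLTAgent.Lower.Levels
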