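import Fermat.Agent.Lower.Defs
import Fermat.Agent.Lower.Levels.Hecke
import Fermat.Prelude.Thm_IsLocalRing_isAdicComplete_of_module_finite

/-!
# The group ring of `(ℤ/pⁿ)^r`

`DeltaRing O p n r` is finite free over `O`, local and complete (`isLocalRing_deltaRing`,
`isAdicComplete_deltaRing`), with augmentation `deltaAug`; `exists_deltaQuot` maps it to the power
series ring modulo the `(1 + Xᵢ) ^ pⁿ - 1`, and `exists_deltaChar` gives the character of `(ℤ/Q)ˣ`
at auxiliary primes of depth `n` with values in its group-like units.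
-/

set_option autoImplicit false
set_option linter.unusedSectionVars false
set_option linter.style.haveILetI false

noncomputable section

namespace FLTAgent.Lower.Levels

open IsLocalRing (maximalIdeal ResidueField residue)

/-- The group ring of `(ℤ/pⁿ)^r`. -/
abbrev DeltaRing (O : Type) [CommRing O] (p n r : ℕ) : Type :=
  AddMonoidAlgebra O (Fin r → ZMod (p ^ n))

variable (O : Type) [CommRing O] (p n r : ℕ)

/-- The group-like units. -/
def deltaUnit : Multiplicative (Fin r → ZMod (p ^ n)) →* (DeltaRing O p n r)ˣ :=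
  (AddMonoidAlgebra.of O (Fin r → ZMod (p ^ n))).toHomUnits

/-- The augmentation. -/
def deltaAug : DeltaRing O p n r →ₐ[O] O :=
  AddMonoidAlgebra.lift O O (Fin r → ZMod (p ^ n)) 1

theorem deltaAug_deltaUnit (a : Multiplicative (Fin r → ZMod (p ^ n))) :
    deltaAug O p n r (deltaUnit O p n r a : DeltaRing O p n r) = 1 := by
  simp [deltaAug, deltaUnit]

/-- An algebra map out of the group ring is determined on the group-like units. -/
theorem deltaHom_ext {B : Type*} [CommRing B] [Algebra O B] {f g : DeltaRing O p n r →ₐ[O] B}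
    (h : ∀ a, f (deltaUnit O p n r a : DeltaRing O p n r) =
      g (deltaUnit O p n r a : DeltaRing O p n r)) : f = g :=
  (AddMonoidAlgebra.lift O B (Fin r → ZMod (p ^ n))).symm.injective (MonoidHom.ext h)

variable [Fact p.Prime]

instance finite_deltaRing : Module.Finite O (DeltaRing O p n r) := by
  exact Module.Finite.of_basis (AddMonoidAlgebra.basis (Fin r → ZMod (p ^ n)) O)

instance free_deltaRing : Module.Free O (DeltaRing O p n r) := by
  exact Module.Free.of_basis (AddMonoidAlgebra.basis (Fin r → ZMod (p ^ n)) O)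

instance isAddTorsionFree_deltaRing [IsDomain O] [CharZero O] :
    IsAddTorsionFree (DeltaRing O p n r) := by
  exact Function.Injective.isAddTorsionFree
    (AddMonoidAlgebra.basis (Fin r → ZMod (p ^ n)) O).repr.toAddEquiv.toAddMonoidHom
    (AddMonoidAlgebra.basis (Fin r → ZMod (p ^ n)) O).repr.injective

variable {O} [IsDomain O] [IsDiscreteValuationRing O] [IsAdicComplete (maximalIdeal O) O]

theorem isLocalRing_deltaRing (hp : (p : O) ∈ maximalIdeal O) :
    IsLocalRing (DeltaRing O p n r) := by
  classical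
  have hkmax : (RingHom.ker ((residue O).comp (deltaAug O p n r).toRingHom)).IsMaximal :=
    RingHom.ker_isMaximal_of_surjective _ fun x => by
      obtain ⟨a, rfl⟩ := IsLocalRing.residue_surjective (R := O) x
      exact ⟨algebraMap O _ a, congrArg _ ((deltaAug O p n r).commutes a)⟩
  refine IsLocalRing.of_unique_max_ideal ⟨_, hkmax, fun M hM => ?_⟩
  haveI := hM
  haveI : Algebra.IsIntegral O (DeltaRing O p n r) := Algebra.IsIntegral.of_finite O _
  have hcomap : M.comap (algebraMap O (DeltaRing O p n r)) = maximalIdeal O :=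
    IsLocalRing.eq_maximalIdeal (Ideal.isMaximal_comap_of_isIntegral_of_isMaximal M)
  have hmem : ∀ a ∈ maximalIdeal O, algebraMap O (DeltaRing O p n r) a ∈ M := fun a ha => by
    rwa [← Ideal.mem_comap, hcomap]
  letI : Field (DeltaRing O p n r ⧸ M) := Ideal.Quotient.field M
  haveI : CharP (DeltaRing O p n r ⧸ M) p :=
    (CharP.charP_iff_prime_eq_zero Fact.out).mpr (by
      rw [← map_natCast (Ideal.Quotient.mk M), Ideal.Quotient.eq_zero_iff_mem,
        ← map_natCast (algebraMap O (DeltaRing O p n r))]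
      exact hmem _ hp)
  have hgen : ∀ a, Ideal.Quotient.mk M (deltaUnit O p n r a : DeltaRing O p n r) = 1 := by
    intro a
    have ha : a ^ p ^ n = 1 := by
      refine Multiplicative.toAdd.injective (funext fun i => ?_)
      simp
    have h1 : (Ideal.Quotient.mk M (deltaUnit O p n r a : DeltaRing O p n r) - 1) ^ p ^ n = 0 := by
      rw [sub_pow_char_pow, one_pow, sub_eq_zero, ← map_pow, ← Units.val_pow_eq_pow_val, ← map_pow,
        ha, map_one, Units.val_one, map_one]
    exact sub_eq_zero.mp (pow_eq_zero_iff (pow_ne_zero n (Fact.out : p.Prime).ne_zero) |>.mp h1)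
  have halg : Ideal.Quotient.mkₐ O M =
      (Algebra.ofId O (DeltaRing O p n r ⧸ M)).comp (deltaAug O p n r) :=
    deltaHom_ext O p n r fun a => by
      rw [Ideal.Quotient.mkₐ_eq_mk, hgen, AlgHom.comp_apply, deltaAug_deltaUnit, map_one]
  refine (hkmax.eq_of_le hM.ne_top fun z hz => ?_).symm
  have hz' : residue O (deltaAug O p n r z) = 0 := hz
  have h := DFunLike.congr_fun halg z
  rw [AlgHom.comp_apply, Ideal.Quotient.mkₐ_eq_mk, Algebra.ofId_apply,
    IsScalarTower.algebraMap_apply O (DeltaRing O p n r) (DeltaRing O p n r ⧸ M),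
    Ideal.Quotient.algebraMap_eq, Ideal.Quotient.eq_zero_iff_mem.mpr
      (hmem _ (Ideal.Quotient.eq_zero_iff_mem.mp hz'))] at h
  exact Ideal.Quotient.eq_zero_iff_mem.mp h

theorem isAdicComplete_deltaRing (_hp : (p : O) ∈ maximalIdeal O)
    [IsLocalRing (DeltaRing O p n r)] :
    IsAdicComplete (maximalIdeal (DeltaRing O p n r)) (DeltaRing O p n r) := by
  haveI : IsLocalHom (algebraMap O (DeltaRing O p n r)) :=
    ⟨fun a ha => by
    have h := ha.map (deltaAug O p n r)
    rwa [AlgHom.commutes] at h⟩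
  exact IsLocalRing.isAdicComplete_of_module_finite (𝒪 := O)

theorem isLocalHom_deltaRing (_hp : (p : O) ∈ maximalIdeal O) :
    IsLocalHom (algebraMap O (DeltaRing O p n r)) := by
  exact ⟨fun a ha => by
    have h := ha.map (deltaAug O p n r)
    rwa [AlgHom.commutes] at h⟩

/-- The residual map of the group ring. -/
def deltaRes : DeltaRing O p n r →+* ResidueField O :=
  (residue O).comp (deltaAug O p n r).toRingHom

theorem deltaRes_surjective : Function.Surjective (deltaRes (O := O) p n r) := by
  intro x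
  obtain ⟨a, rfl⟩ := IsLocalRing.residue_surjective (R := O) x
  exact ⟨algebraMap O _ a, congrArg _ ((deltaAug O p n r).commutes a)⟩

/-- The map to the quotient of the power series ring. -/
theorem exists_deltaQuot :
    ∃ φ : DeltaRing O p n r →ₐ[O] MvPowerSeries (Fin r) O ⧸ levelIdeal p n r O,
      (∀ i, φ (deltaUnit O p n r (Multiplicative.ofAdd (Pi.single i 1)) : DeltaRing O p n r) =
        Ideal.Quotient.mk _ (1 + MvPowerSeries.X i)) ∧
      ∀ (z : DeltaRing O p n r) (f : MvPowerSeries (Fin r) O), Ideal.Quotient.mk _ f = φ z →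
        MvPowerSeries.constantCoeff f = deltaAug O p n r z := by
  classical
  let I := levelIdeal p n r O
  have hu : ∀ i, (Ideal.Quotient.mk I (1 + MvPowerSeries.X i)) ^ p ^ n = 1 := fun i => by
    rw [← map_pow, ← (Ideal.Quotient.mk I).map_one, Ideal.Quotient.eq]
    exact Ideal.subset_span ⟨i, rfl⟩
  let f : Multiplicative (Fin r → ZMod (p ^ n)) →* MvPowerSeries (Fin r) O ⧸ I :=
    { toFun := fun a => ∏ i, Ideal.Quotient.mk I (1 + MvPowerSeries.X i) ^
        (Multiplicative.toAdd a i).val
      map_one' := by simp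
      map_mul' := fun a b => by
        rw [← Finset.prod_mul_distrib]
        refine Finset.prod_congr rfl fun i _ => ?_
        rw [← pow_add, toAdd_mul, Pi.add_apply, ZMod.val_add, ← pow_eq_pow_mod _ (hu i)] }
  have hI : I ≤ RingHom.ker (MvPowerSeries.constantCoeff (σ := Fin r) (R := O)) := by
    refine Ideal.span_le.mpr ?_
    rintro _ ⟨j, rfl⟩
    simp [RingHom.mem_ker]
  let ε : (MvPowerSeries (Fin r) O ⧸ I) →ₐ[O] O :=
    { Ideal.Quotient.lift I (MvPowerSeries.constantCoeff (σ := Fin r) (R := O))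
        (fun x hx => hI hx) with
      commutes' := fun c => by
        show Ideal.Quotient.lift I _ _ (Ideal.Quotient.mk I (algebraMap O _ c)) = c
        exact (Ideal.Quotient.lift_mk I _ _).trans (by simp [MvPowerSeries.algebraMap_apply]) }
  let φ := AddMonoidAlgebra.lift O (MvPowerSeries (Fin r) O ⧸ I) (Fin r → ZMod (p ^ n)) f
  have hφ : ∀ a, φ (deltaUnit O p n r a : DeltaRing O p n r) = f a := fun a => by
    simp [φ, deltaUnit]
  refine ⟨φ, fun i => ?_, fun z g hg => ?_⟩
  · rw [hφ]
    show ∏ j, Ideal.Quotient.mk I (1 + MvPowerSeries.X j) ^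
      ((Pi.single i (1 : ZMod (p ^ n)) : Fin r → ZMod (p ^ n)) j).val = _
    rw [Finset.prod_eq_single i (fun j _ hj => by
      rw [Pi.single_eq_of_ne hj, ZMod.val_zero, pow_zero]) (by simp), Pi.single_eq_same]
    rcases eq_or_ne (p ^ n) 1 with h1 | h1
    · have h := hu i
      rw [h1, pow_one] at h
      rw [h, one_pow]
    · haveI : Fact (1 < p ^ n) := ⟨lt_of_le_of_ne (Nat.one_le_pow _ _ (Fact.out : p.Prime).pos) h1.symm⟩
      rw [ZMod.val_one, pow_one]
  · have hh : ε.comp φ = deltaAug O p n r := deltaHom_ext O p n r fun a => by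
      rw [AlgHom.comp_apply, hφ, deltaAug_deltaUnit]
      have hX : ∀ j, ε (Ideal.Quotient.mk I (1 + MvPowerSeries.X j)) = 1 := fun j =>
        (Ideal.Quotient.lift_mk I _ _).trans (by simp)
      show ε (∏ j : Fin r, _) = 1
      rw [map_prod]
      exact Finset.prod_eq_one fun j _ => by rw [map_pow, hX, one_pow]
    rw [← hh, AlgHom.comp_apply, ← hg]
    exact (Ideal.Quotient.lift_mk I _ _).symm

/-- The character of `(ℤ/Q)ˣ` at auxiliary primes of depth `n`: of `p`-power order, trivial
residually, with every generator of the group ring among its values. -/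
theorem exists_deltaChar (Qv : Fin r → ℕ) (hinj : Function.Injective Qv)
    (hprime : ∀ i, (Qv i).Prime) (hdvd : ∀ i, p ^ (n + 1) ∣ Qv i - 1) :
    ∃ η : (ZMod (∏ i, Qv i))ˣ →* (DeltaRing O p n r)ˣ,
      (∀ a, η a ^ p ^ n = 1) ∧ (∀ a, deltaAug O p n r (η a : DeltaRing O p n r) = 1) ∧
      ∀ i, ∃ a : (ZMod (∏ i, Qv i))ˣ,
        η a = deltaUnit O p n r (Multiplicative.ofAdd (Pi.single i 1)) ∧
        ∀ j, j ≠ i → ZMod.unitsMap (Finset.dvd_prod_of_mem Qv (Finset.mem_univ j)) a = 1 := by
  classical
  have hchar : ∀ i, ∃ χ : (ZMod (Qv i))ˣ →* Multiplicative (ZMod (p ^ n)),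
      Function.Surjective χ := by
    intro i
    haveI : Fact (Qv i).Prime := ⟨hprime i⟩
    have hd : p ^ n ∣ Nat.card (ZMod (Qv i))ˣ := by
      rw [Nat.card_eq_fintype_card, ZMod.card_units]
      exact (pow_dvd_pow p n.le_succ).trans (hdvd i)
    let e := zmodCyclicMulEquiv (G := (ZMod (Qv i))ˣ) inferInstance
    refine ⟨(AddMonoidHom.toMultiplicative
      (ZMod.castHom hd (ZMod (p ^ n))).toAddMonoidHom).comp e.symm.toMonoidHom, ?_⟩
    exact (ZMod.castHom_surjective hd).comp e.symm.surjective
  choose χ hχ using hchar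
  let v : (ZMod (∏ i, Qv i))ˣ →* Multiplicative (Fin r → ZMod (p ^ n)) :=
    { toFun := fun a => Multiplicative.ofAdd fun i =>
        Multiplicative.toAdd (χ i (ZMod.unitsMap (Finset.dvd_prod_of_mem Qv (Finset.mem_univ i)) a))
      map_one' := by simp [← ofAdd_zero, funext_iff]
      map_mul' := fun a b => by
        refine Multiplicative.toAdd.injective (funext fun i => ?_)
        simp }
  have hcop : Pairwise (Function.onFun Nat.Coprime Qv) := fun i j hij =>
    (Nat.coprime_primes (hprime i) (hprime j)).mpr (hinj.ne hij)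
  refine ⟨(deltaUnit O p n r).comp v, fun a => ?_, fun a => deltaAug_deltaUnit O p n r _, fun i => ?_⟩
  · rw [MonoidHom.comp_apply, ← map_pow]
    refine (congrArg _ (Multiplicative.toAdd.injective (funext fun j => ?_))).trans (map_one _)
    simp
  · obtain ⟨x, hx⟩ := hχ i (Multiplicative.ofAdd 1)
    let a : (ZMod (∏ i, Qv i))ˣ := Units.map (ZMod.prodEquivPi Qv hcop).symm.toMonoidHom
      (MulEquiv.piUnits.symm (Pi.mulSingle i x))
    have ha : ∀ j, ZMod.unitsMap (Finset.dvd_prod_of_mem Qv (Finset.mem_univ j)) a =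
        (Pi.mulSingle i x : ∀ j, (ZMod (Qv j))ˣ) j := fun j => by
      refine Units.ext ?_
      show ZMod.castHom (Finset.dvd_prod_of_mem Qv (Finset.mem_univ j)) (ZMod (Qv j))
        (a : ZMod (∏ i, Qv i)) = _
      exact (ZMod.prodEquivPi_apply Qv hcop _ j).symm.trans
        (congrFun ((ZMod.prodEquivPi Qv hcop).apply_symm_apply _) j)
    refine ⟨a, ?_, fun j hj => by rw [ha, Pi.mulSingle_eq_of_ne hj]⟩
    rw [MonoidHom.comp_apply]
    refine congrArg _ (Multiplicative.toAdd.injective (funext fun j => ?_))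
    show Multiplicative.toAdd (χ j _) = (Pi.single i (1 : ZMod (p ^ n)) : Fin r → _) j
    rw [ha]
    by_cases hj : j = i
    · subst hj
      simp [hx]
    · simp [Pi.mulSingle_eq_of_ne hj, Pi.single_eq_of_ne hj]

end FLTAgent.Lower.Levels
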