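import Fermat.Agent.Lower.Levels.BaseLevel
import Fermat.Agent.Lower.Levels.StabFrame
import Fermat.Agent.Lower.Levels.DeltaRing
import Fermat.Agent.Lower.Galois

/-!
# Auxiliary primes and stabilised eigenvalues

`AuxHyp` lists Taylor–Wiles primes of depth `n` outside `S`, `StabEig` is a choice at each of them
of one of the two (distinct) Frobenius eigenvalues as the eigenvalue of `U_v`. Such choices exist
(`AuxHyp.exists_stabEig`) and give the hypotheses of frames (`StabEig.famHyp`, `StabEig.parHyp`) and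
the data of stabilisation (`StabEig.stabData`).
-/

set_option autoImplicit false
set_option linter.unusedSectionVars false
set_option linter.style.haveILetI false

noncomputable section

namespace FLTAgent.Lower.Levels

open IsLocalRing (maximalIdeal ResidueField residue)

local notation "ℚ̄" => AlgebraicClosure ℚ
local notation "Γℚ" => (AlgebraicClosure ℚ ≃ₐ[ℚ] AlgebraicClosure ℚ)

variable {k : Type} [Field k] {p : ℕ} [Fact p.Prime] {S : Finset ℕ} {ρbar : ResidualGaloisRep k}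

/-- The auxiliary primes: depth `n`, outside `S`. -/
structure AuxHyp (p n : ℕ) (S : Finset ℕ) (ρbar : ResidualGaloisRep k) {r : ℕ} (Qv : Fin r → ℕ) :
    Prop where
  injective : Function.Injective Qv
  tw : ∀ i, IsTWPrime p n ρbar (Qv i)
  notMem : ∀ i, Qv i ∉ S

/-- Eigenvalues stabilised at the primes of `Q`: there `U_v` has one of the two Frobenius
eigenvalues. -/
structure StabEig (ρbar : ResidualGaloisRep k) (Q : ℕ) (θ' : AwayPrimes S → k) : Prop where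
  away : ∀ i : AwayPrimes S, ¬ (i.1 : ℕ) ∣ Q → θ' i = frobTrace ρbar i.1
  dvd : ∀ i : AwayPrimes S, (i.1 : ℕ) ∣ Q →
    θ' i * θ' i - frobTrace ρbar i.1 * θ' i + 1 = 0 ∧ θ' i * θ' i ≠ 1

variable {n r : ℕ} {Qv : Fin r → ℕ}

theorem AuxHyp.prime (hQ : AuxHyp p n S ρbar Qv) (i : Fin r) : (Qv i).Prime := (hQ.tw i).prime

theorem AuxHyp.ne_p (hQ : AuxHyp p n S ρbar Qv) (hS : p ∈ S) (i : Fin r) : Qv i ≠ p :=
  fun he => hQ.notMem i (he ▸ hS)

theorem AuxHyp.p_dvd (hQ : AuxHyp p n S ρbar Qv) (i : Fin r) : p ∣ Qv i - 1 :=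
  (dvd_pow_self p n.succ_ne_zero).trans (hQ.tw i).dvd

theorem AuxHyp.prod_ne_zero (hQ : AuxHyp p n S ρbar Qv) : (∏ i, Qv i) ≠ 0 :=
  Finset.prod_ne_zero_iff.mpr fun i _ => (hQ.prime i).ne_zero

theorem AuxHyp.squarefree (hQ : AuxHyp p n S ρbar Qv) : Squarefree (∏ i, Qv i) := by
  refine Finset.squarefree_prod_of_pairwise_isCoprime (fun i _ j _ hij => ?_)
    fun i _ => (hQ.prime i).squarefree
  exact Nat.coprime_iff_isRelPrime.mp
    ((Nat.coprime_primes (hQ.prime i) (hQ.prime j)).mpr (hQ.injective.ne hij))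

theorem AuxHyp.exists_eq (hQ : AuxHyp p n S ρbar Qv) {v : ℕ} (hv : v.Prime)
    (hd : v ∣ ∏ i, Qv i) : ∃ i, Qv i = v := by
  obtain ⟨i, -, hi⟩ := (hv.prime.dvd_finsetProd_iff Qv).mp hd
  exact ⟨i, ((Nat.prime_dvd_prime_iff_eq hv (hQ.prime i)).mp hi).symm⟩

theorem AuxHyp.coprime (hQ : AuxHyp p n S ρbar Qv) {N : ℕ} [NeZero N]
    (hN : ∀ l : ℕ, l.Prime → l ∣ N → l ∈ S) : Nat.Coprime N (∏ i, Qv i) := by
  refine Nat.coprime_of_dvd fun v hv hvN hvQ => ?_
  obtain ⟨i, rfl⟩ := hQ.exists_eq hv hvQ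
  exact hQ.notMem i (hN _ hv hvN)

theorem cast_eq_one_of_dvd {v : ℕ} (hchar : (p : k) = 0) (hv : v ≠ 0) (h : p ∣ v - 1) :
    (v : k) = 1 := by
  obtain ⟨c, hc⟩ := h
  rw [show v = p * c + 1 by omega, Nat.cast_add, Nat.cast_mul, hchar, zero_mul, zero_add,
    Nat.cast_one]

/-- The two Frobenius eigenvalues at an auxiliary prime. -/
theorem AuxHyp.exists_alpha (h : ResHyp p S ρbar) (hQ : AuxHyp p n S ρbar Qv) (i : Fin r) :
    ∃ α : k, α * α - frobTrace ρbar ⟨Qv i, hQ.prime i⟩ * α + 1 = 0 ∧ α * α ≠ 1 := by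
  have hl := hQ.prime i
  have hur := h.unramified _ hl (hQ.notMem i)
  obtain ⟨A, hA, φ, hφ⟩ := GalCommon.exists_place_frobenius hl
  obtain ⟨α, β, hne, hc⟩ := (hQ.tw i).distinct A hA φ hφ
  obtain ⟨ht, hd⟩ := Reps.trace_det_of_charpoly_eq (a := α + β) (d := α * β) ρbar.finrank_eq
    (hc.trans (by simp only [map_add, map_mul]; ring))
  have hdet : LinearMap.det (ρbar.ρ φ) = ((Qv i : ℕ) : k) :=
    det_frobenius (ρ := GaloisRepAdic.ofResidualGaloisRep ρbar) Fact.out hl (hQ.ne_p h.mem i) hA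
      h.det hφ
  have hαβ : α * β = 1 := by
    rw [← hd, hdet, cast_eq_one_of_dvd h.char hl.ne_zero (hQ.p_dvd i)]
  refine ⟨α, ?_, fun h1 => hne ?_⟩
  · rw [frobTrace_eq ρbar hl hur hA hφ, ht]
    linear_combination -hαβ
  · calc α = α * (α * β) := by rw [hαβ, mul_one]
      _ = β := by rw [← mul_assoc, h1, one_mul]

/-- Stabilised residual eigenvalues at the auxiliary primes exist. -/
theorem AuxHyp.exists_stabEig (h : ResHyp p S ρbar) (hQ : AuxHyp p n S ρbar Qv) :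
    ∃ θ' : AwayPrimes S → k, StabEig ρbar (∏ i, Qv i) θ' := by
  classical
  choose α hα using hQ.exists_alpha h
  refine ⟨fun l => if hl : ∃ i, Qv i = (l.1 : ℕ) then α hl.choose else frobTrace ρbar l.1,
    fun l hl => dif_neg fun ⟨i, hi⟩ => hl (hi ▸ Finset.dvd_prod_of_mem Qv (Finset.mem_univ i)),
    fun l hl => ?_⟩
  have hex := hQ.exists_eq l.1.2 hl
  have e : (⟨Qv hex.choose, hQ.prime hex.choose⟩ : Nat.Primes) = l.1 :=
    Subtype.ext hex.choose_spec
  have h' := hα hex.choose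
  rw [e] at h'
  simp only [dif_pos hex]
  exact h'

theorem StabEig.ne_zero {Q : ℕ} {θ' : AwayPrimes S → k} (hθ : StabEig ρbar Q θ')
    (i : AwayPrimes S) (hi : (i.1 : ℕ) ∣ Q) : θ' i ≠ 0 := fun h0 => by
  have h1 := (hθ.dvd i hi).1
  rw [h0] at h1
  simp at h1

variable [Finite k]

theorem StabEig.famHyp (h : ResHyp p S ρbar) {Q : ℕ} [NeZero Q] {θ' : AwayPrimes S → k}
    (hθ : StabEig ρbar Q θ') (L : ℕ) [NeZero L] {R : Type} [CommRing R] {σ : R →+* k}
    (hσ : Function.Surjective σ) : FamHyp L (awPr S) σ θ' :=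
  h.famHyp hσ θ' Q hθ.away fun i hi => hθ.ne_zero i hi

theorem StabEig.parHyp (h : ResHyp p S ρbar) {Q : ℕ} [NeZero Q] {θ' : AwayPrimes S → k}
    (hθ : StabEig ρbar Q θ') (L : ℕ) [NeZero L] : ParHyp L (awPr S) θ' :=
  h.parHyp L θ' Q hθ.away

/-- The data of stabilisation. -/
theorem StabEig.stabData (h : ResHyp p S ρbar) (hQ : AuxHyp p n S ρbar Qv) {N : ℕ} [NeZero N]
    (hN : ∀ l : ℕ, l.Prime → l ∣ N → l ∈ S) {θ' : AwayPrimes S → k}
    (hθ : StabEig ρbar (∏ i, Qv i) θ') :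
    StabData p N (∏ i, Qv i) (awPr S) S (fun i => frobTrace ρbar i.1) θ' where
  squarefree := hQ.squarefree
  coprime := hQ.coprime hN
  injective := Subtype.val_injective
  all_primes l hl := ⟨⟨l, hl⟩, rfl⟩
  not_dvd_p hd := by
    obtain ⟨i, hi⟩ := hQ.exists_eq Fact.out hd
    exact hQ.ne_p h.mem i hi
  cast_prime := h.char
  at_prime v hv hd := by
    obtain ⟨i, rfl⟩ := hQ.exists_eq hv hd
    exact ⟨cast_eq_one_of_dvd h.char hv.ne_zero (hQ.p_dvd i), ⟨⟨Qv i, hv⟩, hQ.notMem i⟩, rfl,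
      hθ.dvd ⟨⟨Qv i, hv⟩, hQ.notMem i⟩ hd⟩
  away i hi := hθ.away i hi
  order_three := h.order_three

end FLTAgent.Lower.Levels
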