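import Fermat.Agent.Lower.Levels.Frame
import Fermat.Prelude.Thm_IsLocalRing_isAdicComplete_of_module_finite

/-!
# Congruent frames

`exists_congruent_frame`: for two characters congruent modulo an ideal `I` inside the kernel of the
residual map, every frame of the first gives a frame of the second whose Hecke matrices are
congruent modulo `I`. Both are lifts of the same frame over `R/I`.
-/

set_option autoImplicit false
set_option linter.unusedSectionVars false
set_option linter.style.haveILetI false

noncomputable section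

open CongruenceSubgroup
open scoped MatrixGroups Matrix

namespace FLTAgent.Lower.Levels

open IsLocalRing (maximalIdeal ResidueField residue)

variable {R : Type} [CommRing R] [IsLocalRing R] [IsNoetherianRing R]
  [IsAdicComplete (maximalIdeal R) R]
  {L : ℕ} [NeZero L] {k : Type} [Field k] [Finite k] {ι : Type} {pr : ι → Nat.Primes} {σ : R →+* k}
  {θ : ι → k} {d : ℕ}

/-- **Congruent frames.** Characters congruent modulo `I` have frames with matrices congruent
modulo `I`. -/
theorem exists_congruent_frame (O : Type) [CommRing O] [IsDomain O] [IsDiscreteValuationRing O]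
    [IsAdicComplete (maximalIdeal O) O] [Algebra O R] [Module.Finite O R]
    [IsLocalHom (algebraMap O R)] (hfam : FamHyp L pr σ θ) {ψ ψ' : (ZMod L)ˣ →* Rˣ}
    (hψ : CharHyp ψ σ) (hψ' : CharHyp ψ' σ) (I : Ideal R) (hI : I ≤ RingHom.ker σ)
    (hcong : ∀ u, (ψ u : R) - (ψ' u : R) ∈ I) (F : Frame ψ pr σ θ d) :
    ∃ F' : Frame ψ' pr σ θ d,
      ∀ (s : MvPolynomial ι R) (i j : Fin d), F'.mat s i j - F.mat s i j ∈ I := by
  set R' := R ⧸ I
  set τ : R →+* R' := Ideal.Quotient.mk I
  have hτs : Function.Surjective τ := Ideal.Quotient.mk_surjective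
  let σ' : R' →+* k := Ideal.Quotient.lift I σ fun x hx => hI hx
  have hσσ : σ'.comp τ = σ := RingHom.ext fun _ => rfl
  haveI : Nontrivial R' := σ'.domain_nontrivial
  haveI : IsLocalRing R' := IsLocalRing.of_surjective' τ hτs
  haveI : Module.Finite O R' := Module.Finite.of_surjective
    (Ideal.Quotient.mkₐ O I).toLinearMap hτs
  haveI : IsNoetherianRing R' := Ideal.Quotient.isNoetherianRing I
  haveI : IsLocalHom (algebraMap O R') := ⟨fun a ha => by
    have h1 := ha.map σ'
    rw [show σ' (algebraMap O R' a) = σ (algebraMap O R a) from RingHom.congr_fun hσσ _] at h1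
    refine IsUnit.of_map (algebraMap O R) a (IsLocalRing.notMem_maximalIdeal.mp fun hm => h1.ne_zero ?_)
    rw [← RingHom.mem_ker,
      IsLocalRing.eq_maximalIdeal (RingHom.ker_isMaximal_of_surjective σ hfam.surjective)]
    exact hm⟩
  haveI : IsAdicComplete (maximalIdeal R') R' :=
    IsLocalRing.isAdicComplete_of_module_finite (𝒪 := O)
  let ψ₀ : (ZMod L)ˣ →* R'ˣ := (Units.map (τ : R →* R')).comp ψ
  have hc : ∀ u, τ (ψ u : R) = (ψ₀ u : R') := fun _ => rfl
  have hc' : ∀ u, τ (ψ' u : R) = (ψ₀ u : R') := fun u => (Ideal.Quotient.eq.mpr (hcong u)).symm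
  have hψ₀ : CharHyp ψ₀ σ' :=
    ⟨fun u => (RingHom.congr_fun hσσ _).trans (hψ.residual u), by
      show Units.map _ (ψ (-1)) = 1
      rw [hψ.neg_one, map_one]⟩
  have hfam₀ : FamHyp L pr σ' θ :=
    ⟨fun c => (hfam.surjective c).elim fun x hx => ⟨τ x, (RingHom.congr_fun hσσ x).trans hx⟩,
      hfam.two, hfam.not_eis, hfam.order_three⟩
  obtain ⟨Fk, hFk⟩ := exists_frame_reduce hfam hψ F
  haveI : RingHomSurjective τ := ⟨hτs⟩
  set g := coefMap (A := R) (B := R') τ.toSemilinearMap hc
  have hmem : ∀ i, g (F.vec i) ∈ h1Part ψ₀ pr σ' θ R' := fun i =>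
    map_mem_part g (fun s x => coefMap_famAct _ _ pr s x) (by rw [comap_eigIdeal, hσσ]) (F.mem i)
  obtain ⟨F₀, hF₀v, hF₀⟩ := exists_frame_of_lift hfam₀ hψ₀ Fk (fun i => g (F.vec i)) hmem fun i => by
    refine Eq.trans ?_ (hFk i)
    generalize F.vec i = x
    induction x using Submodule.Quotient.induction_on with
    | _ c =>
      exact congrArg Submodule.Quotient.mk
        (Subtype.ext (funext fun γ => RingHom.congr_fun hσσ ((c : Gamma0 L → R) γ)))
  obtain ⟨F', hF', -⟩ := exists_frame_lift_along hfam hψ' hfam₀ hψ₀ τ hτs hσσ hc' Fk F₀ hF₀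
  refine ⟨F', fun s i j => Ideal.Quotient.eq.mp ?_⟩
  have h1 := Frame.mat_of_isLift F (F' := F₀) (τ := τ) (hτ := hc)
    (fun i => (congrFun hF₀v i).symm) s
  have h2 := F'.mat_of_isLift hF' s
  exact congrFun (congrFun (h2.symm.trans h1) i) j

end FLTAgent.Lower.Levels
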