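import Fermat.Agent.Degen.Square
import Fermat.Agent.HeckeH.Cosets

/-!
# Coset identities at a prime `q`

Identities on characters of `Γ₀` between corestriction, the two degeneracy maps, `U_q` and the
Atkin–Lehner involution `alH` at `q`: `corH_degH_q`, `degH_q_corH`, `heckeH_degH_one`,
`heckeH_degH_q`, and `degH_q_corH_add`, `degH_one_corH_add` for the composites in the other order,
proved with explicit coset representatives.
-/

set_option autoImplicit false
set_option linter.unusedSectionVars false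
set_option linter.style.haveILetI false

open CongruenceSubgroup ModularCurve.Period
open scoped MatrixGroups
open FLTAgent.HeckeH (M2 matOf mkGamma0 heckeIdx heckeBeta heckeBetaT matOf_mul)
open FLTAgent.Degen (dMat degHom degH corH corFun subG0 dMat_mul_degHom)

noncomputable section

namespace FLTAgent.Lower.Levels

variable {N M : ℕ} [NeZero N] [NeZero M] {R A : Type*} [Semiring R] [AddCommGroup A] [Module R A]

/-- Corestriction computed with any full system of representatives. -/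
theorem corFun_eq_sum {ι : Type*} [Fintype ι] (t : ι → Gamma0 N)
    (hinj : ∀ i k, (matOf (t i * (t k)⁻¹)) 1 0 ∈ Ideal.span {(M : ℤ)} → i = k)
    (hcard : (subG0 N M).index = Fintype.card ι) (φ : Additive (Gamma0 M) →+ A) (g : Gamma0 N)
    (π : ι → ι) (x : ι → Gamma0 M)
    (h : ∀ i, matOf (t i) * matOf g = matOf (x i) * matOf (t (π i))) :
    corFun (N := N) φ (Additive.ofMul g) = ∑ i, φ (Additive.ofMul (x i)) := by
  classical
  haveI := Fintype.ofFinite (Gamma0 N ⧸ subG0 N M)
  have hmem : ∀ y : Gamma0 N, y ∈ subG0 N M ↔ (matOf y) 1 0 ∈ Ideal.span {(M : ℤ)} := fun y => by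
    show (y : SL(2, ℤ)) ∈ Gamma0 M ↔ _
    rw [Gamma0_mem, ZMod.intCast_zmod_eq_zero_iff_dvd, Ideal.mem_span_singleton]
    rfl
  let e0 : ι → Gamma0 N ⧸ subG0 N M := fun i => ((t i)⁻¹ : Gamma0 N)
  have he0 : Function.Injective e0 := fun i k hik => by
    refine hinj i k ((hmem _).mp ?_)
    have h1 := QuotientGroup.eq.mp hik
    rwa [inv_inv] at h1
  have hbij : Function.Bijective e0 := (Fintype.bijective_iff_injective_and_card e0).mpr
    ⟨he0, by rw [← hcard, Subgroup.index, Nat.card_eq_fintype_card]⟩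
  let e : ι ≃ Gamma0 N ⧸ subG0 N M := Equiv.ofBijective e0 hbij
  let s : Gamma0 N ⧸ subG0 N M → Gamma0 N := fun q => (t (e.symm q))⁻¹
  have hs : ∀ q, (s q : Gamma0 N ⧸ subG0 N M) = q := fun q => e.apply_symm_apply q
  rw [Degen.corFun_apply φ s hs g]
  refine (Fintype.sum_equiv e _ _ fun i => ?_).symm
  have hy : t i * g * (t (π i))⁻¹ ∈ subG0 N M := by
    rw [hmem]
    have h1 : matOf (t i * g * (t (π i))⁻¹) = matOf (x i) := by
      rw [matOf_mul, matOf_mul, h i, Matrix.mul_assoc, ← matOf_mul, mul_inv_cancel,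
        HeckeH.matOf_one, Matrix.mul_one]
    rw [h1, Ideal.mem_span_singleton]
    exact HeckeH.matOf_dvd (x i)
  have hnext : g⁻¹ • e i = e (π i) := by
    show ((g⁻¹ * (t i)⁻¹ : Gamma0 N) : Gamma0 N ⧸ subG0 N M) = ((t (π i))⁻¹ : Gamma0 N)
    rw [QuotientGroup.eq]
    simpa [mul_assoc] using hy
  refine congrArg (fun y : Gamma0 M => φ (Additive.ofMul y)) (HeckeH.matOf_injective ?_)
  show matOf (x i) = matOf ((s (e i))⁻¹ * (g * s (g⁻¹ • e i)) : Gamma0 N)
  simp only [s, hnext, Equiv.symm_apply_apply, inv_inv, matOf_mul, ← Matrix.mul_assoc, h i]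
  rw [Matrix.mul_assoc, ← matOf_mul, mul_inv_cancel, HeckeH.matOf_one, Matrix.mul_one]

theorem index_subG0_mul_prime {q : ℕ} (hq : q.Prime) (hM : M = N * q) :
    (subG0 N M).index = Fintype.card (heckeIdx N q) := by
  classical
  subst hM
  have h := Degen.index_subG0 (N := N) (M := N * q) (dvd_mul_right N q)
  rw [ModularCosets.dedekindPsi_mul_prime N hq] at h
  rw [Nat.eq_of_mul_eq_mul_right (ModularCosets.dedekindPsi_pos N) h]
  split_ifs with h'
  · rw [← Fintype.card_congr (HeckeH.idxEquivU h'), Fintype.card_fin]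
  · rw [Fintype.card_congr (HeckeH.idxEquivT h'), Fintype.card_option, Fintype.card_fin]

/-- `[[1, 0], [-N j, 1]]`. -/
def lowerU (N j : ℕ) : Gamma0 N :=
  mkGamma0 1 0 (-((N : ℤ) * j)) 1 (by ring) (dvd_neg.mpr (dvd_mul_right _ _))

theorem matOf_lowerU (N j : ℕ) : matOf (lowerU N j) = !![1, 0; -((N : ℤ) * j), 1] :=
  HeckeH.matOf_mkGamma0 _ _ _ _ _ _

theorem matOf_inv (γ : Gamma0 N) : matOf γ⁻¹ = (matOf γ).adjugate :=
  Matrix.SpecialLinearGroup.coe_inv _

theorem eq_of_dvd_mul_sub {q : ℕ} (hM : M = N * q) {i k : Fin q}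
    (h : (M : ℤ) ∣ (N : ℤ) * (((k : ℕ) : ℤ) - (i : ℕ))) : i = k := by
  subst hM
  push_cast at h
  have h2 : (q : ℤ) ∣ ((k : ℕ) : ℤ) - (i : ℕ) :=
    (mul_dvd_mul_iff_left (by exact_mod_cast NeZero.ne N)).mp h
  have h3 : ((k : ℕ) : ℤ) - (i : ℕ) = 0 := by
    refine Int.eq_zero_of_abs_lt_dvd h2 ?_
    rw [abs_lt]
    have := i.2
    have := k.2
    omega
  exact Fin.ext (by omega)

section Divides

variable {q : ℕ} [NeZero q] (hq : q.Prime) (hM : M = N * q) (hqN : q ∣ N)

/-- The representative attached to an index when `q ∣ N`. -/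
def idxRep (i : heckeIdx N q) : Gamma0 N := lowerU N (i.1.elim 0 Fin.val)

include hM hqN in
theorem idxRep_inj (i k : heckeIdx N q)
    (h : (matOf (idxRep i * (idxRep k)⁻¹)) 1 0 ∈ Ideal.span {(M : ℤ)}) : i = k := by
  obtain ⟨_ | a, ha⟩ := i
  · exact absurd hqN (ha rfl)
  obtain ⟨_ | b, hb⟩ := k
  · exact absurd hqN (hb rfl)
  rw [Ideal.mem_span_singleton, matOf_mul, matOf_inv, idxRep, idxRep, matOf_lowerU, matOf_lowerU,
    Matrix.adjugate_fin_two_of, Matrix.mul_fin_two] at h
  simp at h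
  have : a = b := eq_of_dvd_mul_sub hM (by rw [mul_sub]; simpa [← sub_eq_neg_add] using h)
  subst this
  rfl

include hqN in
theorem dMat_mul_idxRep (i : heckeIdx N q) :
    dMat q * matOf (idxRep i) = heckeBetaT i := by
  obtain ⟨_ | a, ha⟩ := i
  · exact absurd hqN (ha rfl)
  rw [idxRep, matOf_lowerU, HeckeH.heckeBetaT_some, dMat, Matrix.mul_fin_two]
  simp

include hM hqN in
/-- The corestriction of the pullback along `z ↦ q z` is `heckeHT`. -/
theorem corH_degH_q (h : N * q ∣ M) (φ : Period.H N R A) :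
    corH R A (degH R A q h φ) = HeckeH.heckeHT N hq R A φ := by
  refine Subtype.ext (AddMonoidHom.ext fun γ => ?_)
  obtain ⟨g, rfl⟩ := Additive.ofMul.surjective γ
  rw [Degen.coe_corH, HeckeH.coe_heckeHT, HeckeH.Reps.transfer_apply]
  set B := HeckeH.heckeRepsT N hq
  let p : heckeIdx N q → heckeIdx N q := B.perm g
  have key : ∀ i, dMat q * matOf (idxRep i * g * (idxRep (p i))⁻¹) =
      matOf (B.coc g i) * dMat q := by
    intro i
    have h1 := B.spec g i
    rw [HeckeH.heckeRepsT_β, HeckeH.heckeRepsT_β, ← dMat_mul_idxRep hqN,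
      ← dMat_mul_idxRep hqN] at h1
    rw [matOf_mul, matOf_mul, ← Matrix.mul_assoc, ← Matrix.mul_assoc, h1, Matrix.mul_assoc,
      Matrix.mul_assoc, ← matOf_mul, mul_inv_cancel, HeckeH.matOf_one, Matrix.mul_one]
  have hmem : ∀ i, ((idxRep i * g * (idxRep (p i))⁻¹ : Gamma0 N) : SL(2, ℤ)) ∈ Gamma0 M := by
    intro i
    have h2 := congrFun (congrFun (key i) 1) 0
    rw [Gamma0_mem, ZMod.intCast_zmod_eq_zero_iff_dvd]
    show (M : ℤ) ∣ matOf (idxRep i * g * (idxRep (p i))⁻¹) 1 0
    generalize idxRep i * g * (idxRep (p i))⁻¹ = y at h2 ⊢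
    simp [dMat, Matrix.mul_apply] at h2
    rw [h2, hM, Nat.cast_mul]
    exact mul_dvd_mul_right (HeckeH.matOf_dvd _) _
  let x : heckeIdx N q → Gamma0 M := fun i => ⟨_, hmem i⟩
  rw [corFun_eq_sum idxRep (idxRep_inj hM hqN) (index_subG0_mul_prime hq hM) _ g p x fun i => ?_]
  · refine Finset.sum_congr rfl fun i _ => ?_
    rw [Degen.degH_apply]
    refine congrArg (fun y => (φ : Additive (Gamma0 N) →+ A) (Additive.ofMul y))
      (HeckeH.matOf_injective (HeckeH.mul_right_cancel_of_det_ne (Degen.det_dMat (d := q)) ?_))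
    rw [← dMat_mul_degHom]
    exact key i
  · show matOf (idxRep i) * matOf g = matOf (idxRep i * g * (idxRep (p i))⁻¹) * matOf (idxRep (p i))
    rw [← matOf_mul, ← matOf_mul, inv_mul_cancel_right]

include hM hqN in
/-- The pullback along `z ↦ q z` of the corestriction is `heckeHT`. -/
theorem degH_q_corH (h : N * q ∣ M) (φ : Period.H M R A) :
    degH R A q h (corH R A φ) = HeckeH.heckeHT M hq R A φ := by
  refine Subtype.ext (AddMonoidHom.ext fun γ => ?_)
  obtain ⟨γ, rfl⟩ := Additive.ofMul.surjective γ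
  rw [Degen.degH_apply, Degen.coe_corH, HeckeH.coe_heckeHT, HeckeH.Reps.transfer_apply]
  set B := HeckeH.heckeRepsT M hq
  have hqM : q ∣ M := hM ▸ dvd_mul_left q N
  let e : heckeIdx N q ≃ heckeIdx M q :=
    Equiv.subtypeEquivRight fun _ => forall_congr' fun _ => by simp [hqN, hqM]
  have hβ : ∀ i, matOf (idxRep i) * dMat q = heckeBetaT (e i) := by
    rintro ⟨_ | a, ha⟩
    · exact absurd hqN (ha rfl)
    show matOf (lowerU N a) * dMat q = heckeBetaT (N := M) ⟨some a, fun h => nomatch h⟩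
    rw [matOf_lowerU, HeckeH.heckeBetaT_some (N := M) (ℓ := q), dMat, Matrix.mul_fin_two]
    subst hM
    simp
    ring
  rw [← Equiv.sum_comp e]
  refine corFun_eq_sum idxRep (idxRep_inj hM hqN) (index_subG0_mul_prime hq hM) _ _
    (fun i => e.symm (B.perm γ (e i))) (fun i => B.coc γ (e i)) fun i => ?_
  refine HeckeH.mul_right_cancel_of_det_ne (Degen.det_dMat (d := q)) ?_
  rw [Matrix.mul_assoc, ← dMat_mul_degHom q h γ, ← Matrix.mul_assoc, hβ, Matrix.mul_assoc, hβ,
    e.apply_symm_apply]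
  exact B.spec γ (e i)

include hq hM hqN in
theorem corH_degH_one (h : N * 1 ∣ M) (φ : Period.H N R A) :
    corH R A (degH R A 1 h φ) = q • φ := by
  classical
  rw [Degen.corH_degH, index_subG0_mul_prime hq hM,
    ← Fintype.card_congr (HeckeH.idxEquivU hqN), Fintype.card_fin]

end Divides

section UDeg

variable {q : ℕ} [NeZero q] (hq : q.Prime)

/-- `U_q` commutes with the inclusion. -/
theorem heckeH_degH_one (hqN : q ∣ N) (h : N * 1 ∣ M) (φ : Period.H N R A) :
    HeckeH.heckeH M hq R A (degH R A 1 h φ) = degH R A 1 h (HeckeH.heckeH N hq R A φ) := by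
  refine Subtype.ext (AddMonoidHom.ext fun γ => ?_)
  obtain ⟨γ, rfl⟩ := Additive.ofMul.surjective γ
  rw [Degen.degH_apply, HeckeH.coe_heckeH, HeckeH.coe_heckeH]
  have hqM : q ∣ M := hqN.trans ((dvd_mul_right N 1).trans h)
  let e : heckeIdx M q ≃ heckeIdx N q :=
    Equiv.subtypeEquivRight fun _ => forall_congr' fun _ => by simp [hqN, hqM]
  exact (Degen.transfer_comp_conj (HeckeH.heckeReps N hq) (HeckeH.heckeReps M hq) (dMat 1)
    Degen.det_dMat (degHom 1 h) (dMat_mul_degHom 1 h) e (fun _ => 1)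
    (fun i => by
      rw [Degen.dMat_one, Matrix.one_mul, Matrix.mul_one, HeckeH.matOf_one, Matrix.one_mul]
      rfl) R (φ : Additive (Gamma0 N) →+ A) γ).symm

/-- `[[1, j], [0, 1]]`. -/
def upperU (N j : ℕ) : Gamma0 N := mkGamma0 1 j 0 1 (by ring) (dvd_zero _)

/-- `U_q` after the pullback along `z ↦ q z`. -/
theorem heckeH_degH_q (h : N * q ∣ M) (h1 : N * 1 ∣ M) (φ : Period.H N R A) :
    HeckeH.heckeH M hq R A (degH R A q h φ) = q • degH R A 1 h1 φ := by
  classical
  refine Subtype.ext (AddMonoidHom.ext fun γ => ?_)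
  obtain ⟨γ, rfl⟩ := Additive.ofMul.surjective γ
  rw [HeckeH.coe_heckeH, HeckeH.Reps.transfer_apply, Submodule.coe_smul_of_tower,
    AddMonoidHom.smul_apply, Degen.degH_apply]
  set B := HeckeH.heckeReps M hq
  have hqM : q ∣ M := (dvd_mul_left q N).trans h
  let T : heckeIdx M q → Gamma0 N := fun i => upperU N (i.1.elim 0 Fin.val)
  have hT : ∀ i : heckeIdx M q, dMat q * heckeBeta i = (q : ℤ) • matOf (T i) := by
    rintro ⟨_ | a, ha⟩
    · exact absurd hqM (ha rfl)
    simp only [T, upperU, HeckeH.matOf_mkGamma0, HeckeH.heckeBeta_some, dMat, Matrix.mul_fin_two]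
    simp
  have key : ∀ i, degHom q h (B.coc γ i) = T i * degHom 1 h1 γ * (T (B.perm γ i))⁻¹ := by
    intro i
    have h2 := congrArg (dMat q * ·) (B.spec γ i)
    simp only [← Matrix.mul_assoc] at h2
    rw [dMat_mul_degHom q h, Matrix.mul_assoc (matOf (degHom q h (B.coc γ i))),
      show B.β i = heckeBeta i from rfl, show B.β (B.perm γ i) = heckeBeta (B.perm γ i) from rfl,
      hT, hT, Matrix.smul_mul, Matrix.mul_smul] at h2
    have h3 : matOf (T i) * matOf γ = matOf (degHom q h (B.coc γ i)) * matOf (T (B.perm γ i)) := by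
      ext a b
      exact mul_left_cancel₀ (show (q : ℤ) ≠ 0 by exact_mod_cast NeZero.ne q)
        (congrFun (congrFun h2 a) b)
    refine eq_mul_inv_of_mul_eq (HeckeH.matOf_injective ?_)
    rw [matOf_mul, matOf_mul, ← h3]
    congr 1
    exact (congrArg (fun y : SL(2, ℤ) => (y : M2)) (Degen.degHom_one_coe h1 γ)).symm
  simp only [Degen.degH_apply, key, ofMul_mul, ofMul_inv, map_add, map_neg,
    Finset.sum_add_distrib, Finset.sum_neg_distrib]
  rw [show ∑ i, (φ : Additive (Gamma0 N) →+ A) (Additive.ofMul (T (B.perm γ i))) =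
      ∑ i, (φ : Additive (Gamma0 N) →+ A) (Additive.ofMul (T i)) from
    Equiv.sum_comp (B.permEquiv γ) fun i => (φ : Additive (Gamma0 N) →+ A) (Additive.ofMul (T i))]
  rw [Finset.sum_const, Finset.card_univ, ← Fintype.card_congr (HeckeH.idxEquivU hqM),
    Fintype.card_fin]
  abel

/-- Degeneracy maps compose. -/
theorem degH_degH_comm {L : ℕ} [NeZero L] (hNL : N * 1 ∣ M) (hNLq : N * q ∣ M)
    (hML : M * 1 ∣ L) (hMLq : M * q ∣ L) (φ : Period.H N R A) :
    degH R A 1 hML (degH R A q hNLq φ) = degH R A q hMLq (degH R A 1 hNL φ) := by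
  refine Subtype.ext (AddMonoidHom.ext fun γ => ?_)
  obtain ⟨γ, rfl⟩ := Additive.ofMul.surjective γ
  simp only [Degen.degH_apply]
  refine congrArg (fun y => (φ : Additive (Gamma0 N) →+ A) (Additive.ofMul y))
    (HeckeH.matOf_injective (HeckeH.mul_right_cancel_of_det_ne (Degen.det_dMat (d := q)) ?_))
  have h1 : ∀ {N' M' : ℕ} (h : N' * 1 ∣ M') (y : Gamma0 M'),
      matOf (degHom 1 h y) = matOf y := fun h y =>
    congrArg (fun z : SL(2, ℤ) => (z : M2)) (Degen.degHom_one_coe h y)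
  rw [h1, ← dMat_mul_degHom, ← dMat_mul_degHom, h1]

end UDeg

section AtkinLehner

variable {q : ℕ} [NeZero q] (hq : q.Prime) (hM : M = N * q) (hqN : ¬ q ∣ N)

theorem exists_bezout : ∃ x y : ℤ, (q : ℤ) * x - (N : ℤ) * y = 1 ∨ ¬ (q.Prime ∧ ¬ q ∣ N) := by
  by_cases h : q.Prime ∧ ¬ q ∣ N
  · obtain ⟨a, b, hab⟩ : IsCoprime (q : ℤ) (N : ℤ) :=
      Int.isCoprime_iff_gcd_eq_one.mpr (by
        simpa [Int.gcd] using (Nat.Prime.coprime_iff_not_dvd h.1).mpr h.2)
    exact ⟨a, -b, Or.inl (by linear_combination hab)⟩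
  · exact ⟨0, 0, Or.inr h⟩

/-- The upper left entry of `alElt`. -/
def alX (N q : ℕ) [NeZero N] [NeZero q] : ℤ := (exists_bezout (N := N) (q := q)).choose

/-- The upper right entry of `alElt`. -/
def alY (N q : ℕ) [NeZero N] [NeZero q] : ℤ := (exists_bezout (N := N) (q := q)).choose_spec.choose

include hq hqN in
theorem alX_spec : (q : ℤ) * alX N q - (N : ℤ) * alY N q = 1 :=
  (exists_bezout (N := N) (q := q)).choose_spec.choose_spec.resolve_right fun h => h ⟨hq, hqN⟩

/-- `[[x, y], [N, q]]`, with `q x - N y = 1`. -/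
def alElt : Gamma0 N :=
  mkGamma0 (alX N q) (alY N q) N q (by linear_combination alX_spec hq hqN) dvd_rfl

theorem matOf_alElt : matOf (alElt hq hqN) = !![alX N q, alY N q; (N : ℤ), (q : ℤ)] :=
  HeckeH.matOf_mkGamma0 _ _ _ _ _ _

/-- The Atkin–Lehner matrix `[[q x, y], [q N, q]]`. -/
def alMat : M2 := matOf (alElt hq hqN) * dMat q

theorem alMat_eq :
    alMat hq hqN = !![(q : ℤ) * alX N q, alY N q; (q : ℤ) * N, (q : ℤ)] := by
  rw [alMat, matOf_alElt, dMat, Matrix.mul_fin_two]
  simp [mul_comm]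

theorem det_alMat : (alMat hq hqN).det ≠ 0 := by
  rw [alMat, Matrix.det_mul, HeckeH.det_matOf, one_mul]
  exact Degen.det_dMat

include hM in
theorem alConj_mem (γ : Gamma0 M) :
    ((alElt hq hqN * degHom q (dvd_of_eq hM.symm) γ * (alElt hq hqN)⁻¹ : Gamma0 N) : SL(2, ℤ)) ∈
      Gamma0 M := by
  rw [Gamma0_mem, ZMod.intCast_zmod_eq_zero_iff_dvd]
  show (M : ℤ) ∣ matOf (alElt hq hqN * degHom q _ γ * (alElt hq hqN)⁻¹) 1 0
  set g := degHom q (dvd_of_eq hM.symm) γ
  have h10 := congrFun (congrFun (dMat_mul_degHom q (dvd_of_eq hM.symm) γ) 1) 0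
  have h01 := congrFun (congrFun (dMat_mul_degHom q (dvd_of_eq hM.symm) γ) 0) 1
  simp [dMat, Matrix.mul_apply] at h10 h01
  obtain ⟨c, hc⟩ := HeckeH.matOf_dvd γ
  rw [matOf_mul, matOf_mul, matOf_inv, matOf_alElt, Matrix.eta_fin_two (matOf g),
    Matrix.adjugate_fin_two_of, Matrix.mul_fin_two, Matrix.mul_fin_two]
  simp
  refine ⟨matOf g 0 0 + (q : ℤ) * c - (N : ℤ) * matOf γ 0 1 - matOf g 1 1, ?_⟩
  subst hM
  push_cast at hc ⊢
  rw [hc] at h10
  linear_combination (-(q : ℤ)) * h10 + (N : ℤ) * (N : ℤ) * h01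

/-- Conjugation by the Atkin–Lehner matrix. -/
def alConj : Gamma0 M →* Gamma0 M where
  toFun γ := ⟨_, alConj_mem hq hM hqN γ⟩
  map_one' := Subtype.ext (by simp)
  map_mul' γ δ := by
    have h : ∀ a b c : Gamma0 N, c * (a * b) * c⁻¹ = c * a * c⁻¹ * (c * b * c⁻¹) := fun a b c => by
      group
    have key : alElt hq hqN * degHom q (dvd_of_eq hM.symm) (γ * δ) * (alElt hq hqN)⁻¹ =
        alElt hq hqN * degHom q (dvd_of_eq hM.symm) γ * (alElt hq hqN)⁻¹ *
          (alElt hq hqN * degHom q (dvd_of_eq hM.symm) δ * (alElt hq hqN)⁻¹) := by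
      rw [map_mul]
      exact h _ _ _
    exact Subtype.ext (congrArg (fun z : Gamma0 N => (z : SL(2, ℤ))) key)

theorem matOf_alConj (γ : Gamma0 M) :
    matOf (alConj hq hM hqN γ) =
      matOf (alElt hq hqN * degHom q (dvd_of_eq hM.symm) γ * (alElt hq hqN)⁻¹) := rfl

theorem alMat_mul (γ : Gamma0 M) :
    alMat hq hqN * matOf γ = matOf (alConj hq hM hqN γ) * alMat hq hqN := by
  rw [matOf_alConj, alMat, Matrix.mul_assoc, dMat_mul_degHom q (dvd_of_eq hM.symm),
    ← Matrix.mul_assoc, ← Matrix.mul_assoc, ← matOf_mul, ← matOf_mul, inv_mul_cancel_right]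

/-- The Atkin–Lehner involution at `q` on characters. -/
def alH (R A : Type*) [Semiring R] [AddCommGroup A] [Module R A] :
    Module.End R (Period.H M R A) where
  toFun φ := ⟨(φ : Additive (Gamma0 M) →+ A).comp (MonoidHom.toAdditive (alConj hq hM hqN)),
    ⟨fun γ hγ => Period.H_parabolic φ (γ := alConj hq hM hqN γ) (by
        show (matOf (alConj hq hM hqN γ)).trace ^ 2 = 4
        rw [← HeckeH.trace_eq_of_semiconj (det_alMat hq hqN) (alMat_mul hq hM hqN γ)]
        exact hγ),
      fun _ hγ => Period.H_finOrder φ ((alConj hq hM hqN).isOfFinOrder hγ)⟩⟩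
  map_add' _ _ := rfl
  map_smul' _ _ := rfl

theorem alH_apply (φ : Period.H M R A) (γ : Gamma0 M) :
    (alH hq hM hqN R A φ : Additive (Gamma0 M) →+ A) (Additive.ofMul γ) =
      (φ : Additive (Gamma0 M) →+ A) (Additive.ofMul (alConj hq hM hqN γ)) := rfl

theorem alH_degH_one (h : N * q ∣ M) (h1 : N * 1 ∣ M) (φ : Period.H N R A) :
    alH hq hM hqN R A (degH R A 1 h1 φ) = degH R A q h φ := by
  refine Subtype.ext (AddMonoidHom.ext fun γ => ?_)
  obtain ⟨γ, rfl⟩ := Additive.ofMul.surjective γ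
  rw [alH_apply, Degen.degH_apply, Degen.degH_apply,
    show degHom 1 h1 (alConj hq hM hqN γ) =
      alElt hq hqN * degHom q h γ * (alElt hq hqN)⁻¹ from Subtype.ext (Degen.degHom_one_coe h1 _)]
  simp only [ofMul_mul, ofMul_inv, map_add, map_neg]
  abel

theorem alH_alH (φ : Period.H M R A) : alH hq hM hqN R A (alH hq hM hqN R A φ) = φ := by
  refine Subtype.ext (AddMonoidHom.ext fun γ => ?_)
  obtain ⟨γ, rfl⟩ := Additive.ofMul.surjective γ
  rw [alH_apply, alH_apply]
  set x := alX N q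
  set y := alY N q
  have hxy := alX_spec (N := N) hq hqN
  let ε : Gamma0 M := mkGamma0 ((q : ℤ) * x * x + (N : ℤ) * y) (y * (x + 1))
    ((q : ℤ) * N * (x + 1)) ((N : ℤ) * y + q)
    (by linear_combination ((q : ℤ) * x - (N : ℤ) * y + 1) * hxy)
    (by subst hM; push_cast; exact ⟨x + 1, by ring⟩)
  have hsq : alMat hq hqN * alMat hq hqN = (q : ℤ) • matOf ε := by
    rw [alMat_eq, HeckeH.matOf_mkGamma0, Matrix.mul_fin_two]
    ext a b
    fin_cases a <;> fin_cases b <;> simp <;> ring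
  have hconj : alConj hq hM hqN (alConj hq hM hqN γ) = ε * γ * ε⁻¹ := by
    refine eq_mul_inv_of_mul_eq (HeckeH.matOf_injective ?_)
    rw [matOf_mul, matOf_mul]
    have h2 : alMat hq hqN * alMat hq hqN * matOf γ =
        matOf (alConj hq hM hqN (alConj hq hM hqN γ)) * (alMat hq hqN * alMat hq hqN) := by
      rw [Matrix.mul_assoc, alMat_mul hq hM hqN, ← Matrix.mul_assoc, alMat_mul hq hM hqN,
        Matrix.mul_assoc]
    rw [hsq, Matrix.smul_mul, Matrix.mul_smul] at h2
    ext a b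
    exact mul_left_cancel₀ (show (q : ℤ) ≠ 0 by exact_mod_cast NeZero.ne q)
      (congrFun (congrFun h2 a) b).symm
  rw [hconj]
  simp only [ofMul_mul, ofMul_inv, map_add, map_neg]
  abel

include hM hqN in
/-- `z ↦ q z` after corestriction is `U_qᵗ + w`. -/
theorem degH_q_corH_add (h : N * q ∣ M) (φ : Period.H M R A) :
    degH R A q h (corH R A φ) = HeckeH.heckeHT M hq R A φ + alH hq hM hqN R A φ := by
  classical
  refine Subtype.ext (AddMonoidHom.ext fun γ => ?_)
  obtain ⟨γ, rfl⟩ := Additive.ofMul.surjective γ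
  rw [Degen.degH_apply, Degen.coe_corH, Submodule.coe_add, AddMonoidHom.add_apply, alH_apply,
    HeckeH.coe_heckeHT, HeckeH.Reps.transfer_apply]
  set B := HeckeH.heckeRepsT M hq
  have hqM : q ∣ M := hM ▸ dvd_mul_left q N
  let e : Fin q ≃ heckeIdx M q := HeckeH.idxEquivU hqM
  let t : Option (Fin q) → Gamma0 N := fun o => o.elim (alElt hq hqN) fun j => lowerU N j
  have hinj : ∀ i k, (matOf (t i * (t k)⁻¹)) 1 0 ∈ Ideal.span {(M : ℤ)} → i = k := by
    intro i k hik
    rw [Ideal.mem_span_singleton, matOf_mul, matOf_inv] at hik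
    rcases i with _ | i <;> rcases k with _ | k
    · rfl
    · exfalso
      simp [t, matOf_alElt, matOf_lowerU, Matrix.adjugate_fin_two_of, Matrix.mul_apply,
        Fin.sum_univ_two] at hik
      subst hM
      push_cast at hik
      have h1 : (N : ℤ) * q ∣ (N : ℤ) := by
        have := hik.sub (dvd_mul_of_dvd_right (dvd_refl ((N : ℤ) * q)) ((k : ℕ) : ℤ))
        ring_nf at this ⊢
        exact this
      have h2 : (q : ℤ) ∣ 1 := (mul_dvd_mul_iff_left
        (show (N : ℤ) ≠ 0 by exact_mod_cast NeZero.ne N)).mp (by rwa [mul_one])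
      exact hq.one_lt.ne' (by exact_mod_cast Int.eq_one_of_dvd_one (by positivity) h2)
    · exfalso
      simp [t, matOf_alElt, matOf_lowerU, Matrix.adjugate_fin_two_of, Matrix.mul_apply,
        Fin.sum_univ_two] at hik
      subst hM
      push_cast at hik
      have h1 : (N : ℤ) * q ∣ (N : ℤ) := by
        have := (hik.add (dvd_mul_of_dvd_right (dvd_refl ((N : ℤ) * q)) ((i : ℕ) : ℤ))).neg_right
        ring_nf at this ⊢
        exact this
      have h2 : (q : ℤ) ∣ 1 := (mul_dvd_mul_iff_left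
        (show (N : ℤ) ≠ 0 by exact_mod_cast NeZero.ne N)).mp (by rwa [mul_one])
      exact hq.one_lt.ne' (by exact_mod_cast Int.eq_one_of_dvd_one (by positivity) h2)
    · simp [t, matOf_lowerU, Matrix.adjugate_fin_two_of, Matrix.mul_apply,
        Fin.sum_univ_two] at hik
      exact congrArg some (eq_of_dvd_mul_sub hM (by rw [mul_sub]; simpa [← sub_eq_neg_add] using hik))
  have hcard : (subG0 N M).index = Fintype.card (Option (Fin q)) := by
    rw [index_subG0_mul_prime hq hM, Fintype.card_congr (HeckeH.idxEquivT hqN)]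
  have hβ : ∀ j, matOf (lowerU N (j : Fin q)) * dMat q = heckeBetaT (e j) := by
    intro j
    show _ = heckeBetaT (N := M) ⟨some j, fun h => nomatch h⟩
    rw [matOf_lowerU, HeckeH.heckeBetaT_some (N := M) (ℓ := q), dMat, Matrix.mul_fin_two]
    subst hM
    simp
    ring
  let π : Option (Fin q) → Option (Fin q) := Option.map fun j => e.symm (B.perm γ (e j))
  let xx : Option (Fin q) → Gamma0 M :=
    fun o => o.elim (alConj hq hM hqN γ) fun j => B.coc γ (e j)
  rw [corFun_eq_sum t hinj hcard _ _ π xx ?_, Fintype.sum_option, add_comm]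
  · exact congrArg₂ (· + ·) (Equiv.sum_comp e
      fun i => (φ : Additive (Gamma0 M) →+ A) (Additive.ofMul (B.coc γ i))) rfl
  rintro (_ | j)
  · show matOf (alElt hq hqN) * matOf (degHom q h γ) =
      matOf (alConj hq hM hqN γ) * matOf (alElt hq hqN)
    rw [matOf_alConj, ← matOf_mul, ← matOf_mul, inv_mul_cancel_right]
  · show matOf (lowerU N j) * matOf (degHom q h γ) =
      matOf (B.coc γ (e j)) * matOf (lowerU N (e.symm (B.perm γ (e j))))
    refine HeckeH.mul_right_cancel_of_det_ne (Degen.det_dMat (d := q)) ?_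
    rw [Matrix.mul_assoc, ← dMat_mul_degHom q h γ, ← Matrix.mul_assoc, hβ, Matrix.mul_assoc, hβ,
      e.apply_symm_apply]
    exact B.spec γ (e j)

include hM hqN in
/-- The inclusion after corestriction is `1 + U_q w`. -/
theorem degH_one_corH_add (h1 : N * 1 ∣ M) (φ : Period.H M R A) :
    degH R A 1 h1 (corH R A φ) = φ + HeckeH.heckeH M hq R A (alH hq hM hqN R A φ) := by
  classical
  refine Subtype.ext (AddMonoidHom.ext fun γ => ?_)
  obtain ⟨γ, rfl⟩ := Additive.ofMul.surjective γ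
  rw [Degen.degH_apply, Degen.coe_corH, Submodule.coe_add, AddMonoidHom.add_apply,
    HeckeH.coe_heckeH, HeckeH.Reps.transfer_apply]
  simp only [alH_apply]
  set B := HeckeH.heckeReps M hq
  have hqM : q ∣ M := hM ▸ dvd_mul_left q N
  have hxy := alX_spec (N := N) hq hqN
  let e : Fin q ≃ heckeIdx M q := HeckeH.idxEquivU hqM
  let u : Fin q → Gamma0 N := fun j => mkGamma0 (alX N q) (alX N q * (j : ℕ) + alY N q) N
    ((N : ℤ) * (j : ℕ) + q) (by linear_combination hxy) dvd_rfl
  let t : Option (Fin q) → Gamma0 N := fun o => o.elim 1 u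
  have hinj : ∀ i k, (matOf (t i * (t k)⁻¹)) 1 0 ∈ Ideal.span {(M : ℤ)} → i = k := by
    intro i k hik
    rw [Ideal.mem_span_singleton, matOf_mul, matOf_inv] at hik
    have hno : ¬ ((M : ℤ) ∣ (N : ℤ)) := fun h => by
      subst hM
      rw [Int.natCast_dvd_natCast] at h
      have h2 := Nat.le_of_dvd (Nat.pos_of_ne_zero (NeZero.ne N)) h
      nlinarith [hq.two_le, Nat.pos_of_ne_zero (NeZero.ne N)]
    rcases i with _ | i <;> rcases k with _ | k
    · rfl
    · simp [t, u, Matrix.adjugate_fin_two_of, Matrix.mul_apply, Fin.sum_univ_two] at hik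
      exact absurd hik hno
    · simp [t, u, Matrix.mul_apply, Fin.sum_univ_two] at hik
      exact absurd hik hno
    · simp [t, u, Matrix.adjugate_fin_two_of, Matrix.mul_apply, Fin.sum_univ_two] at hik
      refine congrArg some ?_
      have h2 : (M : ℤ) ∣ (N : ℤ) * ((N : ℤ) * (((k : ℕ) : ℤ) - (i : ℕ))) := by
        ring_nf at hik ⊢
        exact hik
      refine eq_of_dvd_mul_sub hM ?_
      subst hM
      push_cast at h2 ⊢
      refine mul_dvd_mul_left _ ?_
      have h3 := (mul_dvd_mul_iff_left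
        (show (N : ℤ) ≠ 0 by exact_mod_cast NeZero.ne N)).mp h2
      exact (Int.isCoprime_iff_gcd_eq_one.mpr (by
        simpa [Int.gcd] using (Nat.Prime.coprime_iff_not_dvd hq).mpr hqN)).dvd_of_dvd_mul_left h3
  have hcard : (subG0 N M).index = Fintype.card (Option (Fin q)) := by
    rw [index_subG0_mul_prime hq hM, Fintype.card_congr (HeckeH.idxEquivT hqN)]
  have hu : ∀ j, alMat hq hqN * heckeBeta (e j) = (q : ℤ) • matOf (u j) := by
    intro j
    show _ * heckeBeta (N := M) ⟨some j, fun h => nomatch h⟩ = _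
    rw [alMat_eq, HeckeH.heckeBeta_some, HeckeH.matOf_mkGamma0, Matrix.mul_fin_two]
    ext a b
    fin_cases a <;> fin_cases b <;> simp <;> ring
  let π : Option (Fin q) → Option (Fin q) := Option.map fun j => e.symm (B.perm γ (e j))
  let xx : Option (Fin q) → Gamma0 M :=
    fun o => o.elim γ fun j => alConj hq hM hqN (B.coc γ (e j))
  rw [corFun_eq_sum t hinj hcard _ _ π xx ?_, Fintype.sum_option]
  · exact congrArg₂ (· + ·) rfl (Equiv.sum_comp e
      fun i => (φ : Additive (Gamma0 M) →+ A) (Additive.ofMul (alConj hq hM hqN (B.coc γ i))))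
  have hone : matOf (degHom 1 h1 γ) = matOf γ :=
    congrArg (fun z : SL(2, ℤ) => (z : M2)) (Degen.degHom_one_coe h1 γ)
  rintro (_ | j)
  · show matOf (1 : Gamma0 N) * matOf (degHom 1 h1 γ) = matOf γ * matOf (1 : Gamma0 N)
    rw [HeckeH.matOf_one, Matrix.one_mul, Matrix.mul_one, hone]
  · show matOf (u j) * matOf (degHom 1 h1 γ) =
      matOf (alConj hq hM hqN (B.coc γ (e j))) * matOf (u (e.symm (B.perm γ (e j))))
    rw [hone]
    have h2 := congrArg (alMat hq hqN * ·) (B.spec γ (e j))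
    simp only [← Matrix.mul_assoc] at h2
    rw [alMat_mul hq hM hqN, Matrix.mul_assoc (matOf (alConj hq hM hqN (B.coc γ (e j)))),
      show B.β (e j) = heckeBeta (e j) from rfl,
      show B.β (B.perm γ (e j)) = heckeBeta (e (e.symm (B.perm γ (e j)))) by
        rw [e.apply_symm_apply]; rfl,
      hu, hu, Matrix.smul_mul, Matrix.mul_smul] at h2
    ext a b
    exact mul_left_cancel₀ (show (q : ℤ) ≠ 0 by exact_mod_cast NeZero.ne q)
      (congrFun (congrFun h2 a) b)

end AtkinLehner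

end FLTAgent.Lower.Levels
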