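import Fermat.Agent.HeckeH.Cosets
import Fermat.Agent.Reps.Tate

/-!
# Twisted cohomology of `Γ₀(N)`: definitions

Crossed homomorphisms `Z1` for characters of the lower right entry, the twist `twistFun` at a prime
`v ∣ N` by a character `η` of `(ℤ/v)ˣ`, which lands one power of `v` higher
(`twistFun_mem_Z1`), and the Galois action `galH` on the period module `H N R R`.
-/

set_option autoImplicit false

noncomputable section

open CongruenceSubgroup
open scoped MatrixGroups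

namespace FLTAgent.Lower.Levels

open FLTAgent.HeckeH (M2 matOf mkGamma0 matOf_dvd det_entries)

local notation "ℚ̄" => AlgebraicClosure ℚ
local notation "Γℚ" => (AlgebraicClosure ℚ ≃ₐ[ℚ] AlgebraicClosure ℚ)

variable {N : ℕ}

theorem intCast_matOf_mul_eq_one {m : ℕ} (hm : m ∣ N) (γ : Gamma0 N) :
    (matOf γ 0 0 : ZMod m) * (matOf γ 1 1 : ZMod m) = 1 := by
  have h := congrArg (fun x : ℤ => (x : ZMod m)) (det_entries γ)
  have hc : ((matOf γ 1 0 : ℤ) : ZMod m) = 0 :=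
    (ZMod.intCast_zmod_eq_zero_iff_dvd _ m).mpr ((Int.natCast_dvd_natCast.mpr hm).trans (matOf_dvd γ))
  push_cast at h
  rwa [hc, mul_zero, sub_zero] at h

/-- The lower right entry modulo a divisor of the level, as a unit. -/
def dUnit {m : ℕ} (hm : m ∣ N) : Gamma0 N →* (ZMod m)ˣ where
  toFun γ := ⟨(matOf γ 1 1 : ZMod m), (matOf γ 0 0 : ZMod m),
    by rw [mul_comm]; exact intCast_matOf_mul_eq_one hm γ, intCast_matOf_mul_eq_one hm γ⟩
  map_one' := Units.ext (by simp [matOf])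
  map_mul' γ δ := by
    refine Units.ext ?_
    show ((matOf (γ * δ) 1 1 : ℤ) : ZMod m) = (matOf γ 1 1 : ZMod m) * (matOf δ 1 1 : ZMod m)
    rw [FLTAgent.HeckeH.matOf_mul, Matrix.mul_apply, Fin.sum_univ_two]
    have hc : ((matOf γ 1 0 : ℤ) : ZMod m) = 0 :=
      (ZMod.intCast_zmod_eq_zero_iff_dvd _ m).mpr
        ((Int.natCast_dvd_natCast.mpr hm).trans (matOf_dvd γ))
    push_cast
    rw [hc, zero_mul, zero_add]

theorem coe_dUnit {m : ℕ} (hm : m ∣ N) (γ : Gamma0 N) :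
    (dUnit hm γ : ZMod m) = (matOf γ 1 1 : ZMod m) := rfl

/-- Crossed homomorphisms `c (γ δ) = c γ + χ γ • c δ`. -/
def Z1 (R A : Type*) [CommRing R] [AddCommGroup A] [Module R A] (χ : Gamma0 N →* Rˣ) :
    Submodule R (Gamma0 N → A) where
  carrier := {c | ∀ γ δ, c (γ * δ) = c γ + (χ γ : R) • c δ}
  zero_mem' := fun γ δ => by simp
  add_mem' := fun {c c'} hc hc' γ δ => by
    simp only [Pi.add_apply, hc γ δ, hc' γ δ, smul_add]; abel
  smul_mem' := fun r c hc γ δ => by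
    simp only [Pi.smul_apply, hc γ δ, smul_add, smul_comm r]

section Twist

variable {M : ℕ} (v : ℕ) [NeZero v]

/-- The translation class `u ↦ u d²`. -/
def twistIdx (γ : Gamma0 M) (u : ZMod v) : ZMod v := u * ((matOf γ 1 1 : ℤ) : ZMod v) ^ 2

variable {v} (hvN : v ∣ N) (hM : N * v ∣ M)

include hvN hM in
theorem twistElt_dvd (γ : Gamma0 M) (u : ZMod v) :
    (v : ℤ) * v ∣ matOf γ 1 0 ∧ (v : ℤ) ∣
      (u.val : ℤ) * matOf γ 1 1 - matOf γ 0 0 * ((twistIdx v γ u).val : ℤ) := by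
  refine ⟨(Int.natCast_dvd_natCast.mpr ((Nat.mul_dvd_mul_right hvN v).trans hM) |>.trans
    (matOf_dvd γ) |> fun h => by exact_mod_cast h), ?_⟩
  rw [← ZMod.intCast_zmod_eq_zero_iff_dvd]
  push_cast
  rw [ZMod.natCast_zmod_val, ZMod.natCast_zmod_val, twistIdx]
  have h := intCast_matOf_mul_eq_one ((dvd_mul_left v N).trans hM) γ
  linear_combination -(u * ((matOf γ 1 1 : ℤ) : ZMod v)) * h

/-- The element `γ_u` with `(1 u/v; 0 1) γ = γ_u (1 u'/v; 0 1)`. -/
def twistElt (γ : Gamma0 M) (u : ZMod v) : Gamma0 N :=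
  mkGamma0 (matOf γ 0 0 + (u.val : ℤ) * (matOf γ 1 0 / v))
    (matOf γ 0 1 + ((u.val : ℤ) * matOf γ 1 1 - matOf γ 0 0 * ((twistIdx v γ u).val : ℤ)) / v -
      (u.val : ℤ) * ((twistIdx v γ u).val : ℤ) * (matOf γ 1 0 / (v * v)))
    (matOf γ 1 0)
    (matOf γ 1 1 - ((twistIdx v γ u).val : ℤ) * (matOf γ 1 0 / v))
    (by
      obtain ⟨⟨c, hc⟩, ⟨k, hk⟩⟩ := twistElt_dvd hvN hM γ u
      have hv : (v : ℤ) ≠ 0 := by exact_mod_cast NeZero.ne v
      have hd := det_entries γ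
      have hcv : matOf γ 1 0 / (v : ℤ) = (v : ℤ) * c := by
        rw [hc, mul_assoc, Int.mul_ediv_cancel_left _ hv]
      rw [hk, Int.mul_ediv_cancel_left _ hv, hcv, hc,
        Int.mul_ediv_cancel_left _ (mul_ne_zero hv hv)]
      rw [hc] at hd
      linear_combination hd + (v : ℤ) * c * hk)
    ((Int.natCast_dvd_natCast.mpr ((dvd_mul_right N v).trans hM)).trans (matOf_dvd γ))

/-- `(v u; 0 v)`. -/
def transMat (v : ℕ) (u : ZMod v) : M2 := !![(v : ℤ), (u.val : ℤ); 0, (v : ℤ)]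

theorem transMat_mul (γ : Gamma0 M) (u : ZMod v) :
    transMat v u * matOf γ = matOf (twistElt hvN hM γ u) * transMat v (twistIdx v γ u) := by
  obtain ⟨⟨c, hc⟩, ⟨k, hk⟩⟩ := twistElt_dvd hvN hM γ u
  have hv : (v : ℤ) ≠ 0 := by exact_mod_cast NeZero.ne v
  have hcv : matOf γ 1 0 / (v : ℤ) = (v : ℤ) * c := by
    rw [hc, mul_assoc, Int.mul_ediv_cancel_left _ hv]
  rw [twistElt, FLTAgent.HeckeH.matOf_mkGamma0, hcv, hk, Int.mul_ediv_cancel_left _ hv,
    show matOf γ 1 0 / ((v : ℤ) * v) = c by rw [hc, Int.mul_ediv_cancel_left _ (mul_ne_zero hv hv)],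
    transMat, transMat, Matrix.eta_fin_two (matOf γ), Matrix.mul_fin_two, Matrix.mul_fin_two, hc]
  ext i j
  fin_cases i <;> fin_cases j <;> simp [-ZMod.natCast_val] <;>
    first | ring1 | linear_combination hk

theorem coe_dUnit_twistElt {m : ℕ} (hm : m ∣ N) (γ : Gamma0 M) (u : ZMod v) :
    dUnit hm (twistElt hvN hM γ u) = dUnit (hm.trans ((dvd_mul_right N v).trans hM)) γ := by
  refine Units.ext ?_
  rw [coe_dUnit, coe_dUnit, twistElt, FLTAgent.HeckeH.matOf_mkGamma0]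
  obtain ⟨e, he⟩ := (Int.natCast_dvd_natCast.mpr hM).trans (matOf_dvd γ)
  have hv : (v : ℤ) ≠ 0 := by exact_mod_cast NeZero.ne v
  have hdiv : matOf γ 1 0 / (v : ℤ) = (N : ℤ) * e := by
    rw [he]; push_cast
    rw [show (N : ℤ) * v * e = v * (N * e) by ring, Int.mul_ediv_cancel_left _ hv]
  obtain ⟨m', hm'⟩ := hm
  simp [hdiv, hm', mul_assoc]

theorem twistIdx_mul (γ δ : Gamma0 M) (u : ZMod v) (hvM : v ∣ M) :
    twistIdx v (γ * δ) u = twistIdx v δ (twistIdx v γ u) := by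
  have h := congrArg Units.val (map_mul (dUnit (N := M) hvM) γ δ)
  rw [Units.val_mul, coe_dUnit, coe_dUnit, coe_dUnit] at h
  rw [twistIdx, twistIdx, twistIdx, h]
  ring

theorem twistElt_mul (γ δ : Gamma0 M) (u : ZMod v) :
    twistElt hvN hM (γ * δ) u =
      twistElt hvN hM γ u * twistElt hvN hM δ (twistIdx v γ u) := by
  refine FLTAgent.HeckeH.matOf_injective (FLTAgent.HeckeH.mul_right_cancel_of_det_ne
    (c := transMat v (twistIdx v (γ * δ) u)) ?_ ?_)
  · have hv : (v : ℤ) ≠ 0 := by exact_mod_cast NeZero.ne v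
    simpa [transMat, Matrix.det_fin_two_of] using hv
  rw [FLTAgent.HeckeH.matOf_mul, Matrix.mul_assoc, ← transMat_mul,
    twistIdx_mul γ δ u ((dvd_mul_left v N).trans hM), ← transMat_mul, ← Matrix.mul_assoc,
    ← transMat_mul, FLTAgent.HeckeH.matOf_mul, Matrix.mul_assoc]

variable {R A : Type*} [CommRing R] [AddCommGroup A] [Module R A]

/-- The twist `∑ η(u)⁻¹ c (γ_u)`. -/
def twistFun (η : (ZMod v)ˣ →* Rˣ) : (Gamma0 N → A) →ₗ[R] (Gamma0 M → A) where
  toFun c γ := ∑ u : (ZMod v)ˣ, ((η u)⁻¹ : Rˣ).val • c (twistElt hvN hM γ u)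
  map_add' c c' := by ext γ; simp [smul_add, Finset.sum_add_distrib]
  map_smul' r c := by ext γ; simp [Finset.smul_sum, smul_comm r]

theorem twistFun_apply (η : (ZMod v)ˣ →* Rˣ) (c : Gamma0 N → A) (γ : Gamma0 M) :
    twistFun hvN hM η c γ = ∑ u : (ZMod v)ˣ, ((η u)⁻¹ : Rˣ).val • c (twistElt hvN hM γ u) := rfl

/-- A twist of a crossed homomorphism for `ψ · η⁻²` is crossed for `ψ`. -/
theorem twistFun_mem_Z1 (η : (ZMod v)ˣ →* Rˣ) {m : ℕ} (hm : m ∣ N) (ψ : (ZMod m)ˣ →* Rˣ)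
    {c : Gamma0 N → A}
    (hc : c ∈ Z1 R A (ψ.comp (dUnit hm) * ((η.comp (dUnit hvN)) ^ 2)⁻¹)) :
    twistFun hvN hM η c ∈
      Z1 R A (ψ.comp (dUnit (hm.trans ((dvd_mul_right N v).trans hM)))) := by
  intro γ δ
  have hvM : v ∣ M := (dvd_mul_left v N).trans hM
  have hidx : ∀ u : (ZMod v)ˣ,
      twistIdx v γ (u : ZMod v) = ((u * dUnit hvM γ ^ 2 : (ZMod v)ˣ) : ZMod v) := fun u => by
    rw [twistIdx, Units.val_mul, Units.val_pow_eq_pow_val, coe_dUnit]
  have key : ∀ u : (ZMod v)ˣ, ((η u)⁻¹ : Rˣ).val • c (twistElt hvN hM (γ * δ) u) =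
      ((η u)⁻¹ : Rˣ).val • c (twistElt hvN hM γ u) +
        (ψ (dUnit (hm.trans ((dvd_mul_right N v).trans hM)) γ) : R) •
          (((η (u * dUnit hvM γ ^ 2))⁻¹ : Rˣ).val •
            c (twistElt hvN hM δ ((u * dUnit hvM γ ^ 2 : (ZMod v)ˣ) : ZMod v))) := by
    intro u
    rw [twistElt_mul, hidx, hc, smul_add, smul_smul, smul_smul, ← Units.val_mul, ← Units.val_mul,
      map_mul η, map_pow]
    congr 2
    simp only [MonoidHom.mul_apply, MonoidHom.inv_apply, MonoidHom.pow_apply, MonoidHom.comp_apply,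
      coe_dUnit_twistElt]
    rw [mul_inv]
    exact congrArg Units.val (mul_left_comm (η u)⁻¹ _ _)
  simp only [twistFun_apply, key, Finset.sum_add_distrib, ← Finset.smul_sum]
  congr 2
  exact Fintype.sum_equiv (Equiv.mulRight (dUnit hvM γ ^ 2)) _
    (fun u : (ZMod v)ˣ => ((η u)⁻¹ : Rˣ).val • c (twistElt hvN hM δ u)) fun u => rfl

end Twist

section Galois

variable (N) [NeZero N] {p : ℕ} [Fact p.Prime] {R : Type*} [CommRing R]

/-- The Galois action on `H N R R` (transported from the torsion of the Jacobian). -/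
def galH (f : ℤ_[p] →+* R) (σ : Γℚ) : Module.End R (Period.H N R R) :=
  HeckeH.wH N R R ∘ₗ (Period.evalEquiv N R R).symm.toLinearMap ∘ₗ
    Matrix.mulVecLin (((Reps.galModel N p).M σ).map f) ∘ₗ
      (Period.evalEquiv N R R).toLinearMap ∘ₗ HeckeH.wH N R R

end Galois

end FLTAgent.Lower.Levels
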