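import Fermat.Agent.Lower.Levels.Triv

/-!
# Degeneracy maps between levels `N` and `N v`

For a prime `v ∤ N` and trivial character: `degOne`, `degV`, the corestriction `corSys` and the
Atkin–Lehner operator `wSys` as systems of matrices acting on `H¹`, with their identities
(`cor_degOne`, `cor_degV`, `hecke_degOne`, `hecke_degV`, `add_hecke_w`, `w_w`) and the commutation
with the Hecke operators away from `v`, all checked on coset representatives.
-/

set_option autoImplicit false

noncomputable section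

open CongruenceSubgroup
open scoped MatrixGroups

namespace FLTAgent.Lower.Levels

open FLTAgent.HeckeH (M2 matOf matOf_mul mkGamma0 matOf_mkGamma0 matOf_dvd det_entries heckeIdx
  heckeBeta heckeBeta_some heckeBeta_none exists_heckeBeta matOf_injective)

variable {N M : ℕ} {R : Type} [CommRing R] {A : Type} [AddCommGroup A] [Module R A]

/-- The trivial character. -/
abbrev tchi (N : ℕ) (R : Type) [CommRing R] : Gamma0 N →* Rˣ := chi (1 : (ZMod N)ˣ →* Rˣ)

theorem tchi_apply (γ : Gamma0 N) : (tchi N R γ : R) = 1 := rfl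

theorem Z1_tchi_mul (c : Z1 R A (tchi N R)) (γ δ : Gamma0 N) :
    (c : Gamma0 N → A) (γ * δ) = (c : Gamma0 N → A) γ + (c : Gamma0 N → A) δ := by
  rw [Z1_mul, tchi_apply, one_smul]

theorem Z1_tchi_inv (c : Z1 R A (tchi N R)) (γ : Gamma0 N) :
    (c : Gamma0 N → A) γ⁻¹ = -(c : Gamma0 N → A) γ := by
  refine eq_neg_of_add_eq_zero_left ?_
  rw [← Z1_tchi_mul, inv_mul_cancel, Z1_one_apply]

/-- With trivial characters, systems differing by left factors in the group define equal maps. -/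
theorem Sys.map_eq_of_twist {ι κ : Type} [Fintype ι] [Fintype κ]
    (S : Sys R ι (tchi N R) (tchi M R)) (S' : Sys R κ (tchi N R) (tchi M R)) (hS' : S'.Inj)
    (e : ι ≃ κ) (δ : ι → Gamma0 N) (hβ : ∀ i, S.β i = matOf (δ i) * S'.β (e i))
    (hw : ∀ i, S'.w (e i) = S.w i) : S.map A = S'.map A := by
  refine LinearMap.ext fun x => ?_
  induction x using Submodule.Quotient.induction_on with
  | _ c =>
    refine congrArg Submodule.Quotient.mk (Subtype.ext (funext fun γ => ?_))
    have key : ∀ i, S.coc γ i * δ (S.perm γ i) = δ i * S'.coc γ (e i) ∧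
        e (S.perm γ i) = S'.perm γ (e i) := by
      intro i
      have h := S.spec γ i
      rw [hβ, hβ, Matrix.mul_assoc, S'.spec, ← Matrix.mul_assoc, ← Matrix.mul_assoc,
        ← matOf_mul, ← matOf_mul] at h
      obtain ⟨h1, h2⟩ := Sys.unique_of_inj S'.det_ne hS' h
      exact ⟨h1.symm, h2.symm⟩
    have hwσ : ∀ i, S.w i = S.w (S.perm γ i) := fun i => by simpa [tchi_apply] using S.compat γ i
    have hc : ∀ i, S.w i • (c : Gamma0 N → A) (S.coc γ i) =
        (S.w i • (c : Gamma0 N → A) (δ i) + S'.w (e i) • (c : Gamma0 N → A) (S'.coc γ (e i))) -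
          S.w (S.perm γ i) • (c : Gamma0 N → A) (δ (S.perm γ i)) := fun i => by
      have h := congrArg (c : Gamma0 N → A) (key i).1
      rw [Z1_tchi_mul, Z1_tchi_mul] at h
      rw [eq_sub_iff_add_eq, hw, ← hwσ i, ← smul_add, ← smul_add, h]
    rw [Sys.coe_op, Sys.coe_op, Finset.sum_congr rfl fun i _ => hc i, Finset.sum_sub_distrib,
      Finset.sum_add_distrib,
      Equiv.sum_comp e (fun j => S'.w j • (c : Gamma0 N → A) (S'.coc γ j)),
      Equiv.sum_comp (S.perm γ) (fun i => S.w i • (c : Gamma0 N → A) (δ i))]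
    abel

/-- A system of elements of the group acts by its total weight. -/
theorem Sys.map_eq_sum_smul {ι : Type} [Fintype ι] (S : Sys R ι (tchi N R) (tchi N R))
    (δ : ι → Gamma0 N) (hβ : ∀ i, S.β i = matOf (δ i)) (x : H1 R A (tchi N R)) :
    S.map A x = (∑ i, S.w i) • x := by
  induction x using Submodule.Quotient.induction_on with
  | _ c =>
    refine congrArg Submodule.Quotient.mk (Subtype.ext (funext fun γ => ?_))
    have key : ∀ i, δ i * γ = S.coc γ i * δ (S.perm γ i) := fun i => matOf_injective (by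
      rw [matOf_mul, matOf_mul, ← hβ, ← hβ]; exact S.spec γ i)
    have hwσ : ∀ i, S.w i = S.w (S.perm γ i) := fun i => by simpa [tchi_apply] using S.compat γ i
    have hc : ∀ i, S.w i • (c : Gamma0 N → A) (S.coc γ i) =
        (S.w i • (c : Gamma0 N → A) (δ i) + S.w i • (c : Gamma0 N → A) γ) -
          S.w (S.perm γ i) • (c : Gamma0 N → A) (δ (S.perm γ i)) := fun i => by
      have h := congrArg (c : Gamma0 N → A) (key i)
      rw [Z1_tchi_mul, Z1_tchi_mul] at h
      rw [eq_sub_iff_add_eq, ← hwσ i, ← smul_add, ← smul_add, ← h]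
    rw [Sys.coe_op, Finset.sum_congr rfl fun i _ => hc i, Finset.sum_sub_distrib,
      Finset.sum_add_distrib,
      Equiv.sum_comp (S.perm γ) (fun i => S.w i • (c : Gamma0 N → A) (δ i)), ← Finset.sum_smul]
    show _ = (∑ i, S.w i) • (c : Gamma0 N → A) γ
    abel

theorem heckeSys_one_w {ℓ : ℕ} (hℓ : ℓ.Prime) (i : heckeIdx N ℓ) :
    (heckeSys (R := R) hℓ (1 : (ZMod N)ˣ →* Rˣ)).w i = 1 := rfl

section Prime

variable {v : ℕ}

theorem mat_one_coc (N : ℕ) {L : ℕ} (hNL : N ∣ L) (γ : Gamma0 L) :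
    (1 : M2) * matOf γ = matOf (Subgroup.inclusion (Period.gamma0_le_gamma0_of_dvd hNL) γ) * 1 := by
  rw [Matrix.one_mul, Matrix.mul_one]
  rfl

variable (N v) (R) in
/-- Restriction from level `N` to level `N v`. -/
def degOne : Sys R Unit (tchi N R) (tchi (N * v) R) :=
  Sys.mk' (fun _ => 1) (fun _ => by simp) (fun _ _ _ _ => rfl)
    (fun γ _ => ⟨_, (), mat_one_coc N (dvd_mul_right N v) γ⟩) (fun _ => 1)
    (fun _ _ _ _ _ => by simp)

theorem inj_degOne : (degOne N R v).Inj := fun _ _ _ _ => rfl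

theorem degOne_coc (γ : Gamma0 (N * v)) :
    (degOne N R v).coc γ () =
      Subgroup.inclusion (Period.gamma0_le_gamma0_of_dvd (dvd_mul_right N v)) γ :=
  ((degOne N R v).eq_of_mul inj_degOne (j := ()) (mat_one_coc N (dvd_mul_right N v) γ)).1

theorem exists_diag (hv : v ≠ 0) (γ : Gamma0 (N * v)) :
    ∃ δ : Gamma0 N, (!![(v : ℤ), 0; 0, 1] : M2) * matOf γ = matOf δ * !![(v : ℤ), 0; 0, 1] := by
  obtain ⟨e, he⟩ := matOf_dvd γ
  push_cast at he
  refine ⟨mkGamma0 (matOf γ 0 0) ((v : ℤ) * matOf γ 0 1) ((N : ℤ) * e) (matOf γ 1 1) ?_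
    (dvd_mul_right _ _), ?_⟩
  · have h := det_entries γ
    rw [he] at h
    linear_combination h
  · rw [matOf_mkGamma0, Matrix.eta_fin_two (matOf γ), Matrix.mul_fin_two, Matrix.mul_fin_two, he]
    ext i j
    fin_cases i <;> fin_cases j <;> simp <;> ring

variable (N) (R) in
/-- The second degeneracy map, of matrix `(v 0; 0 1)`. -/
def degV (hv : v.Prime) : Sys R Unit (tchi N R) (tchi (N * v) R) :=
  Sys.mk' (fun _ => !![(v : ℤ), 0; 0, 1])
    (fun _ => by simp [Matrix.det_fin_two_of, hv.ne_zero]) (fun _ _ _ _ => rfl)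
    (fun γ _ => by
      obtain ⟨δ, hδ⟩ := exists_diag (N := N) hv.ne_zero γ
      exact ⟨δ, (), hδ⟩) (fun _ => 1) (fun _ _ _ _ _ => by simp)

theorem inj_degV (hv : v.Prime) : (degV N R hv).Inj := fun _ _ _ _ => rfl

variable {hv : v.Prime} {hvN : ¬ v ∣ N}

theorem bezout (hv : v.Prime) (hvN : ¬ v ∣ N) :
    Nat.gcdA v N * (v : ℤ) + Nat.gcdB v N * (N : ℤ) = 1 := by
  have h := Nat.gcd_eq_gcd_ab v N
  rw [show Nat.gcd v N = 1 from (Nat.Prime.coprime_iff_not_dvd hv).mpr hvN] at h
  push_cast at h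
  linear_combination -h

/-- `(a, -b; N, v)` with `a v + b N = 1`. -/
def corBase (hv : v.Prime) (hvN : ¬ v ∣ N) : Gamma0 N :=
  mkGamma0 (Nat.gcdA v N) (-Nat.gcdB v N) N v
    (by linear_combination bezout hv hvN) dvd_rfl

/-- Representatives of `Γ₀(N v) \ Γ₀(N)`. -/
def corRep (hv : v.Prime) (hvN : ¬ v ∣ N) : Option (Fin v) → Gamma0 N
  | none => 1
  | some j => corBase hv hvN * gammaT N (j : ℕ)

theorem mem_lower_iff (hv : v.Prime) (hvN : ¬ v ∣ N) (g : Gamma0 N) :
    (g : SL(2, ℤ)) ∈ Gamma0 (N * v) ↔ (v : ℤ) ∣ matOf g 1 0 := by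
  rw [Gamma0_mem, ZMod.intCast_zmod_eq_zero_iff_dvd]
  refine ⟨fun h => (Int.natCast_dvd_natCast.mpr (dvd_mul_left v N)).trans h, fun h => ?_⟩
  push_cast
  exact IsCoprime.mul_dvd (Int.isCoprime_iff_gcd_eq_one.mpr (by
    simpa [Int.gcd] using Nat.coprime_comm.mp ((Nat.Prime.coprime_iff_not_dvd hv).mpr hvN)))
    (matOf_dvd g) h

theorem corRep_inv_entry (hv : v.Prime) (hvN : ¬ v ∣ N) (g : Gamma0 N) (j : Fin v) :
    matOf (g * (corRep hv hvN (some j))⁻¹) 1 0 =
      matOf g 1 0 * v - (matOf g 1 1 - matOf g 1 0 * (j : ℕ)) * N := by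
  have h : (corRep hv hvN (some j))⁻¹ = gammaT N (-((j : ℕ) : ℤ)) *
      mkGamma0 (v : ℤ) (Nat.gcdB v N) (-(N : ℤ)) (Nat.gcdA v N)
        (by linear_combination bezout hv hvN) (dvd_neg.mpr dvd_rfl) := by
    rw [inv_eq_iff_mul_eq_one]
    refine matOf_injective ?_
    simp only [corRep, corBase, gammaT, matOf_mul, matOf_mkGamma0, HeckeH.matOf_one,
      Matrix.mul_fin_two, Matrix.one_fin_two]
    ext a b
    fin_cases a <;> fin_cases b <;> simp <;>
      first
        | linear_combination bezout hv hvN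
        | linear_combination -bezout hv hvN
        | ring
  rw [h, matOf_mul, matOf_mul, Matrix.eta_fin_two (matOf g)]
  simp [gammaT]
  ring

theorem exists_corRep (hv : v.Prime) (hvN : ¬ v ∣ N) (g : Gamma0 N) :
    ∃ i, ((g * (corRep hv hvN i)⁻¹ : Gamma0 N) : SL(2, ℤ)) ∈ Gamma0 (N * v) := by
  have : Fact v.Prime := ⟨hv⟩
  by_cases hc : (v : ℤ) ∣ matOf g 1 0
  · exact ⟨none, (mem_lower_iff hv hvN _).mpr (by simpa [corRep] using hc)⟩
  · have hc' : ((matOf g 1 0 : ℤ) : ZMod v) ≠ 0 := fun h =>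
      hc ((ZMod.intCast_zmod_eq_zero_iff_dvd _ _).mp h)
    refine ⟨some ⟨(((matOf g 1 1 : ℤ) : ZMod v) / ((matOf g 1 0 : ℤ) : ZMod v)).val,
      ZMod.val_lt _⟩, (mem_lower_iff hv hvN _).mpr ?_⟩
    rw [corRep_inv_entry, ← ZMod.intCast_zmod_eq_zero_iff_dvd]
    push_cast
    rw [ZMod.natCast_zmod_val, mul_div_cancel₀ _ hc', sub_self, zero_mul, sub_zero,
      ZMod.natCast_self, mul_zero]

theorem corRep_inj (hv : v.Prime) (hvN : ¬ v ∣ N) {i i' : Option (Fin v)}
    (h : ((corRep hv hvN i * (corRep hv hvN i')⁻¹ : Gamma0 N) : SL(2, ℤ)) ∈ Gamma0 (N * v)) :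
    i = i' := by
  have : Fact v.Prime := ⟨hv⟩
  have hN : ((N : ℤ) : ZMod v) ≠ 0 := fun h0 => hvN (by
    exact_mod_cast (ZMod.intCast_zmod_eq_zero_iff_dvd _ _).mp h0)
  have h' := (mem_lower_iff hv hvN _).mp h
  rcases i with _ | j <;> rcases i' with _ | j'
  · rfl
  · exfalso
    rw [corRep_inv_entry, ← ZMod.intCast_zmod_eq_zero_iff_dvd] at h'
    simp [corRep] at h'
    exact hN (by exact_mod_cast h')
  · exfalso
    rw [← ZMod.intCast_zmod_eq_zero_iff_dvd] at h'
    simp [corRep, corBase, gammaT] at h'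
    exact hN (by exact_mod_cast h')
  · rw [corRep_inv_entry, ← ZMod.intCast_zmod_eq_zero_iff_dvd] at h'
    simp [corRep, corBase, gammaT] at h'
    have hN' : ((N : ℕ) : ZMod v) ≠ 0 := fun h0 => hN (by exact_mod_cast h0)
    have hj : ((j' : ℕ) : ZMod v) = ((j : ℕ) : ZMod v) := by
      rcases h' with h' | h'
      · exact mul_left_cancel₀ hN' (by linear_combination -h')
      · exact absurd h' hN'
    have := congrArg ZMod.val hj
    rw [ZMod.val_cast_of_lt j'.2, ZMod.val_cast_of_lt j.2] at this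
    exact congrArg some (Fin.ext this.symm)

/-- An element of `Γ₀(N)` lying in `Γ₀(N v)`. -/
def toLower {v : ℕ} (g : Gamma0 N) (h : (g : SL(2, ℤ)) ∈ Gamma0 (N * v)) : Gamma0 (N * v) :=
  ⟨g, h⟩

variable (R) in
/-- Corestriction from level `N v` to level `N`. -/
def corSys (hv : v.Prime) (hvN : ¬ v ∣ N) :
    Sys R (Option (Fin v)) (tchi (N * v) R) (tchi N R) :=
  Sys.mk' (fun i => matOf (corRep hv hvN i))
    (fun _ => by rw [HeckeH.det_matOf]; exact one_ne_zero)
    (fun δ i j h => corRep_inj hv hvN (by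
      have e : ((corRep hv hvN i * (corRep hv hvN j)⁻¹ : Gamma0 N) : SL(2, ℤ)) =
          (δ : SL(2, ℤ)) := by
        have h2 : (corRep hv hvN i : SL(2, ℤ)) = (δ : SL(2, ℤ)) * (corRep hv hvN j : SL(2, ℤ)) :=
          Subtype.ext h
        simp [h2]
      rw [e]; exact δ.2))
    (fun γ i => by
      obtain ⟨j, hj⟩ := exists_corRep hv hvN (corRep hv hvN i * γ)
      refine ⟨toLower _ hj, j, ?_⟩
      show _ = matOf (corRep hv hvN i * γ * (corRep hv hvN j)⁻¹) * matOf (corRep hv hvN j)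
      rw [← matOf_mul, ← matOf_mul, inv_mul_cancel_right])
    (fun _ => 1) (fun _ _ _ _ _ => by simp)

theorem inj_corSys (hv : v.Prime) (hvN : ¬ v ∣ N) : (corSys R hv hvN).Inj :=
  fun δ i j h => corRep_inj hv hvN (by
    have h2 : (corRep hv hvN i : SL(2, ℤ)) = (δ : SL(2, ℤ)) * (corRep hv hvN j : SL(2, ℤ)) :=
      Subtype.ext h
    have e : ((corRep hv hvN i * (corRep hv hvN j)⁻¹ : Gamma0 N) : SL(2, ℤ)) =
        (δ : SL(2, ℤ)) := by simp [h2]
    rw [e]; exact δ.2)

/-- The Atkin-Lehner matrix at `v`. -/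
def wMatV (N v : ℕ) : M2 :=
  !![(v : ℤ) * Nat.gcdA v N, -Nat.gcdB v N; (N : ℤ) * v, (v : ℤ)]

theorem det_wMatV (hv : v.Prime) (hvN : ¬ v ∣ N) : (wMatV N v).det = (v : ℤ) := by
  rw [wMatV, Matrix.det_fin_two_of]
  linear_combination (v : ℤ) * bezout hv hvN

theorem exists_wMatV (hv : v.Prime) (hvN : ¬ v ∣ N) (γ : Gamma0 (N * v)) :
    ∃ δ : Gamma0 (N * v), wMatV N v * matOf γ = matOf δ * wMatV N v := by
  obtain ⟨e, he⟩ := matOf_dvd γ
  push_cast at he
  set a := Nat.gcdA v N
  set b := Nat.gcdB v N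
  set a' := matOf γ 0 0
  set b' := matOf γ 0 1
  set d' := matOf γ 1 1
  have hb := bezout hv hvN
  have hdet := det_entries γ
  rw [he] at hdet
  -- `δ = W γ adj(W) / v`, with `adj W = (v, b; -N v, v a)`
  refine ⟨mkGamma0 ((v : ℤ) * a * a' - b * N * v * e - N * (v * a * b' - b * d'))
    (a * a' * b - b * b * N * e + a * (v * a * b' - b * d'))
    ((N : ℤ) * v * (a' + v * e - N * b' - d'))
    (N * a' * b + b * N * v * e + a * (N * v * b' + v * d')) ?_
    ⟨a' + v * e - N * b' - d', by push_cast; ring⟩, ?_⟩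
  · linear_combination (a' * d' - b' * ((N : ℤ) * v * e)) * (a * v + b * N + 1) * hb + hdet
  · rw [matOf_mkGamma0, wMatV, Matrix.eta_fin_two (matOf γ), Matrix.mul_fin_two,
      Matrix.mul_fin_two, he]
    ext i j
    fin_cases i <;> fin_cases j <;> simp
    · linear_combination (-(v : ℤ) * a * a' + b * N * v * e) * hb
    · linear_combination (-(v : ℤ) * a * b' + b * d') * hb
    · linear_combination (-(N : ℤ) * v * a' - N * v * v * e) * hb
    · linear_combination (-(N : ℤ) * v * b' - v * d') * hb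

variable (R) in
/-- The Atkin-Lehner operator at `v`. -/
def wSys (hv : v.Prime) (hvN : ¬ v ∣ N) : Sys R Unit (tchi (N * v) R) (tchi (N * v) R) :=
  Sys.mk' (fun _ => wMatV N v)
    (fun _ => by rw [det_wMatV hv hvN]; exact_mod_cast hv.ne_zero) (fun _ _ _ _ => rfl)
    (fun γ _ => by
      obtain ⟨δ, hδ⟩ := exists_wMatV hv hvN γ
      exact ⟨δ, (), hδ⟩) (fun _ => 1) (fun _ _ _ _ _ => by simp)

theorem inj_wSys (hv : v.Prime) (hvN : ¬ v ∣ N) : (wSys R hv hvN).Inj := fun _ _ _ _ => rfl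

/-- `cor ∘ res = v + 1`. -/
theorem cor_degOne (hv : v.Prime) (hvN : ¬ v ∣ N) (x : H1 R A (tchi N R)) :
    (corSys R hv hvN).map A ((degOne N R v).map A x) = ((v : R) + 1) • x := by
  rw [← Sys.map_comp, Sys.map_eq_sum_smul _ (fun p => corRep hv hvN p.2)
    (fun p => by
      show (1 : M2) * _ = _
      rw [Matrix.one_mul]
      rfl)]
  congr 1
  simp [Sys.comp_w, degOne, corSys]

/-- `cor ∘ [v] = T_v`. -/
theorem cor_degV (hv : v.Prime) (hvN : ¬ v ∣ N) (x : H1 R A (tchi N R)) :
    (corSys R hv hvN).map A ((degV N R hv).map A x) = heckeOp hv 1 A x := by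
  have hvZ : (v : ℤ) ≠ 0 := by exact_mod_cast hv.ne_zero
  set D : M2 := !![(v : ℤ), 0; 0, 1] with hD
  have hdetD : D.det = (v : ℤ) := by simp [hD, Matrix.det_fin_two_of]
  have hex : ∀ i : Option (Fin v), ∃ (δ : Gamma0 N) (j : heckeIdx N v),
      D * matOf (corRep hv hvN i) = matOf δ * heckeBeta j := by
    intro i
    refine exists_heckeBeta hv _ (by rw [Matrix.det_mul, hdetD, HeckeH.det_matOf, mul_one]) ?_ ?_
    · rw [hD, Matrix.mul_apply, Fin.sum_univ_two]
      simpa using matOf_dvd (corRep hv hvN i)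
    · rw [hD, Matrix.mul_apply, Fin.sum_univ_two]
      have hco : IsCoprime (v : ℤ) (N : ℤ) := Int.isCoprime_iff_gcd_eq_one.mpr (by
        simpa [Int.gcd] using (Nat.Prime.coprime_iff_not_dvd hv).mpr hvN)
      simpa using hco.mul_left (HeckeH.isCoprime_matOf _)
  choose δ e hδ using hex
  have hinj : Function.Injective e := by
    intro i i' h
    refine corRep_inj hv hvN ((mem_lower_iff hv hvN _).mpr ⟨matOf (δ i * (δ i')⁻¹) 1 0, ?_⟩)
    have h1 : D * matOf (corRep hv hvN i * (corRep hv hvN i')⁻¹) =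
        matOf (δ i * (δ i')⁻¹) * D := by
      refine HeckeH.mul_right_cancel_of_det_ne (c := matOf (corRep hv hvN i'))
        (by rw [HeckeH.det_matOf]; exact one_ne_zero) ?_
      rw [Matrix.mul_assoc, ← matOf_mul, inv_mul_cancel_right, hδ i, h, Matrix.mul_assoc, hδ i',
        ← Matrix.mul_assoc, ← matOf_mul, inv_mul_cancel_right]
    have h2 := congrFun (congrFun h1 1) 0
    simp [hD, Matrix.mul_apply, Fin.sum_univ_two, -matOf_mul] at h2
    rw [h2, mul_comm]
  have hbij : Function.Bijective e := (Fintype.bijective_iff_injective_and_card e).mpr ⟨hinj, by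
    rw [Fintype.card_congr (Equiv.subtypeUnivEquiv (fun _ _ => hvN) : heckeIdx N v ≃ _)]⟩
  rw [← Sys.map_comp, heckeOp]
  refine LinearMap.congr_fun (Sys.map_eq_of_twist ((degV N R hv).comp (corSys R hv hvN))
    (heckeSys hv 1) (inj_heckeSys hv _) ((Equiv.punitProd _).trans (Equiv.ofBijective e hbij))
    (fun p => δ p.2) (fun p => hδ p.2) fun p => ?_) x
  simp [Sys.comp_w, degV, corSys]

variable (N) in
/-- The inclusion of indices of `U_v` at level `N v` into those of `T_v` at level `N`. -/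
def upIdx (j : Fin v) : heckeIdx N v := ⟨some j, fun h => by simp at h⟩

/-- The indices of `U_v`. -/
def uIdx (N : ℕ) (i : heckeIdx (N * v) v) : Fin v :=
  match i with
  | ⟨some j, _⟩ => j
  | ⟨none, h⟩ => absurd (dvd_mul_left v N) (h rfl)

theorem heckeBeta_uIdx (i : heckeIdx (N * v) v) :
    heckeBeta i = !![(1 : ℤ), ((uIdx N i : ℕ) : ℤ); 0, (v : ℤ)] := by
  obtain ⟨_ | j, h⟩ := i
  · exact absurd (dvd_mul_left v N) (h rfl)
  · rfl

/-- The indices of `U_v` as an equivalence. -/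
def uEquiv (N : ℕ) : heckeIdx (N * v) v ≃ Fin v where
  toFun := uIdx N
  invFun j := ⟨some j, fun h => by simp at h⟩
  left_inv i := by
    obtain ⟨_ | j, h⟩ := i
    · exact absurd (dvd_mul_left v N) (h rfl)
    · rfl
  right_inv _ := rfl

/-- `U ∘ res = res ∘ T_v - [v]`. -/
theorem hecke_degOne (hv : v.Prime) (hvN : ¬ v ∣ N) (x : H1 R A (tchi N R)) :
    heckeOp hv 1 A ((degOne N R v).map A x) =
      (degOne N R v).map A (heckeOp hv 1 A x) - (degV N R hv).map A x := by
  induction x using Submodule.Quotient.induction_on with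
  | _ c =>
    simp only [heckeOp, Sys.map_mk, ← Submodule.Quotient.mk_sub]
    refine congrArg Submodule.Quotient.mk (Subtype.ext (funext fun γ => ?_))
    rw [Submodule.coe_sub, Pi.sub_apply, eq_sub_iff_add_eq]
    simp only [Sys.coe_op, Fintype.sum_unique, heckeSys_one_w, one_smul]
    rw [show (degOne N R v).w default = 1 from rfl, show (degV N R hv).w default = 1 from rfl]
    simp only [one_smul]
    rw [show (default : Unit) = () from rfl, degOne_coc γ]
    set T := heckeSys (R := R) hv (1 : (ZMod N)ˣ →* Rˣ)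
    set U := heckeSys (R := R) hv (1 : (ZMod (N * v))ˣ →* Rˣ)
    set γ' := Subgroup.inclusion (Period.gamma0_le_gamma0_of_dvd (dvd_mul_right N v)) γ
    let f : Option (Fin v) → A := fun o => (c : Gamma0 N → A) (T.coc γ' ⟨o, fun _ => hvN⟩)
    rw [Fintype.sum_equiv (Equiv.subtypeUnivEquiv (fun _ _ => hvN) : heckeIdx N v ≃ Option (Fin v))
      (fun i => (c : Gamma0 N → A) (T.coc γ' i)) f fun i => rfl, Fintype.sum_option, add_comm]
    congr 1
    · refine congrArg _ (Eq.symm ?_)
      refine (T.eq_of_mul (inj_heckeSys hv _) (j := ⟨none, fun _ => hvN⟩) ?_).1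
      rw [heckeSys_β, heckeBeta_none]
      exact (degV N R hv).spec γ ()
    · refine (Fintype.sum_equiv (uEquiv N) _ _ fun i => ?_)
      have h := U.spec γ i
      rw [heckeSys_β, heckeSys_β, heckeBeta_uIdx, heckeBeta_uIdx] at h
      have h1 : T.coc γ' ⟨some (uEquiv N i), fun _ => hvN⟩ =
          (degOne N R v).coc (U.coc γ i) () := by
        refine (T.eq_of_mul (inj_heckeSys hv _)
          (j := ⟨some (uIdx N (U.perm γ i)), fun _ => hvN⟩) ?_).1
        rw [heckeSys_β, heckeSys_β, degOne_coc]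
        exact h
      rw [show f (uEquiv N i) = _ from congrArg (c : Gamma0 N → A) h1]

/-- `U ∘ [v] = v • res`. -/
theorem hecke_degV (hv : v.Prime) (hvN : ¬ v ∣ N) (x : H1 R A (tchi N R)) :
    heckeOp hv 1 A ((degV N R hv).map A x) = (v : R) • (degOne N R v).map A x := by
  induction x using Submodule.Quotient.induction_on with
  | _ c =>
    simp only [heckeOp, Sys.map_mk, ← Submodule.Quotient.mk_smul]
    refine congrArg Submodule.Quotient.mk (Subtype.ext (funext fun γ => ?_))
    rw [Submodule.coe_smul, Pi.smul_apply]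
    simp only [Sys.coe_op, Fintype.sum_unique, heckeSys_one_w, one_smul]
    rw [show (degOne N R v).w default = 1 from rfl, show (degV N R hv).w default = 1 from rfl]
    simp only [one_smul]
    rw [show (default : Unit) = () from rfl, degOne_coc γ]
    set U := heckeSys (R := R) hv (1 : (ZMod (N * v))ˣ →* Rˣ)
    set γ' := Subgroup.inclusion (Period.gamma0_le_gamma0_of_dvd (dvd_mul_right N v)) γ
    let t : heckeIdx (N * v) v → A := fun i => (c : Gamma0 N → A) (gammaT N (uIdx N i : ℕ))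
    have key : ∀ i, (c : Gamma0 N → A) ((degV N R hv).coc (U.coc γ i) ()) =
        t i + (c : Gamma0 N → A) γ' - t (U.perm γ i) := by
      intro i
      have hd : (degV N R hv).coc (U.coc γ i) () * gammaT N (uIdx N (U.perm γ i) : ℕ) =
          gammaT N (uIdx N i : ℕ) * γ' := by
        set V : M2 := !![(v : ℤ), 0; 0, (v : ℤ)] with hV
        refine matOf_injective (HeckeH.mul_right_cancel_of_det_ne
          (c := V) (by simp [hV, Matrix.det_fin_two_of, hv.ne_zero]) ?_)
        have hT : ∀ j : ℕ, !![(v : ℤ), 0; 0, 1] * !![(1 : ℤ), (j : ℤ); 0, (v : ℤ)] =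
            matOf (gammaT N j) * V := fun j => by
          ext a b
          fin_cases a <;> fin_cases b <;>
            simp [hV, gammaT, Matrix.mul_apply, Fin.sum_univ_two, mul_comm]
        have hcomm : ∀ X : M2, V * X = X * V := fun X => by
          ext a b
          fin_cases a <;> fin_cases b <;>
            simp [hV, Matrix.mul_apply, Fin.sum_univ_two, mul_comm]
        have h1 := (degV N R hv).spec (U.coc γ i) ()
        have h2 := U.spec γ i
        rw [heckeSys_β, heckeSys_β, heckeBeta_uIdx, heckeBeta_uIdx] at h2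
        rw [matOf_mul, matOf_mul, Matrix.mul_assoc, ← hT, ← Matrix.mul_assoc,
          show matOf ((degV N R hv).coc (U.coc γ i) ()) * !![(v : ℤ), 0; 0, 1] =
            !![(v : ℤ), 0; 0, 1] * matOf (U.coc γ i) from h1.symm, Matrix.mul_assoc, ← h2,
          ← Matrix.mul_assoc, hT, Matrix.mul_assoc (matOf (gammaT N _)), hcomm, ← Matrix.mul_assoc]
        rfl
      have := congrArg (c : Gamma0 N → A) hd
      rw [Z1_tchi_mul, Z1_tchi_mul] at this
      exact eq_sub_of_add_eq this
    rw [Finset.sum_congr rfl fun i _ => key i, Finset.sum_sub_distrib, Finset.sum_add_distrib,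
      Equiv.sum_comp (U.perm γ) t, Finset.sum_const, Finset.card_univ,
      Fintype.card_congr (uEquiv (v := v) N), Fintype.card_fin, ← Nat.cast_smul_eq_nsmul R]
    abel

/-- `y + U (W y) = res (cor y)`. -/
theorem add_hecke_w (hv : v.Prime) (hvN : ¬ v ∣ N) (y : H1 R A (tchi (N * v) R)) :
    y + heckeOp hv 1 A ((wSys R hv hvN).map A y) =
      (degOne N R v).map A ((corSys R hv hvN).map A y) := by
  induction y using Submodule.Quotient.induction_on with
  | _ c =>
    simp only [heckeOp, Sys.map_mk, ← Submodule.Quotient.mk_add]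
    refine congrArg Submodule.Quotient.mk (Subtype.ext (funext fun γ => ?_))
    rw [Submodule.coe_add, Pi.add_apply]
    simp only [Sys.coe_op, Fintype.sum_unique, heckeSys_one_w, one_smul]
    simp only [show (degOne N R v).w default = 1 from rfl,
      show (wSys R hv hvN).w default = 1 from rfl,
      show ∀ i, (corSys R hv hvN).w i = 1 from fun _ => rfl]
    simp only [one_smul]
    rw [show (default : Unit) = () from rfl, degOne_coc γ]
    set U := heckeSys (R := R) hv (1 : (ZMod (N * v))ˣ →* Rˣ)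
    set γ' := Subgroup.inclusion (Period.gamma0_le_gamma0_of_dvd (dvd_mul_right N v)) γ
    rw [Fintype.sum_option]
    congr 1
    · refine congrArg _ (Eq.symm ?_)
      refine ((corSys R hv hvN).eq_of_mul (inj_corSys hv hvN) (j := none) ?_).1
      show matOf (1 : Gamma0 N) * matOf γ' = matOf γ * matOf (1 : Gamma0 N)
      simp only [HeckeH.matOf_one, Matrix.one_mul, Matrix.mul_one]
      rfl
    · refine Fintype.sum_equiv (uEquiv N) _ _ fun i => congrArg _ (Eq.symm ?_)
      refine ((corSys R hv hvN).eq_of_mul (inj_corSys hv hvN)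
        (j := some (uIdx N (U.perm γ i))) ?_).1
      show matOf (corRep hv hvN (some (uIdx N i))) * matOf γ' =
        matOf ((wSys R hv hvN).coc (U.coc γ i) ()) *
          matOf (corRep hv hvN (some (uIdx N (U.perm γ i))))
      have hW : ∀ j : Fin v, wMatV N v * !![(1 : ℤ), ((j : ℕ) : ℤ); 0, (v : ℤ)] =
          (v : ℤ) • matOf (corRep hv hvN (some j)) := fun j => by
        ext a b
        fin_cases a <;> fin_cases b <;>
          simp [wMatV, corRep, corBase, gammaT, Matrix.mul_apply, Fin.sum_univ_two] <;> ring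
      have h1 := (wSys R hv hvN).spec (U.coc γ i) ()
      have h2 := U.spec γ i
      rw [heckeSys_β, heckeSys_β, heckeBeta_uIdx, heckeBeta_uIdx] at h2
      have h3 : (v : ℤ) • (matOf (corRep hv hvN (some (uIdx N i))) * matOf γ') =
          (v : ℤ) • (matOf ((wSys R hv hvN).coc (U.coc γ i) ()) *
            matOf (corRep hv hvN (some (uIdx N (U.perm γ i))))) := by
        rw [← Matrix.smul_mul, ← hW, Matrix.mul_assoc,
          show matOf γ' = matOf γ from rfl, h2, ← Matrix.mul_assoc, ← Matrix.mul_smul, ← hW,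
          ← Matrix.mul_assoc]
        exact congrArg (· * _) h1
      ext a b
      have h4 := congrFun (congrFun h3 a) b
      simp only [Matrix.smul_apply, smul_eq_mul] at h4
      exact mul_left_cancel₀ (by exact_mod_cast hv.ne_zero) h4

/-- `W ∘ W = id`. -/
theorem w_w (hv : v.Prime) (hvN : ¬ v ∣ N) (y : H1 R A (tchi (N * v) R)) :
    (wSys R hv hvN).map A ((wSys R hv hvN).map A y) = y := by
  induction y using Submodule.Quotient.induction_on with
  | _ c =>
    rw [Sys.map_mk, Sys.map_mk]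
    refine congrArg Submodule.Quotient.mk (Subtype.ext (funext fun γ => ?_))
    simp only [Sys.coe_op, Fintype.sum_unique]
    rw [show (wSys R hv hvN).w default = 1 from rfl, one_smul, one_smul]
    set S := wSys R hv hvN
    set a := Nat.gcdA v N
    set b := Nat.gcdB v N
    let g : Gamma0 (N * v) := mkGamma0 ((v : ℤ) * a * a - b * N) (-(b * (a + 1)))
      (((N * v : ℕ) : ℤ) * (a + 1)) ((v : ℤ) - b * N)
      (by push_cast; linear_combination ((v : ℤ) * a + b * N + 1) * bezout hv hvN)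
      (dvd_mul_right _ _)
    have hWW : wMatV N v * wMatV N v = (v : ℤ) • matOf g := by
      ext x y
      fin_cases x <;> fin_cases y <;>
        simp [wMatV, g, Matrix.mul_apply, Fin.sum_univ_two] <;> ring
    have h1 := S.spec γ ()
    have h2 := S.spec (S.coc γ ()) ()
    have hd : S.coc (S.coc γ ()) () * g = g * γ := by
      refine matOf_injective ?_
      ext x y
      have h3 : (v : ℤ) • (matOf (S.coc (S.coc γ ()) ()) * matOf g) = (v : ℤ) • (matOf g * matOf γ) := by
        rw [← Matrix.mul_smul, ← Matrix.smul_mul, ← hWW, Matrix.mul_assoc (wMatV N v),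
          show wMatV N v * matOf γ = matOf (S.coc γ ()) * wMatV N v from h1, ← Matrix.mul_assoc,
          ← Matrix.mul_assoc]
        exact congrArg (· * _) h2.symm
      have h4 := congrFun (congrFun h3 x) y
      simp only [Matrix.smul_apply, smul_eq_mul] at h4
      rw [matOf_mul, matOf_mul]
      exact mul_left_cancel₀ (by exact_mod_cast hv.ne_zero) h4
    have := congrArg (c : Gamma0 (N * v) → A) hd
    rw [Z1_tchi_mul, Z1_tchi_mul, add_comm ((c : Gamma0 (N * v) → A) g)] at this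
    exact add_right_cancel this

/-- An index of a Hecke operator at level `N v`, for `ℓ ≠ v`, as one at level `N`. -/
theorem heckeIdx_equiv {ℓ : ℕ} (hℓ : ℓ.Prime) (hv : v.Prime) (hne : ℓ ≠ v) :
    ∀ o : Option (Fin ℓ), (o = none → ¬ ℓ ∣ N * v) ↔ (o = none → ¬ ℓ ∣ N) := fun o => by
  refine imp_congr_right fun _ => not_congr ⟨fun h => ?_, fun h => h.mul_right v⟩
  rcases (Nat.Prime.dvd_mul hℓ).mp h with h | h
  · exact h
  · exact absurd ((Nat.prime_dvd_prime_iff_eq hℓ hv).mp h) hne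

/-- Degeneracy maps commute with the Hecke operators away from `v`. -/
theorem degOne_hecke {ℓ : ℕ} (hℓ : ℓ.Prime) (hv : v.Prime) (hne : ℓ ≠ v)
    (x : H1 R A (tchi N R)) :
    (degOne N R v).map A (heckeOp hℓ 1 A x) = heckeOp hℓ 1 A ((degOne N R v).map A x) := by
  rw [heckeOp, heckeOp, ← Sys.map_comp, ← Sys.map_comp]
  let e : Unit × heckeIdx (N * v) ℓ ≃ heckeIdx N ℓ × Unit :=
    ((Equiv.punitProd _).trans (Equiv.subtypeEquivRight (heckeIdx_equiv hℓ hv hne))).trans
      (Equiv.prodPUnit _).symm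
  refine (LinearMap.congr_fun (Sys.map_eq_of_twist ((degOne N R v).comp (heckeSys (R := R) hℓ 1))
    ((heckeSys (R := R) hℓ 1).comp (degOne N R v)) ?_ e (fun _ => 1) (fun p => ?_) fun p => ?_) x).symm
  · intro δ p q h
    refine Prod.ext (inj_heckeSys (R := R) hℓ (1 : (ZMod N)ˣ →* Rˣ) δ p.1 q.1 ?_) rfl
    simpa [degOne, Matrix.mul_assoc] using h
  · obtain ⟨_, ⟨_ | j, hj⟩⟩ := p <;> simp [e, degOne, heckeBeta]
  · simp [degOne]

/-- The second degeneracy map commutes with the Hecke operators away from `v`. -/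
theorem degV_hecke {ℓ : ℕ} (hℓ : ℓ.Prime) (hv : v.Prime) (hne : ℓ ≠ v)
    (x : H1 R A (tchi N R)) :
    (degV N R hv).map A (heckeOp hℓ 1 A x) = heckeOp hℓ 1 A ((degV N R hv).map A x) := by
  rw [heckeOp, heckeOp, ← Sys.map_comp, ← Sys.map_comp]
  have : NeZero ℓ := ⟨hℓ.ne_zero⟩
  set D : M2 := !![(v : ℤ), 0; 0, 1] with hD
  have hdet : D.det ≠ 0 := by simp [hD, Matrix.det_fin_two_of, hv.ne_zero]
  have hinj : ((heckeSys (R := R) hℓ (1 : (ZMod N)ˣ →* Rˣ)).comp (degV N R hv)).Inj := by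
    intro δ p q h
    refine Prod.ext (inj_heckeSys (R := R) hℓ (1 : (ZMod N)ˣ →* Rˣ) δ p.1 q.1 ?_) rfl
    refine HeckeH.mul_right_cancel_of_det_ne hdet ?_
    rw [Matrix.mul_assoc]
    exact h
  have hex : ∀ p : Unit × heckeIdx (N * v) ℓ, ∃ (δ : Gamma0 N) (q : heckeIdx N ℓ × Unit),
      D * heckeBeta p.2 = matOf δ * (heckeBeta q.1 * D) := by
    rintro ⟨_, ⟨_ | j, hj⟩⟩
    · refine ⟨1, (⟨none, (heckeIdx_equiv hℓ hv hne none).mp hj⟩, ()), ?_⟩
      simp [hD, heckeBeta, mul_comm]
    · refine ⟨gammaT N ((v * j / ℓ : ℕ) : ℤ),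
        (⟨some ⟨v * j % ℓ, Nat.mod_lt _ hℓ.pos⟩, fun h => by simp at h⟩, ()), ?_⟩
      have e : ((v * j % ℓ : ℕ) : ℤ) + ((v * j / ℓ : ℕ) : ℤ) * ℓ = (v : ℤ) * (j : ℕ) := by
        exact_mod_cast Nat.mod_add_div' _ _
      simp [hD, heckeBeta, gammaT, -Int.natCast_ediv, -Int.natCast_emod]
      push_cast at e ⊢
      linear_combination -e
  choose δ e hδ using hex
  have einj : Function.Injective e := by
    intro p q hpq
    refine Prod.ext (Subsingleton.elim _ _) ?_
    have h : D * heckeBeta p.2 = matOf (δ p * (δ q)⁻¹) * (D * heckeBeta q.2) := by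
      rw [hδ p, hδ q, hpq, ← Matrix.mul_assoc, ← Matrix.mul_assoc, ← Matrix.mul_assoc, ← matOf_mul,
        inv_mul_cancel_right]
    obtain ⟨_, ⟨_ | j, hj⟩⟩ := p <;> obtain ⟨_, ⟨_ | j', hj'⟩⟩ := q
    · rfl
    · exfalso
      simp only [hD, heckeBeta_none, heckeBeta_some, Matrix.mul_fin_two] at h
      obtain ⟨h1, -⟩ := eq_of_triangular (a := (v : ℤ) * ℓ) (b := 0) (d := 1) (a' := (v : ℤ))
        (b' := (v : ℤ) * (j' : ℕ)) (d' := (ℓ : ℤ))
        (by exact_mod_cast Nat.mul_pos hv.pos hℓ.pos) (by exact_mod_cast hv.pos)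
        (δ := δ ((), ⟨none, hj⟩) * (δ ((), ⟨some j', hj'⟩))⁻¹) (by simpa using h)
      have h1' : v * ℓ = v := by exact_mod_cast h1
      exact hℓ.ne_one ((mul_eq_left₀ hv.ne_zero).mp h1')
    · exfalso
      simp only [hD, heckeBeta_none, heckeBeta_some, Matrix.mul_fin_two] at h
      obtain ⟨h1, -⟩ := eq_of_triangular (a' := (v : ℤ) * ℓ) (b' := 0) (d' := 1) (a := (v : ℤ))
        (b := (v : ℤ) * (j : ℕ)) (d := (ℓ : ℤ)) (by exact_mod_cast hv.pos)
        (by exact_mod_cast Nat.mul_pos hv.pos hℓ.pos)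
        (δ := δ ((), ⟨some j, hj⟩) * (δ ((), ⟨none, hj'⟩))⁻¹) (by simpa using h)
      have h1' : v * ℓ = v := by exact_mod_cast h1.symm
      exact hℓ.ne_one ((mul_eq_left₀ hv.ne_zero).mp h1')
    · simp only [hD, heckeBeta_some, Matrix.mul_fin_two] at h
      obtain ⟨-, -, hdvd, -⟩ := eq_of_triangular (a := (v : ℤ)) (b := (v : ℤ) * (j : ℕ))
        (d := (ℓ : ℤ)) (a' := (v : ℤ)) (b' := (v : ℤ) * (j' : ℕ)) (d' := (ℓ : ℤ))
        (by exact_mod_cast hv.pos) (by exact_mod_cast hv.pos)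
        (δ := δ ((), ⟨some j, hj⟩) * (δ ((), ⟨some j', hj'⟩))⁻¹) (by simpa using h)
      rw [← mul_sub, ← ZMod.intCast_zmod_eq_zero_iff_dvd] at hdvd
      push_cast at hdvd
      have : Fact ℓ.Prime := ⟨hℓ⟩
      have hv0 : ((v : ℕ) : ZMod ℓ) ≠ 0 := fun h0 =>
        hne ((Nat.prime_dvd_prime_iff_eq hℓ hv).mp ((ZMod.natCast_eq_zero_iff _ _).mp h0))
      have hjj := sub_eq_zero.mp ((mul_eq_zero.mp hdvd).resolve_left hv0)
      have h2 := congrArg ZMod.val hjj
      rw [ZMod.val_cast_of_lt j.2, ZMod.val_cast_of_lt j'.2] at h2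
      exact Subtype.ext (congrArg some (Fin.ext h2))
  let E := Equiv.ofBijective e ((Fintype.bijective_iff_injective_and_card e).mpr ⟨einj, by
    rw [Fintype.card_prod, Fintype.card_prod, Fintype.card_unit, one_mul, mul_one]
    exact Fintype.card_congr (Equiv.subtypeEquivRight (heckeIdx_equiv hℓ hv hne))⟩)
  refine (LinearMap.congr_fun (Sys.map_eq_of_twist ((degV N R hv).comp (heckeSys (R := R) hℓ 1))
    ((heckeSys (R := R) hℓ 1).comp (degV N R hv)) hinj E δ hδ fun p => ?_) x).symm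
  simp [degV]

end Prime

end FLTAgent.Lower.Levels
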