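import Fermat.Agent.Lower.Levels.Free
import Fermat.Agent.Lower.Levels.Degen

/-!
# Frames

A `Frame` gives coordinates on the part of `H¹(Γ₀(L), R(ψ))` at residual eigenvalues, so that the
family acts by matrices (`Frame.mat`). Under `FamHyp` and `CharHyp` residual frames exist
(`exists_frame_residual`), lift (`exists_frame_lift`), reduce (`exists_frame_reduce`) and lift along
surjections of coefficients compatible with the residual maps (`exists_frame_lift_along`).
-/

set_option autoImplicit false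

noncomputable section

open CongruenceSubgroup
open scoped MatrixGroups Matrix

namespace FLTAgent.Lower.Levels

open IsLocalRing (maximalIdeal ResidueField residue)

instance isAdicComplete_field (k : Type) [Field k] : IsAdicComplete (maximalIdeal k) k := by
  rw [IsLocalRing.maximalIdeal_eq_bot]
  infer_instance

variable {L : ℕ} {R : Type} [CommRing R] {k : Type} [Field k] {ι : Type}

/-- Coordinates on the part of `H¹(Γ₀(L), R(ψ))` at `θ`. -/
structure Frame (ψ : (ZMod L)ˣ →* Rˣ) (pr : ι → Nat.Primes) (σ : R →+* k) (θ : ι → k)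
    (d : ℕ) : Type where
  vec : Fin d → H1 R R (chi ψ)
  mem : ∀ i, vec i ∈ h1Part ψ pr σ θ R
  inj : Function.Injective (Fintype.linearCombination R vec)
  span : ∀ x ∈ h1Part ψ pr σ θ R, ∃ c, Fintype.linearCombination R vec c = x

/-- The hypotheses on the residual eigenvalues. -/
structure FamHyp (L : ℕ) (pr : ι → Nat.Primes) (σ : R →+* k) (θ : ι → k) : Prop where
  surjective : Function.Surjective σ
  two : (2 : k) ≠ 0
  not_eis : ∃ i, ¬ (pr i : ℕ) ∣ L ∧ θ i ≠ 1 + ((pr i : ℕ) : k)
  order_three : (3 : k) ≠ 0 ∨ ∃ i, (pr i : ℕ) % 3 = 2 ∧ θ i ≠ 0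

/-- The hypotheses on the character. -/
structure CharHyp (ψ : (ZMod L)ˣ →* Rˣ) (σ : R →+* k) : Prop where
  residual : ∀ u, σ (ψ u : R) = 1
  neg_one : ψ (-1) = 1

namespace Frame

variable {ψ : (ZMod L)ˣ →* Rˣ} {pr : ι → Nat.Primes} {σ : R →+* k} {θ : ι → k} {d : ℕ}
  (F : Frame ψ pr σ θ d)

/-- The vector with given coordinates. -/
abbrev combo : (Fin d → R) →ₗ[R] H1 R R (chi ψ) := Fintype.linearCombination R F.vec

theorem combo_single (j : Fin d) : F.combo (Pi.single j 1) = F.vec j := by
  rw [combo, Fintype.linearCombination_apply_single, one_smul]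

theorem combo_mem (c : Fin d → R) : F.combo c ∈ h1Part ψ pr σ θ R := by
  rw [combo, Fintype.linearCombination_apply]
  exact Submodule.sum_mem _ fun i _ => Submodule.smul_mem _ _ (F.mem i)

/-- The coordinates of a vector. -/
def coord (x : H1 R R (chi ψ)) (hx : x ∈ h1Part ψ pr σ θ R) : Fin d → R := (F.span x hx).choose

theorem combo_coord (x : H1 R R (chi ψ)) (hx : x ∈ h1Part ψ pr σ θ R) :
    F.combo (F.coord x hx) = x :=
  (F.span x hx).choose_spec

/-- The matrix of a polynomial in the family, as a function. -/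
def matFun (s : MvPolynomial ι R) : Matrix (Fin d) (Fin d) R :=
  Matrix.of fun i j => F.coord (famAct ψ pr R s (F.vec j)) (act_mem_part (F.mem j) s) i

theorem combo_matFun (s : MvPolynomial ι R) (c : Fin d → R) :
    F.combo (F.matFun s *ᵥ c) = famAct ψ pr R s (F.combo c) := by
  have hcol : ∀ j, F.combo (F.matFun s *ᵥ Pi.single j 1) = famAct ψ pr R s (F.vec j) := by
    intro j
    rw [Matrix.mulVec_single_one]
    exact F.combo_coord _ (act_mem_part (F.mem j) s)
  have h : (F.combo).comp (Matrix.mulVecLin (F.matFun s)) = (famAct ψ pr R s).comp F.combo := by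
    refine LinearMap.pi_ext' fun j => LinearMap.ext_ring ?_
    show F.combo (F.matFun s *ᵥ Pi.single j 1) = famAct ψ pr R s (F.combo (Pi.single j 1))
    rw [hcol, F.combo_single]
  exact LinearMap.congr_fun h c

theorem mat_unique {M M' : Matrix (Fin d) (Fin d) R}
    (h : ∀ c, F.combo (M *ᵥ c) = F.combo (M' *ᵥ c)) : M = M' := by
  refine Matrix.ext_iff_mulVec.mpr fun c => F.inj (h c)

/-- The matrices of the family. -/
def mat : MvPolynomial ι R →ₐ[R] Matrix (Fin d) (Fin d) R :=
  AlgHom.ofLinearMap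
    { toFun := F.matFun
      map_add' := fun a b => F.mat_unique fun c =>
        (F.combo_matFun (a + b) c).trans <|
          (LinearMap.congr_fun (map_add (famAct ψ pr R) a b) _).trans <|
            (congrArg₂ (· + ·) (F.combo_matFun a c).symm (F.combo_matFun b c).symm).trans <|
              (map_add F.combo _ _).symm.trans (congrArg F.combo (Matrix.add_mulVec _ _ c).symm)
      map_smul' := fun r a => F.mat_unique fun c =>
        (F.combo_matFun (r • a) c).trans <|
          (LinearMap.congr_fun (map_smul (famAct ψ pr R) r a) _).trans <|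
            (congrArg (r • ·) (F.combo_matFun a c).symm).trans <|
              (map_smul F.combo r _).symm.trans (congrArg F.combo (Matrix.smul_mulVec r _ c).symm) }
    (F.mat_unique fun c =>
      (F.combo_matFun 1 c).trans <|
        (LinearMap.congr_fun (map_one (famAct ψ pr R)) _).trans
          (congrArg F.combo (Matrix.one_mulVec c).symm))
    fun a b => F.mat_unique fun c =>
      (F.combo_matFun (a * b) c).trans <|
        (LinearMap.congr_fun (map_mul (famAct ψ pr R) a b) _).trans <|
          (congrArg (famAct ψ pr R a) (F.combo_matFun b c).symm).trans <|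
            (F.combo_matFun a _).symm.trans (congrArg F.combo (Matrix.mulVec_mulVec c _ _))

theorem combo_mat (s : MvPolynomial ι R) (c : Fin d → R) :
    F.combo (F.mat s *ᵥ c) = famAct ψ pr R s (F.combo c) := F.combo_matFun s c

theorem isUnit_mat [NeZero L] [IsLocalRing R] [IsNoetherianRing R]
    [IsAdicComplete (maximalIdeal R) R] (hσ : Function.Surjective σ) {s : MvPolynomial ι R}
    (hs : s ∉ eigIdeal σ θ) : IsUnit (F.mat s) := by
  have : (eigIdeal σ θ).IsMaximal := isMaximal_eigIdeal hσ θ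
  obtain ⟨e, he⟩ := exists_isProj (famAct ψ pr R) (eigIdeal σ θ)
  obtain ⟨c, hc⟩ := he.inv s hs
  have hm : eigIdeal σ θ ≠ ⊤ := (isMaximal_eigIdeal hσ θ).ne_top
  have h1 : F.mat e = 1 := F.mat_unique fun x => by
    rw [F.combo_mat, Matrix.one_mulVec, he.apply_eq_self hm (F.combo_mem x)]
  have h2 : F.mat (c * s * e) = F.mat e := F.mat_unique fun x => by
    rw [F.combo_mat, F.combo_mat, hc]
  rw [map_mul, map_mul, h1, mul_one] at h2
  exact IsUnit.of_mul_eq_one_right _ h2

variable {R' : Type} [CommRing R'] {ψ' : (ZMod L)ˣ →* R'ˣ} {σ' : R' →+* k}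

/-- `F'` is the image of `F`. -/
def IsLift (F : Frame ψ pr σ θ d) (F' : Frame ψ' pr σ' θ d) (τ : R →+* R')
    (hτ : ∀ u, τ (ψ u : R) = (ψ' u : R')) : Prop :=
  ∀ i, coefMap (A := R) (B := R') (τ.toSemilinearMap) hτ (F.vec i) = F'.vec i

theorem mat_of_isLift {F' : Frame ψ' pr σ' θ d} {τ : R →+* R'}
    {hτ : ∀ u, τ (ψ u : R) = (ψ' u : R')} (h : F.IsLift F' τ hτ) (s : MvPolynomial ι R) :
    F'.mat (MvPolynomial.map τ s) = (F.mat s).map τ := by
  set g := coefMap (A := R) (B := R') τ.toSemilinearMap hτ with hg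
  have hv : ∀ c : Fin d → R, g (F.combo c) = F'.combo (τ ∘ c) := by
    intro c
    rw [combo, combo, Fintype.linearCombination_apply, Fintype.linearCombination_apply, map_sum]
    exact Finset.sum_congr rfl fun i _ => by rw [LinearMap.map_smulₛₗ, h i]; rfl
  refine F'.mat_unique fun c => ?_
  have hlin : F'.combo.comp (Matrix.mulVecLin (F'.mat (MvPolynomial.map τ s))) =
      F'.combo.comp (Matrix.mulVecLin ((F.mat s).map τ)) := by
    refine LinearMap.pi_ext' fun j => LinearMap.ext_ring ?_
    show F'.combo (F'.mat (MvPolynomial.map τ s) *ᵥ Pi.single j 1) =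
      F'.combo ((F.mat s).map τ *ᵥ Pi.single j 1)
    rw [F'.combo_mat, F'.combo_single, ← h j, ← coefMap_famAct, ← F.combo_single j, ← F.combo_mat,
      hv, Matrix.mulVec_single_one, Matrix.mulVec_single_one]
    rfl
  exact LinearMap.congr_fun hlin c

end Frame

/-- A residual frame. -/
theorem exists_frame_residual [NeZero L] [Finite k] (pr : ι → Nat.Primes) (θ : ι → k) :
    ∃ d, Nonempty (Frame (1 : (ZMod L)ˣ →* kˣ) pr (RingHom.id k) θ d) := by
  have : Finite (H1 k k (chi (1 : (ZMod L)ˣ →* kˣ))) := Module.finite_of_finite k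
  set P := h1Part (1 : (ZMod L)ˣ →* kˣ) pr (RingHom.id k) θ k
  let b := Module.finBasis k P
  have hcombo : ∀ c, Fintype.linearCombination k (fun i => (b i : H1 k k (chi (1 : (ZMod L)ˣ →* kˣ)))) c =
      (b.equivFun.symm c : H1 k k (chi (1 : (ZMod L)ˣ →* kˣ))) := fun c => by
    rw [Fintype.linearCombination_apply, Module.Basis.equivFun_symm_apply]
    simp only [Submodule.coe_sum, Submodule.coe_smul]
  refine ⟨Module.finrank k P, ⟨⟨fun i => (b i).1, fun i => (b i).2, fun c c' h => ?_, fun x hx => ?_⟩⟩⟩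
  · rw [hcombo, hcombo] at h
    exact b.equivFun.symm.injective (Subtype.ext h)
  · exact ⟨b.equivFun ⟨x, hx⟩, by rw [hcombo, LinearEquiv.symm_apply_apply]⟩

variable {ψ : (ZMod L)ˣ →* Rˣ} {pr : ι → Nat.Primes} {σ : R →+* k} {θ : ι → k} {d : ℕ}
  [NeZero L] [IsLocalRing R] [IsNoetherianRing R] [IsAdicComplete (maximalIdeal R) R] [Finite k]

theorem residual_char (hψ : CharHyp ψ σ) :
    ∀ u, σ (ψ u : R) = (((1 : (ZMod L)ˣ →* kˣ) u : kˣ) : k) :=
  fun u => (hψ.residual u).trans Units.val_one.symm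

omit [NeZero L] in
theorem bijective_mapCoef {R' : Type} [CommRing R'] {τ : R →+* R'} {A B : Type} [AddCommGroup A]
    [Module R A] [AddCommGroup B] [Module R' B] (f : A →ₛₗ[τ] B) (hf : Function.Bijective f)
    {χ : Gamma0 L →* Rˣ} {χ' : Gamma0 L →* R'ˣ} (h : ∀ γ, τ (χ γ : R) = (χ' γ : R')) :
    Function.Bijective (H1.mapCoef f h : H1 R A χ → H1 R' B χ') := by
  constructor
  · refine (injective_iff_map_eq_zero _).mpr fun x hx => ?_
    induction x using Submodule.Quotient.induction_on with
    | _ c =>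
      rw [H1.mapCoef_mk, Submodule.Quotient.mk_eq_zero] at hx
      obtain ⟨b, hb⟩ := hx
      obtain ⟨a, rfl⟩ := hf.2 b
      rw [← Z1.mapCoef_cobd f h] at hb
      refine (Submodule.Quotient.mk_eq_zero _).mpr ⟨a, Subtype.ext (funext fun γ => hf.1 ?_)⟩
      exact congrArg (fun z : Z1 R' B χ' => (z : Gamma0 L → B) γ) hb
  · intro y
    induction y using Submodule.Quotient.induction_on with
    | _ c =>
      choose c₀ hc₀ using fun γ => hf.2 ((c : Gamma0 L → B) γ)
      refine ⟨Submodule.Quotient.mk ⟨c₀, fun γ δ => hf.1 ?_⟩, ?_⟩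
      · rw [hc₀, map_add, LinearMap.map_smulₛₗ, hc₀, hc₀, h, Z1_mul]
      · rw [H1.mapCoef_mk]
        exact congrArg Submodule.Quotient.mk (Subtype.ext (funext fun γ => hc₀ γ))

/-- Transport to the residue field of `R`. -/
theorem exists_adapter (hfam : FamHyp L pr σ θ) (hψ : CharHyp ψ σ) :
    Finite (ResidueField R) ∧ Nat.card (ResidueField R) = Nat.card k ∧
    ∃ (θ' : ι → ResidueField R) (g : H1 R (ResidueField R) (chi ψ) → H1 k k (chi (1 : (ZMod L)ˣ →* kˣ))),
      eigIdeal (residue R) θ' = eigIdeal σ θ ∧ Function.Bijective g ∧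
      (∀ x y, g (x + y) = g x + g y) ∧ (∀ r x, g (r • x) = σ r • g x) ∧
      (∀ x, g x ∈ h1Part (1 : (ZMod L)ˣ →* kˣ) pr (RingHom.id k) θ k ↔
        x ∈ h1Part ψ pr (residue R) θ' (ResidueField R)) ∧
      (∀ v, g (H1.mapCoef (Algebra.linearMap R (ResidueField R)) (fun _ => rfl) v) =
        coefMap (A := R) (B := k) σ.toSemilinearMap (residual_char hψ) v) ∧
      ∀ d, Nat.card (h1Part (1 : (ZMod L)ˣ →* kˣ) pr (RingHom.id k) θ k) = Nat.card k ^ d →
        FreeHyp ψ pr θ' d := by
  have hker : RingHom.ker σ = maximalIdeal R :=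
    IsLocalRing.eq_maximalIdeal (RingHom.ker_isMaximal_of_surjective σ hfam.surjective)
  let e : ResidueField R ≃+* k :=
    (Ideal.quotEquivOfEq hker.symm).trans (RingHom.quotientKerEquivOfSurjective hfam.surjective)
  have he : ∀ r, e (residue R r) = σ r := fun r => rfl
  have : Finite (ResidueField R) := Finite.of_equiv k e.symm.toEquiv
  have hcard : Nat.card (ResidueField R) = Nat.card k := Nat.card_congr e.toEquiv
  have hcomp : e.toRingHom.comp (residue R) = σ := RingHom.ext he
  let σf : ResidueField R →ₛₗ[σ] k :=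
    { toFun := e
      map_add' := map_add e
      map_smul' := fun r x => by
        rw [Algebra.smul_def, map_mul, smul_eq_mul]
        exact congrArg (· * e x) (he r) }
  set θ' : ι → ResidueField R := fun i => e.symm (θ i)
  have heig : eigIdeal (residue R) θ' = eigIdeal σ θ := by
    ext s
    have : e (MvPolynomial.eval₂Hom (residue R) θ' s) = MvPolynomial.eval₂Hom σ θ s := by
      show e.toRingHom (MvPolynomial.eval₂Hom (residue R) θ' s) = _
      rw [MvPolynomial.map_eval₂Hom, hcomp]
      simp [θ']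
    rw [mem_eigIdeal, mem_eigIdeal, ← this, map_eq_zero_iff e e.injective]
  set g := coefMap (A := ResidueField R) (B := k) σf (residual_char hψ) with hg
  have hbij : Function.Bijective g := bijective_mapCoef σf e.bijective _
  have : RingHomSurjective σ := ⟨hfam.surjective⟩
  have hgs : ∀ s x, g (famAct ψ pr (ResidueField R) s x) =
      famAct (1 : (ZMod L)ˣ →* kˣ) pr k (MvPolynomial.map σ s) (g x) :=
    fun s x => coefMap_famAct σf _ pr s x
  have hcomap : (eigIdeal (RingHom.id k) θ).comap (MvPolynomial.map σ) =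
      eigIdeal (residue R) θ' := by rw [comap_eigIdeal, RingHom.id_comp, heig]
  have hmem : ∀ x, g x ∈ h1Part (1 : (ZMod L)ˣ →* kˣ) pr (RingHom.id k) θ k ↔
      x ∈ h1Part ψ pr (residue R) θ' (ResidueField R) := by
    refine fun x => ⟨fun h => mem_part.mpr fun s hs => ?_, fun h => map_mem_part g hgs hcomap h⟩
    obtain ⟨y', hy'⟩ := mem_part.mp h (MvPolynomial.map σ s)
      (fun h' => hs (by rw [← hcomap]; exact h'))
    obtain ⟨y, rfl⟩ := hbij.2 y'
    exact ⟨y, hbij.1 ((hgs s y).trans hy')⟩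
  refine ⟨inferInstance, hcard, θ', g, heig, hbij, map_add g, fun r x => LinearMap.map_smulₛₗ g r x, hmem,
    fun v => ?_, fun d hd => ?_⟩
  · rw [hg]
    induction v using Submodule.Quotient.induction_on with
    | _ c => rfl
  · refine ⟨?_, fun u => ?_, fun γ hγ => ?_, ?_, ?_, ?_⟩
    · refine IsLocalRing.notMem_maximalIdeal.mp fun h => hfam.two ?_
      rw [← hker, RingHom.mem_ker, map_ofNat] at h
      exact h
    · exact e.injective (by rw [he, hψ.residual, map_one])
    · rw [chi, MonoidHom.comp_apply]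
      rw [show dUnit dvd_rfl γ = -1 from Units.ext ?_, hψ.neg_one]
      rw [coe_dUnit, Units.val_neg, Units.val_one]
      show (((γ : SL(2, ℤ)) : Matrix (Fin 2) (Fin 2) ℤ) 1 1 : ZMod L) = -1
      rw [hγ]
      simp
    · obtain ⟨i, hiL, hi⟩ := hfam.not_eis
      refine ⟨i, hiL, fun h => hi ?_⟩
      have := congrArg e h
      rwa [map_add, map_one, map_natCast, show e (θ' i) = θ i from e.apply_symm_apply _] at this
    · rcases hfam.order_three with h3 | ⟨i, hi, hi0⟩
      · refine Or.inl (IsLocalRing.notMem_maximalIdeal.mp fun h => h3 ?_)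
        rw [← hker, RingHom.mem_ker, map_ofNat] at h
        exact h
      · exact Or.inr ⟨i, hi, fun h => hi0 (by
          have := congrArg e h
          rwa [map_zero, show e (θ' i) = θ i from e.apply_symm_apply _] at this)⟩
    · rw [hcard, ← hd]
      exact Nat.card_congr ((Equiv.ofBijective g hbij).subtypeEquiv fun x => (hmem x).symm)

omit [IsLocalRing R] [IsNoetherianRing R] [IsAdicComplete (maximalIdeal R) R] in
/-- A frame of rank `d` gives `#k ^ d` residual eigenclasses. -/
theorem card_part_frame (Fk : Frame (1 : (ZMod L)ˣ →* kˣ) pr (RingHom.id k) θ d) :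
    Nat.card (h1Part (1 : (ZMod L)ˣ →* kˣ) pr (RingHom.id k) θ k) = Nat.card k ^ d := by
  have h : Function.Bijective fun c : Fin d → k =>
      (⟨Fk.combo c, Fk.combo_mem c⟩ : h1Part (1 : (ZMod L)ˣ →* kˣ) pr (RingHom.id k) θ k) :=
    ⟨fun c c' e => Fk.inj (congrArg Subtype.val e), fun x =>
      (Fk.span x.1 x.2).imp fun c hc => Subtype.ext hc⟩
  rw [← Nat.card_congr (Equiv.ofBijective _ h), Nat.card_fun, Nat.card_fin]

/-- Vectors lifting a residual frame form a frame. -/
theorem exists_frame_of_lift (hfam : FamHyp L pr σ θ) (hψ : CharHyp ψ σ)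
    (Fk : Frame (1 : (ZMod L)ˣ →* kˣ) pr (RingHom.id k) θ d) (v : Fin d → H1 R R (chi ψ))
    (hv : ∀ i, v i ∈ h1Part ψ pr σ θ R)
    (hlift : ∀ i, coefMap (A := R) (B := k) σ.toSemilinearMap (residual_char hψ) (v i) = Fk.vec i) :
    ∃ F : Frame ψ pr σ θ d, F.vec = v ∧ F.IsLift Fk σ (residual_char hψ) := by
  obtain ⟨hfin, hcard, θ', g, heig, hbij, hgadd, hgsmul, hmem, hgv, hfree⟩ :=
    exists_adapter hfam hψ
  have hF := hfree d (card_part_frame Fk)
  have hpart : h1Part ψ pr (residue R) θ' R = h1Part ψ pr σ θ R :=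
    congrArg (part (famAct ψ pr R)) heig
  let v' : Fin d → h1Part ψ pr (residue R) θ' R := fun i => ⟨v i, hpart ▸ hv i⟩
  let g' : H1 R (ResidueField R) (chi ψ) →+ H1 k k (chi (1 : (ZMod L)ˣ →* kˣ)) :=
    AddMonoidHom.mk' g hgadd
  have hb := bijective_partCombo hF v' fun y hy => by
    obtain ⟨ck, hck⟩ := Fk.span (g y) ((hmem y).mpr hy)
    choose c hc using fun i => hfam.surjective (ck i)
    refine ⟨c, hbij.1 ?_⟩
    show g' _ = g y
    rw [map_sum, ← hck, Fintype.linearCombination_apply]
    refine Finset.sum_congr rfl fun i _ => ?_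
    show g (c i • _) = _
    rw [hgsmul, hgv, hlift, hc]
  have hcombo : ∀ c, Fintype.linearCombination R v c = (partCombo v' c).1 := fun c => by
    simp [partCombo, Fintype.linearCombination_apply, v']
  refine ⟨⟨v, hv, fun c c' e => hb.1 (Subtype.ext ?_), fun x hx => ?_⟩, rfl, hlift⟩
  · rw [← hcombo, ← hcombo]
    exact e
  · obtain ⟨c, hc⟩ := hb.2 ⟨x, hpart ▸ hx⟩
    exact ⟨c, (hcombo c).trans (congrArg Subtype.val hc)⟩

/-- Every residual frame lifts. -/
theorem exists_frame_lift (hfam : FamHyp L pr σ θ) (hψ : CharHyp ψ σ)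
    (Fk : Frame (1 : (ZMod L)ˣ →* kˣ) pr (RingHom.id k) θ d) :
    ∃ F : Frame ψ pr σ θ d, F.IsLift Fk σ (residual_char hψ) := by
  obtain ⟨hfin, hcard, θ', g, heig, hbij, hgadd, hgsmul, hmem, hgv, hfree⟩ :=
    exists_adapter hfam hψ
  have hF := hfree d (card_part_frame Fk)
  have hpart : h1Part ψ pr (residue R) θ' R = h1Part ψ pr σ θ R :=
    congrArg (part (famAct ψ pr R)) heig
  choose y hy using fun i => hbij.2 (Fk.vec i)
  choose v hv hvy using fun i => h1Part_surjective hF (Algebra.linearMap R (ResidueField R))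
    IsLocalRing.residue_surjective ((hmem (y i)).mp (by rw [hy]; exact Fk.mem i))
  obtain ⟨F, -, hF'⟩ := exists_frame_of_lift hfam hψ Fk v (fun i => hpart ▸ hv i)
    (fun i => by rw [← hgv, hvy, hy])
  exact ⟨F, hF'⟩

/-- Every frame reduces to a residual frame. -/
theorem exists_frame_reduce (hfam : FamHyp L pr σ θ) (hψ : CharHyp ψ σ)
    (F : Frame ψ pr σ θ d) :
    ∃ Fk : Frame (1 : (ZMod L)ˣ →* kˣ) pr (RingHom.id k) θ d,
      F.IsLift Fk σ (residual_char hψ) := by
  obtain ⟨d', ⟨Fk'⟩⟩ := exists_frame_residual (L := L) pr θ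
  obtain ⟨F', hF'⟩ := exists_frame_lift hfam hψ Fk'
  -- both frames are bases of the same module
  let eq : ∀ {e : ℕ}, Frame ψ pr σ θ e → ((Fin e → R) ≃ₗ[R] h1Part ψ pr σ θ R) := fun G =>
    LinearEquiv.ofBijective (G.combo.codRestrict _ G.combo_mem)
      ⟨fun c c' e => G.inj (congrArg Subtype.val e),
        fun x => (G.span x.1 x.2).imp fun c hc => Subtype.ext hc⟩
  have : Nontrivial R := inferInstance
  have hd : d' = d := by
    simpa using ((eq F').trans (eq F).symm).finrank_eq
  subst hd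
  set g := coefMap (A := R) (B := k) σ.toSemilinearMap (residual_char hψ)
  have : RingHomSurjective σ := ⟨hfam.surjective⟩
  have hgF' : ∀ c, g (F'.combo c) = Fk'.combo (σ ∘ c) := fun c => by
    rw [Frame.combo, Frame.combo, Fintype.linearCombination_apply, Fintype.linearCombination_apply,
      map_sum]
    exact Finset.sum_congr rfl fun i _ => by rw [LinearMap.map_smulₛₗ, hF' i]; rfl
  have hgF : ∀ c, g (F.combo c) =
      Fintype.linearCombination k (fun i => g (F.vec i)) (σ ∘ c) := fun c => by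
    rw [Frame.combo, Fintype.linearCombination_apply, Fintype.linearCombination_apply, map_sum]
    exact Finset.sum_congr rfl fun i _ => by rw [LinearMap.map_smulₛₗ]; rfl
  have hmem : ∀ i, g (F.vec i) ∈ h1Part (1 : (ZMod L)ˣ →* kˣ) pr (RingHom.id k) θ k := fun i =>
    map_mem_part g (fun s x => coefMap_famAct _ _ pr s x)
      (by rw [comap_eigIdeal, RingHom.id_comp]) (F.mem i)
  have hspan : ∀ x ∈ h1Part (1 : (ZMod L)ˣ →* kˣ) pr (RingHom.id k) θ k,
      ∃ c, Fintype.linearCombination k (fun i => g (F.vec i)) c = x := fun x hx => by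
    obtain ⟨ck, rfl⟩ := Fk'.span x hx
    choose c hc using fun i => hfam.surjective (ck i)
    obtain ⟨c₁, hc₁⟩ := F.span (F'.combo c) (F'.combo_mem c)
    refine ⟨σ ∘ c₁, ?_⟩
    rw [← hgF]
    show g (Fintype.linearCombination R F.vec c₁) = _
    rw [hc₁, hgF', show σ ∘ c = ck from funext hc]
  have hsurj : Function.Surjective fun c : Fin d' → k =>
      (⟨Fintype.linearCombination k (fun i => g (F.vec i)) c, by
        rw [Fintype.linearCombination_apply]
        exact Submodule.sum_mem _ fun i _ => Submodule.smul_mem _ _ (hmem i)⟩ :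
        h1Part (1 : (ZMod L)ˣ →* kˣ) pr (RingHom.id k) θ k) :=
    fun x => (hspan x.1 x.2).imp fun c hc => Subtype.ext hc
  have hb := (Nat.bijective_iff_surjective_and_card _).mpr ⟨hsurj, by
    rw [card_part_frame Fk', Nat.card_fun, Nat.card_fin]⟩
  exact ⟨⟨fun i => g (F.vec i), hmem, fun c c' e => hb.1 (Subtype.ext e), hspan⟩, fun i => rfl⟩

/-- Frames lift along surjections compatible with the residual maps. -/
theorem exists_frame_lift_along {R' : Type} [CommRing R'] [IsLocalRing R'] [IsNoetherianRing R']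
    [IsAdicComplete (maximalIdeal R') R'] {σ' : R' →+* k} {ψ' : (ZMod L)ˣ →* R'ˣ}
    (hfam : FamHyp L pr σ θ) (hψ : CharHyp ψ σ) (hfam' : FamHyp L pr σ' θ) (hψ' : CharHyp ψ' σ')
    (τ : R →+* R') (hτs : Function.Surjective τ) (hτσ : σ'.comp τ = σ)
    (hτ : ∀ u, τ (ψ u : R) = (ψ' u : R'))
    (Fk : Frame (1 : (ZMod L)ˣ →* kˣ) pr (RingHom.id k) θ d) (F' : Frame ψ' pr σ' θ d)
    (hF' : F'.IsLift Fk σ' (residual_char hψ')) :
    ∃ F : Frame ψ pr σ θ d, F.IsLift F' τ hτ ∧ F.IsLift Fk σ (residual_char hψ) := by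
  obtain ⟨F₀, hF₀⟩ := exists_frame_lift hfam hψ Fk
  set g := coefMap (A := R) (B := R') τ.toSemilinearMap hτ
  set gk := coefMap (A := R) (B := k) σ.toSemilinearMap (residual_char hψ)
  set gk' := coefMap (A := R') (B := k) σ'.toSemilinearMap (residual_char hψ')
  have : RingHomSurjective τ := ⟨hτs⟩
  have hmem : ∀ i, g (F₀.vec i) ∈ h1Part ψ' pr σ' θ R' := fun i =>
    map_mem_part g (fun s x => coefMap_famAct _ _ pr s x) (by rw [comap_eigIdeal, hτσ]) (F₀.mem i)
  have hgg : ∀ x, gk' (g x) = gk x := fun x => by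
    induction x using Submodule.Quotient.induction_on with
    | _ c =>
      refine congrArg Submodule.Quotient.mk (Subtype.ext (funext fun γ => ?_))
      exact RingHom.congr_fun hτσ ((c : Gamma0 L → R) γ)
  obtain ⟨F₀', hF₀'v, hF₀'⟩ := exists_frame_of_lift hfam' hψ' Fk (fun i => g (F₀.vec i)) hmem
    (fun i => (hgg _).trans (hF₀ i))
  -- change of coordinates, lifted
  choose G hG using fun j => F₀'.span (F'.vec j) (F'.mem j)
  choose G₀ hG₀ using fun j i => hτs (G j i)
  have hσG : ∀ j, σ' ∘ G j = Pi.single j 1 := fun j => Fk.inj (by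
    rw [show Fintype.linearCombination k Fk.vec (Pi.single j 1) = Fk.vec j from Fk.combo_single j,
      ← hF' j, ← hG j, Fintype.linearCombination_apply, Fintype.linearCombination_apply, map_sum]
    exact Finset.sum_congr rfl fun i _ => by rw [LinearMap.map_smulₛₗ, hF₀' i]; rfl)
  obtain ⟨F, hFv, hF⟩ := exists_frame_of_lift hfam hψ Fk (fun j => F₀.combo (G₀ j))
    (fun j => F₀.combo_mem _) (fun j => by
      rw [Frame.combo, Fintype.linearCombination_apply, map_sum,
        Finset.sum_congr rfl fun i _ =>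
          show gk (G₀ j i • F₀.vec i) = (σ ∘ G₀ j) i • Fk.vec i by
            rw [LinearMap.map_smulₛₗ, hF₀ i]; rfl,
        show σ ∘ G₀ j = σ' ∘ G j from funext fun i => by
          rw [Function.comp_apply, Function.comp_apply, ← hG₀ j i, ← hτσ]; rfl,
        hσG, ← Fintype.linearCombination_apply]
      exact Fk.combo_single j)
  refine ⟨F, fun j => ?_, hF⟩
  show g (F.vec j) = F'.vec j
  rw [hFv, ← hG j, hF₀'v, Fintype.linearCombination_apply]
  show g (Fintype.linearCombination R F₀.vec (G₀ j)) = _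
  rw [Fintype.linearCombination_apply, map_sum]
  exact Finset.sum_congr rfl fun i _ => by
    rw [LinearMap.map_smulₛₗ]
    show τ (G₀ j i) • g (F₀.vec i) = _
    rw [hG₀]

end FLTAgent.Lower.Levels
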