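import Fermat.Agent.Lower.Levels.Family
import Fermat.Agent.Lower.Levels.Coh

/-!
# Freeness of parts of twisted cohomology

Under `FreeHyp` (residual dimension `d`, a non-Eisenstein eigenvalue) the part of a finite module
`A` has `|A| ^ d` elements (`card_h1Part`, by dévissage along the exactness of parts), so elements
spanning the residual part form a basis (`bijective_partCombo`).
-/

set_option autoImplicit false

noncomputable section

open CongruenceSubgroup
open scoped MatrixGroups

namespace FLTAgent.Lower.Levels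

open IsLocalRing (maximalIdeal ResidueField residue)

section Small

variable {R : Type} [CommRing R] [IsLocalRing R] {A : Type} [AddCommGroup A] [Module R A]

/-- A nonzero finite module contains a copy of the residue field. -/
theorem exists_residue_embedding [Finite A] [Nontrivial A] :
    ∃ f : ResidueField R →ₗ[R] A, Function.Injective f := by
  classical
  have : Nonempty {a : A // a ≠ 0} := by
    obtain ⟨a, ha⟩ := exists_ne (0 : A)
    exact ⟨⟨a, ha⟩⟩
  obtain ⟨⟨a, ha⟩, hmin⟩ := Finite.exists_min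
    fun a : {a : A // a ≠ 0} => Nat.card (Submodule.span R {(a : A)})
  have hkill : ∀ r ∈ maximalIdeal R, r • a = 0 := by
    intro r hr
    by_contra h
    have hle : Submodule.span R {r • a} ≤ Submodule.span R {a} := by
      rw [Submodule.span_singleton_le_iff_mem]
      exact Submodule.smul_mem _ r (Submodule.mem_span_singleton_self a)
    have heq : Submodule.span R {r • a} = Submodule.span R {a} := SetLike.coe_injective <|
      Set.eq_of_subset_of_ncard_le hle (by
        simpa [← Nat.card_coe_set_eq] using hmin ⟨r • a, h⟩) (Set.toFinite _)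
    have hmem : a ∈ Submodule.span R {r • a} := heq ▸ Submodule.mem_span_singleton_self a
    obtain ⟨s, hs⟩ := Submodule.mem_span_singleton.mp hmem
    have hu : IsUnit (1 - s * r) :=
      IsLocalRing.isUnit_one_sub_self_of_mem_nonunits _ (Ideal.mul_mem_left _ s hr)
    refine ha (hu.smul_eq_zero.mp ?_)
    rw [sub_smul, one_smul, ← smul_smul, hs, sub_self]
  let f : ResidueField R →ₗ[R] A :=
    Submodule.liftQ (maximalIdeal R) (LinearMap.toSpanSingleton R A a) fun r hr => by
      rw [LinearMap.mem_ker, LinearMap.toSpanSingleton_apply]; exact hkill r hr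
  refine ⟨f, ?_⟩
  rw [← LinearMap.ker_eq_bot, LinearMap.ker_eq_bot']
  intro x hx
  obtain ⟨r, rfl⟩ := Submodule.Quotient.mk_surjective _ x
  by_contra hne
  have hr : r ∉ maximalIdeal R := fun h => hne ((Submodule.Quotient.mk_eq_zero _).mpr h)
  exact ha ((IsLocalRing.notMem_maximalIdeal.mp hr).smul_eq_zero.mp hx)

end Small

variable {N : ℕ} [NeZero N] {R : Type} [CommRing R] [IsLocalRing R] [IsNoetherianRing R]
  [IsAdicComplete (maximalIdeal R) R] [Finite (ResidueField R)] {ι : Type}
  (ψ : (ZMod N)ˣ →* Rˣ) (pr : ι → Nat.Primes) (θ : ι → ResidueField R)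

/-- The hypotheses of freeness: `d` is the residual dimension and some eigenvalue is not
Eisenstein. -/
structure FreeHyp (d : ℕ) : Prop where
  two_unit : IsUnit (2 : R)
  residual : ∀ u, residue R (ψ u : R) = 1
  neg_one : ∀ γ : Gamma0 N, (γ : SL(2, ℤ)) = -1 → chi ψ γ = 1
  not_eis : ∃ i, ¬ (pr i : ℕ) ∣ N ∧ θ i ≠ 1 + ((pr i : ℕ) : ResidueField R)
  order_three : IsUnit (3 : R) ∨ ∃ i, (pr i : ℕ) % 3 = 2 ∧ θ i ≠ 0
  card_residue : Nat.card (h1Part ψ pr (residue R) θ (ResidueField R)) =
    Nat.card (ResidueField R) ^ d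

variable {ψ pr θ} {d : ℕ}

instance isMaximal_eigIdeal_residue (θ : ι → ResidueField R) :
    (eigIdeal (residue R) θ).IsMaximal :=
  isMaximal_eigIdeal IsLocalRing.residue_surjective θ

theorem eigIdeal_residue_ne_top (θ : ι → ResidueField R) : eigIdeal (residue R) θ ≠ ⊤ :=
  (isMaximal_eigIdeal_residue θ).ne_top

theorem eq_neg_one_or_trace (γ : SL(2, ℤ)) (h : γ ^ 3 = -1) :
    γ = -1 ∨ γ 0 0 + γ 1 1 = 1 := by
  set a := γ 0 0
  set b := γ 0 1
  set c := γ 1 0
  set d := γ 1 1
  have hdet : a * d - b * c = 1 := Period.det_eq (γ := γ)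
  have hsq := HeckeH.mul_self_eq_of_det_one (M := (γ : HeckeH.M2)) γ.2
  have hcube : (γ : HeckeH.M2) * (γ : HeckeH.M2) * (γ : HeckeH.M2) = -1 := by
    rw [mul_assoc, ← pow_three, ← Matrix.SpecialLinearGroup.coe_pow, h]
    simp
  rw [hsq, Matrix.sub_mul, Matrix.one_mul, Matrix.smul_mul, hsq] at hcube
  have e : ∀ i j, ((a + d) • ((a + d) • (γ : HeckeH.M2) - 1) - (γ : HeckeH.M2)) i j =
      (-1 : HeckeH.M2) i j := fun i j => by
    rw [← Matrix.trace_fin_two (γ : HeckeH.M2)] at *
    rw [hcube]
  have e00 : (a + d) * ((a + d) * a - 1) - a = -1 := by simpa [-zsmul_eq_mul] using e 0 0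
  have e01 : (a + d) * ((a + d) * b) - b = 0 := by simpa [-zsmul_eq_mul] using e 0 1
  have e10 : (a + d) * ((a + d) * c) - c = 0 := by simpa [-zsmul_eq_mul] using e 1 0
  have e11 : (a + d) * ((a + d) * d - 1) - d = -1 := by simpa [-zsmul_eq_mul] using e 1 1
  by_cases ht : (a + d) ^ 2 - 1 = 0
  · right
    linear_combination (a : ℤ) * ht - e00
  · left
    have hb : b = 0 := (mul_eq_zero.mp (show ((a + d) ^ 2 - 1) * b = 0 by linear_combination e01)).resolve_left ht
    have hc : c = 0 := (mul_eq_zero.mp (show ((a + d) ^ 2 - 1) * c = 0 by linear_combination e10)).resolve_left ht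
    have had : a = d := sub_eq_zero.mp ((mul_eq_zero.mp
      (show ((a + d) ^ 2 - 1) * (a - d) = 0 by linear_combination e00 - e11)).resolve_left ht)
    rw [hb, zero_mul, sub_zero, ← had] at hdet
    rcases Int.eq_one_or_neg_one_of_mul_eq_one hdet with h1 | h1
    · exfalso; rw [← had, h1] at e00; norm_num at e00
    · refine Subtype.ext ?_
      show (γ : HeckeH.M2) = _
      rw [Matrix.eta_fin_two (γ : HeckeH.M2)]
      show !![a, b; c, d] = _
      rw [← had, h1, hb, hc, Matrix.SpecialLinearGroup.coe_neg, Matrix.SpecialLinearGroup.coe_one,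
        Matrix.one_fin_two]
      simp

/-- For `ℓ ≡ 2 (mod 3)` an element of order six fixes no Hecke representative. -/
theorem perm_heckeSys_ne {ℓ : ℕ} (hℓ : ℓ.Prime) (h3 : ℓ % 3 = 2) (γ : Gamma0 N)
    (htr : HeckeH.matOf γ 0 0 + HeckeH.matOf γ 1 1 = 1) (i : HeckeH.heckeIdx N ℓ) :
    (heckeSys hℓ ψ).perm γ i ≠ i := by
  intro hfix
  have : Fact ℓ.Prime := ⟨hℓ⟩
  have h := (heckeSys hℓ ψ).spec γ i
  rw [hfix] at h
  set δ := (heckeSys hℓ ψ).coc γ i
  have e : ∀ r t, (((HeckeH.heckeBeta i * HeckeH.matOf γ) r t : ℤ) : ZMod ℓ) =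
      (((HeckeH.matOf δ * HeckeH.heckeBeta i) r t : ℤ) : ZMod ℓ) := fun r t => by
    rw [show HeckeH.heckeBeta i * HeckeH.matOf γ = HeckeH.matOf δ * HeckeH.heckeBeta i from h]
  set a : ZMod ℓ := ((HeckeH.matOf γ 0 0 : ℤ) : ZMod ℓ)
  set b : ZMod ℓ := ((HeckeH.matOf γ 0 1 : ℤ) : ZMod ℓ)
  set c : ZMod ℓ := ((HeckeH.matOf γ 1 0 : ℤ) : ZMod ℓ)
  set d : ZMod ℓ := ((HeckeH.matOf γ 1 1 : ℤ) : ZMod ℓ)
  have hd : a * d - b * c = 1 := by
    have := congrArg (fun x : ℤ => (x : ZMod ℓ)) (HeckeH.det_entries γ)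
    push_cast at this
    exact this
  have ht : a + d = 1 := by
    have := congrArg (fun x : ℤ => (x : ZMod ℓ)) htr
    push_cast at this
    exact this
  have noroot : ∀ x : ZMod ℓ, x * x - x + 1 ≠ 0 := by
    intro x hx
    have hy : (-x) ^ 3 = 1 := by linear_combination (-(x + 1)) * hx
    have hx0 : -x ≠ 0 := fun h0 => by rw [h0] at hy; simp at hy
    have hf := ZMod.pow_card_sub_one_eq_one hx0
    obtain ⟨m, hm⟩ : ∃ m, ℓ - 1 = 3 * m + 1 := ⟨ℓ / 3, by omega⟩
    rw [hm, pow_succ, pow_mul, hy, one_pow, one_mul] at hf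
    have hx1 : x = -1 := by rw [← hf, neg_neg]
    rw [hx1] at hx
    have h30 : ((3 : ℕ) : ZMod ℓ) = 0 := by push_cast; linear_combination hx
    have h31 := (Nat.prime_dvd_prime_iff_eq hℓ Nat.prime_three).mp
      ((ZMod.natCast_eq_zero_iff _ _).mp h30)
    omega
  obtain ⟨_ | j, hj⟩ := i
  · have e10 := e 1 0
    simp [HeckeH.heckeBeta, Matrix.mul_apply, Fin.sum_univ_two] at e10
    refine noroot a ?_
    linear_combination -hd + a * ht - b * e10
  · have e00 := e 0 0
    have e01 := e 0 1
    simp [HeckeH.heckeBeta, Matrix.mul_apply, Fin.sum_univ_two] at e00 e01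
    rw [← e00] at e01
    refine noroot (a + (j : ℕ) * c) ?_
    linear_combination -hd + (a + (j : ℕ) * c) * ht - c * e01

/-- Classes lift along surjective coefficient maps, up to one operator outside `eigIdeal`. -/
theorem exists_lift (h : FreeHyp ψ pr θ d) {A B : Type} [AddCommGroup A] [Module R A]
    [AddCommGroup B] [Module R B] (f : A →ₗ[R] B) (hf : Function.Surjective f) :
    ∃ s₀ ∉ eigIdeal (residue R) θ, ∀ z : H1 R B (chi ψ), ∃ w : H1 R A (chi ψ),
      H1.mapCoef f (fun _ => rfl) w = famAct ψ pr B s₀ z := by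
  have hcube : ∀ γ : Gamma0 N, (γ : SL(2, ℤ)) ^ 3 = -1 → chi ψ (γ * γ * γ) = 1 := fun γ hγ =>
    h.neg_one _ (by rw [Subgroup.coe_mul, Subgroup.coe_mul, mul_assoc, ← pow_three, hγ])
  have hm : ∀ (c : Z1 R B (chi ψ)) (γ : Gamma0 N), (γ : SL(2, ℤ)) = -1 →
      (c : Gamma0 N → B) γ = 0 := by
    intro c γ hγ
    have h1 := Z1_mul c γ γ
    rw [show γ * γ = 1 from Subtype.ext (by rw [Subgroup.coe_mul, hγ]; simp), Z1_one_apply,
      h.neg_one γ hγ, Units.val_one, one_smul, ← two_smul R] at h1
    exact h.two_unit.smul_eq_zero.mp h1.symm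
  rcases h.order_three with h3 | ⟨i, hi3, hi⟩
  · refine ⟨1, by simp [mem_eigIdeal], fun z => ?_⟩
    rw [map_one, Module.End.one_apply]
    induction z using Submodule.Quotient.induction_on with
    | _ c =>
      refine exists_lift_of_fix h.two_unit h.neg_one f hf c fun γ hγ =>
        ⟨0, ?_, smul_zero _⟩
      set u : R := (chi ψ γ : R)
      have hu : IsUnit (1 + u + u * u) := by
        rw [← IsLocalRing.notMem_maximalIdeal] at h3 ⊢
        rw [← IsLocalRing.residue_eq_zero_iff, map_ofNat] at h3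
        rw [← IsLocalRing.residue_eq_zero_iff, map_add, map_add, map_mul, map_one,
          show residue R u = 1 from h.residual _]
        norm_num
        exact h3
      refine (map_zero f).trans (hu.smul_eq_zero.mp ?_).symm
      have h1 := hm c (γ * γ * γ)
        (by rw [Subgroup.coe_mul, Subgroup.coe_mul, mul_assoc, ← pow_three, hγ])
      rw [Z1_mul, Z1_mul, map_mul, Units.val_mul] at h1
      rw [add_smul, add_smul, one_smul]
      exact h1
  · refine ⟨MvPolynomial.X i, ?_, fun z => ?_⟩
    · rw [mem_eigIdeal, MvPolynomial.eval₂Hom_X']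
      exact hi
    rw [famAct_X]
    induction z using Submodule.Quotient.induction_on with
    | _ c =>
      refine exists_lift_of_fix h.two_unit h.neg_one f hf ((heckeSys (pr i).2 ψ).op c)
        fun γ hγ => ?_
      rcases eq_neg_one_or_trace _ hγ with h1 | h1
      · exact ⟨0, (map_zero f).trans (hm _ γ h1).symm, smul_zero _⟩
      obtain ⟨b, hb⟩ := (heckeSys (pr i).2 ψ).exists_op_eq_one_sub_smul (inj_heckeSys _ ψ)
        h.two_unit h.neg_one c γ hγ (perm_heckeSys_ne (pr i).2 hi3 γ h1)
      obtain ⟨a, rfl⟩ := hf b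
      refine ⟨(1 - (chi ψ γ : R)) • a, by rw [map_smul, hb], ?_⟩
      have h1 := congrArg Units.val (hcube γ hγ)
      rw [map_mul, map_mul, Units.val_mul, Units.val_mul, Units.val_one] at h1
      rw [smul_smul, show (1 + (chi ψ γ : R) + (chi ψ γ : R) * chi ψ γ) * (1 - (chi ψ γ : R)) =
        1 - (chi ψ γ : R) * chi ψ γ * chi ψ γ by ring, h1, sub_self, zero_smul]

section Map

variable {A B C : Type} [AddCommGroup A] [Module R A] [AddCommGroup B] [Module R B]
  [AddCommGroup C] [Module R C] [Module.Finite R A] [Module.Finite R B]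

omit [NeZero N] [IsNoetherianRing R] [IsAdicComplete (maximalIdeal R) R]
  [Finite (ResidueField R)] [Module.Finite R A] [Module.Finite R B] in
theorem linear_famAct (f : A →ₗ[R] B) (s : MvPolynomial ι R) (x : H1 R A (chi ψ)) :
    H1.mapCoef f (fun _ => rfl) (famAct ψ pr A s x) =
      famAct ψ pr B s (H1.mapCoef f (fun _ => rfl) x) := by
  have h := coefMap_famAct (ψ' := ψ) f (fun _ => rfl) pr s x
  rwa [MvPolynomial.map_id] at h

omit [Module.Finite R B] in
theorem h1Part_surjective (h : FreeHyp ψ pr θ d) (f : A →ₗ[R] B) (hf : Function.Surjective f)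
    {y : H1 R B (chi ψ)} (hy : y ∈ h1Part ψ pr (residue R) θ B) :
    ∃ x ∈ h1Part ψ pr (residue R) θ A, H1.mapCoef f (fun _ => rfl) x = y := by
  obtain ⟨e, he⟩ := exists_isProj (famAct ψ pr A) (eigIdeal (residue R) θ)
  obtain ⟨s₀, hs₀, hlift⟩ := exists_lift h f hf
  refine exists_mem_part (σ := RingHom.id R) _ (fun s x => ?_) hs₀
    (fun z => by rw [MvPolynomial.map_id]; exact hlift z) ?_ he (eigIdeal_residue_ne_top θ) hy
  · rw [MvPolynomial.map_id, linear_famAct]
  · exact comap_eigIdeal (residue R) θ (RingHom.id R)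

omit [Module.Finite R B] in
theorem h1Part_injective (h : FreeHyp ψ pr θ d) (f : A →ₗ[R] B) (hf : Function.Injective f)
    {x : H1 R A (chi ψ)} (hx : x ∈ h1Part ψ pr (residue R) θ A)
    (h0 : (H1.mapCoef f (fun _ => rfl) x : H1 R B (chi ψ)) = 0) : x = 0 := by
  obtain ⟨e, he⟩ := exists_isProj (famAct ψ pr A) (eigIdeal (residue R) θ)
  obtain ⟨i, hiN, hi⟩ := h.not_eis
  refine he.eq_zero_of_mem (eigIdeal_residue_ne_top θ) hx
    (s := MvPolynomial.X i - MvPolynomial.C (∑ j, (heckeSys (pr i).2 ψ).w j)) ?_ ?_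
  · rw [mem_eigIdeal, map_sub, MvPolynomial.eval₂Hom_X', MvPolynomial.eval₂Hom_C,
      sum_weight_heckeSys _ _ hiN, map_add, h.residual, map_natCast, sub_eq_zero]
    exact hi
  · rw [map_sub, LinearMap.sub_apply, famAct_X, MvPolynomial.algHom_C,
      Module.algebraMap_end_apply]
    exact sub_eq_zero.mpr ((heckeSys (pr i).2 ψ).map_eq_of_mapCoef_eq_zero f hf h0)

theorem h1Part_exact (h : FreeHyp ψ pr θ d) (f : A →ₗ[R] B) (g : B →ₗ[R] C)
    (hf : Function.Injective f) (hg : Function.Surjective g)
    (hex : ∀ b, g b = 0 → b ∈ LinearMap.range f) {x : H1 R B (chi ψ)}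
    (hx : x ∈ h1Part ψ pr (residue R) θ B)
    (h0 : (H1.mapCoef g (fun _ => rfl) x : H1 R C (chi ψ)) = 0) :
    ∃ y ∈ h1Part ψ pr (residue R) θ A, H1.mapCoef f (fun _ => rfl) y = x := by
  obtain ⟨eA, heA⟩ := exists_isProj (famAct ψ pr A) (eigIdeal (residue R) θ)
  obtain ⟨eB, heB⟩ := exists_isProj (famAct ψ pr B) (eigIdeal (residue R) θ)
  obtain ⟨y, hy⟩ := exists_mapCoef_eq_of_exact f g hf hg hex h0
  exact exists_mem_part_of_exact (H1.mapCoef f fun _ => rfl) (linear_famAct f) heA heB
    (eigIdeal_residue_ne_top θ) hx ⟨y, hy⟩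

end Map

variable {A : Type} [AddCommGroup A] [Module R A]

theorem map_mem_h1Part {B : Type} [AddCommGroup B] [Module R B] (f : A →ₗ[R] B)
    {x : H1 R A (chi ψ)} (hx : x ∈ h1Part ψ pr (residue R) θ A) :
    (H1.mapCoef f (fun _ => rfl) x : H1 R B (chi ψ)) ∈ h1Part ψ pr (residue R) θ B :=
  map_mem_part (σ := RingHom.id R) _ (fun s x => by rw [MvPolynomial.map_id, linear_famAct])
    (comap_eigIdeal (residue R) θ (RingHom.id R)) hx

/-- **Counting.** -/
theorem card_h1Part (h : FreeHyp ψ pr θ d) :
    ∀ (A : Type) [AddCommGroup A] [Module R A] [Finite A],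
      Nat.card (h1Part ψ pr (residue R) θ A) = Nat.card A ^ d := by
  suffices key : ∀ (n : ℕ) (A : Type) [AddCommGroup A] [Module R A] [Finite A], Nat.card A ≤ n →
      Nat.card (h1Part ψ pr (residue R) θ A) = Nat.card A ^ d from fun A _ _ _ => key _ A le_rfl
  intro n
  induction n with
  | zero =>
    intro A _ _ _ hA
    exact absurd (Nat.card_pos (α := A)) (by omega)
  | succ n ih =>
    intro A _ _ _ hA
    rcases subsingleton_or_nontrivial A with hs | hs
    · have : Subsingleton (H1 R A (chi ψ)) :=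
        Function.Surjective.subsingleton (Submodule.Quotient.mk_surjective _)
      rw [Nat.card_unique, Nat.card_unique, one_pow]
    · obtain ⟨f, hf⟩ := exists_residue_embedding (R := R) (A := A)
      have : Module.Finite R A := Module.Finite.of_finite
      set g := (LinearMap.range f).mkQ
      have : Finite (A ⧸ LinearMap.range f) := Finite.of_surjective g (Submodule.mkQ_surjective _)
      have hsplit : Nat.card A = Nat.card (ResidueField R) * Nat.card (A ⧸ LinearMap.range f) := by
        rw [Submodule.card_eq_card_quotient_mul_card (LinearMap.range f),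
          ← Nat.card_congr (LinearEquiv.ofInjective f hf).toEquiv]
      have hlt : Nat.card (A ⧸ LinearMap.range f) ≤ n := by
        have h1 : 1 < Nat.card (ResidueField R) := Finite.one_lt_card
        have h2 : 0 < Nat.card (A ⧸ LinearMap.range f) := Nat.card_pos
        have := lt_mul_of_one_lt_left h2 h1
        omega
      let G : h1Part ψ pr (residue R) θ A →ₗ[R]
          h1Part ψ pr (residue R) θ (A ⧸ LinearMap.range f) :=
        (H1.mapCoef g fun _ => rfl).restrict fun _ hx => map_mem_h1Part g hx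
      let F : h1Part ψ pr (residue R) θ (ResidueField R) →ₗ[R] h1Part ψ pr (residue R) θ A :=
        (H1.mapCoef f fun _ => rfl).restrict fun _ hx => map_mem_h1Part f hx
      have hF : Function.Injective F := by
        rw [← LinearMap.ker_eq_bot, LinearMap.ker_eq_bot']
        intro x hx
        exact Subtype.ext (h1Part_injective h f hf x.2 (congrArg Subtype.val hx))
      have hG : Function.Surjective G := fun y => by
        obtain ⟨x, hx, hxy⟩ := h1Part_surjective h g (Submodule.mkQ_surjective _) y.2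
        exact ⟨⟨x, hx⟩, Subtype.ext hxy⟩
      have hker : LinearMap.ker G = LinearMap.range F := by
        refine le_antisymm (fun x hx => ?_) ?_
        · obtain ⟨y, hy, hyx⟩ := h1Part_exact h f g hf (Submodule.mkQ_surjective _)
            (fun b hb => (Submodule.Quotient.mk_eq_zero _).mp hb) x.2
            (congrArg Subtype.val (LinearMap.mem_ker.mp hx))
          exact ⟨⟨y, hy⟩, Subtype.ext hyx⟩
        · rintro _ ⟨y, rfl⟩
          refine LinearMap.mem_ker.mpr (Subtype.ext ?_)
          show H1.mapCoef g _ (H1.mapCoef f _ y.1) = 0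
          rw [H1.mapCoef_comp, show g.comp f = 0 from LinearMap.ext fun r =>
            (Submodule.Quotient.mk_eq_zero _).mpr ⟨r, rfl⟩, H1.mapCoef_zero]
      rw [Submodule.card_eq_card_quotient_mul_card (LinearMap.ker G),
        Nat.card_congr (LinearMap.quotKerEquivOfSurjective G hG).toEquiv, hker,
        ← Nat.card_congr (LinearEquiv.ofInjective F hF).toEquiv, ih _ hlt, h.card_residue, hsplit,
        mul_pow]

/-- Evaluation of coefficient vectors at a family of elements of the part. -/
def partCombo (v : Fin d → h1Part ψ pr (residue R) θ A) :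
    (Fin d → R) →ₗ[R] h1Part ψ pr (residue R) θ A :=
  Fintype.linearCombination R v

theorem mapCoef_partCombo {B : Type} [AddCommGroup B] [Module R B] (f : A →ₗ[R] B)
    (v : Fin d → h1Part ψ pr (residue R) θ A) (c : Fin d → R) :
    (H1.mapCoef f (fun _ => rfl) (partCombo v c).1 : H1 R B (chi ψ)) =
      ∑ i, c i • H1.mapCoef f (fun _ => rfl) (v i).1 := by
  simp [partCombo, Fintype.linearCombination_apply]

/-- **Freeness.** Elements whose images span the residual part form a basis. -/
theorem bijective_partCombo (h : FreeHyp ψ pr θ d) (v : Fin d → h1Part ψ pr (residue R) θ R)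
    (hv : ∀ y ∈ h1Part ψ pr (residue R) θ (ResidueField R), ∃ c : Fin d → R,
      ∑ i, c i • H1.mapCoef (Algebra.linearMap R (ResidueField R)) (fun _ => rfl) (v i).1 = y) :
    Function.Bijective (partCombo v) := by
  classical
  set π := Algebra.linearMap R (ResidueField R)
  have hπ : Function.Surjective π := IsLocalRing.residue_surjective
  have hsurj : Function.Surjective (partCombo v) := by
    rw [← LinearMap.range_eq_top]
    refine top_le_iff.mp (Submodule.le_of_le_smul_of_le_jacobson_bot Module.Finite.fg_top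
      (IsLocalRing.maximalIdeal_le_jacobson _) fun x _ => ?_)
    obtain ⟨c, hc⟩ := hv _ (map_mem_h1Part π x.2)
    have h0 : (H1.mapCoef π (fun _ => rfl) (x - partCombo v c).1 : H1 R (ResidueField R) (chi ψ))
        = 0 := by
      rw [Submodule.coe_sub, map_sub, mapCoef_partCombo, hc, sub_self]
    obtain ⟨y, hy, hyx⟩ := h1Part_exact (A := (maximalIdeal R : Submodule R R)) h
      (maximalIdeal R : Submodule R R).subtype π (Submodule.injective_subtype _) hπ
      (fun b hb => ⟨⟨b, Ideal.Quotient.eq_zero_iff_mem.mp hb⟩, rfl⟩) (x - partCombo v c).2 h0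
    obtain ⟨n, f, hf⟩ := Module.Finite.exists_fin' R (maximalIdeal R : Submodule R R)
    obtain ⟨z, hz, rfl⟩ := h1Part_surjective h f hf hy
    have hdec : (maximalIdeal R : Submodule R R).subtype.comp f =
        ∑ j : Fin n, (f (Pi.single j 1)).1 • (LinearMap.proj j : (Fin n → R) →ₗ[R] R) := by
      refine LinearMap.pi_ext' fun i => LinearMap.ext_ring ?_
      simp [Pi.single_apply]
    have hsum : ∀ (s : Finset (Fin n)) (a : Fin n → R),
        (H1.mapCoef (∑ j ∈ s, a j • (LinearMap.proj j : (Fin n → R) →ₗ[R] R)) (fun _ => rfl) z :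
          H1 R R (chi ψ)) = ∑ j ∈ s, a j •
            (H1.mapCoef (LinearMap.proj j : (Fin n → R) →ₗ[R] R) (fun _ => rfl) z : H1 R R (chi ψ)) := by
      intro s a
      induction s using Finset.induction_on with
      | empty => simp only [Finset.sum_empty, H1.mapCoef_zero]
      | insert i s hi ih =>
        simp only [Finset.sum_insert hi, H1.mapCoef_add, ih, H1.mapCoef_smul]
    have e : x = partCombo v c + ∑ j : Fin n, (f (Pi.single j 1)).1 •
        (⟨_, map_mem_h1Part (LinearMap.proj j : (Fin n → R) →ₗ[R] R) hz⟩ :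
          h1Part ψ pr (residue R) θ R) := by
      rw [← sub_eq_iff_eq_add']
      refine Subtype.ext ?_
      rw [← hyx, H1.mapCoef_comp, hdec, hsum]
      simp
    rw [e]
    exact Submodule.add_mem_sup (LinearMap.mem_range_self _ c) (Submodule.sum_mem _ fun j _ =>
      Submodule.smul_mem_smul (f (Pi.single j 1)).2 Submodule.mem_top)
  refine ⟨?_, hsurj⟩
  rw [← LinearMap.ker_eq_bot, LinearMap.ker_eq_bot']
  intro c hc
  funext i
  refine IsHausdorff.haus (I := maximalIdeal R) inferInstance _ fun j => ?_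
  have : Finite (R ⧸ maximalIdeal R) := inferInstanceAs (Finite (ResidueField R))
  have : Finite (R ⧸ maximalIdeal R ^ j) :=
    Ideal.finite_quotient_pow (IsNoetherian.noetherian _) j
  set q : R →ₗ[R] R ⧸ maximalIdeal R ^ j := (maximalIdeal R ^ j).mkQ
  let L : (Fin d → R ⧸ maximalIdeal R ^ j) →
      h1Part ψ pr (residue R) θ (R ⧸ maximalIdeal R ^ j) :=
    fun a => ⟨H1.mapCoef q (fun _ => rfl) (partCombo v fun i => (a i).out).1,
      map_mem_h1Part q (partCombo v fun i => (a i).out).2⟩
  have hout : ∀ b : Fin d → R,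
      (H1.mapCoef q (fun _ => rfl) (partCombo v fun i => (q (b i)).out).1 :
          H1 R (R ⧸ maximalIdeal R ^ j) (chi ψ)) =
        H1.mapCoef q (fun _ => rfl) (partCombo v b).1 := by
    intro b
    rw [mapCoef_partCombo, mapCoef_partCombo]
    refine Finset.sum_congr rfl fun i _ => ?_
    obtain ⟨r, hr⟩ : ∃ r, (q (b i)).out = b i + r ∧ r ∈ maximalIdeal R ^ j := by
      refine ⟨(q (b i)).out - b i, by ring, ?_⟩
      exact (Submodule.Quotient.eq _).mp (by simp [q])
    rw [hr.1, add_smul, add_eq_left]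
    have hz : ∀ y : H1 R (R ⧸ maximalIdeal R ^ j) (chi ψ), r • y = 0 := by
      intro y
      induction y using Submodule.Quotient.induction_on with
      | _ c =>
        rw [← Submodule.Quotient.mk_smul]
        have : r • c = 0 := Subtype.ext (funext fun γ => by
          show r • (c : Gamma0 N → R ⧸ maximalIdeal R ^ j) γ = 0
          obtain ⟨a, ha⟩ := Submodule.Quotient.mk_surjective _
            ((c : Gamma0 N → R ⧸ maximalIdeal R ^ j) γ)
          rw [← ha, ← Submodule.Quotient.mk_smul, Submodule.Quotient.mk_eq_zero]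
          exact Ideal.mul_mem_right a _ hr.2)
        rw [this, Submodule.Quotient.mk_zero]
    exact hz _
  have hL : Function.Surjective L := fun y => by
    obtain ⟨x, hx, hxy⟩ := h1Part_surjective h q (Submodule.mkQ_surjective _) y.2
    obtain ⟨b, hb⟩ := hsurj ⟨x, hx⟩
    refine ⟨fun i => q (b i), Subtype.ext ?_⟩
    show H1.mapCoef q _ (partCombo v fun i => (q (b i)).out).1 = _
    rw [hout, hb, hxy]
  have hcard : Nat.card (Fin d → R ⧸ maximalIdeal R ^ j) =
      Nat.card (h1Part ψ pr (residue R) θ (R ⧸ maximalIdeal R ^ j)) := by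
    rw [card_h1Part h, Nat.card_fun, Nat.card_fin]
  have hbij : Function.Bijective L := (Nat.bijective_iff_surjective_and_card L).mpr ⟨hL, hcard⟩
  have h0 : (fun i => q (c i)) = (fun _ => q 0) := by
    refine hbij.1 (Subtype.ext ?_)
    show H1.mapCoef q _ (partCombo v fun i => (q (c i)).out).1 =
      H1.mapCoef q _ (partCombo v fun i => (q ((0 : Fin d → R) i)).out).1
    rw [hout, hout, hc, map_zero]
  have hq := congrFun h0 i
  rw [map_zero] at hq
  rw [SModEq.sub_mem, sub_zero, smul_eq_mul, Ideal.mul_top]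
  exact (Submodule.Quotient.mk_eq_zero _).mp hq

end FLTAgent.Lower.Levels
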