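import Fermat.Agent.BadQ.AtkinLehner
import Fermat.Agent.HeckeH.NormTransfer
import Fermat.Agent.ModularPlaces.LevelOneRat

/-!
# The Fricke involution of the function field of level `N`

`frickeBar` exchanges `j (d z)` and `j ((N / d) z)`. It commutes with Galois (`frickeBar_galois`),
gives the expansion at the cusp `0` (`cuspHom_sMat`) and is composition with `z ↦ -1 / (N z)`
(`ev_embFC_frickeBar`).
-/

set_option autoImplicit false
set_option linter.style.haveILetI false
set_option linter.unusedSectionVars false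
set_option synthInstance.maxHeartbeats 400000
set_option maxHeartbeats 1000000

noncomputable section

open UpperHalfPlane CongruenceSubgroup Filter ModularCurve AlgebraicCurve
open scoped MatrixGroups

namespace FLTAgent.Lower.Levels

open FLTAgent.Kronecker (jSeries laurentBaseChange_full_eq_adjoin coeffMap_jSeries)
open FLTAgent.ModularCosets (DivIdx qScale qScale_eq)
open FLTAgent.BadQ (jAt jSeries_mem_bar algHom_ext_bar)
open FLTAgent.HeckeH (M2)
open FLTAgent.Modular

local notation "Qb" => AlgebraicClosure ℚ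

variable {N : ℕ} [NeZero N]

/-- The cusp `0`. -/
abbrev sMat : SL(2, ℤ) := ModularGroup.S

/-- `d ↦ N / d`. -/
def coIdx (d : DivIdx N) : DivIdx N :=
  ⟨N / (d : ℕ), Nat.mem_divisors.mpr ⟨Nat.div_dvd_of_dvd d.dvd, NeZero.ne N⟩⟩

theorem coIdx_coIdx (d : DivIdx N) : coIdx (coIdx d) = d :=
  Subtype.ext (Nat.div_div_self d.dvd (NeZero.ne N))

/-- The expansions at the cusp `0`. -/
theorem jSer_sMat (d : DivIdx N) :
    ModularCosets.jSer N sMat d = jSeries ℂ (coIdx d : ℕ) := by
  have he : ModularCosets.diagOne ((d : ℕ) : ℤ) * ((sMat : SL(2, ℤ)) : M2) =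
      ((sMat : SL(2, ℤ)) : M2) * ModularCosets.upperTri ((1 : ℕ) : ℤ) ((0 : ℕ) : ℤ) ((d : ℕ) : ℤ) := by
    ext i j
    fin_cases i <;> fin_cases j <;>
      simp [sMat, ModularGroup.S, ModularCosets.diagOne, ModularCosets.upperTri, Matrix.mul_apply,
        Fin.sum_univ_two]
  let t : ModularCosets.TriData (d : ℕ) sMat :=
    ⟨sMat, 1, 0, d, Nat.one_mul _, Nat.pos_of_mem_divisors d.2, he⟩
  rw [ModularCosets.jSer_eq N sMat d t, ModularCosets.cuspExp_apply]
  show qScale ℂ (1 * (N / (d : ℕ))) (ModularCosets.twist _ _) = _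
  rw [Nat.cast_zero, zero_mul, zpow_zero, ModularCosets.twist_one, Nat.one_mul]
  rfl

theorem coeffMap_aeval (ι : Qb →+* ℂ) (g : DivIdx N → ℕ) (P : MvPolynomial (DivIdx N) Qb) :
    coeffMap ι (MvPolynomial.aeval (fun d => jSeries Qb (g d)) P) =
      MvPolynomial.aeval (fun d => jSeries ℂ (g d)) (MvPolynomial.map ι P) := by
  induction P using MvPolynomial.induction_on with
  | C c =>
    simp only [MvPolynomial.aeval_C, MvPolynomial.map_C]
    exact Kronecker.coeffMap_algebraMap' ι c
  | add P Q hP hQ => simp only [map_add, hP, hQ]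
  | mul_X P d hP =>
    simp only [map_mul, MvPolynomial.map_X, MvPolynomial.aeval_X, hP, coeffMap_jSeries]

/-- The swap preserves polynomial relations. -/
theorem aeval_coIdx_eq_zero_iff (P : MvPolynomial (DivIdx N) Qb) :
    MvPolynomial.aeval (fun d : DivIdx N => jSeries Qb (coIdx d : ℕ)) P = 0 ↔
      MvPolynomial.aeval (fun d : DivIdx N => jSeries Qb (d : ℕ)) P = 0 := by
  let ι : Qb →+* ℂ := Reduction.barToC
  have hinj : ∀ z : LaurentSeries Qb, coeffMap ι z = 0 ↔ z = 0 := fun z =>
    ⟨fun h => HahnSeries.ext (funext fun i => ι.injective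
      ((congrArg (fun w : LaurentSeries ℂ => w.coeff i) h).trans (map_zero ι).symm)),
      fun h => by rw [h, map_zero]⟩
  have h := ModularCosets.serEval_eq_zero_iff_base (N := N) sMat (MvPolynomial.map ι P)
  rw [ModularCosets.serEval, funext jSer_sMat, ModularCosets.baseEval] at h
  rw [← hinj, coeffMap_aeval, ← hinj (MvPolynomial.aeval _ P), coeffMap_aeval]
  exact h

/-- The Fricke map `j(d τ) ↦ j((N/d) τ)` on the function field over `ℚ̄`. -/
theorem exists_frickeBar :
    ∃ w : modularFunctionFieldBar N →ₐ[Qb] modularFunctionFieldBar N,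
      ∀ d : DivIdx N, w (jAt d) = jAt (coIdx d) := by
  obtain ⟨e, he⟩ := Kronecker.exists_ringHom_of_relations (K := Qb)
    (fun d : DivIdx N => jSeries Qb (d : ℕ)) (fun d : DivIdx N => jSeries Qb (coIdx d : ℕ))
    aeval_coIdx_eq_zero_iff
  let c := IntermediateField.equivOfEq (laurentBaseChange_full_eq_adjoin Qb N)
  let φ : modularFunctionFieldBar N →ₐ[Qb] LaurentSeries Qb := e.comp c.toAlgHom
  have hmem : ∀ x, φ x ∈ (modularFunctionFieldBar N).toSubalgebra := fun x => by
    show e (c x) ∈ modularFunctionFieldBar N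
    generalize c x = z
    obtain ⟨z, hz⟩ := z
    induction hz using IntermediateField.adjoin_induction with
    | mem y hy =>
      obtain ⟨d, rfl⟩ := hy
      rw [he d]
      exact jSeries_mem_bar (coIdx d).dvd
    | algebraMap r =>
      change e (algebraMap Qb (IntermediateField.adjoin Qb _) r) ∈ _
      rw [AlgHom.commutes]
      exact IntermediateField.algebraMap_mem _ _
    | add y y' hy hy' ihy ihy' =>
      have := add_mem ihy ihy'
      rw [← map_add] at this
      exact this
    | inv y hy ihy =>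
      have := inv_mem ihy
      rw [← map_inv₀] at this
      exact this
    | mul y y' hy hy' ihy ihy' =>
      have := mul_mem ihy ihy'
      rw [← map_mul] at this
      exact this
  refine ⟨φ.codRestrict _ hmem, fun d => Subtype.ext ?_⟩
  show e (c (jAt d)) = jSeries Qb (coIdx d : ℕ)
  rw [← he d]
  exact congrArg e (Subtype.ext rfl)

variable (N) in
/-- The Fricke involution. -/
def frickeBar : modularFunctionFieldBar N →ₐ[Qb] modularFunctionFieldBar N :=
  (exists_frickeBar (N := N)).choose

theorem frickeBar_jAt (d : DivIdx N) : frickeBar N (jAt d) = jAt (coIdx d) :=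
  (exists_frickeBar (N := N)).choose_spec d

theorem frickeBar_frickeBar (y : modularFunctionFieldBar N) :
    frickeBar N (frickeBar N y) = y := by
  have h := algHom_ext_bar (N := N)
    (φ := (modularFunctionFieldBar N).val.comp ((frickeBar N).comp (frickeBar N)))
    (ψ := (modularFunctionFieldBar N).val) fun d => by
      show ((frickeBar N (frickeBar N (jAt d)) : modularFunctionFieldBar N) : LaurentSeries Qb) = _
      rw [frickeBar_jAt, frickeBar_jAt, coIdx_coIdx]
      rfl
  exact Subtype.ext (DFunLike.congr_fun h y)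

/-- Two semilinear maps agreeing on the generators agree. -/
theorem ringHom_ext_bar {Ω : Type*} [Field Ω] {φ ψ : modularFunctionFieldBar N →+* Ω}
    (hc : ∀ c : Qb, φ (algebraMap Qb _ c) = ψ (algebraMap Qb _ c))
    (hj : ∀ d : DivIdx N, φ (jAt d) = ψ (jAt d)) : φ = ψ := by
  refine RingHom.ext fun y => ?_
  obtain ⟨x, hx⟩ := y
  have hx' : x ∈ IntermediateField.adjoin Qb
      (Set.range fun d : DivIdx N => jSeries Qb (d : ℕ)) := by
    rw [← laurentBaseChange_full_eq_adjoin]; exact hx
  induction hx' using IntermediateField.adjoin_induction with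
  | mem a ha =>
    obtain ⟨d, rfl⟩ := ha
    exact hj d
  | algebraMap c => exact hc c
  | add a b ha hb iha ihb =>
    rw [← laurentBaseChange_full_eq_adjoin] at ha hb
    rw [show (⟨a + b, hx⟩ : modularFunctionFieldBar N) = ⟨a, ha⟩ + ⟨b, hb⟩ from rfl, map_add,
      map_add, iha, ihb]
  | inv a ha iha =>
    rw [← laurentBaseChange_full_eq_adjoin] at ha
    rw [show (⟨a⁻¹, hx⟩ : modularFunctionFieldBar N) = (⟨a, ha⟩)⁻¹ from rfl, map_inv₀, map_inv₀,
      iha]
  | mul a b ha hb iha ihb =>
    rw [← laurentBaseChange_full_eq_adjoin] at ha hb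
    rw [show (⟨a * b, hx⟩ : modularFunctionFieldBar N) = ⟨a, ha⟩ * ⟨b, hb⟩ from rfl, map_mul,
      map_mul, iha, ihb]

theorem frickeBar_galois (σ : Qb ≃ₐ[ℚ] Qb) (y : modularFunctionFieldBar N) :
    frickeBar N (arithmeticGalois (modularFunctionFieldFull N) σ • y) =
      arithmeticGalois (modularFunctionFieldFull N) σ • frickeBar N y := by
  let τ : modularFunctionFieldBar N →+* modularFunctionFieldBar N :=
    (arithmeticRingAut (modularFunctionFieldFull N) σ).toRingHom
  let w : modularFunctionFieldBar N →+* modularFunctionFieldBar N := (frickeBar N).toRingHom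
  have hτj : ∀ d : DivIdx N, τ (jAt d) = jAt d := fun d =>
    Subtype.ext (coeffMap_jSeries Qb _ _)
  have hτc : ∀ r, τ (algebraMap Qb _ r) = algebraMap Qb _ (σ r) :=
    arithmeticRingAut_algebraMap _ σ
  refine RingHom.congr_fun (ringHom_ext_bar (φ := w.comp τ) (ψ := τ.comp w) (fun c => ?_)
    fun d => ?_) y
  · show w (τ (algebraMap Qb _ c)) = τ (w (algebraMap Qb _ c))
    have hw : ∀ r, w (algebraMap Qb _ r) = algebraMap Qb _ r := (frickeBar N).commutes
    rw [hτc, hw, hw, hτc]
  · show w (τ (jAt d)) = τ (w (jAt d))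
    rw [hτj]
    show frickeBar N (jAt d) = τ (frickeBar N (jAt d))
    rw [frickeBar_jAt, hτj]

variable (ι : Qb →+* ℂ)

theorem embFC_jAt (d : DivIdx N) :
    ((Torsion.embFC N ι (jAt d) : FC N) : LaurentSeries ℂ) = jSeries ℂ (d : ℕ) := by
  rw [Torsion.coe_embFC]
  exact coeffMap_jSeries Qb ι _

theorem jSeries_eq_qExpand (d : ℕ) [NeZero d] :
    jSeries ℂ d = coeffEmb ℂ (qExpand ℚ d jq) := by
  rw [jSeries, qScale_eq, ← ModularCosets.coeffEmb_jq_eq, coeffEmb, ModularCurve.coeffMap_qExpand]


theorem cuspHom_sMat_jAt (d : DivIdx N) :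
    HeckeH.cuspHom sMat (Torsion.embFC N ι (jAt d)) = jSeries ℂ (coIdx d : ℕ) := by
  haveI : NeZero (d : ℕ) := ⟨(Nat.pos_of_mem_divisors d.2).ne'⟩
  refine HeckeH.cuspSer_eq ?_
  rw [embFC_jAt, jSeries_eq_qExpand, ev_jq_qExpand, ← jSer_sMat]
  have h := ModularCosets.funEval_qExp (N := N) sMat (MvPolynomial.X d)
  rw [ModularCosets.serEval, ModularCosets.funEval, MvPolynomial.aeval_X, MvPolynomial.aeval_X] at h
  refine h.congr (Eventually.of_forall fun z => ?_)
  show ModularCosets.jH (ModularCosets.triSmul (d : ℕ) 0 1 (sMat • z)) = jMulFun (d : ℕ) (sMat • z)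
  rw [ModularPlaces.jH_eq_jFun, jMulFun]
  congr 1
  refine UpperHalfPlane.ext ?_
  rw [ModularCosets.coe_triSmul, ModularForm.coe_heckeDiagMatrix_smul (NeZero.ne _)]
  simp

/-- The expansion at the cusp `0` is the Fricke involution. -/
theorem cuspHom_sMat (y : modularFunctionFieldBar N) :
    HeckeH.cuspHom sMat (Torsion.embFC N ι y) = coeffMap ι (frickeBar N y : LaurentSeries Qb) := by
  let φ : modularFunctionFieldBar N →+* LaurentSeries ℂ :=
    (HeckeH.cuspHom (M := N) sMat).toRingHom.comp (Torsion.embFC N ι)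
  let ψ : modularFunctionFieldBar N →+* LaurentSeries ℂ :=
    (coeffMap ι).comp ((modularFunctionFieldBar N).toSubfield.subtype.comp (frickeBar N).toRingHom)
  refine RingHom.congr_fun (ringHom_ext_bar (φ := φ) (ψ := ψ) (fun c => ?_) fun d => ?_) y
  · show HeckeH.cuspHom sMat (Torsion.embFC N ι (algebraMap Qb _ c)) =
      coeffMap ι (frickeBar N (algebraMap Qb _ c) : LaurentSeries Qb)
    have he : Torsion.embFC N ι (algebraMap Qb _ c) = algebraMap ℂ (FC N) (ι c) :=
      Subtype.ext (Kronecker.coeffMap_algebraMap' ι c)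
    rw [he, AlgHom.commutes, AlgHom.commutes]
    exact (Kronecker.coeffMap_algebraMap' ι c).symm
  · show HeckeH.cuspHom sMat (Torsion.embFC N ι (jAt d)) =
      coeffMap ι (frickeBar N (jAt d) : LaurentSeries Qb)
    rw [cuspHom_sMat_jAt, frickeBar_jAt]
    exact (coeffMap_jSeries Qb ι _).symm

theorem det_wFricke_ne (N : ℕ) [NeZero N] : (HeckeH.wFricke N).det ≠ 0 := by
  rw [HeckeH.det_wFricke]; exact_mod_cast NeZero.ne N

theorem det_wFricke_pos (N : ℕ) [NeZero N] : 0 < (HeckeH.wFricke N).det := by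
  rw [HeckeH.det_wFricke]; exact_mod_cast Nat.pos_of_ne_zero (NeZero.ne N)

theorem glM_wFricke_smul (z : ℍ) :
    HeckeH.glM (HeckeH.wFricke N) (det_wFricke_ne N) • z =
      sMat • (ModularForm.heckeDiagMatrix N • z) := by
  have hd : (ModularCosets.diagOne (N : ℤ)).det ≠ 0 := by
    rw [ModularCosets.det_diagOne]; exact_mod_cast NeZero.ne N
  have hs : ((sMat : SL(2, ℤ)) : M2).det ≠ 0 := by rw [sMat.2]; exact one_ne_zero
  rw [HeckeH.glM_mul_smul hs hd (det_wFricke_ne N) ?_, HeckeH.glM_SL sMat hs,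
    HeckeH.glM_diagOne_eq N hd]
  ext i j
  fin_cases i <;> fin_cases j <;>
    simp [sMat, ModularGroup.S, ModularCosets.diagOne, HeckeH.wFricke, Matrix.mul_apply,
      Fin.sum_univ_two]


/-- The Fricke involution is composition with `z ↦ -1 / (N z)`. -/
theorem ev_embFC_frickeBar (y : modularFunctionFieldBar N) :
    ev ((Torsion.embFC N ι (frickeBar N y) : FC N) : LaurentSeries ℂ) = fun z =>
      ev ((Torsion.embFC N ι y : FC N) : LaurentSeries ℂ)
        (HeckeH.glM (HeckeH.wFricke N) (det_wFricke_ne N) • z) := by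
  have h1 := (HeckeH.hasQExp_cuspHom sMat (Torsion.embFC N ι y)).comp_mul N
    (φ := fun z => ModularForm.heckeDiagMatrix N • z)
    (fun z => ModularForm.coe_heckeDiagMatrix_smul (NeZero.ne N) z)
  have h2 := (hasQExp_ev (Torsion.embFC N ι (frickeBar N y))).qExpand N
  rw [mul_one] at h2
  rw [cuspHom_sMat, ← Torsion.coe_embFC] at h1
  simp only [glM_wFricke_smul]
  refine (isMero_ev _).eq_of_hasQExp (HeckeH.natCast_pos_real N) ?_ h2 h1
  exact ((isMero_ev _).comp_sl sMat).comp_glSmul
    ((Matrix.GeneralLinearGroup.val_det_apply (ModularForm.heckeDiagMatrix N)) ▸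
      ModularForm.det_heckeDiagMatrix_pos N)

end FLTAgent.Lower.Levels
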