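import Fermat.Agent.Lower.Levels.FrickeField
import Fermat.Agent.Degen.Twist
import Fermat.Agent.Reps.Tate

/-!
# The Fricke involution on the torsion of `J₀(N)`

`jTorsionEquiv_fricke`: on `n`-torsion the Fricke involution `frickeAut` is the Fricke conjugation
`wH` of characters; as the involution commutes with Galois, so does the conjugation
(`frickeMat_commute`).
-/

set_option autoImplicit false
set_option linter.style.haveILetI false
set_option linter.unusedSectionVars false

open UpperHalfPlane CongruenceSubgroup Filter Topology ModularCurve AlgebraicCurve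
open scoped MatrixGroups Matrix

noncomputable section

namespace FLTAgent.Lower.Levels

open FLTAgent.Modular
open FLTAgent.HeckeH (M2 matOf glM HasGrowth GrowsAtCusps)

local notation "Qb" => AlgebraicClosure ℚ

variable {N : ℕ} [NeZero N]

variable (N) in
/-- The Fricke involution as an automorphism. -/
def frickeAut : SemilinearAut Qb (modularFunctionFieldBar N) :=
  SemilinearAut.ofAlgAut (AlgEquiv.ofAlgHom (frickeBar N) (frickeBar N)
    (AlgHom.ext frickeBar_frickeBar) (AlgHom.ext frickeBar_frickeBar))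

theorem frickeAut_smul (y : modularFunctionFieldBar N) : frickeAut N • y = frickeBar N y := rfl

theorem frickeAut_galois (σ : Qb ≃ₐ[ℚ] Qb) :
    frickeAut N * arithmeticGalois (modularFunctionFieldFull N) σ =
      arithmeticGalois (modularFunctionFieldFull N) σ * frickeAut N := by
  refine Subtype.ext (Prod.ext (RingEquiv.ext fun f => frickeBar_galois σ f) ?_)
  exact RingEquiv.ext fun c => rfl

theorem frickeAut_smul_galois (σ : Qb ≃ₐ[ℚ] Qb) (x : JZero N) :
    frickeAut N • σ • x = σ • frickeAut N • x := by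
  show frickeAut N • arithmeticGalois (modularFunctionFieldFull N) σ • x = _
  rw [← mul_smul, frickeAut_galois, mul_smul]
  rfl

theorem frickeAut_mem_torsion {n : ℕ} {x : JZero N}
    (hx : x ∈ Pic0.torsion Qb (modularFunctionFieldBar N) n) :
    frickeAut N • x ∈ Pic0.torsion Qb (modularFunctionFieldBar N) n := by
  rw [Pic0.mem_torsion] at hx ⊢
  rw [show (n : ℤ) • frickeAut N • x = frickeAut N • ((n : ℤ) • x) from
    (map_zsmul (DistribSMul.toAddMonoidHom (JZero N) (frickeAut N)) (n : ℤ) x).symm, hx]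
  exact (DistribSMul.toAddMonoidHom (JZero N) (frickeAut N)).map_zero

/-- `f (-1 / (N z))`. -/
def translateW (N : ℕ) [NeZero N] (f : ℍ → ℂ) : ℍ → ℂ :=
  fun z => f (glM (HeckeH.wFricke N) (det_wFricke_ne N) • z)

theorem detVal_wFricke_pos : 0 < (glM (HeckeH.wFricke N) (det_wFricke_ne N)).val.det :=
  HeckeH.det_glM_pos _ (det_wFricke_pos N)

theorem isMult_translateW {n : ℕ} [NeZero n] {φ : Additive (Gamma0 N) →+ ZMod n} {f : ℍ → ℂ}
    (hf : IsMult N f (Torsion.expChar φ)) {D : Divisor ℂ (FC N)}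
    (hD : Torsion.HasDivisor N f D) :
    IsMult N (translateW N f)
      (Torsion.expChar (φ.comp (MonoidHom.toAdditive (HeckeH.wGamma0 N).toMonoidHom))) where
  mero := hf.mero.comp_glSmul detVal_wFricke_pos
  meroCusp γ := by
    obtain ⟨κ, hκ⟩ := (HeckeH.growsAtCusps_of_hasDivisor hD).comp_glM (HeckeH.wFricke N)
      (det_wFricke_ne N) (det_wFricke_pos N) γ
    exact hκ.exists_bounded (HeckeH.natCast_pos_real N)
  nonzero := by
    refine ⟨UpperHalfPlane.I, ?_⟩
    unfold translateW
    rw [meromorphicOrderAt_comp_glSmul f detVal_wFricke_pos, hD.order]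
    exact WithTop.coe_ne_top
  smul γ z := by
    show f (glM (HeckeH.wFricke N) (det_wFricke_ne N) • ((γ : SL(2, ℤ)) • z)) = _
    rw [HeckeH.glM_smul_comm (det_wFricke_ne N) (det_wFricke_ne N)
      (HeckeH.wFricke_mul_matOf γ) z, hf.smul, Torsion.coe_expChar, Torsion.coe_expChar]
    rfl

set_option maxHeartbeats 1000000 in
set_option synthInstance.maxHeartbeats 200000 in
/-- The Fricke involution is the Fricke conjugation on characters. -/
theorem jTorsionEquiv_fricke (ι : Qb →+* ℂ) {n : ℕ} [NeZero n]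
    (x : Pic0.torsion Qb (modularFunctionFieldBar N) n) :
    Torsion.jTorsionEquiv N ι n ⟨frickeAut N • (x : JZero N), frickeAut_mem_torsion x.2⟩ =
      HeckeH.wH N (ZMod n) (ZMod n) (Torsion.jTorsionEquiv N ι n x) := by
  obtain ⟨x, hxn⟩ := x
  obtain ⟨D, rfl⟩ := Pic0.mk_surjective x
  set E : Divisor.degZero (K := Qb) (F := modularFunctionFieldBar N) :=
    SemilinearAut.degZeroSMulHom (frickeAut N) D with hE
  have hnD : n • (D : Divisor Qb (modularFunctionFieldBar N)) ∈
      Divisor.principal (K := Qb) (F := modularFunctionFieldBar N) := by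
    have h0 : Pic0.mk (n • D) = 0 := by
      have := Pic0.mem_torsion.mp hxn
      rw [natCast_zsmul] at this
      exact this
    have := (QuotientAddGroup.eq_zero_iff _).mp h0
    simpa [AddSubgroup.mem_addSubgroupOf] using this
  obtain ⟨y, hy0, hy⟩ := hnD
  have hy'0 : frickeBar N y ≠ 0 :=
    (map_ne_zero_iff _ (frickeBar N).toRingHom.injective).mpr hy0
  have hnE : ∀ w, (n • (E : Divisor Qb (modularFunctionFieldBar N))) w = w.ord (frickeBar N y) := by
    intro w
    have h1 := SemilinearAut.ord_smul (frickeAut N) ((frickeAut N)⁻¹ • w) y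
    rw [smul_inv_smul, frickeAut_smul] at h1
    rw [h1, ← hy, Finsupp.smul_apply, Finsupp.smul_apply, hE, SemilinearAut.coe_degZeroSMulHom,
      SemilinearAut.divisor_smul_apply]
  have hDC : n • Torsion.divExt ι (D : Divisor Qb (modularFunctionFieldBar N)) ∈
      Divisor.principal (K := ℂ) (F := FC N) := by
    rw [← map_nsmul, Torsion.divExt_mem_principal_iff]
    exact ⟨y, hy0, hy⟩
  obtain ⟨φ, hφ, f, hfm, hfD⟩ := Torsion.exists_mult_of_nsmul_principal hDC
  have hx1 : Pic0.mk (Torsion.degZeroExt ι D) ∈ Pic0.torsion ℂ (FC N) n :=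
    (Torsion.picExtTorsion ι n ⟨Pic0.mk D, hxn⟩).2
  have hex : (Torsion.jTorsionEquiv N ι n ⟨Pic0.mk D, hxn⟩ : Additive (Gamma0 N) →+ ZMod n) = φ :=
    Torsion.torsionEquiv_eq (D := Torsion.degZeroExt ι D) hx1 hfm hfD
  have hTφ : φ.comp (MonoidHom.toAdditive (HeckeH.wGamma0 N).toMonoidHom) ∈
      Period.H N (ZMod n) (ZMod n) := (HeckeH.wH N (ZMod n) (ZMod n) ⟨φ, hφ⟩).2
  have hfT := isMult_translateW hfm hfD
  obtain ⟨D₀, hD₀, -⟩ := Torsion.exists_divisor_of_mult hTφ hfT
  have hY : Torsion.HasDivisor N (ev ((Torsion.embFC N ι y : FC N) : LaurentSeries ℂ))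
      (n • Torsion.divExt ι (D : Divisor Qb (modularFunctionFieldBar N))) := by
    refine Torsion.hasDivisor_ev ((map_ne_zero_iff _ (Torsion.embFC N ι).injective).mpr hy0)
      fun w => ?_
    rw [← map_nsmul]
    exact HeckeH.divExt_apply_eq_ord ι hy w
  have hY' : Torsion.HasDivisor N
      (translateW N (ev ((Torsion.embFC N ι y : FC N) : LaurentSeries ℂ)))
      (n • Torsion.divExt ι (E : Divisor Qb (modularFunctionFieldBar N))) := by
    rw [show translateW N (ev ((Torsion.embFC N ι y : FC N) : LaurentSeries ℂ)) =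
      ev ((Torsion.embFC N ι (frickeBar N y) : FC N) : LaurentSeries ℂ) from
        (ev_embFC_frickeBar ι y).symm]
    refine Torsion.hasDivisor_ev ((map_ne_zero_iff _ (Torsion.embFC N ι).injective).mpr hy'0)
      fun w => ?_
    rw [← map_nsmul]
    exact HeckeH.divExt_apply_eq_ord ι hnE w
  have hkey : D₀ = Torsion.degZeroExt ι E := by
    refine Subtype.ext (Finsupp.ext fun v => ?_)
    show (D₀ : Divisor ℂ (FC N)) v = Torsion.divExt ι (E : Divisor Qb (modularFunctionFieldBar N)) v
    have hn : (n : ℤ) ≠ 0 := by exact_mod_cast NeZero.ne n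
    rcases place_exhaustive v with ⟨z, rfl⟩ | ⟨γ, rfl⟩
    · have he : (ellOrder N z : ℤ) ≠ 0 := by
        exact_mod_cast (ModularPlaces.ellOrder_pos (N := N) z).ne'
      have h1 := hD₀.order z
      unfold translateW at h1
      rw [meromorphicOrderAt_comp_glSmul f detVal_wFricke_pos, hfD.order, WithTop.coe_eq_coe] at h1
      have h2 := hY'.order z
      unfold translateW at h2
      rw [meromorphicOrderAt_comp_glSmul _ detVal_wFricke_pos, hY.order, WithTop.coe_eq_coe] at h2
      simp only [Finsupp.smul_apply, nsmul_eq_mul] at h2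
      refine mul_left_cancel₀ hn (mul_left_cancel₀ he ?_)
      rw [← h2, mul_left_comm, ← h1]
      ring
    · obtain ⟨κ, hκ⟩ := (HeckeH.growsAtCusps_of_hasDivisor hfD).comp_glM (HeckeH.wFricke N)
        (det_wFricke_ne N) (det_wFricke_pos N) γ
      have h1 := hκ.unique (HeckeH.hasGrowth_of_hasDivisor hD₀ γ)
      have hpow : ∀ (δ : SL(2, ℤ)) (a : ℝ), HasGrowth (fun z => f (δ • z)) a →
          HasGrowth (fun z => ev ((Torsion.embFC N ι y : FC N) : LaurentSeries ℂ) (δ • z))
            (n * a) := by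
        intro δ a ha
        rw [ha.unique (HeckeH.hasGrowth_of_hasDivisor hfD δ)]
        have := HeckeH.hasGrowth_of_hasDivisor hY δ
        simpa [Finsupp.smul_apply, mul_div_assoc] using this
      have h2 : HasGrowth (fun z => translateW N
          (ev ((Torsion.embFC N ι y : FC N) : LaurentSeries ℂ)) (γ • z)) (n * κ) :=
        HeckeH.hasGrowth_smul_of_pow (HeckeH.growsAtCusps_of_hasDivisor hfD) hpow (HeckeH.wFricke N)
          (det_wFricke_ne N) (det_wFricke_pos N) γ hκ
      have h3 := h2.unique (HeckeH.hasGrowth_of_hasDivisor hY' γ)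
      rw [h1] at h3
      simp only [Finsupp.smul_apply, nsmul_eq_mul, Int.cast_mul, Int.cast_natCast] at h3
      have hw : (cuspWidth N γ : ℝ) ≠ 0 := by
        exact_mod_cast (HeckeH.cuspWidth_pos (N := N) γ).ne'
      have hn' : (n : ℝ) ≠ 0 := by exact_mod_cast NeZero.ne n
      field_simp at h3
      exact_mod_cast h3
  refine Subtype.ext ?_
  show _ = (Torsion.jTorsionEquiv N ι n ⟨Pic0.mk D, hxn⟩ : Additive (Gamma0 N) →+ ZMod n).comp
    (MonoidHom.toAdditive (HeckeH.wGamma0 N).toMonoidHom)
  rw [hex, Torsion.jTorsionEquiv_apply]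
  have hx2 : Pic0.mk D₀ ∈ Pic0.torsion ℂ (FC N) n := (Torsion.mk_mem_torsion_of_mult hfT hD₀).1
  have he : Torsion.picExtTorsion ι n ⟨frickeAut N • (Pic0.mk D : JZero N),
      frickeAut_mem_torsion hxn⟩ = ⟨Pic0.mk D₀, hx2⟩ := by
    refine Subtype.ext ?_
    show Torsion.picExt N ι (frickeAut N • (Pic0.mk D : JZero N)) = _
    rw [SemilinearAut.pic0_smul_mk, ← hE, Torsion.picExt_mk, ← hkey]
  rw [he]
  exact Torsion.torsionEquiv_eq hx2 hfT hD₀

variable (N) in
set_option maxHeartbeats 1000000 in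
set_option synthInstance.maxHeartbeats 200000 in
/-- The Fricke conjugation commutes with the Galois matrices. -/
theorem frickeMat_commute (p : ℕ) [Fact p.Prime] (σ : Qb ≃ₐ[ℚ] Qb) :
    (Degen.frickeMat N).map (Int.castRingHom ℤ_[p]) * Reps.tateMat N p σ =
      Reps.tateMat N p σ * (Degen.frickeMat N).map (Int.castRingHom ℤ_[p]) := by
  refine Reps.padicMatrix_ext fun m => ?_
  rw [map_mul, map_mul, ← RingHom.mapMatrix_apply, Reps.toZModPow_intMat, Reps.toZModPow_tateMat]
  refine Reps.ext_mulVec N (p ^ m) fun x => ?_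
  have hF : ∀ z : Reps.tors N (p ^ m),
      (Int.castRingHom (ZMod (p ^ m))).mapMatrix (Degen.frickeMat N) *ᵥ Reps.coordTors N (p ^ m) z =
        Reps.coordTors N (p ^ m) ⟨frickeAut N • (z : JZero N), frickeAut_mem_torsion z.2⟩ := by
    intro z
    rw [Reps.coordTors_apply, Reps.coordTors_apply, jTorsionEquiv_fricke,
      ← Reps.evalEquiv_matAct_mulVec, ← Degen.rectAct_eq_matAct, Degen.rectAct_frickeMat]
  rw [← Matrix.mulVec_mulVec, ← Matrix.mulVec_mulVec, hF, Reps.galMat_mulVec, Reps.galMat_mulVec,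
    hF]
  exact congrArg _ (Subtype.ext (frickeAut_smul_galois σ (x : JZero N)))

end FLTAgent.Lower.Levels
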