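import Fermat.Agent.Lower.Levels.Defs
import Fermat.Agent.Lower.Levels.FrickeTorsion
import Fermat.Agent.Lower.Levels.CosetIdentities
import Fermat.Agent.Local.Span

/-!
# The Galois action on periods in coordinates

`evalEquiv_galH` computes `galH` through the Galois matrices; hence it is an action commuting with
the Hecke operators, the degeneracy maps and the Fricke conjugation (`galH_heckeH`, `galH_degH`,
`galH_wH`). Also `degH_injective` for torsion-free coefficients.
-/

set_option autoImplicit false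
set_option linter.style.haveILetI false
set_option linter.unusedSectionVars false

noncomputable section

open CongruenceSubgroup
open scoped MatrixGroups Matrix

namespace FLTAgent.Lower.Levels

local notation "ℚ̄" => AlgebraicClosure ℚ
local notation "Γℚ" => (AlgebraicClosure ℚ ≃ₐ[ℚ] AlgebraicClosure ℚ)

variable {p : ℕ} [Fact p.Prime] {N M : ℕ} [NeZero N] [NeZero M] {R : Type*} [CommRing R]
  (f : ℤ_[p] →+* R)

theorem map_intCast_map {m n : Type*} (X : Matrix m n ℤ) :
    (X.map (Int.castRingHom ℤ_[p])).map f = X.map (Int.castRingHom R) := by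
  ext i j
  simp

theorem evalEquiv_wH (φ : Period.H N R R) :
    Period.evalEquiv N R R (HeckeH.wH N R R φ) =
      (Degen.frickeMat N).map (Int.castRingHom R) *ᵥ Period.evalEquiv N R R φ := by
  rw [Degen.mulVec_evalEquiv, Degen.rectAct_frickeMat]

/-- The Galois action in coordinates. -/
theorem evalEquiv_galH (σ : Γℚ) (φ : Period.H N R R) :
    Period.evalEquiv N R R (galH N f σ φ) =
      (Reps.tateMat N p σ).map f *ᵥ Period.evalEquiv N R R φ := by
  have h : (Degen.frickeMat N).map (Int.castRingHom R) *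
      ((Reps.tateMat N p σ).map f * (Degen.frickeMat N).map (Int.castRingHom R)) =
        (Reps.tateMat N p σ).map f := by
    rw [← map_intCast_map f, ← Matrix.map_mul, ← Matrix.map_mul, ← frickeMat_commute,
      ← Matrix.mul_assoc, ← Matrix.map_mul, Degen.frickeMat_mul_self,
      Matrix.map_one _ (map_zero _) (map_one _), one_mul]
  conv_rhs => rw [← h]
  rw [← Matrix.mulVec_mulVec, ← Matrix.mulVec_mulVec, ← evalEquiv_wH]
  show Period.evalEquiv N R R (HeckeH.wH N R R ((Period.evalEquiv N R R).symm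
    (((Reps.tateMat N p σ).map f) *ᵥ Period.evalEquiv N R R (HeckeH.wH N R R φ)))) = _
  rw [evalEquiv_wH, LinearEquiv.apply_symm_apply]

theorem galH_one : galH N f 1 = 1 := by
  refine LinearMap.ext fun φ => (Period.evalEquiv N R R).injective ?_
  rw [evalEquiv_galH, show Reps.tateMat N p 1 = 1 from map_one (Reps.galModel N p).M,
    Matrix.map_one _ (map_zero _) (map_one _), Module.End.one_apply]
  exact Matrix.one_mulVec _

theorem galH_mul (σ τ : Γℚ) : galH N f (σ * τ) = galH N f σ * galH N f τ := by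
  refine LinearMap.ext fun φ => (Period.evalEquiv N R R).injective ?_
  rw [Module.End.mul_apply, evalEquiv_galH, evalEquiv_galH, evalEquiv_galH, Matrix.mulVec_mulVec,
    ← Matrix.map_mul]
  exact congrArg (fun X => X.map f *ᵥ _) (map_mul (Reps.galModel N p).M σ τ)

/-- An integral matrix intertwining the Galois matrices intertwines `galH`. -/
theorem galH_rectAct (X : Degen.RMat M N)
    (hX : ∀ σ, X.map (Int.castRingHom ℤ_[p]) * Reps.tateMat N p σ =
      Reps.tateMat M p σ * X.map (Int.castRingHom ℤ_[p]))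
    (σ : Γℚ) (φ : Period.H N R R) :
    galH M f σ (Degen.rectAct R R X φ) = Degen.rectAct R R X (galH N f σ φ) := by
  refine (Period.evalEquiv M R R).injective ?_
  rw [evalEquiv_galH, ← Degen.mulVec_evalEquiv, ← Degen.mulVec_evalEquiv, evalEquiv_galH,
    Matrix.mulVec_mulVec, Matrix.mulVec_mulVec, ← map_intCast_map f, ← Matrix.map_mul,
    ← Matrix.map_mul, hX]

theorem galH_wH (σ : Γℚ) (φ : Period.H N R R) :
    galH N f σ (HeckeH.wH N R R φ) = HeckeH.wH N R R (galH N f σ φ) := by
  rw [← Degen.rectAct_frickeMat]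
  exact galH_rectAct f _ (frickeMat_commute N p) σ φ

theorem galH_heckeEnd (t : Reps.TZ N) (σ : Γℚ) (φ : Period.H N R R) :
    galH N f σ (HeckeH.heckeEnd N R R t φ) = HeckeH.heckeEnd N R R t (galH N f σ φ) := by
  show galH N f σ (HeckeH.matAct N R R (HeckeH.heckeMatHom N t) φ) =
    HeckeH.matAct N R R (HeckeH.heckeMatHom N t) (galH N f σ φ)
  rw [← Degen.rectAct_eq_matAct]
  exact galH_rectAct f _ (fun σ => ((Reps.galModel N p).commute_hecke σ t).eq.symm) σ φ

theorem galH_heckeH {q : ℕ} (hq : q.Prime) (σ : Γℚ) (φ : Period.H N R R) :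
    galH N f σ (HeckeH.heckeH N hq R R φ) = HeckeH.heckeH N hq R R (galH N f σ φ) := by
  rw [← Reps.heckeEnd_heckeGenOf N ⟨q, hq⟩]
  exact galH_heckeEnd f _ σ φ

theorem galH_heckeHT {q : ℕ} (hq : q.Prime) (σ : Γℚ) (φ : Period.H N R R) :
    galH N f σ (HeckeH.heckeHT N hq R R φ) = HeckeH.heckeHT N hq R R (galH N f σ φ) := by
  rw [HeckeH.heckeHT_eq, HeckeH.heckeHT_eq, galH_wH, galH_heckeH, galH_wH]

theorem galH_degH (d : ℕ) [NeZero d] (h : N * d ∣ M) (σ : Γℚ) (φ : Period.H N R R) :
    galH M f σ (Degen.degH R R d h φ) = Degen.degH R R d h (galH N f σ φ) := by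
  rw [← Degen.rectAct_degMat]
  refine galH_rectAct f _ (fun σ => ?_) σ φ
  have hdeg : Degen.degMat d h =
      Degen.frickeMat M * Degen.degTw d h * Degen.frickeMat N := by
    rw [Degen.degTw]
    simp only [← Matrix.mul_assoc, Degen.frickeMat_mul_self, Matrix.one_mul]
    rw [Matrix.mul_assoc, Degen.frickeMat_mul_self, Matrix.mul_one]
  have hT : (Degen.degTw d h).map (Int.castRingHom ℤ_[p]) * Reps.tateMat N p σ =
      Reps.tateMat M p σ * (Degen.degTw d h).map (Int.castRingHom ℤ_[p]) :=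
    Degen.degTw_galois Reps.qbarEmb (fun m σ x => Reps.galModel_coord N p m σ x)
      (fun m σ x => Reps.galModel_coord M p m σ x) d h σ
  rw [hdeg, Matrix.map_mul, Matrix.map_mul, Matrix.mul_assoc, frickeMat_commute N p,
    ← Matrix.mul_assoc,
    Matrix.mul_assoc ((Degen.frickeMat M).map (Int.castRingHom ℤ_[p]))
      ((Degen.degTw d h).map (Int.castRingHom ℤ_[p])) (Reps.tateMat N p σ), hT,
    ← Matrix.mul_assoc, frickeMat_commute M p]
  simp only [Matrix.mul_assoc]

/-- Some power of every element is in the image of `degHom`. -/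
theorem exists_degHom_eq_pow (d : ℕ) [NeZero d] (h : N * d ∣ M) (g : Gamma0 N) :
    ∃ k : ℕ, 0 < k ∧ ∃ x : Gamma0 M, Degen.degHom d h x = g ^ k := by
  let n := M * d
  haveI : NeZero n := ⟨mul_ne_zero (NeZero.ne M) (NeZero.ne d)⟩
  let π : SL(2, ℤ) →* Matrix.SpecialLinearGroup (Fin 2) (ZMod n) :=
    Matrix.SpecialLinearGroup.map (Int.castRingHom (ZMod n))
  refine ⟨orderOf (π (g : SL(2, ℤ))), orderOf_pos _, ?_⟩
  set k := orderOf (π (g : SL(2, ℤ)))
  have hk : π ((g ^ k : Gamma0 N) : SL(2, ℤ)) = 1 := by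
    rw [Subgroup.coe_pow, map_pow, pow_orderOf_eq_one]
  generalize g ^ k = y at hk ⊢
  have h01 : (n : ℤ) ∣ HeckeH.matOf y 0 1 := by
    rw [← ZMod.intCast_zmod_eq_zero_iff_dvd]
    exact congrArg (fun z : Matrix.SpecialLinearGroup (Fin 2) (ZMod n) =>
      (z : Matrix (Fin 2) (Fin 2) (ZMod n)) 0 1) hk
  have h10 : (n : ℤ) ∣ HeckeH.matOf y 1 0 := by
    rw [← ZMod.intCast_zmod_eq_zero_iff_dvd]
    exact congrArg (fun z : Matrix.SpecialLinearGroup (Fin 2) (ZMod n) =>
      (z : Matrix (Fin 2) (Fin 2) (ZMod n)) 1 0) hk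
  obtain ⟨b, hb⟩ := (Int.natCast_dvd_natCast.mpr (dvd_mul_left d M)).trans h01
  have hd := HeckeH.det_entries y
  rw [hb] at hd
  refine ⟨HeckeH.mkGamma0 (HeckeH.matOf y 0 0) b ((d : ℤ) * HeckeH.matOf y 1 0) (HeckeH.matOf y 1 1)
    (by linear_combination hd)
    (dvd_mul_of_dvd_right ((Int.natCast_dvd_natCast.mpr (dvd_mul_right M d)).trans h10) _),
    HeckeH.matOf_injective (HeckeH.mul_right_cancel_of_det_ne (Degen.det_dMat (d := d)) ?_)⟩
  rw [← Degen.dMat_mul_degHom, Degen.dMat, HeckeH.matOf_mkGamma0,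
    Matrix.eta_fin_two (HeckeH.matOf y), Matrix.mul_fin_two, Matrix.mul_fin_two, hb]
  simp [mul_comm]

/-- Pullback along `z ↦ d z` is injective when the coefficients have no torsion. -/
theorem degH_injective {A : Type*} [AddCommGroup A] [Module R A] [IsAddTorsionFree A] (d : ℕ)
    [NeZero d] (h : N * d ∣ M) : Function.Injective (Degen.degH R A d h) := by
  refine (injective_iff_map_eq_zero _).mpr fun φ hφ => Subtype.ext (AddMonoidHom.ext fun γ => ?_)
  obtain ⟨γ, rfl⟩ := Additive.ofMul.surjective γ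
  obtain ⟨k, hk, x, hx⟩ := exists_degHom_eq_pow d h γ
  have h1 : (φ : Additive (Gamma0 N) →+ A) (Additive.ofMul (Degen.degHom d h x)) = 0 := by
    rw [← Degen.degH_apply, hφ]; rfl
  rw [hx, ofMul_pow, map_nsmul] at h1
  exact (nsmul_eq_zero_iff_right hk.ne').mp h1

end FLTAgent.Lower.Levels
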