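import Fermat.Agent.Lower.Levels.InertiaTwo
import Fermat.Agent.Ihara.Operators
import Fermat.Agent.Lower.Levels.TraceRep
import Fermat.Agent.Lower.Lift.HopQ.Maps
import Fermat.Agent.Lower.Lift.Defs

/-!
# The new part at a prime `q` exactly dividing the level

`traceH_sq_of_betaMap`: on the kernel of the two corestrictions to level `N` inside level `N q`, the
trace `A(F)` of Frobenius at `q` has square `(q + 1)²`. Hence a representation attached to a module
killed by both corestrictions is special at `q` (`isSpecial_of_betaMap`), and inertia at `q` has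
trace two on it (`galH_inertia_add_inv`, `act_trace_eq_two`).
-/

set_option autoImplicit false
set_option linter.style.haveILetI false
set_option linter.unusedSectionVars false

noncomputable section

open CongruenceSubgroup CuspForm
open scoped MatrixGroups Matrix

namespace FLTAgent.Lower.Levels

open FLTAgent.Degen (degH corH degHom)
open FLTAgent.Ihara (alpha betaMap)

local notation "ℚ̄" => AlgebraicClosure ℚ
local notation "Γℚ" => (AlgebraicClosure ℚ ≃ₐ[ℚ] AlgebraicClosure ℚ)

section OldRange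

open Module

variable {p : ℕ} [Fact p.Prime] {L : Type} [Field L] [CharZero L] {f : ℤ_[p] →+* L}
  {q N₀ N₁ M M₁ : ℕ} [NeZero N₀] [NeZero N₁] [NeZero M] [NeZero M₁]
  (D : Local.DataOneCore p q N₀ N₁ M M₁) (hf : Function.Injective f) (hq : q.Prime) (hqp : q ≠ p)
  {A : ValuationSubring ℚ̄} (hA : A.LiesOverPrime q)

include hf hq hqp hA in
/-- `A(F)² - (q + 1)²` maps into the old part. -/
theorem traceSq_mem_oldRange {F : Γℚ} (hF : A.IsFrobeniusAt F q) (v : Fin D.g₁.r → L) :
    Local.aOp (Local.galRep f D.g₁) (Local.chiL f) F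
        (Local.aOp (Local.galRep f D.g₁) (Local.chiL f) F v) - ((q : L) + 1) ^ 2 • v ∈
      LinearMap.range ((Local.linMap (Int.castRingHom L) D.sq.a₀.mat).coprod
        (Local.linMap (Int.castRingHom L) D.sq.b₀.mat)) := by
  let T := Local.aOp (Local.galRep f D.h₁) (Local.chiL f) F
  let c : L := ((q : L) + 1) ^ 2
  let z := T * T - c • 1
  have hold : ∀ x, T (D.oldMap x) = D.oldMap
      (Local.heckeL D.h₀ hq D.not_dvd x.1, Local.heckeL D.h₀ hq D.not_dvd x.2) := by
    intro x
    simp only [Local.DataOneCore.oldMap, LinearMap.coprod_apply, map_add, T, Local.galMap_aOp,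
      Local.aOp_frobenius f D.h₀ hq D.not_dvd hqp hA hF]
  have hzold : ∀ w ∈ D.oldSub, z w ∈ D.oldSub := by
    rintro _ ⟨x, rfl⟩
    simp only [z, LinearMap.sub_apply, Module.End.mul_apply, hold, LinearMap.smul_apply,
      Module.End.one_apply]
    exact sub_mem ⟨_, rfl⟩ (D.oldSub.smul_mem _ ⟨_, rfl⟩)
  have hdisj : Disjoint (D.oldSub) (LinearMap.ker z) := by
    rw [Submodule.disjoint_def]
    rintro _ ⟨x, rfl⟩ hx
    simp only [LinearMap.mem_ker, z, LinearMap.sub_apply, Module.End.mul_apply, hold,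
      LinearMap.smul_apply, Module.End.one_apply, sub_eq_zero, ← map_smul] at hx
    have h2 := Local.oldMap_injective D hx
    rw [Prod.ext_iff] at h2
    rw [show x = 0 from Prod.ext (Local.heckeL_sq_injective D.h₀ hq D.not_dvd h2.1)
      (Local.heckeL_sq_injective D.h₀ hq D.not_dvd h2.2), map_zero]
  have hcom : ∀ (X : Module.End L (Fin D.h₁.r → L)), Commute X T →
      ∀ v ∈ LinearMap.ker z, X v ∈ LinearMap.ker z := by
    intro X hX v hv
    rw [LinearMap.mem_ker] at hv ⊢
    have : Commute X z := (hX.mul_right hX).sub_right ((Commute.one_right X).smul_right _)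
    rw [← Module.End.mul_apply, ← this.eq, Module.End.mul_apply, hv, map_zero]
  have h1 := Local.finrank_le_of_stable D hf hq hqp hA (LinearMap.ker z)
    (fun g => hcom _ (Local.commute_galRep_aOp f D.h₁ F g)) (hcom _ (Local.thetaL_aOp D F))
    ⊥ bot_le bot_le (fun F' _ v hv => by rw [(Submodule.mem_bot L).mp hv, map_zero]; exact zero_mem _)
    (fun w _ hw => by
      have hT : ∀ u, Local.galRep f D.h₁ F (Local.galRep f D.h₁ F u) = (q : L) ^ 2 • u →
          T (T u) = c • u := by
        intro u hu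
        have hinv : ∀ y, Local.galRep f D.h₁ F⁻¹ (Local.galRep f D.h₁ F y) = y := fun y => by
          rw [← Module.End.mul_apply, ← map_mul, inv_mul_cancel, map_one, Module.End.one_apply]
        have hinv' : ∀ y, Local.galRep f D.h₁ F (Local.galRep f D.h₁ F⁻¹ y) = y := fun y => by
          rw [← Module.End.mul_apply, ← map_mul, mul_inv_cancel, map_one, Module.End.one_apply]
        have h3 : Local.galRep f D.h₁ F u = (q : L) ^ 2 • Local.galRep f D.h₁ F⁻¹ u := by
          have := congrArg (Local.galRep f D.h₁ F⁻¹) hu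
          rwa [hinv, map_smul] at this
        have h4 : (q : L) ^ 2 • Local.galRep f D.h₁ F⁻¹ (Local.galRep f D.h₁ F⁻¹ u) = u := by
          rw [← map_smul, ← h3, hinv]
        simp only [T, Local.aOp, Local.chiL_frobenius f hq hqp hA hF, LinearMap.add_apply,
          LinearMap.smul_apply, map_add, map_smul, smul_add, smul_smul, hu, hinv, hinv', ← sq,
          h4, c]
        module
      rw [LinearMap.mem_ker]
      simp only [z, LinearMap.sub_apply, Module.End.mul_apply, LinearMap.smul_apply,
        Module.End.one_apply, hT w (hw F hF), sub_self])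
  rw [finrank_bot, zero_add] at h1
  have htop : D.oldSub ⊔ LinearMap.ker z = ⊤ := by
    refine Submodule.eq_top_of_finrank_eq (le_antisymm (Submodule.finrank_le _) ?_)
    have h3 := Submodule.finrank_sup_add_finrank_inf_eq D.oldSub (LinearMap.ker z)
    rw [disjoint_iff.mp hdisj, finrank_bot, add_zero, Local.finrank_oldSub] at h3
    have h4 := D.rank_le
    rw [Module.finrank_fin_fun]
    omega
  set w := Local.aOp (Local.galRep f D.g₁) (Local.chiL f) F
    (Local.aOp (Local.galRep f D.g₁) (Local.chiL f) F v) - ((q : L) + 1) ^ 2 • v with hw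
  let x := Local.linMap (Int.castRingHom L) D.sq.up.mat v
  have hzx : z x = Local.linMap (Int.castRingHom L) D.sq.up.mat w := by
    simp only [z, LinearMap.sub_apply, Module.End.mul_apply, LinearMap.smul_apply,
      Module.End.one_apply, T, x, hw, map_sub, map_smul, Local.galMap_aOp, c]
  obtain ⟨o, ho, k, hk, hxok⟩ :=
    Submodule.mem_sup.mp (htop.ge (Submodule.mem_top (x := x)))
  obtain ⟨y, hy⟩ : z x ∈ D.oldSub := by
    rw [← hxok, map_add, LinearMap.mem_ker.mp hk, add_zero]
    exact hzold o ho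
  have hd : (D.sq.d : L) ≠ 0 := Nat.cast_ne_zero.mpr D.sq.d_ne_zero
  have h3 : (D.sq.d : L) • w =
      Local.linMap (Int.castRingHom L) D.sq.down (D.oldMap y) := by
    rw [hy, hzx, ← Local.linMap_mul, D.sq.down_up, Local.linMap_smul, eq_intCast, Int.cast_natCast]
    simp [Local.linMap_apply]
  rw [Local.DataOneCore.oldMap, LinearMap.coprod_apply, map_add, ← Local.linMap_mul,
    ← Local.linMap_mul, D.sq.down_a, D.sq.down_b, Local.linMap_mul, Local.linMap_mul] at h3
  refine (Submodule.smul_mem_iff _ hd).mp ?_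
  rw [h3]
  exact ⟨(_, _), rfl⟩

end OldRange

section New

variable {p : ℕ} [Fact p.Prime] {N : ℕ} [NeZero N]

/-- `σ + χ(σ) σ⁻¹` on `H`. -/
def traceH {R : Type*} [CommRing R] (f : ℤ_[p] →+* R) (σ : Γℚ) :
    Module.End R (Period.H N R R) :=
  galH N f σ + f (Reps.cyc p σ) • galH N f σ⁻¹

variable (p N) in
/-- The Galois matrices, in the index type of the coordinates. -/
def galM : Γℚ →* Matrix (Fin (Period.rankH N)) (Fin (Period.rankH N)) ℤ_[p] :=
  (Reps.galModel N p).M

theorem traceOp_galM_mem (σ : Γℚ) :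
    Local.traceOp (galM p N) σ ∈ Submodule.span ℤ_[p]
      (Set.range fun t => Local.icast ℤ_[p] (HeckeH.heckeMatHom N t)) :=
  Local.traceOp_mem_span_model (Reps.galModel N p) σ

theorem evalEquiv_traceH {R : Type*} [CommRing R] (f : ℤ_[p] →+* R) (σ : Γℚ)
    (φ : Period.H N R R) :
    Period.evalEquiv N R R (traceH f σ φ) =
      (Local.traceOp (galM p N) σ).map f *ᵥ Period.evalEquiv N R R φ := by
  rw [traceH, LinearMap.add_apply, LinearMap.smul_apply, map_add, map_smul, evalEquiv_galH,
    evalEquiv_galH, Local.traceOp, Matrix.map_add _ (map_add f),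
    Matrix.map_smul' _ _ _ (map_mul f), Matrix.add_mulVec, Matrix.smul_mulVec]
  rfl

theorem evalEquiv_heckeEnd {R : Type*} [CommRing R] (t : Reps.TZ N) (φ : Period.H N R R) :
    Period.evalEquiv N R R (HeckeH.heckeEnd N R R t φ) =
      (HeckeH.heckeMatHom N t).map (Int.castRingHom R) *ᵥ Period.evalEquiv N R R φ := by
  rw [Degen.mulVec_evalEquiv, Degen.rectAct_eq_matAct]
  rfl

/-- A submodule stable under every `T_r` and `U_r` is stable under the full Hecke algebra. -/
theorem heckeEnd_mem_of_gen {R : Type*} [CommRing R] (K : Submodule R (Period.H N R R))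
    (hK : ∀ (r : ℕ) (hr : r.Prime), ∀ φ ∈ K, HeckeH.heckeH N hr R R φ ∈ K) (t : Reps.TZ N) :
    ∀ φ ∈ K, HeckeH.heckeEnd N R R t φ ∈ K := by
  obtain ⟨t, ht⟩ := t
  induction ht using Algebra.adjoin_induction with
  | mem x hx =>
    obtain ⟨r, hr⟩ : ∃ r : Nat.Primes,
        (⟨x, Algebra.subset_adjoin hx⟩ : Reps.TZ N) = Reps.heckeGenOf N r := by
      rcases hx with ⟨ℓ, hℓ, hℓN, -, rfl⟩ | ⟨r, hrN, hr, -, rfl⟩
      · exact ⟨⟨ℓ, hℓ⟩, (Reps.heckeGenOf_T N hℓ hℓN).symm⟩
      · exact ⟨⟨r, hr⟩, by simp [Reps.heckeGenOf, hrN]; rfl⟩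
    intro φ hφ
    rw [hr, Reps.heckeEnd_heckeGenOf]
    exact hK _ r.2 φ hφ
  | algebraMap r =>
    intro φ hφ
    rw [show (⟨algebraMap ℤ _ r, Subalgebra.algebraMap_mem _ r⟩ : Reps.TZ N) = (r : Reps.TZ N) from
      Subtype.ext (by simp), map_intCast, Module.End.intCast_apply]
    exact zsmul_mem hφ r
  | add x y hx hy ihx ihy =>
    intro φ hφ
    rw [show (⟨x + y, add_mem hx hy⟩ : Reps.TZ N) = ⟨x, hx⟩ + ⟨y, hy⟩ from rfl, map_add,
      LinearMap.add_apply]
    exact add_mem (ihx φ hφ) (ihy φ hφ)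
  | mul x y hx hy ihx ihy =>
    intro φ hφ
    rw [show (⟨x * y, mul_mem hx hy⟩ : Reps.TZ N) = ⟨x, hx⟩ * ⟨y, hy⟩ from rfl, map_mul,
      Module.End.mul_apply]
    exact ihx _ (ihy φ hφ)

/-- A Hecke stable submodule is stable under `σ + χ(σ) σ⁻¹`. -/
theorem traceH_mem {R : Type*} [CommRing R] (f : ℤ_[p] →+* R) (K : Submodule R (Period.H N R R))
    (hK : ∀ (r : ℕ) (hr : r.Prime), ∀ φ ∈ K, HeckeH.heckeH N hr R R φ ∈ K) (σ : Γℚ)
    {φ : Period.H N R R} (hφ : φ ∈ K) : traceH f σ φ ∈ K := by
  have key : ∀ X ∈ Submodule.span ℤ_[p]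
      (Set.range fun t => Local.icast ℤ_[p] (HeckeH.heckeMatHom N t)),
      (Period.evalEquiv N R R).symm (X.map f *ᵥ Period.evalEquiv N R R φ) ∈ K := by
    intro X hX
    induction hX using Submodule.span_induction with
    | mem y hy =>
      obtain ⟨t, rfl⟩ := hy
      have h : (Local.icast ℤ_[p] (HeckeH.heckeMatHom N t)).map f =
          (HeckeH.heckeMatHom N t).map (Int.castRingHom R) := map_intCast_map f _
      rw [h]
      rw [← evalEquiv_heckeEnd, LinearEquiv.symm_apply_apply]
      exact heckeEnd_mem_of_gen K hK t φ hφ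
    | zero =>
      rw [Matrix.map_zero _ (map_zero f), Matrix.zero_mulVec, map_zero]
      exact zero_mem _
    | add y z _ _ hy hz =>
      rw [Matrix.map_add _ (map_add f), Matrix.add_mulVec, map_add]
      exact add_mem hy hz
    | smul c y _ hy =>
      rw [Matrix.map_smul' _ _ _ (map_mul f), Matrix.smul_mulVec, map_smul]
      exact K.smul_mem _ hy
  have h := key _ (traceOp_galM_mem σ)
  rwa [← evalEquiv_traceH, LinearEquiv.symm_apply_apply] at h

variable {q : ℕ} [Fact q.Prime] (hqN : ¬ q ∣ N)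

include hqN in
/-- The kernel of the two corestrictions is stable under all Hecke operators. -/
theorem heckeH_mem_ker_betaMap {R : Type*} [CommRing R] (r : ℕ) (hr : r.Prime)
    (φ : Period.H (N * q) R R) (hφ : φ ∈ LinearMap.ker (betaMap R R hqN)) :
    HeckeH.heckeH (N * q) hr R R φ ∈ LinearMap.ker (betaMap R R hqN) := by
  rw [LinearMap.mem_ker] at hφ ⊢
  by_cases hrq : r = q
  · subst hrq
    rw [Ihara.betaMap_heckeH_self hqN, hφ]
    simp
  · rw [Ihara.betaMap_heckeH_of_ne hqN hr hrq, hφ]
    simp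

section Field

variable {L : Type} [Field L] [CharZero L] (f : ℤ_[p] →+* L)

include hqN in
/-- `A(F)² - (q + 1)²` maps level `N q` into the old part. -/
theorem traceH_sq_mem_range_alpha (hqp : q ≠ p) {A : ValuationSubring ℚ̄}
    (hA : A.LiesOverPrime q) {F : Γℚ} (hF : A.IsFrobeniusAt F q) (y : Period.H (N * q) L L) :
    ∃ a b : Period.H N L L,
      alpha (q := q) L L (a, b) = traceH f F (traceH f F y) - ((q : L) + 1) ^ 2 • y := by
  have hq : q.Prime := Fact.out
  haveI := Degen.auxLevel_ne_zero q N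
  have hco := Degen.coprime_auxLevel hq hqN
  have hNM := Degen.dvd_auxLevel q N
  let g₀ := Degen.canModel N p
  let g₁ := Degen.canModel (N * q) p
  let h₀ := Degen.canModel (Degen.auxLevel q N) p
  let h₁ := Degen.canModel (q * Degen.auxLevel q N) p
  obtain ⟨k, hk, htor⟩ := Degen.exists_toric hq hqp hco (Degen.aux_dvd hq) h₁
  obtain ⟨θ, hθ, hθc, hθa⟩ := Degen.exists_theta_model h₁
  let D : Local.DataOneCore p q N (N * q) (Degen.auxLevel q N) (q * Degen.auxLevel q N) :=
    { g₀ := g₀.toGalModel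
      g₁ := g₁.toGalModel
      h₀ := h₀.toGalModel
      h₁ := h₁.toGalModel
      sq := Degen.degSquare g₀ g₁ h₀ h₁ q (Ihara.dvd_one_mul' N q) (Ihara.dvd_self_mul' N q)
        (by rw [mul_one]; exact dvd_mul_left _ _) (by rw [mul_comm])
        (by rw [mul_one, mul_comm N q]; exact Nat.mul_dvd_mul_left q hNM)
        (hco.mul_dvd_of_dvd_of_dvd ((dvd_mul_left q N).trans (Nat.dvd_lcm_left _ _))
          (Nat.dvd_lcm_right _ _))
        (by rw [Degen.index_subG0_mul hNM hco, mul_comm q N])
      not_dvd := hq.coprime_iff_not_dvd.mp hco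
      deg_injective := fun _ _ h => Degen.degTw_injective hco hq.two_le _ _ h
      k := k
      rank_le := hk
      toric := htor
      θ := θ
      θ_det := hθ
      θ_comm := hθc
      θ_anti := hθa }
  obtain ⟨⟨x, z⟩, hxz⟩ := traceSq_mem_oldRange D (Local.padicInt_hom_injective f) hq hqp hA hF
    (Period.evalEquiv (N * q) L L y)
  have hT : ∀ v : Period.H (N * q) L L,
      Local.aOp (Local.galRep f D.g₁) (Local.chiL f) F (Period.evalEquiv (N * q) L L v) =
        Period.evalEquiv (N * q) L L (traceH f F v) := fun v => by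
    rw [traceH, LinearMap.add_apply, LinearMap.smul_apply, map_add, map_smul, evalEquiv_galH,
      evalEquiv_galH]
    rfl
  erw [hT, hT] at hxz
  rw [LinearMap.coprod_apply, Local.linMap_apply, Local.linMap_apply] at hxz
  change (Degen.degTw 1 (Ihara.dvd_one_mul' N q)).map (Int.castRingHom L) *ᵥ x +
    (Degen.degTw q (Ihara.dvd_self_mul' N q)).map (Int.castRingHom L) *ᵥ z = _ at hxz
  refine ⟨(Period.evalEquiv N L L).symm z, (Period.evalEquiv N L L).symm x,
    (Period.evalEquiv (N * q) L L).injective ?_⟩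
  rw [map_sub, map_smul]
  refine Eq.trans ?_ hxz
  rw [Ihara.alpha_apply, map_add, add_comm]
  conv_rhs => rw [← (Period.evalEquiv N L L).apply_symm_apply x,
    ← (Period.evalEquiv N L L).apply_symm_apply z]
  simp only [Degen.mulVec_evalEquiv, Degen.degTw, Degen.rectAct_mul, Degen.rectAct_frickeMat,
    Degen.rectAct_degMat]
  rw [wH_degH_one rfl (Ihara.dvd_one_mul' N q) (Ihara.dvd_self_mul' N q),
    wH_degH_q rfl (Ihara.dvd_one_mul' N q) (Ihara.dvd_self_mul' N q)]

include hqN in
/-- On the new part `A(F)² = (q + 1)²`. -/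
theorem traceH_sq_of_betaMap (hqp : q ≠ p) {A : ValuationSubring ℚ̄}
    (hA : A.LiesOverPrime q) {F : Γℚ} (hF : A.IsFrobeniusAt F q) {y : Period.H (N * q) L L}
    (hy : betaMap L L hqN y = 0) :
    traceH f F (traceH f F y) = ((q : L) + 1) ^ 2 • y := by
  have hq : q.Prime := Fact.out
  obtain ⟨a, b, hab⟩ := traceH_sq_mem_range_alpha hqN f hqp hA hF y
  have hst : ∀ v, betaMap L L hqN v = 0 → betaMap L L hqN (traceH f F v) = 0 := fun v hv =>
    traceH_mem f _ (heckeH_mem_ker_betaMap hqN) F (LinearMap.mem_ker.mpr hv)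
  have h0 : betaMap L L hqN (alpha (q := q) L L (a, b)) = 0 := by
    rw [hab, map_sub, map_smul, hst _ (hst y hy), hy, smul_zero, sub_zero]
  rw [Ihara.betaMap_alpha, Prod.mk_eq_zero, ← Nat.cast_smul_eq_nsmul L,
    ← Nat.cast_smul_eq_nsmul L, Nat.cast_add, Nat.cast_one] at h0
  set T := HeckeH.heckeH N (Fact.out : q.Prime) L L with hTdef
  have hev : ∀ v, Local.heckeL (Reps.galModel N p) hq hqN (Period.evalEquiv N L L v) =
      Period.evalEquiv N L L (T v) := fun v => by
    rw [hTdef, ← HeckeH.heckeEnd_T N hq hqN (Set.notMem_empty q), evalEquiv_heckeEnd]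
    rfl
  have hz : ∀ v, T (T v) = ((q : L) + 1) ^ 2 • v → v = 0 := by
    intro v hv
    refine (Period.evalEquiv N L L).map_eq_zero_iff.mp
      (Local.heckeL_sq_injective (Reps.galModel N p) hq hqN ?_)
    erw [hev, hev, hv, map_smul]
    rfl
  have hb : T b = -(((q : L) + 1) • a) := eq_neg_of_add_eq_zero_right h0.1
  have ha : T a = -(((q : L) + 1) • b) := eq_neg_of_add_eq_zero_left h0.2
  have ha0 : a = 0 := hz a (by rw [ha, map_neg, map_smul, hb, smul_neg, neg_neg, smul_smul, sq])
  have hb0 : b = 0 := hz b (by rw [hb, map_neg, map_smul, ha, smul_neg, neg_neg, smul_smul, sq])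
  rw [ha0, hb0, Prod.mk_zero_zero, map_zero] at hab
  exact sub_eq_zero.mp hab.symm

end Field

section Reduction

variable {R L : Type*} [CommRing R] [CommRing L] (g : R →+ L)

theorem compH_thetaH (φ : Period.H (N * q) R R) :
    compH g (Ihara.thetaH R R hqN φ) = Ihara.thetaH L L hqN (compH (R' := L) g φ) := rfl

theorem compH_zero : compH g (0 : Period.H N R R) = (0 : Period.H N L L) :=
  Subtype.ext (AddMonoidHom.ext fun _ => map_zero g)

theorem compH_betaMap {φ : Period.H (N * q) R R} (h : betaMap R R hqN φ = 0) :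
    betaMap L L hqN (compH (R' := L) g φ) = 0 := by
  rw [Ihara.betaMap_apply, Prod.mk_eq_zero] at h ⊢
  rw [← compH_thetaH, ← compH_corH g, ← compH_corH g, h.1, h.2, compH_zero]
  exact ⟨rfl, rfl⟩

end Reduction

/-- The coordinates of `R` over `O`, in the fraction field of `O`. -/
theorem eq_zero_of_compH_coord {O R : Type} [CommRing O] [IsDomain O] [CommRing R] [Algebra O R]
    {κ : Type} (b : Module.Basis κ O R) {ψ : Period.H N R R}
    (h : ∀ k, compH (R' := FractionRing O)
      ((algebraMap O (FractionRing O)).toAddMonoidHom.comp (b.coord k).toAddMonoidHom) ψ = 0) :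
    ψ = 0 := by
  refine Subtype.ext (AddMonoidHom.ext fun γ => b.repr.injective (Finsupp.ext fun k => ?_))
  have h1 : algebraMap O (FractionRing O)
      (b.coord k ((ψ : Additive (Gamma0 N) →+ R) γ)) = 0 :=
    DFunLike.congr_fun (congrArg Subtype.val (h k)) γ
  rw [map_eq_zero_iff _ (IsFractionRing.injective O (FractionRing O))] at h1
  simpa using h1

theorem compH_sub {R L : Type*} [CommRing R] [CommRing L] (g : R →+ L)
    (φ ψ : Period.H N R R) :
    compH (R' := L) g (φ - ψ) = compH (R' := L) g φ - compH (R' := L) g ψ :=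
  Subtype.ext (AddMonoidHom.ext fun _ => map_sub g _ _)

theorem compH_smul {O R L : Type*} [CommRing O] [CommRing R] [Algebra O R] [CommRing L]
    (j : O →+* L) (g : R →+ L) (hg : ∀ (a : O) (r : R), g (algebraMap O R a * r) = j a * g r)
    (a : O) (φ : Period.H N R R) :
    compH (R' := L) g (algebraMap O R a • φ) = j a • compH (R' := L) g φ :=
  Subtype.ext (AddMonoidHom.ext fun _ => hg a _)

theorem compH_traceH {O R L : Type*} [CommRing O] [CommRing R] [Algebra O R] [CommRing L]
    (f : ℤ_[p] →+* O) (j : O →+* L) (g : R →+ L)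
    (hg : ∀ (a : O) (r : R), g (algebraMap O R a * r) = j a * g r) (σ : Γℚ)
    (φ : Period.H N R R) :
    compH (R' := L) g (traceH ((algebraMap O R).comp f) σ φ) =
      traceH (j.comp f) σ (compH (R' := L) g φ) := by
  rw [traceH, traceH, LinearMap.add_apply, LinearMap.add_apply, LinearMap.smul_apply,
    LinearMap.smul_apply, ← compH_galH f j g hg, ← compH_galH f j g hg, RingHom.comp_apply,
    RingHom.comp_apply, ← compH_smul j g hg]
  exact Subtype.ext (AddMonoidHom.ext fun _ => map_add g _ _)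

include hqN in
set_option maxHeartbeats 2000000 in
/-- **The new part is special.** A representation attached to a module of level `N q` killed by
both corestrictions to level `N` has `trace(Frob_q)² = (q + 1)²`. -/
theorem isSpecial_of_betaMap (hqp : q ≠ p) {S : Finset ℕ} {O : Type} [CommRing O] [IsDomain O]
    [CharZero O] (f : ℤ_[p] →+* O) {T : Type} [CommRing T] [IsLocalRing T] [IsNoetherianRing T]
    [IsAdicComplete (IsLocalRing.maximalIdeal T) T] [Algebra O T]
    {π : ↥(heckeAlgebra (N * q) 2 (↑S : Set ℕ)) →+* T} {ρ : GaloisRepAdic T}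
    (h : Local.IsAttached π ρ p)
    {R : Type} [CommRing R] [Algebra O R] [Module.Finite O R] [Module.Free O R]
    {d : ℕ} (act : T →ₐ[O] Matrix (Fin d) (Fin d) R) (hact : Function.Injective act)
    (ι : (Fin d → R) →ₗ[R] Period.H (N * q) R R) (hι : Function.Injective ι)
    (hrel : ∀ σ x, galH (N * q) ((algebraMap O R).comp f) σ
        (galH (N * q) ((algebraMap O R).comp f) σ (ι x)) -
      galH (N * q) ((algebraMap O R).comp f) σ (ι (act (ρ.trace σ) *ᵥ x)) +
        ι (act (LinearMap.det (ρ.ρ σ)) *ᵥ x) = 0)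
    (hker : ∀ x, betaMap R R hqN (ι x) = 0) : Lift.IsSpecial q ρ := by
  intro P F hP hF
  have hq : q.Prime := Fact.out
  set g₀ := (algebraMap O R).comp f with hg₀
  set t := ρ.trace F with ht
  -- `T(F)` acts as the trace
  have hT : ∀ x, traceH g₀ F (ι x) = ι (act t *ᵥ x) := by
    intro x
    have h1 := congrArg (galH (N * q) g₀ F⁻¹) (hrel F x)
    rw [map_add, map_sub, map_zero, ← Module.End.mul_apply, ← galH_mul,
      inv_mul_cancel, galH_one, Module.End.one_apply, ← Module.End.mul_apply, ← galH_mul, inv_mul_cancel, galH_one,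
      Module.End.one_apply, h.det_frobenius hq hqp hP hF, map_natCast, Matrix.natCast_mulVec,
      Nat.cast_smul_eq_nsmul, map_nsmul, map_nsmul, sub_add_eq_add_sub, sub_eq_zero] at h1
    rw [traceH, LinearMap.add_apply, LinearMap.smul_apply, Reps.cyc_frobenius hq hqp hP hF,
      map_natCast, Nat.cast_smul_eq_nsmul]
    exact h1
  let b := Module.Free.chooseBasis O R
  haveI : CharZero (FractionRing O) :=
    charZero_of_injective_algebraMap (IsFractionRing.injective O (FractionRing O))
  let j : O →+* FractionRing O := algebraMap O (FractionRing O)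
  have hact' : ∀ (a : O) x, ι (act (algebraMap O T a) *ᵥ x) = algebraMap O R a • ι x := by
    intro a x
    rw [AlgHom.commutes, IsScalarTower.algebraMap_apply O R (Matrix (Fin d) (Fin d) R),
      Algebra.algebraMap_eq_smul_one, Matrix.smul_mulVec, Matrix.one_mulVec, map_smul]
  have hc : ((q : T) + 1) ^ 2 = algebraMap O T (((q : O) + 1) ^ 2) := by simp
  refine sub_eq_zero.mp (hact ?_)
  rw [map_zero]
  refine Matrix.ext_of_mulVec_single fun i => hι ?_
  rw [Matrix.zero_mulVec, map_zero]
  refine eq_zero_of_compH_coord b fun k => ?_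
  let g : R →+ FractionRing O := j.toAddMonoidHom.comp (b.coord k).toAddMonoidHom
  have hg : ∀ (a : O) (r : R), g (algebraMap O R a * r) = j a * g r := fun a r => by
    show j (b.coord k (algebraMap O R a * r)) = j a * j (b.coord k r)
    rw [← Algebra.smul_def, map_smul, smul_eq_mul, map_mul]
  have h2 := traceH_sq_of_betaMap hqN (j.comp f) hqp hP hF
    (compH_betaMap hqN g (hker (Pi.single i 1)))
  rw [← compH_traceH f j g hg, hT, ← compH_traceH f j g hg, hT] at h2
  show compH g _ = 0
  rw [map_sub, Matrix.sub_mulVec, map_sub, compH_sub, sq, map_mul, ← Matrix.mulVec_mulVec, hc,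
    hact', compH_smul j g hg, h2, map_pow, map_add, map_natCast, map_one, sub_self]

section PiQ

/-- A class killed by `π` gives a homomorphism killed by both corestrictions. -/
theorem betaMap_eq_zero_of_piQ {O : Type} [CommRing O] {z : H1 O O (tchi (N * q) O)}
    {φ : Period.H (N * q) O O}
    (hz : h1Triv (N * q) O O z = (φ : Additive (Gamma0 (N * q)) →+ O))
    (h : Lift.HopQ.piQ hqN O z = 0) : betaMap O O hqN φ = 0 := by
  rw [Lift.HopQ.piQ_apply, Prod.mk_eq_zero] at h
  rw [Ihara.betaMap_apply, Prod.mk_eq_zero]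
  constructor
  · refine Subtype.ext ?_
    rw [Degen.coe_corH, ← hz, ← Lift.HopQ.h1Triv_cor hqN, h.1, map_zero]
    rfl
  · refine Subtype.ext ?_
    rw [Degen.coe_corH]
    show Degen.corFun ((φ : Additive (Gamma0 (N * q)) →+ O).comp
      (MonoidHom.toAdditive (Ihara.theta hqN))) = _
    rw [← hz, ← Lift.HopQ.h1Triv_w hqN, ← Lift.HopQ.h1Triv_cor hqN, h.2, map_zero]
    rfl

end PiQ

include hqN in
/-- Inertia at a prime dividing the level once has `σ + σ⁻¹ = 2` on `H`. -/
theorem galH_inertia_add_inv (hqp : q ≠ p) {R : Type*} [CommRing R] (f : ℤ_[p] →+* R)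
    {A : ValuationSubring ℚ̄} (hA : A.LiesOverPrime q) {i : Γℚ}
    (hi : i ∈ A.inertiaSubgroupIn ℚ) (φ : Period.H (N * q) R R) :
    galH (N * q) f i φ + galH (N * q) f i⁻¹ φ = (2 : R) • φ := by
  have hq : q.Prime := Fact.out
  haveI := Degen.auxLevel_ne_zero q N
  have hco := Degen.coprime_auxLevel hq hqN
  have hNM := Degen.dvd_auxLevel q N
  let g₀ := Degen.canModel N p
  let g₁ := Degen.canModel (N * q) p
  let h₀ := Degen.canModel (Degen.auxLevel q N) p
  let h₁ := Degen.canModel (q * Degen.auxLevel q N) p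
  obtain ⟨k, hk, htor⟩ := Degen.exists_toric hq hqp hco (Degen.aux_dvd hq) h₁
  obtain ⟨θ, hθ, hθc, hθa⟩ := Degen.exists_theta_model h₁
  let D : Local.DataOneCore p q N (N * q) (Degen.auxLevel q N) (q * Degen.auxLevel q N) :=
    { g₀ := g₀.toGalModel
      g₁ := g₁.toGalModel
      h₀ := h₀.toGalModel
      h₁ := h₁.toGalModel
      sq := Degen.degSquare g₀ g₁ h₀ h₁ q (Ihara.dvd_one_mul' N q) (Ihara.dvd_self_mul' N q)
        (by rw [mul_one]; exact dvd_mul_left _ _) (by rw [mul_comm])
        (by rw [mul_one, mul_comm N q]; exact Nat.mul_dvd_mul_left q hNM)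
        (hco.mul_dvd_of_dvd_of_dvd ((dvd_mul_left q N).trans (Nat.dvd_lcm_left _ _))
          (Nat.dvd_lcm_right _ _))
        (by rw [Degen.index_subG0_mul hNM hco, mul_comm q N])
      not_dvd := hq.coprime_iff_not_dvd.mp hco
      deg_injective := fun _ _ h => Degen.degTw_injective hco hq.two_le _ _ h
      k := k
      rank_le := hk
      toric := htor
      θ := θ
      θ_det := hθ
      θ_comm := hθc
      θ_anti := hθa }
  have h : Local.traceOp (galM p (N * q)) i = 2 := Local.traceOp_inertia D hq hqp hA hi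
  have h1 := evalEquiv_traceH f i φ
  rw [h.trans one_add_one_eq_two.symm, Matrix.map_add _ (map_add f),
    Matrix.map_one _ (map_zero f) (map_one f), Matrix.add_mulVec, Matrix.one_mulVec, traceH,
    LinearMap.add_apply, LinearMap.smul_apply,
    Reps.cyc_inertia hq hqp hA hi, map_one, one_smul] at h1
  refine (Period.evalEquiv (N * q) R R).injective (h1.trans ?_)
  rw [map_smul, two_smul]

/-- The action of the trace of inertia, from the relation on `H`. -/
theorem act_trace_eq_two {M : ℕ} [NeZero M] {O R T : Type} [CommRing O] [CommRing R] [Algebra O R]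
    [CommRing T] [IsLocalRing T] [Algebra O T] (f : ℤ_[p] →+* O) {ρ : GaloisRepAdic T} {d : ℕ}
    (act : T →ₐ[O] Matrix (Fin d) (Fin d) R)
    (ι : (Fin d → R) →ₗ[R] Period.H M R R) (hι : Function.Injective ι)
    (hrel : ∀ σ x, galH M ((algebraMap O R).comp f) σ
        (galH M ((algebraMap O R).comp f) σ (ι x)) -
      galH M ((algebraMap O R).comp f) σ (ι (act (ρ.trace σ) *ᵥ x)) +
        ι (act (LinearMap.det (ρ.ρ σ)) *ᵥ x) = 0)
    {i : Γℚ} (hdet : LinearMap.det (ρ.ρ i) = 1)
    (htwo : ∀ x, galH M ((algebraMap O R).comp f) i (ι x) +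
      galH M ((algebraMap O R).comp f) i⁻¹ (ι x) = (2 : R) • ι x) :
    act (ρ.trace i) = 2 := by
  refine Matrix.ext_of_mulVec_single fun j => hι ?_
  set g₀ := (algebraMap O R).comp f
  set x : Fin d → R := Pi.single j 1
  have h1 := congrArg (galH M g₀ i⁻¹) (hrel i x)
  rw [map_add, map_sub, map_zero, ← Module.End.mul_apply, ← galH_mul, inv_mul_cancel, galH_one,
    Module.End.one_apply, ← Module.End.mul_apply, ← galH_mul, inv_mul_cancel, galH_one,
    Module.End.one_apply, hdet, map_one, Matrix.one_mulVec, sub_add_eq_add_sub, sub_eq_zero,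
    htwo] at h1
  rw [← h1, ← map_smul, Matrix.ofNat_mulVec]

end New

end FLTAgent.Lower.Levels
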