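import Fermat.Agent.Lower.Levels.GaloisNew

/-!
# Inertia trace two at a prime exactly dividing the level

`galH_add_inv_inertia`: such inertia satisfies `σ y + σ⁻¹ y = 2 y` on periods. With a quadratic
relation `σ² - M σ + 1 = 0` on an embedded module this forces `M = 2` (`eq_two_of_galH_rel`); the
relation moves along degeneracy maps and changes of coefficients.
-/

set_option autoImplicit false
set_option linter.style.haveILetI false
set_option linter.unusedSectionVars false

noncomputable section

open CongruenceSubgroup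
open scoped MatrixGroups Matrix

namespace FLTAgent.Lower.Levels

local notation "ℚ̄" => AlgebraicClosure ℚ
local notation "Γℚ" => (AlgebraicClosure ℚ ≃ₐ[ℚ] AlgebraicClosure ℚ)

variable {p : ℕ} [Fact p.Prime] {N : ℕ} [NeZero N]

/-- Inertia at a prime dividing `N` exactly once: `σ y + σ⁻¹ y = 2 y`. -/
theorem galH_add_inv_inertia {q : ℕ} (hq : q.Prime) (hqp : q ≠ p) (hqN : q ∣ N)
    (hq2 : ¬ q ^ 2 ∣ N) {R : Type*} [CommRing R] (f : ℤ_[p] →+* R) {A : ValuationSubring ℚ̄}
    (hA : A.LiesOverPrime q) {i : Γℚ} (hi : i ∈ A.inertiaSubgroupIn ℚ) (y : Period.H N R R) :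
    galH N f i y + galH N f i⁻¹ y = (2 : R) • y := by
  obtain ⟨N₀, rfl⟩ : ∃ N₀, N = N₀ * q := by
    obtain ⟨c, rfl⟩ := hqN
    exact ⟨c, mul_comm q c⟩
  haveI : Fact q.Prime := ⟨hq⟩
  haveI : NeZero N₀ := ⟨left_ne_zero_of_mul (NeZero.ne (N₀ * q))⟩
  exact galH_inertia_add_inv (fun h => hq2 (sq q ▸ Nat.mul_dvd_mul_right h q)) hqp f hA hi y

/-- `σ² - M σ + 1 = 0` and `σ + σ⁻¹ = 2` on an embedded module force `M = 2`. -/
theorem eq_two_of_galH_rel {R : Type*} [CommRing R] (f : ℤ_[p] →+* R) {d : ℕ}
    (emb : (Fin d → R) →ₗ[R] Period.H N R R) (hemb : Function.Injective emb)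
    (M : Matrix (Fin d) (Fin d) R) {i : Γℚ}
    (hrel : ∀ x, galH N f i (galH N f i (emb x)) - galH N f i (emb (M *ᵥ x)) + emb x = 0)
    (htwo : ∀ x, galH N f i (emb x) + galH N f i⁻¹ (emb x) = (2 : R) • emb x) : M = 2 := by
  refine Matrix.ext_of_mulVec_single fun j => hemb ?_
  set x : Fin d → R := Pi.single j 1
  have h1 := congrArg (galH N f i⁻¹) (hrel x)
  rw [map_add, map_sub, map_zero, ← Module.End.mul_apply, ← galH_mul, inv_mul_cancel, galH_one,
    Module.End.one_apply, ← Module.End.mul_apply, ← galH_mul, inv_mul_cancel, galH_one,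
    Module.End.one_apply, sub_add_eq_add_sub, sub_eq_zero, htwo] at h1
  rw [← h1, ← map_smul, Matrix.ofNat_mulVec]

/-- The quadratic relation transported along a degeneracy map. -/
theorem galH_rel_degH {L : ℕ} [NeZero L] {R : Type*} [CommRing R] (f : ℤ_[p] →+* R) (d : ℕ)
    [NeZero d] (h : N * d ∣ L) (σ : Γℚ) {y y' y'' : Period.H N R R}
    (hrel : galH N f σ (galH N f σ y) - galH N f σ y' + y'' = 0) :
    galH L f σ (galH L f σ (Degen.degH R R d h y)) - galH L f σ (Degen.degH R R d h y') +
      Degen.degH R R d h y'' = 0 := by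
  rw [galH_degH, galH_degH, galH_degH, ← map_sub, ← map_add, hrel, map_zero]

/-- The quadratic relation transported along a change of coefficients. -/
theorem galH_rel_compH {O R L : Type*} [CommRing O] [CommRing R] [Algebra O R] [CommRing L]
    (f : ℤ_[p] →+* O) (j : O →+* L) (g : R →+ L)
    (hg : ∀ (a : O) (r : R), g (algebraMap O R a * r) = j a * g r) (σ : Γℚ)
    {y y' y'' : Period.H N R R}
    (hrel : galH N ((algebraMap O R).comp f) σ (galH N ((algebraMap O R).comp f) σ y) -
      galH N ((algebraMap O R).comp f) σ y' + y'' = 0) :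
    galH N (j.comp f) σ (galH N (j.comp f) σ (compH (R' := L) g y)) -
      galH N (j.comp f) σ (compH (R' := L) g y') + compH (R' := L) g y'' = 0 := by
  rw [← compH_galH f j g hg, ← compH_galH f j g hg, ← compH_galH f j g hg, ← compH_sub,
    show compH (R' := L) g
      (galH N ((algebraMap O R).comp f) σ (galH N ((algebraMap O R).comp f) σ y) -
        galH N ((algebraMap O R).comp f) σ y') =
      compH (R' := L) g (-y'') by rw [eq_neg_of_add_eq_zero_left hrel]]
  exact Subtype.ext (AddMonoidHom.ext fun _ =>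
    show g (-_) + g _ = 0 by rw [map_neg, neg_add_cancel])

end FLTAgent.Lower.Levels
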