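import Fermat.Agent.Lower.Levels.Defs
import Fermat.Agent.Lower.Levels.Inertia.Assemble
import Fermat.Agent.Lower.Levels.Inertia.DepletionAlg

/-!
# Inertia on twisted classes at a prime `v ≡ 1 (mod p)`

`exists_inertia_kernel`: there is a saturated submodule of crossed homomorphisms receiving
`c' - (η a + η a⁻¹) c` whenever inertia at `v` satisfies a quadratic relation on the twists, and
containing no class congruent to a nonzero multiple of the depletion of a class of level `N₁` with
distinct Frobenius eigenvalues. The proof uses the reductions of the `q`-expansions at the cusps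
`1/(v N₁ c)`, in classes modulo `pᵏ`-th powers of the residue field.
-/

set_option autoImplicit false

noncomputable section

open CongruenceSubgroup
open scoped MatrixGroups

namespace FLTAgent.Lower.Levels

open IsLocalRing (maximalIdeal ResidueField residue)

local notation "ℚ̄" => AlgebraicClosure ℚ
local notation "Γℚ" => (AlgebraicClosure ℚ ≃ₐ[ℚ] AlgebraicClosure ℚ)

variable (N₁ v : ℕ) [NeZero N₁] [NeZero v]

/-- The crossed homomorphism `c` twists to `y` at `v`. -/
def IsTwist {R : Type*} [CommRing R] (η : (ZMod v)ˣ →* Rˣ) (c : Gamma0 (N₁ * v) → R)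
    (y : Period.H (N₁ * v * v) R R) : Prop :=
  ∀ γ : Gamma0 (N₁ * v * v), (y : Additive (Gamma0 (N₁ * v * v)) →+ R) (Additive.ofMul γ) =
    twistFun (dvd_mul_left v N₁) dvd_rfl η c γ

/-- The depletion at `v` of a homomorphism of level `N₁`: its twist by the trivial character. -/
def depletion {R : Type*} [CommRing R] (x : Period.H N₁ R R) : Gamma0 (N₁ * v * v) → R :=
  twistFun (dvd_mul_left v N₁) dvd_rfl (1 : (ZMod v)ˣ →* Rˣ)
    fun γ : Gamma0 (N₁ * v) => (Period.restrictH (dvd_mul_right N₁ v) x :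
      Additive (Gamma0 (N₁ * v)) →+ R) (Additive.ofMul γ)

/-- **Inertia on twisted classes.** A submodule `K` of crossed homomorphisms, saturated, which
receives `c' - (η a + η a⁻¹) c` whenever inertia `σ` (acting on `μ_v` by `a`) satisfies the
quadratic relation `σ² y - σ y' + y = 0` on the twists, and which contains no class congruent to a
nonzero multiple of the depletion of a class of level `N₁` with distinct Frobenius eigenvalues. -/
theorem exists_inertia_kernel {p : ℕ} [Fact p.Prime] (hp2 : p ≠ 2) (hv : v.Prime) (hvp : v ≠ p)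
    (hvN : ¬ v ∣ N₁) (hpv : p ∣ v - 1)
    {O : Type} [CommRing O] [IsDomain O] [IsDiscreteValuationRing O]
    [IsAdicComplete (maximalIdeal O) O] [Finite (ResidueField O)] [CharZero O]
    (hp : (p : O) ∈ maximalIdeal O)
    {R : Type} [CommRing R] [IsLocalRing R] [Algebra O R] [Module.Finite O R] [Module.Free O R]
    [IsLocalHom (algebraMap O R)]
    (n : ℕ) (η : (ZMod v)ˣ →* Rˣ) (hη : ∀ u, η u ^ p ^ n = 1)
    (f : ℤ_[p] →+* O)
    (A : ValuationSubring ℚ̄) (hA : A.LiesOverPrime v) (σ : Γℚ)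
    (hσ : σ ∈ A.inertiaSubgroupIn ℚ) (a : (ZMod v)ˣ)
    (ha : ∀ μ : ℚ̄, IsPrimitiveRoot μ v → σ μ = μ ^ (a : ZMod v).val) :
    ∃ K : Submodule R (Gamma0 (N₁ * v) → R),
      (∀ (b : O) (c : Gamma0 (N₁ * v) → R), b ≠ 0 → algebraMap O R b • c ∈ K → c ∈ K) ∧
      (∀ c ∈ Z1 R R ((η.comp (dUnit (dvd_mul_left v N₁))) ^ 2)⁻¹,
        ∀ c' ∈ Z1 R R ((η.comp (dUnit (dvd_mul_left v N₁))) ^ 2)⁻¹,
        ∀ y y' : Period.H (N₁ * v * v) R R, IsTwist N₁ v η c y → IsTwist N₁ v η c' y' →
          galH (N₁ * v * v) ((algebraMap O R).comp f) σ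
              (galH (N₁ * v * v) ((algebraMap O R).comp f) σ y) -
            galH (N₁ * v * v) ((algebraMap O R).comp f) σ y' + y = 0 →
          c' - ((η a : R) + ((η a)⁻¹ : Rˣ)) • c ∈ K) ∧
      ∀ c ∈ K, c ∈ Z1 R R ((η.comp (dUnit (dvd_mul_left v N₁))) ^ 2)⁻¹ →
        ∀ y : Period.H (N₁ * v * v) R R, IsTwist N₁ v η c y →
        ∀ x : Period.H N₁ (ResidueField O) (ResidueField O), ∀ e : R, e ∉ maximalIdeal O • (⊤ : Submodule O R) →
        ∀ b : ResidueField O, b ^ 2 ≠ 4 →
          (∃ j : ℕ, ((HeckeH.heckeH N₁ hv (ResidueField O) (ResidueField O) -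
            b • (1 : Module.End (ResidueField O) (Period.H N₁ (ResidueField O) (ResidueField O)))) ^ j)
              x = 0) →
          (∀ γ : Gamma0 (N₁ * v * v), ∃ z : O, residue O z = depletion N₁ v x γ ∧
            (y : Additive (Gamma0 (N₁ * v * v)) →+ R) (Additive.ofMul γ) - z • e ∈
              maximalIdeal O • (⊤ : Submodule O R)) →
          x = 0 := by
  have hC : Gauss.Cond N₁ v A := ⟨hv, hvN, hA⟩
  have hodd : Odd (p ^ n) := ((Fact.out : p.Prime).odd_of_ne_two hp2).pow
  refine ⟨Gauss.kerK hC η ((algebraMap O R).comp f),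
    fun b c hb h => Gauss.mem_kerK_of_smul hC hp η _ hb h,
    fun c hc c' _ y y' hy hy' hrel => Gauss.sub_smul_mem_kerK hC hvp hodd η hη _ hσ a
      (ha _ (IsPrimitiveRoot.coe_units_iff.mpr (Gauss.zetaQ_isPrimitiveRoot v))) hc c' y y' hy hy'
      hrel, ?_⟩
  intro c hcK _ y hy x e he b hb hx hw
  have key : ∀ (lam : ResidueField O →+ ZMod p) (psi : Period.H (N₁ * v * v) (ZMod p) (ZMod p)),
      (∀ γ : Gamma0 (N₁ * v * v), (psi : Additive (Gamma0 (N₁ * v * v)) →+ ZMod p)
        (Additive.ofMul γ) = lam (depletion N₁ v x γ)) → Gauss.redC hC 1 psi = 0 :=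
    fun lam psi hpsi => Gauss.redC_eq_zero_of_mem_kerK hC hp η f hcK y hy he _ hw lam psi hpsi 1
  have := Fact.mk hv
  have := GalCommon.charP_residueField hv hA
  have : IsAlgClosed (ResidueField A) := hC.isAlgClosed
  have : PerfectRing (ResidueField A) v := PerfectField.toPerfectRing v
  obtain ⟨j, hj⟩ := hx
  refine Gauss.eq_zero_of_sq_eq_four _ hb j x ?_ hj
  obtain ⟨ξ, hξ⟩ := Gauss.exists_unit_dual he
  have hres : ∀ γ : Gamma0 (N₁ * v * v),
      residue O (ξ ((y : Additive (Gamma0 (N₁ * v * v)) →+ R) (Additive.ofMul γ))) =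
        depletion N₁ v x γ := fun γ => by
    obtain ⟨z, hz, hzy⟩ := hw γ
    have h1 := Submodule.mem_map_of_mem (f := ξ) hzy
    rw [Submodule.map_smul'', map_sub, map_smul, hξ] at h1
    simp only [smul_eq_mul, mul_one] at h1
    have h2 := Ideal.mul_le_left h1
    rw [← IsLocalRing.residue_eq_zero_iff, map_sub, sub_eq_zero] at h2
    exact h2.trans hz
  have h4 : ∀ lam : ResidueField O →+ ZMod p,
      Gauss.pushH lam (HeckeH.heckeH N₁ hv (ResidueField O) (ResidueField O)
        (HeckeH.heckeH N₁ hv (ResidueField O) (ResidueField O) x)) =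
          Gauss.pushH lam (4 • x) := fun lam => by
    let psi := Gauss.pushH
      (lam.comp ((residue O).toAddMonoidHom.comp ξ.toAddMonoidHom)) y
    have hpsi : ∀ γ : Gamma0 (N₁ * v * v), (psi : Additive (Gamma0 (N₁ * v * v)) →+ ZMod p)
        (Additive.ofMul γ) = lam (depletion N₁ v x γ) := fun γ => congrArg lam (hres γ)
    rw [Gauss.pushH_heckeH, Gauss.pushH_heckeH, map_nsmul]
    refine Gauss.heckeH_sq_of_redC_eq_zero hC hpv _ psi (fun γ => ?_) 1 (key lam psi hpsi)
    rw [hpsi, depletion, twistFun_apply, map_sum]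
    refine Finset.sum_congr rfl fun u _ => ?_
    rw [MonoidHom.one_apply, inv_one, Units.val_one, one_smul]
    rfl
  refine Subtype.ext (AddMonoidHom.ext fun γ => sub_eq_zero.mp ?_)
  refine Gauss.eq_zero_of_forall_dual hp fun lam => ?_
  rw [map_sub, sub_eq_zero]
  exact DFunLike.congr_fun (congrArg Subtype.val (h4 lam)) γ

end FLTAgent.Lower.Levels
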