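import Fermat.Agent.Lower.Levels.ConstructFrame
import Fermat.Agent.Lower.Levels.BaseLevel
import Fermat.Agent.Lower.Levels.GaloisTwo

/-!
# Inertia on the representation of a lattice

For the representation of a `HeckeLattice`: at inertia of a prime exactly dividing the level the
trace is two (`imgAct_trace_eq_two`), and where `ρbar` is unramified the residual representation is
trivial and the trace is congruent to two (`residual_eq_one`, `trace_sub_two_mem`).
-/

set_option autoImplicit false
set_option linter.unusedSectionVars false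
set_option linter.style.haveILetI false

noncomputable section

open CongruenceSubgroup
open scoped MatrixGroups Matrix

namespace FLTAgent.Lower.Levels

open IsLocalRing (maximalIdeal ResidueField residue)

local notation "ℚ̄" => AlgebraicClosure ℚ
local notation "Γℚ" => (AlgebraicClosure ℚ ≃ₐ[ℚ] AlgebraicClosure ℚ)

variable {p : ℕ} [Fact p.Prime] {O : Type} [CommRing O] [IsDomain O] [IsDiscreteValuationRing O]
  [IsAdicComplete (maximalIdeal O) O] [Finite (ResidueField O)] [CharZero O]
  {N : ℕ} [NeZero N] {S : Finset ℕ} {ρbar : ResidualGaloisRep (ResidueField O)} {R : Type}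
  [CommRing R] [Algebra O R] [Nontrivial R] [Module.Finite O R] [Module.IsTorsionFree O R] {d : ℕ}
  [NeZero d] {X : HeckeLattice p N S ρbar R d} {f : ℤ_[p] →+* O} {ρ : GaloisRepAdic X.T}

namespace HeckeLattice.IsRep

/-- The determinant on inertia away from `p`. -/
theorem det_eq_one (h : X.IsRep f ρ) {l : ℕ} (hl : l.Prime) (hlp : l ≠ p)
    {A : ValuationSubring ℚ̄} (hA : A.LiesOverPrime l) {σ : Γℚ}
    (hσ : σ ∈ A.inertiaSubgroupIn ℚ) : LinearMap.det (ρ.ρ σ) = 1 :=
  det_inertia Fact.out hl hlp hA (detIsCyclotomic_of_attached h.attached) hσ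

/-- Inertia where the trace acts as two on a vector. -/
theorem galH_add_inv (h : X.IsRep f ρ) {l : ℕ} (hl : l.Prime) (hlp : l ≠ p)
    {A : ValuationSubring ℚ̄} (hA : A.LiesOverPrime l) {σ : Γℚ}
    (hσ : σ ∈ A.inertiaSubgroupIn ℚ) {v : Fin d → R}
    (hv : imgAct X.act (ρ.trace σ) *ᵥ v = (2 : R) • v) :
    galH N ((algebraMap O R).comp f) σ (X.emb v) +
      galH N ((algebraMap O R).comp f) σ⁻¹ (X.emb v) = (2 : R) • X.emb v := by
  have h0 := h.galH_rel σ v
  rw [hv, h.det_eq_one hl hlp hA hσ, map_one, Matrix.one_mulVec, map_smul] at h0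
  have h1 := congrArg (galH N ((algebraMap O R).comp f) σ⁻¹) h0
  rw [map_add, map_sub, map_zero, map_smul, map_smul, ← Module.End.mul_apply, ← galH_mul,
    inv_mul_cancel, galH_one, Module.End.one_apply, ← Module.End.mul_apply, ← galH_mul,
    inv_mul_cancel, galH_one, Module.End.one_apply, sub_add_eq_add_sub, sub_eq_zero] at h1
  exact h1

/-- Inertia at a prime dividing the level exactly once has trace two. -/
theorem imgAct_trace_eq_two (h : X.IsRep f ρ) {l : ℕ} (hl : l.Prime) (hlp : l ≠ p) (hlN : l ∣ N)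
    (hl2 : ¬ l ^ 2 ∣ N) {A : ValuationSubring ℚ̄} (hA : A.LiesOverPrime l) {σ : Γℚ}
    (hσ : σ ∈ A.inertiaSubgroupIn ℚ) : imgAct X.act (ρ.trace σ) = 2 :=
  eq_two_of_galH_rel ((algebraMap O R).comp f) X.emb X.emb_injective _ (i := σ)
    (fun x => by
      have h0 := h.galH_rel σ x
      rwa [h.det_eq_one hl hlp hA hσ, map_one, Matrix.one_mulVec] at h0)
    fun x => galH_add_inv_inertia hl hlp hlN hl2 _ hA hσ (X.emb x)

/-- Where `ρbar` is unramified the residual representation is trivial on inertia. -/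
theorem residual_eq_one (h : X.IsRep f ρ) {l : ℕ} (hur : ρbar.IsUnramifiedAt l)
    {A : ValuationSubring ℚ̄} (hA : A.LiesOverPrime l) {σ : Γℚ}
    (hσ : σ ∈ A.inertiaSubgroupIn ℚ) : ρ.residual.ρ σ = 1 := by
  obtain ⟨e⟩ := h.residual
  refine LinearMap.ext fun x => e.toLinearEquiv.injective ?_
  rw [e.map_apply, Module.End.one_apply]
  letI := (ResidueField.map (algebraMap O X.T)).toAlgebra
  show (ρbar.ρ σ).baseChange _ _ = _
  rw [hur A hA σ hσ, LinearMap.baseChange_one]
  rfl

/-- The trace at inertia is congruent to two where `ρbar` is unramified. -/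
theorem trace_sub_two_mem (h : X.IsRep f ρ) {l : ℕ} (hur : ρbar.IsUnramifiedAt l)
    {A : ValuationSubring ℚ̄} (hA : A.LiesOverPrime l) {σ : Γℚ}
    (hσ : σ ∈ A.inertiaSubgroupIn ℚ) : ρ.trace σ - 2 ∈ maximalIdeal X.T := by
  rw [← IsLocalRing.residue_eq_zero_iff, map_sub, map_ofNat, sub_eq_zero]
  refine (LinearMap.trace_baseChange (ρ.ρ σ) (A := ResidueField X.T)).symm.trans ?_
  show LinearMap.trace _ ρ.residual.V (ρ.residual.ρ σ) = 2
  rw [h.residual_eq_one hur hA hσ, LinearMap.trace_one, ρ.residual.finrank_eq]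
  norm_num

end HeckeLattice.IsRep

/-- Residues of the Hecke ring of a lattice are the residual eigenvalues. -/
theorem residue_eq_map_imgTheta (X : HeckeLattice p N S ρbar R d) (t : X.T) :
    residue X.T t = ResidueField.map (algebraMap O X.T) (imgTheta X.unitAway t) := by
  obtain ⟨a, ha⟩ := X.residue_surjective (residue X.T t)
  have hm : t - algebraMap O X.T a ∈ maximalIdeal X.T :=
    (Ideal.Quotient.eq.mp ha.symm : _)
  have h0 : imgTheta X.unitAway (t - algebraMap O X.T a) = 0 := by_contra fun hne =>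
    (IsLocalRing.mem_maximalIdeal _).mp hm (isUnit_of_imgTheta_ne_zero X.unitAway hne)
  rw [map_sub, sub_eq_zero, imgTheta_algebraMap] at h0
  rw [h0, IsLocalRing.ResidueField.map_residue]
  exact ha.symm

end FLTAgent.Lower.Levels
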