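import Fermat.Agent.Lower.Levels.LatticeFacts
import Fermat.Agent.Lower.Lift.Defs

/-!
# The base of level lowering

`baseX` is the lattice of a frame at level `M`, `baseDatum` the Hecke datum of its ring with a
representation attached to it, and `baseOf` packages them as the base `Base p M ρbar` of level
lowering.
-/

set_option autoImplicit false
set_option linter.unusedSectionVars false
set_option linter.style.haveILetI false

noncomputable section

open CongruenceSubgroup CuspForm
open scoped MatrixGroups Matrix

namespace FLTAgent.Lower.Levels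

open IsLocalRing (maximalIdeal ResidueField residue)
open FLTAgent.Lower.Lift (levelPrimes HasSystem)

local notation "ℚ̄" => AlgebraicClosure ℚ
local notation "Γℚ" => (AlgebraicClosure ℚ ≃ₐ[ℚ] AlgebraicClosure ℚ)

variable {p : ℕ} [Fact p.Prime] {O : Type} [CommRing O] [IsDomain O] [IsDiscreteValuationRing O]
  [IsAdicComplete (maximalIdeal O) O] [Finite (ResidueField O)] [CharZero O]
  {M : ℕ} [NeZero M] {ρbar : ResidualGaloisRep (ResidueField O)}

theorem mem_levelPrimes_of_dvd (l : ℕ) (hl : l.Prime) (hd : l ∣ M) : l ∈ levelPrimes p M :=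
  Finset.mem_insert_of_mem (Nat.mem_primeFactors.mpr ⟨hl, hd, NeZero.ne M⟩)

/-- A good residual representation satisfies the standing residual hypotheses. -/
theorem resHyp_of_good (hp2 : p ≠ 2) (hp : (p : O) ∈ maximalIdeal O) {Smin Saux : Finset ℕ}
    (hprimes : Smin ∪ Saux = M.primeFactors.erase p) (hgood : GoodResidual p Smin Saux ρbar) :
    ResHyp p (levelPrimes p M) ρbar where
  ne_two := hp2
  mem := Finset.mem_insert_self _ _
  char := by
    rw [← map_natCast (residue O)]
    exact (IsLocalRing.residue_eq_zero_iff _).mpr hp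
  absIrr := hgood.absIrr
  det := hgood.det
  big := hgood.big
  unramified l hl hlS := hgood.unramified l hl
    (fun hm => hlS (Finset.mem_insert_of_mem
      (Finset.mem_of_mem_erase (hprimes ▸ Finset.mem_union_left Saux hm))))
    fun he => hlS (he ▸ Finset.mem_insert_self _ _)

variable {d : ℕ} (h : ResHyp p (levelPrimes p M) ρbar)
  (F₀ : Frame (1 : (ZMod M)ˣ →* Oˣ) (awPr (levelPrimes p M)) (residue O)
    (fun l => frobTrace ρbar l.1) d)

include h in
theorem baseFam : AwayFam p M (levelPrimes p M) ρbar (awPr (levelPrimes p M))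
    (fun l => frobTrace ρbar l.1) id where
  pr_eq _ := rfl
  trace_eq l _ hA _ hφ := (frobTrace_eq ρbar l.1.2 (h.unramified _ l.1.2 l.2) hA hφ).symm
  p_mem := h.mem
  level_mem := mem_levelPrimes_of_dvd

/-- The lattice of the minimal level. -/
def baseX : HeckeLattice p M (levelPrimes p M) ρbar O d :=
  baseLattice F₀ rfl (h.parHyp M _ 1 fun _ _ => rfl) (baseFam h)

theorem baseX_act (s : MvPolynomial (AwayIdx (levelPrimes p M)) O) :
    (baseX h F₀).act s = F₀.mat s := by
  refine (baseLattice_act F₀ _ _ _ s).trans (congrArg F₀.mat ?_)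
  rw [MvPolynomial.rename_id_apply]
  exact MvPolynomial.map_id s

variable [NeZero d] {f : ℤ_[p] →+* O}

/-- The Hecke datum of the minimal level. -/
def baseDatum (ρ : GaloisRepAdic (baseX h F₀).T) (hρ : (baseX h F₀).IsRep f ρ) :
    haveI : Module.Free O (baseX h F₀).T := free_imgRing _
    CuspForm.HeckeGaloisRepDatum M (↑(insert p M.primeFactors) : Set ℕ) O
      ((imgTheta (baseX h F₀).unitAway).comp (baseX h F₀).hom) (baseX h F₀).T :=
  haveI : Module.Free O (baseX h F₀).T := free_imgRing _
  { π := (baseX h F₀).hom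
    residue_π := fun t => residue_eq_map_imgTheta _ _
    adjoin_range_π := (baseX h F₀).adjoin_range_hom
    exists_point := fun χ hχ => by
      have hN : ∀ i : AwayPrimes (levelPrimes p M), ¬ (awPr (levelPrimes p M) i : ℕ) ∣ M :=
        fun i hi => i.2 (mem_levelPrimes_of_dvd _ i.1.2 hi)
      have hS : ∀ i : AwayPrimes (levelPrimes p M),
          (awPr (levelPrimes p M) i : ℕ) ∉ (↑(levelPrimes p M) : Set ℕ) := fun i => mod_cast i.2
      have hθ : ∀ i : AwayPrimes (levelPrimes p M),
          residue O (χ (heckeAlgebra.T i.1.2 (hN i) (hS i))) = frobTrace ρbar i.1 := fun i => by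
        refine (hχ _).trans ?_
        show imgTheta (baseX h F₀).unitAway ((baseX h F₀).hom (heckeAlgebra.T i.1.2 (hN i) (hS i))) = _
        exact (congrArg _ ((baseX h F₀).hom_T i.1.2 (hN i) (hS i))).trans (imgTheta_gen _ _)
      have hker : ∀ s, (baseX h F₀).act s = 0 →
          MvPolynomial.aeval (fun i : AwayPrimes (levelPrimes p M) =>
            χ (heckeAlgebra.T i.1.2 (hN i) (hS i))) s = 0 := fun s hs =>
        aeval_eq_zero_of_mat_eq_zero hN hS F₀ ((baseX_act h F₀ s).symm.trans hs) χ hθ
      let ψ : (baseX h F₀).T →ₐ[O] O := Ideal.Quotient.liftₐ _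
        (MvPolynomial.aeval (fun i : AwayPrimes (levelPrimes p M) =>
          χ (heckeAlgebra.T i.1.2 (hN i) (hS i)))) fun s hs => hker s (RingHom.mem_ker.mp hs)
      have h0 : (ψ : (baseX h F₀).T →+* O).comp (baseX h F₀).hom = χ :=
        heckeHom_ext (S := levelPrimes p M) mem_levelPrimes_of_dvd fun l hl hlN hlS => by
          rw [RingHom.comp_apply, (baseX h F₀).hom_T]
          exact MvPolynomial.aeval_X _ _
      exact ⟨ψ, fun t => RingHom.congr_fun h0 t⟩
    residue_surjective := (baseX h F₀).residue_surjective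
    ρ := ρ
    charpoly_frob := hρ.attached.charpoly_frob
    residual_absIrr := hρ.residual_absIrr h.absIrr }

/-- The base. -/
def baseOf (ρ : GaloisRepAdic (baseX h F₀).T) (hρ : (baseX h F₀).IsRep f ρ) : Base p M ρbar :=
  haveI : Module.Free O (baseX h F₀).T := free_imgRing _
  { θ := (imgTheta (baseX h F₀).unitAway).comp (baseX h F₀).hom
    T₀ := (baseX h F₀).T
    H := baseDatum h F₀ ρ hρ
    residual_isEquiv := hρ.residual
    d := d
    d_ne_zero := NeZero.ne d
    Φ := imgAct (baseX h F₀).act }

end FLTAgent.Lower.Levels
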