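import Fermat.Agent.Lower.Levels.Construct
import Fermat.Agent.Lower.Levels.GalH
import Fermat.Agent.Deform.MatRep
import Fermat.Agent.Degen.Square

/-!
# Two lattices in one

`HeckeLattice.pair` puts two lattices with the same residual system at a common level, with values
in `R × R` and componentwise action.  Its two projections are jointly injective (`pair_ker_fst`,
`pair_ker_snd`, `pair_joint`).  `map_trace` transports traces along maps of lattices.
-/

set_option autoImplicit false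
set_option linter.unusedSectionVars false
set_option linter.style.haveILetI false

noncomputable section

open CongruenceSubgroup
open scoped MatrixGroups Matrix

namespace FLTAgent.Lower.Levels

open IsLocalRing (maximalIdeal ResidueField residue)

local notation "ℚ̄" => AlgebraicClosure ℚ
local notation "Γℚ" => (AlgebraicClosure ℚ ≃ₐ[ℚ] AlgebraicClosure ℚ)

variable {O : Type} [CommRing O] [IsLocalRing O] {p N N₁ N₂ : ℕ} [NeZero N] [NeZero N₁] [NeZero N₂]
  {S : Finset ℕ} {ρbar : ResidualGaloisRep (ResidueField O)} {R : Type} [CommRing R] [Algebra O R]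
  {d : ℕ}

/-- Pairs of periods. -/
def prodH (φ ψ : Period.H N R R) : Period.H N (R × R) (R × R) :=
  ⟨(φ : Additive (Gamma0 N) →+ R).prod (ψ : Additive (Gamma0 N) →+ R),
    ⟨fun _ hγ => Prod.ext (Period.H_parabolic φ hγ) (Period.H_parabolic ψ hγ),
      fun _ hγ => Prod.ext (Period.H_finOrder φ hγ) (Period.H_finOrder ψ hγ)⟩⟩

theorem prodH_apply (φ ψ : Period.H N R R) (γ : Additive (Gamma0 N)) :
    (prodH φ ψ : Additive (Gamma0 N) →+ R × R) γ =
      ((φ : Additive (Gamma0 N) →+ R) γ, (ψ : Additive (Gamma0 N) →+ R) γ) := rfl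

theorem prodH_inj {φ ψ φ' ψ' : Period.H N R R} (h : prodH φ ψ = prodH φ' ψ') :
    φ = φ' ∧ ψ = ψ' := by
  have h' : ∀ γ, (prodH φ ψ : Additive (Gamma0 N) →+ R × R) γ =
      (prodH φ' ψ' : Additive (Gamma0 N) →+ R × R) γ := fun γ => by rw [h]
  exact ⟨Subtype.ext (AddMonoidHom.ext fun γ => congrArg Prod.fst (h' γ)),
    Subtype.ext (AddMonoidHom.ext fun γ => congrArg Prod.snd (h' γ))⟩

theorem heckeH_prodH {l : ℕ} (hl : l.Prime) (φ ψ : Period.H N R R) :
    HeckeH.heckeH N hl (R × R) (R × R) (prodH φ ψ) =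
      prodH (HeckeH.heckeH N hl R R φ) (HeckeH.heckeH N hl R R ψ) := by
  refine Subtype.ext (AddMonoidHom.ext fun γ => ?_)
  obtain ⟨γ, rfl⟩ := Additive.ofMul.surjective γ
  rw [prodH_apply, HeckeH.coe_heckeH, HeckeH.coe_heckeH, HeckeH.coe_heckeH,
    HeckeH.Reps.transfer_apply, HeckeH.Reps.transfer_apply, HeckeH.Reps.transfer_apply,
    Finset.sum_congr rfl fun i _ => prodH_apply φ ψ _, Prod.ext_iff, Prod.fst_sum, Prod.snd_sum]
  exact ⟨rfl, rfl⟩

theorem matrixPair_one :
    (Matrix.of fun i j => ((1 : Matrix (Fin d) (Fin d) R) i j, (1 : Matrix (Fin d) (Fin d) R) i j) :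
      Matrix (Fin d) (Fin d) (R × R)) = 1 := by
  refine Matrix.ext fun i j => ?_
  by_cases h : i = j
  · subst h; simp
  · simp [Matrix.one_apply_ne h]

variable (O R d) in
/-- Pairs of matrices. -/
def matPair : Matrix (Fin d) (Fin d) R × Matrix (Fin d) (Fin d) R →ₐ[O]
    Matrix (Fin d) (Fin d) (R × R) where
  toFun P := Matrix.of fun i j => (P.1 i j, P.2 i j)
  map_one' := matrixPair_one
  map_mul' P Q := by
    refine Matrix.ext fun i j => Prod.ext ?_ ?_ <;>
      simp [Matrix.mul_apply, Prod.fst_sum, Prod.snd_sum]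
  map_zero' := rfl
  map_add' _ _ := rfl
  commutes' a := by
    refine Matrix.ext fun i j => ?_
    by_cases h : i = j
    · subst h; simp [Matrix.algebraMap_matrix_apply]
    · simp [Matrix.algebraMap_matrix_apply, h]

theorem matPair_mulVec (P : Matrix (Fin d) (Fin d) R × Matrix (Fin d) (Fin d) R)
    (x : Fin d → R × R) (i : Fin d) :
    (matPair O R d P *ᵥ x) i =
      ((P.1 *ᵥ fun j => (x j).1) i, (P.2 *ᵥ fun j => (x j).2) i) := by
  refine Prod.ext ?_ ?_ <;>
    simp [matPair, Matrix.mulVec, dotProduct, Prod.fst_sum, Prod.snd_sum]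

/-- Componentwise linear maps. -/
def prodEmb (e₁ e₂ : (Fin d → R) →ₗ[R] Period.H N R R) :
    (Fin d → R × R) →ₗ[R × R] Period.H N (R × R) (R × R) where
  toFun x := prodH (e₁ fun j => (x j).1) (e₂ fun j => (x j).2)
  map_add' x y := Subtype.ext (AddMonoidHom.ext fun γ => by
    rw [show (fun j => ((x + y) j).1) = (fun j => (x j).1) + fun j => (y j).1 from rfl,
      show (fun j => ((x + y) j).2) = (fun j => (x j).2) + fun j => (y j).2 from rfl,
      map_add, map_add]
    rfl)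
  map_smul' c x := Subtype.ext (AddMonoidHom.ext fun γ => by
    rw [show (fun j => ((c • x) j).1) = c.1 • fun j => (x j).1 from rfl,
      show (fun j => ((c • x) j).2) = c.2 • fun j => (x j).2 from rfl,
      map_smul, map_smul]
    rfl)

theorem prodEmb_apply (e₁ e₂ : (Fin d → R) →ₗ[R] Period.H N R R) (x : Fin d → R × R) :
    prodEmb e₁ e₂ x = prodH (e₁ fun j => (x j).1) (e₂ fun j => (x j).2) := rfl

namespace HeckeLattice

theorem θ_eq (X₁ : HeckeLattice p N₁ S ρbar R d) (X₂ : HeckeLattice p N₂ S ρbar R d)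
    (l : AwayIdx S) : X₁.θ l = X₂.θ l := by
  obtain ⟨A, hA, φ, hφ⟩ := GalCommon.exists_place_frobenius l.1.2
  rw [← X₁.trace_eq l A hA φ hφ, ← X₂.trace_eq l A hA φ hφ]

theorem emb_degH_X [IsAddTorsionFree R] (X₁ : HeckeLattice p N₁ S ρbar R d) (h₁ : N₁ * 1 ∣ N)
    (hN : ∀ l : ℕ, l.Prime → l ∣ N → l ∈ S) (l : AwayIdx S) (x : Fin d → R) :
    HeckeH.heckeH N l.1.2 R R (Degen.degH R R 1 h₁ (X₁.emb x)) =
      Degen.degH R R 1 h₁ (X₁.emb (X₁.act (MvPolynomial.X l) *ᵥ x)) := by
  rw [← X₁.emb_X, Degen.heckeH_degH l.1.2 1 h₁ (fun h => l.2 (X₁.level_mem _ l.1.2 h))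
    fun h => l.2 (hN _ l.1.2 h)]

/-- **The pair lattice.** -/
def pair [IsAddTorsionFree R] (X₁ : HeckeLattice p N₁ S ρbar R d)
    (X₂ : HeckeLattice p N₂ S ρbar R d) (h₁ : N₁ * 1 ∣ N) (h₂ : N₂ * 1 ∣ N)
    (hN : ∀ l : ℕ, l.Prime → l ∣ N → l ∈ S) : HeckeLattice p N S ρbar (R × R) d where
  act := (matPair O R d).comp (X₁.act.prod X₂.act)
  emb := prodEmb ((Degen.degH R R 1 h₁).comp X₁.emb) ((Degen.degH R R 1 h₂).comp X₂.emb)
  emb_injective x y h := by
    obtain ⟨e₁, e₂⟩ := prodH_inj h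
    have f₁ := X₁.emb_injective (degH_injective 1 h₁ e₁)
    have f₂ := X₂.emb_injective (degH_injective 1 h₂ e₂)
    exact funext fun j => Prod.ext (congrFun f₁ j) (congrFun f₂ j)
  emb_X l x := by
    rw [prodEmb_apply, prodEmb_apply, heckeH_prodH]
    congr 1
    · rw [LinearMap.comp_apply, LinearMap.comp_apply, X₁.emb_degH_X h₁ hN]
      refine congrArg _ (congrArg _ (funext fun j => ?_))
      rw [AlgHom.comp_apply, AlgHom.prod_apply, matPair_mulVec]
    · rw [LinearMap.comp_apply, LinearMap.comp_apply, X₂.emb_degH_X h₂ hN]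
      refine congrArg _ (congrArg _ (funext fun j => ?_))
      rw [AlgHom.comp_apply, AlgHom.prod_apply, matPair_mulVec]
  θ := X₁.θ
  unitAway s hs := by
    have hs₂ : MvPolynomial.eval₂ (residue O) X₂.θ s ≠ 0 := by
      rwa [show X₂.θ = X₁.θ from funext fun l => (X₁.θ_eq X₂ l).symm]
    exact (Prod.isUnit_iff.mpr ⟨X₁.unitAway s hs, X₂.unitAway s hs₂⟩).map (matPair O R d)
  trace_eq := X₁.trace_eq
  p_mem := X₁.p_mem
  level_mem := hN

variable [IsAddTorsionFree R] (X₁ : HeckeLattice p N₁ S ρbar R d)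
    (X₂ : HeckeLattice p N₂ S ρbar R d) (h₁ : N₁ * 1 ∣ N) (h₂ : N₂ * 1 ∣ N)
    (hN : ∀ l : ℕ, l.Prime → l ∣ N → l ∈ S)

theorem pair_act_apply (s : MvPolynomial (AwayIdx S) O) (i j : Fin d) :
    (pair X₁ X₂ h₁ h₂ hN).act s i j = (X₁.act s i j, X₂.act s i j) := rfl

theorem awayMap_refl (h : S ⊆ S) : awayMap h = id := funext fun _ => rfl

theorem pair_ker_fst (s : MvPolynomial (AwayIdx S) O)
    (hs : (pair X₁ X₂ h₁ h₂ hN).act s = 0) :
    X₁.act (MvPolynomial.rename (awayMap (le_refl S)) s) = 0 := by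
  rw [awayMap_refl, MvPolynomial.rename_id_apply]
  exact Matrix.ext fun i j => congrArg Prod.fst (congrFun (congrFun hs i) j)

theorem pair_ker_snd (s : MvPolynomial (AwayIdx S) O)
    (hs : (pair X₁ X₂ h₁ h₂ hN).act s = 0) :
    X₂.act (MvPolynomial.rename (awayMap (le_refl S)) s) = 0 := by
  rw [awayMap_refl, MvPolynomial.rename_id_apply]
  exact Matrix.ext fun i j => congrArg Prod.snd (congrFun (congrFun hs i) j)

theorem pair_joint (s : MvPolynomial (AwayIdx S) O) (hs₁ : X₁.act s = 0) (hs₂ : X₂.act s = 0) :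
    (pair X₁ X₂ h₁ h₂ hN).act s = 0 :=
  Matrix.ext fun i j => Prod.ext (congrFun (congrFun hs₁ i) j) (congrFun (congrFun hs₂ i) j)

end HeckeLattice

section Rep

variable [Fact p.Prime] [IsDomain O] [IsDiscreteValuationRing O]
  [IsAdicComplete (maximalIdeal O) O] [Finite (ResidueField O)] [CharZero O]
  [Module.Finite O R] [Nontrivial R] [NeZero d]

namespace HeckeLattice

variable {S' : Finset ℕ} {R' : Type} [CommRing R'] [Algebra O R'] [Module.Finite O R']
  [Nontrivial R'] {d' : ℕ} [NeZero d'] {X : HeckeLattice p N S ρbar R d}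
  {X' : HeckeLattice p N₁ S' ρbar R' d'}

/-- Traces along a map of lattices. -/
theorem map_trace (hS : S' ⊆ S)
    (hker : ∀ s, X.act s = 0 → X'.act (MvPolynomial.rename (awayMap hS) s) = 0)
    (habs : ρbar.IsAbsolutelyIrreducible) {f : ℤ_[p] →+* O} {ρ : GaloisRepAdic X.T}
    (h : X.IsRep f ρ) {ρ' : GaloisRepAdic X'.T} (h' : X'.IsRep f ρ') (σ : Γℚ) :
    map hS hker (ρ.trace σ) = ρ'.trace σ := by
  rw [← Deform.trace_eq_of_isEquiv (isEquiv_map hS hker habs h h') σ]
  letI := (map hS hker : X.T →+* X'.T).toAlgebra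
  exact (LinearMap.trace_baseChange _ _).symm

end HeckeLattice

end Rep

end FLTAgent.Lower.Levels
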