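import Fermat.Agent.Lower.Levels.AuxFrame
import Fermat.Agent.Lower.Levels.CongFrame

/-!
# Frames with nontrivial character at a prime of the level

`exists_qChar` gives a character at `q` of order `p ^ v_p(q - 1)` congruent to one.  A `QFrame` is
a frame for the product of this character with the auxiliary one, congruent to the auxiliary frame
modulo the uniformiser; it exists (`nonempty_qFrame`), and its lattice (`lattice`) agrees with the
auxiliary lattice modulo the uniformiser (`lattice_congr`).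
-/

set_option autoImplicit false
set_option linter.style.haveILetI false
set_option linter.unusedSectionVars false

noncomputable section

open CongruenceSubgroup
open scoped MatrixGroups Matrix

namespace FLTAgent.Lower.Levels

open IsLocalRing (maximalIdeal ResidueField residue)

local notation "ℚ̄" => AlgebraicClosure ℚ
local notation "Γℚ" => (AlgebraicClosure ℚ ≃ₐ[ℚ] AlgebraicClosure ℚ)

variable {p : ℕ} [Fact p.Prime] {O : Type} [CommRing O] [IsDomain O] [IsDiscreteValuationRing O]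
  [IsAdicComplete (maximalIdeal O) O] [Finite (ResidueField O)] [CharZero O]

/-- A character at `q` of exact order `p ^ v_p(q - 1)`. -/
theorem exists_qChar (hp2 : p ≠ 2) (hp : (p : O) ∈ maximalIdeal O) {q : ℕ} [NeZero q]
    (hq : q.Prime) (hdvd : p ∣ q - 1) {c₀ : O}
    (hc₀ : IsPrimitiveRoot c₀ (p ^ padicValNat p (q - 1))) :
    ∃ χ : (ZMod q)ˣ →* Oˣ, (∀ a, χ a ^ p ^ padicValNat p (q - 1) = 1) ∧ χ (-1) = 1 ∧
      ∑ u : (ZMod q)ˣ, (χ u : O) = 0 ∧ ∀ a, (χ a : O) - 1 ∈ maximalIdeal O := by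
  classical
  haveI : Fact q.Prime := ⟨hq⟩
  set v := padicValNat p (q - 1) with hv
  haveI : NeZero (p ^ v) := ⟨pow_ne_zero v (Fact.out : p.Prime).ne_zero⟩
  have hd : p ^ v ∣ Nat.card (ZMod q)ˣ := by
    rw [Nat.card_eq_fintype_card, ZMod.card_units]
    exact pow_padicValNat_dvd
  let e := zmodCyclicMulEquiv (G := (ZMod q)ˣ) inferInstance
  let χ₀ : (ZMod q)ˣ →* Multiplicative (ZMod (p ^ v)) := (AddMonoidHom.toMultiplicative
    (ZMod.castHom hd (ZMod (p ^ v))).toAddMonoidHom).comp e.symm.toMonoidHom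
  have hχ₀ : Function.Surjective χ₀ := (ZMod.castHom_surjective hd).comp e.symm.surjective
  have hu : IsUnit c₀ := hc₀.isUnit (NeZero.ne _)
  have hpu : IsPrimitiveRoot hu.unit (p ^ v) := IsPrimitiveRoot.coe_units_iff.mp hc₀
  let ζ : Multiplicative (ZMod (p ^ v)) →* Oˣ :=
    { toFun := fun a => hu.unit ^ (Multiplicative.toAdd a).val
      map_one' := by simp
      map_mul' := fun a b => by
        rw [← pow_add, toAdd_mul, ZMod.val_add, ← pow_eq_pow_mod _ hpu.pow_eq_one] }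
  set χ := ζ.comp χ₀
  have hpow : ∀ a, χ a ^ p ^ v = 1 := fun a => by
    show (hu.unit ^ _) ^ p ^ v = 1
    rw [← pow_mul, mul_comm, pow_mul, hpu.pow_eq_one, one_pow]
  refine ⟨χ, hpow, ?_, ?_, fun a => ?_⟩
  · obtain ⟨m, hm⟩ : ∃ m, p ^ v = 2 * m + 1 := Odd.pow ((Fact.out : p.Prime).odd_of_ne_two hp2)
    have h1 := hpow (-1)
    rwa [hm, pow_succ, pow_mul, ← map_pow χ, neg_one_sq, map_one, one_pow, one_mul] at h1
  · refine sum_hom_units_eq_zero ((Units.coeHom O).comp χ) fun h1 => ?_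
    obtain ⟨a, ha⟩ := hχ₀ (Multiplicative.ofAdd 1)
    have hv1 : 1 < p ^ v := Nat.one_lt_pow
      (fun h0 => by
        have hq1 : q - 1 ≠ 0 := by have := hq.two_le; omega
        exact (Fact.out : p.Prime).ne_one
          (by simpa [hv, padicValNat.eq_zero_iff, hq1, hdvd] using h0))
      (Fact.out : p.Prime).one_lt
    haveI : Fact (1 < p ^ v) := ⟨hv1⟩
    have h2 := DFunLike.congr_fun h1 a
    rw [MonoidHom.comp_apply, MonoidHom.one_apply, Units.coeHom_apply] at h2
    change ((ζ (χ₀ a) : Oˣ) : O) = 1 at h2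
    rw [ha] at h2
    change ((hu.unit ^ (1 : ZMod (p ^ v)).val : Oˣ) : O) = 1 at h2
    rw [ZMod.val_one, pow_one] at h2
    exact hc₀.ne_one hv1 h2
  · haveI : CharP (ResidueField O) p := (CharP.charP_iff_prime_eq_zero Fact.out).mpr (by
      rw [← map_natCast (residue O)]
      exact (IsLocalRing.residue_eq_zero_iff _).mpr hp)
    refine (IsLocalRing.residue_eq_zero_iff _).mp ?_
    refine pow_eq_zero_iff (NeZero.ne (p ^ v)) |>.mp ?_
    rw [map_sub, map_one, sub_pow_char_pow, one_pow, ← map_pow, ← Units.val_pow_eq_pow_val,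
      hpow, Units.val_one, map_one, sub_self]

variable {S : Finset ℕ} {ρbar : ResidualGaloisRep (ResidueField O)} {M : ℕ} [NeZero M] {n r : ℕ}
  {Qv : Fin r → ℕ} {d : ℕ} {q : ℕ} [NeZero q]

/-- The product character modulo `q Q`. -/
def qEta (χ : (ZMod q)ˣ →* Oˣ) (η : (ZMod (∏ i, Qv i))ˣ →* (DeltaRing O p n r)ˣ) :
    (ZMod (q * ∏ i, Qv i))ˣ →* (DeltaRing O p n r)ˣ :=
  ((Units.map (algebraMap O (DeltaRing O p n r) : O →* DeltaRing O p n r)).comp χ).comp
      (ZMod.unitsMap (dvd_mul_right q (∏ i, Qv i))) *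
    η.comp (ZMod.unitsMap (dvd_mul_left (∏ i, Qv i) q))

variable [NeZero (∏ i, Qv i)]
  {F₀ : Frame (1 : (ZMod M)ˣ →* Oˣ) (awPr S) (residue O) (fun l => frobTrace ρbar l.1) d}
  {θ' : AwayPrimes S → ResidueField O} {η : (ZMod (∏ i, Qv i))ˣ →* (DeltaRing O p n r)ˣ}

/-- The ideal of the uniformiser in the group ring. -/
abbrev varpiIdeal (O : Type) [CommRing O] [IsLocalRing O] (p n r : ℕ) :
    Ideal (DeltaRing O p n r) :=
  (maximalIdeal O).map (algebraMap O (DeltaRing O p n r))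

theorem qEta_sub_mem {χ : (ZMod q)ˣ →* Oˣ} (hχ : ∀ a, (χ a : O) - 1 ∈ maximalIdeal O)
    (u : (ZMod (q * ∏ i, Qv i))ˣ) :
    (qEta χ η u : DeltaRing O p n r) -
      (η (ZMod.unitsMap (dvd_mul_left (∏ i, Qv i) q) u) : DeltaRing O p n r) ∈
        varpiIdeal O p n r := by
  have h := Ideal.mem_map_of_mem (algebraMap O (DeltaRing O p n r))
    (hχ (ZMod.unitsMap (dvd_mul_right q (∏ i, Qv i)) u))
  rw [map_sub, map_one] at h
  simpa [qEta, sub_mul] using Ideal.mul_mem_right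
    (η (ZMod.unitsMap (dvd_mul_left (∏ i, Qv i) q) u) : DeltaRing O p n r) _ h

/-- The frame with nontrivial character at `q`, congruent to the auxiliary one. -/
structure QFrame (D : AuxFrames F₀ θ' η) (χ : (ZMod q)ˣ →* Oˣ)
    (hdiv : q * ∏ i, Qv i ∣ M * ∏ i, Qv i) : Type where
  F : Frame (twistChar hdiv (qEta χ η)) (awPr S) (deltaRes p n r) θ' d
  congr : ∀ (s : MvPolynomial (AwayPrimes S) (DeltaRing O p n r)) (i j : Fin d),
    F.mat s i j - D.F.mat s i j ∈ varpiIdeal O p n r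

/-- The hypotheses at `q`. -/
structure QHyp (p M q : ℕ) [NeZero q] (χ : (ZMod q)ˣ →* Oˣ) : Prop where
  prime : q.Prime
  dvd : q ∣ M
  not_sq : ¬ q ^ 2 ∣ M
  pow : ∀ a, χ a ^ p ^ padicValNat p (q - 1) = 1
  neg_one : χ (-1) = 1
  congr_one : ∀ a, (χ a : O) - 1 ∈ maximalIdeal O

variable {χ : (ZMod q)ˣ →* Oˣ}

theorem QHyp.hdiv (hχ : QHyp p M q χ) : q * ∏ i, Qv i ∣ M * ∏ i, Qv i :=
  Nat.mul_dvd_mul_right hχ.dvd _

theorem QHyp.exists_odd (hχ : QHyp p M q χ) (hp2 : p ≠ 2) (hη : EtaHyp O p n Qv η) :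
    ∃ m : ℕ, ∀ a, qEta χ η a ^ (2 * m + 1) = 1 := by
  obtain ⟨m, hm⟩ : ∃ m, p ^ (padicValNat p (q - 1) + n) = 2 * m + 1 :=
    Odd.pow ((Fact.out : p.Prime).odd_of_ne_two hp2)
  refine ⟨m, fun a => ?_⟩
  simp only [qEta, MonoidHom.mul_apply, MonoidHom.comp_apply]
  rw [← hm, pow_add, mul_pow, pow_mul, ← map_pow (Units.map _), hχ.pow, map_one, one_pow, one_mul,
    mul_comm (p ^ padicValNat p (q - 1)), pow_mul, hη.pow, one_pow]

theorem QHyp.residual (hχ : QHyp p M q χ) (hη : EtaHyp O p n Qv η)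
    (a : (ZMod (q * ∏ i, Qv i))ˣ) :
    deltaRes (O := O) p n r (qEta χ η a : DeltaRing O p n r) = 1 := by
  rw [← hη.residual (ZMod.unitsMap (dvd_mul_left (∏ i, Qv i) q) a), ← sub_eq_zero, ← map_sub,
    ← RingHom.mem_ker]
  refine (Ideal.map_le_iff_le_comap.mpr fun x hx => ?_) (qEta_sub_mem hχ.congr_one a)
  show residue O (deltaAug O p n r (algebraMap O _ x)) = 0
  rw [AlgHom.commutes]
  exact (IsLocalRing.residue_eq_zero_iff x).mpr hx

/-- They exist. -/
theorem nonempty_qFrame (hp : (p : O) ∈ maximalIdeal O) (h : ResHyp p S ρbar)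
    (hθ : StabEig ρbar (∏ i, Qv i) θ') (hη : EtaHyp O p n Qv η) (hχ : QHyp p M q χ)
    (D : AuxFrames F₀ θ' η) : Nonempty (QFrame D χ hχ.hdiv) := by
  haveI : NeZero (M * ∏ i, Qv i) := ⟨mul_ne_zero (NeZero.ne M) (NeZero.ne _)⟩
  haveI := isLocalRing_deltaRing (O := O) p n r hp
  haveI := isAdicComplete_deltaRing (O := O) p n r hp
  haveI := isLocalHom_deltaRing (O := O) p n r hp
  haveI : IsNoetherianRing (DeltaRing O p n r) := IsNoetherianRing.of_finite O _
  obtain ⟨m, hm⟩ := hη.exists_odd h.ne_two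
  obtain ⟨m', hm'⟩ := hχ.exists_odd h.ne_two hη
  have hfam := hθ.famHyp h (M * ∏ i, Qv i) (deltaRes_surjective (O := O) p n r)
  obtain ⟨F, hF⟩ := exists_congruent_frame O hfam
    (charHyp_twistChar (dvd_mul_left (∏ i, Qv i) M) hm hη.residual)
    (charHyp_twistChar hχ.hdiv hm' (hχ.residual hη)) (varpiIdeal O p n r)
    (Ideal.map_le_iff_le_comap.mpr fun x hx => by
      show residue O (deltaAug O p n r (algebraMap O _ x)) = 0
      rw [AlgHom.commutes]
      exact (IsLocalRing.residue_eq_zero_iff x).mpr hx)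
    (fun u => by
      set τ := Ideal.Quotient.mk (varpiIdeal O p n r)
      have e : Units.map τ.toMonoidHom
          (qEta χ η (ZMod.unitsMap hχ.hdiv u)) =
          Units.map τ.toMonoidHom
            (η (ZMod.unitsMap (dvd_mul_left (∏ i, Qv i) M) u)) := by
        refine Units.ext (Ideal.Quotient.eq.mpr ?_)
        have h1 := qEta_sub_mem (η := η) hχ.congr_one (ZMod.unitsMap hχ.hdiv u)
        rwa [← MonoidHom.comp_apply (ZMod.unitsMap (dvd_mul_left (∏ i, Qv i) q)),
          ZMod.unitsMap_comp] at h1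
      have e2 : Units.map τ.toMonoidHom
          (twistChar (dvd_mul_left (∏ i, Qv i) M) η u) =
          Units.map τ.toMonoidHom (twistChar hχ.hdiv (qEta χ η) u) := by
        simp only [twistChar, MonoidHom.inv_apply, MonoidHom.pow_apply, MonoidHom.comp_apply,
          map_inv, map_pow, e]
      exact Ideal.Quotient.eq.mp (congrArg Units.val e2))
    D.F
  exact ⟨⟨F, hF⟩⟩

namespace QFrame

variable {D : AuxFrames F₀ θ' η} {hdiv : q * ∏ i, Qv i ∣ M * ∏ i, Qv i}
  (C : QFrame D χ hdiv) (hp : (p : O) ∈ maximalIdeal O) (h : ResHyp p S ρbar)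
  (hM : ∀ l : ℕ, l.Prime → l ∣ M → l ∈ S) (hQ : AuxHyp p n S ρbar Qv)
  (hθ : StabEig ρbar (∏ i, Qv i) θ') (hη : EtaHyp O p n Qv η) (hχ : QHyp p M q χ)

include h hM hQ hθ in
theorem awayFam (hqM : q ∣ M) : AwayFam p (M * (∏ i, Qv i) * (q * ∏ i, Qv i))
    (S ∪ Finset.univ.image Qv) ρbar (awPr S) θ' auxIdx :=
  { AuxFrames.awayFam h hM hQ hθ with
    level_mem := fun l hl hd => by
      rcases hl.dvd_mul.1 hd with h1 | h1
      · exact mem_union_of_dvd hM hQ hl (h1.mul_right _)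
      rcases hl.dvd_mul.1 h1 with h1 | h1
      · exact Finset.mem_union_left _ (hM l hl (h1.trans hqM))
      · exact mem_union_of_dvd hM hQ hl ((h1.mul_left M).mul_right _) }

include h hQ hM hη hχ in
theorem twistHyp : TwistHyp (M * ∏ i, Qv i) (q * ∏ i, Qv i) (deltaRes (O := O) p n r)
    (qEta χ η) := by
  have hMQ : Nat.Coprime M (∏ i, Qv i) := hQ.coprime hM
  have hqQ : Nat.Coprime q (∏ i, Qv i) := hMQ.coprime_dvd_left hχ.dvd
  refine ⟨Nat.squarefree_mul_iff.mpr ⟨hqQ, hχ.prime.squarefree, hQ.squarefree⟩, ?_,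
    hχ.exists_odd h.ne_two hη, hχ.residual hη⟩
  obtain ⟨M₁, hM₁⟩ := hχ.dvd
  have hqM₁ : ¬ q ∣ M₁ := fun hd => hχ.not_sq (by rw [sq, hM₁]; exact Nat.mul_dvd_mul_left q hd)
  rw [Nat.mul_div_mul_right _ _ (Nat.pos_of_ne_zero (NeZero.ne _)), hM₁,
    Nat.mul_div_cancel_left _ hχ.prime.pos]
  exact Nat.Coprime.mul_right ((hχ.prime.coprime_iff_not_dvd.mpr hqM₁).symm)
    (hMQ.coprime_dvd_left (hM₁ ▸ dvd_mul_left M₁ q))

/-- The lattice. -/
def lattice : HeckeLattice p (M * (∏ i, Qv i) * (q * ∏ i, Qv i)) (S ∪ Finset.univ.image Qv) ρbar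
    (DeltaRing O p n r) d :=
  haveI := isLocalRing_deltaRing (O := O) p n r hp
  haveI := isAdicComplete_deltaRing (O := O) p n r hp
  haveI : IsNoetherianRing (DeltaRing O p n r) := IsNoetherianRing.of_finite O _
  twistLattice C.F (RingHom.ext fun a => congrArg (residue O) ((deltaAug O p n r).commutes a))
    (twistHyp h hM hQ hη hχ) (hθ.famHyp h _ (deltaRes_surjective (O := O) p n r))
    (hθ.parHyp h _) (awayFam h hM hQ hθ hχ.dvd)

theorem lattice_act :
    (C.lattice hp h hM hQ hθ hη hχ).act = levelAct C.F (qEta χ η) auxIdx := rfl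

/-- The periods of the lattice. -/
theorem coe_lattice_emb (x : Fin d → DeltaRing O p n r) :
    ((C.lattice hp h hM hQ hθ hη hχ).emb x :
        Additive (Gamma0 (M * (∏ i, Qv i) * (q * ∏ i, Qv i))) →+ DeltaRing O p n r) =
      h1Triv (M * (∏ i, Qv i) * (q * ∏ i, Qv i)) (DeltaRing O p n r) (DeltaRing O p n r)
        (twistMap hdiv (qEta χ η) (C.F.combo x)) := by
  haveI := isLocalRing_deltaRing (O := O) p n r hp
  haveI := isAdicComplete_deltaRing (O := O) p n r hp
  haveI : IsNoetherianRing (DeltaRing O p n r) := IsNoetherianRing.of_finite O _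
  exact coe_twistLattice_emb C.F _ _ _ _ _ x

/-- The two lattices agree modulo the uniformiser. -/
theorem lattice_congr (s : MvPolynomial (AwayIdx (S ∪ Finset.univ.image Qv)) O) (a b : Fin d) :
    (C.lattice hp h hM hQ hθ hη hχ).act s a b - (D.lattice hp h hM hQ hθ hη).act s a b ∈
      varpiIdeal O p n r := by
  set τ : DeltaRing O p n r →ₐ[O] _ := Ideal.Quotient.mkₐ O (varpiIdeal O p n r)
  have key : τ.mapMatrix.comp (C.lattice hp h hM hQ hθ hη hχ).act =
      τ.mapMatrix.comp (D.lattice hp h hM hQ hθ hη).act := by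
    refine MvPolynomial.algHom_ext fun l => ?_
    rw [AlgHom.comp_apply, AlgHom.comp_apply, C.lattice_act, levelAct_X, D.lattice_act_X,
      AlgHom.mapMatrix_apply, AlgHom.mapMatrix_apply]
    refine Matrix.ext fun i j => ?_
    simp only [Matrix.map_apply, Matrix.smul_apply, smul_eq_mul, map_mul]
    have h1 := Ideal.Quotient.eq.mpr (C.congr (MvPolynomial.X (auxIdx l)) i j)
    have h2 := qEta_sub_mem (η := η) hχ.congr_one (primeUnit (q * ∏ i, Qv i) l.1.2)
    have hlq : ¬ (l.1 : ℕ) ∣ q * ∏ i, Qv i := fun hd => l.2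
      ((awayFam h hM hQ hθ hχ.dvd).level_mem _ l.1.2 (hd.mul_left _))
    have e : ZMod.unitsMap (dvd_mul_left (∏ i, Qv i) q) (primeUnit (q * ∏ i, Qv i) l.1.2) =
        primeUnit (∏ i, Qv i) l.1.2 := by
      refine Units.ext ?_
      rw [ZMod.unitsMap_def, Units.coe_map, MonoidHom.coe_coe, coe_primeUnit l.1.2 hlq,
        coe_primeUnit l.1.2 fun hd => hlq (hd.mul_left q)]
      exact map_natCast _ _
    rw [e] at h2
    exact congr_arg₂ (· * ·) (Ideal.Quotient.eq.mpr h2) h1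
  exact Ideal.Quotient.eq.mp (congrFun (congrFun (DFunLike.congr_fun key s) a) b)

end QFrame

end FLTAgent.Lower.Levels
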