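import Fermat.Agent.Lower.Defs
import Fermat.Agent.Lower.Iface.TamePair
import Fermat.Agent.Lower.TameFacts
import Fermat.Agent.GalCommon.Dickson
import Fermat.Agent.Deform.MatRep

/-!
# The trace of a tame inertia generator

At a prime `q ≡ 1 (mod p)` where the residual representation is unramified, the trace of a
generator of tame inertia satisfies the Dickson relation, whose roots congruent to `2` are `2` and
`c + c⁻¹` for roots of unity `c` of `p`-power order (`exists_finset_prod_eq_zero`).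
`exists_trace_prod_eq_zero` gives the resulting product relation and the fact that `tr τ - 2` is a
multiple of `tr σ₀ - 2` on all of inertia.
-/

set_option autoImplicit false
set_option linter.style.haveILetI false

noncomputable section

namespace FLTAgent.Lower.Levels

open IsLocalRing (maximalIdeal ResidueField residue)

local notation "ℚ̄" => AlgebraicClosure ℚ
local notation "Γℚ" => (AlgebraicClosure ℚ ≃ₐ[ℚ] AlgebraicClosure ℚ)

/-- Dickson polynomials at `x + y` with `x y = 1`. -/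
theorem dicksonTrace_add_of_mul_eq_one {R : Type*} [CommRing R] {x y : R} (h : x * y = 1) :
    ∀ n, GalCommon.dicksonTrace (x + y) 1 n = x ^ n + y ^ n
  | 0 => by rw [GalCommon.dicksonTrace, pow_zero, pow_zero, one_add_one_eq_two]
  | 1 => by rw [GalCommon.dicksonTrace, pow_one, pow_one]
  | n + 2 => by
    rw [GalCommon.dicksonTrace, dicksonTrace_add_of_mul_eq_one h n,
      dicksonTrace_add_of_mul_eq_one h (n + 1)]
    linear_combination (x ^ n + y ^ n) * h

/-- Dickson polynomials of determinant one are congruent to `2` modulo `t - 2`. -/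
theorem dicksonTrace_sub_two_mem {R : Type*} [CommRing R] (t : R) (n : ℕ) :
    GalCommon.dicksonTrace t 1 n - 2 ∈ Ideal.span {t - 2} := by
  rw [← Ideal.Quotient.mk_eq_mk_iff_sub_mem, GalCommon.map_dicksonTrace, map_one, map_ofNat]
  have h : Ideal.Quotient.mk (Ideal.span {t - 2}) t = 1 + 1 := by
    rw [one_add_one_eq_two, ← map_ofNat (Ideal.Quotient.mk (Ideal.span {t - 2})) 2,
      Ideal.Quotient.mk_eq_mk_iff_sub_mem]
    exact Ideal.mem_span_singleton_self _
  rw [h, dicksonTrace_add_of_mul_eq_one (one_mul 1), one_pow, one_add_one_eq_two]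

/-- An element lying in `I + 𝔪ⁿ` for every `n` lies in `I`. -/
theorem mem_of_forall_mem_sup_pow {T : Type} [CommRing T] [IsLocalRing T] [IsNoetherianRing T]
    {I : Ideal T} {x : T} (h : ∀ n, x ∈ I ⊔ maximalIdeal T ^ n) : x ∈ I := by
  rcases eq_or_ne I ⊤ with rfl | hI
  · trivial
  haveI : Nontrivial (T ⧸ I) := Ideal.Quotient.nontrivial_iff.mpr hI
  haveI : IsLocalRing (T ⧸ I) :=
    IsLocalRing.of_surjective' (Ideal.Quotient.mk I) Ideal.Quotient.mk_surjective
  rw [← Ideal.Quotient.eq_zero_iff_mem, ← Ideal.mem_bot,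
    ← Ideal.iInf_pow_eq_bot_of_isLocalRing ((maximalIdeal T).map (Ideal.Quotient.mk I)) ?_,
    Ideal.mem_iInf]
  · intro n
    obtain ⟨a, ha, b, hb, rfl⟩ := Submodule.mem_sup.mp (h n)
    rw [map_add, Ideal.Quotient.eq_zero_iff_mem.mpr ha, zero_add, ← Ideal.map_pow]
    exact Ideal.mem_map_of_mem _ hb
  · intro htop
    have hle : (maximalIdeal T).map (Ideal.Quotient.mk I) ≤ maximalIdeal (T ⧸ I) := by
      haveI : IsLocalHom (Ideal.Quotient.mk I) :=
        IsLocalHom.of_surjective _ Ideal.Quotient.mk_surjective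
      exact ((IsLocalRing.local_hom_TFAE _).out 0 2).mp this
    exact (IsLocalRing.maximalIdeal.isMaximal (T ⧸ I)).ne_top (top_le_iff.mp (htop ▸ hle))

/-- Powers of matrices congruent to `1` approach `1`. -/
theorem matrix_pow_prime_pow_sub_one_mem {T : Type} [CommRing T] [IsLocalRing T] {p : ℕ}
    (hp : p.Prime) (hpm : (p : T) ∈ maximalIdeal T) {X : Matrix (Fin 2) (Fin 2) T}
    (hX : ∀ i j, (X - 1) i j ∈ maximalIdeal T) :
    ∀ n i j, (X ^ p ^ n - 1) i j ∈ maximalIdeal T ^ (n + 1) := by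
  intro n
  induction n with
  | zero => simpa using hX
  | succ n ih =>
    set Y := X ^ p ^ n - 1 with hY
    have hmul : ∀ {I J : Ideal T} {A B : Matrix (Fin 2) (Fin 2) T},
        (∀ i j, A i j ∈ I) → (∀ i j, B i j ∈ J) → ∀ i j, (A * B) i j ∈ I * J := by
      intro I J A B hA hB i j
      rw [Matrix.mul_apply]
      exact Ideal.sum_mem _ fun l _ => Ideal.mul_mem_mul (hA i l) (hB l j)
    have hXY : X ^ p ^ n = Y + 1 := by rw [hY, sub_add_cancel]
    obtain ⟨R, hR⟩ := (Commute.one_right Y).exists_add_pow_prime_eq hp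
    have e : X ^ p ^ (n + 1) - 1 = Y ^ p + (p : Matrix (Fin 2) (Fin 2) T) * Y * R := by
      rw [pow_succ p, pow_mul, hXY, hR, one_pow, mul_one]
      abel
    rw [e]
    intro i j
    have hY1 : ∀ a b, Y a b ∈ maximalIdeal T := fun a b =>
      Ideal.pow_le_self (Nat.succ_ne_zero n) (ih a b)
    have hsq : ∀ (e : ℕ) (a b : Fin 2), (Y ^ (e + 1)) a b ∈ maximalIdeal T := fun e a b => by
      rw [pow_succ', Matrix.mul_apply]
      exact Ideal.sum_mem _ fun l _ => Ideal.mul_mem_right _ _ (hY1 a l)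
    rw [Matrix.add_apply, pow_succ (maximalIdeal T)]
    refine add_mem ?_ ?_
    · obtain ⟨e, he⟩ : ∃ e, p = e + 1 + 1 := ⟨p - 2, by have := hp.two_le; omega⟩
      rw [he, pow_succ' Y (e + 1)]
      exact hmul (A := Y) (B := Y ^ (e + 1)) ih (hsq e) i j
    · rw [(Nat.cast_commute p Y).eq, mul_assoc]
      refine hmul (A := Y) (B := (p : Matrix (Fin 2) (Fin 2) T) * R) ih (fun a b => ?_) i j
      rw [← nsmul_eq_mul, Matrix.smul_apply, nsmul_eq_mul]
      exact Ideal.mul_mem_right _ _ hpm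

/-- The residue field of a finite local algebra is finite, hence so is every power quotient. -/
theorem finite_quotient_maximalIdeal_pow {O : Type} [CommRing O] [IsLocalRing O]
    [IsNoetherianRing O] [Finite (ResidueField O)] {T : Type} [CommRing T] [IsLocalRing T]
    [Algebra O T] [IsLocalHom (algebraMap O T)] [Module.Finite O T] (n : ℕ) :
    Finite (T ⧸ maximalIdeal T ^ n) := by
  haveI : IsNoetherianRing T := IsNoetherianRing.of_finite O T
  haveI : Module.Finite (ResidueField O) (ResidueField T) := inferInstance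
  haveI : Finite (T ⧸ maximalIdeal T) := Module.finite_of_finite (ResidueField O) (M := ResidueField T)
  exact Ideal.finite_quotient_pow (IsNoetherian.noetherian _) n

/-- A root `t ≡ 2` of the Dickson relation is `2` or some `c + c⁻¹`. -/
theorem exists_finset_prod_eq_zero {p : ℕ} (hp : p.Prime) (hp2 : p ≠ 2)
    {O : Type} [CommRing O] [IsDomain O] [IsLocalRing O] (hpO : (p : O) ∈ maximalIdeal O)
    {T : Type} [CommRing T] [IsLocalRing T] [Algebra O T] [IsLocalHom (algebraMap O T)]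
    {q : ℕ} (hq : q.Prime) (hdvd : p ∣ q - 1)
    {c₀ : O} (hc₀ : IsPrimitiveRoot c₀ (p ^ padicValNat p (q - 1)))
    {t : T} (ht : t - 2 ∈ maximalIdeal T) (hD : GalCommon.dicksonTrace t 1 q = t) :
    ∃ s : Finset O, (∀ c ∈ s, c ^ (q - 1) = 1 ∧ c ≠ 1 ∧ c - 1 ∈ maximalIdeal O) ∧
      (t - 2) * ∏ c ∈ s, (t - algebraMap O T (c + c ^ (q - 2))) = 0 := by
  classical
  haveI : Fact p.Prime := ⟨hp⟩
  have hq2 := hq.two_le
  have hq1 : q - 1 ≠ 0 := by omega
  set N := p ^ padicValNat p (q - 1) with hN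
  obtain ⟨w, hw⟩ : N ∣ q - 1 := pow_padicValNat_dvd
  have hpw : ¬ p ∣ w := fun h => pow_succ_padicValNat_not_dvd (p := p) hq1
    (by rw [pow_succ, ← hN]; exact (mul_dvd_mul_left N h).trans hw.symm.dvd)
  have hNpos : 0 < N := pow_pos hp.pos _
  have hone : (1 : O) ∈ Polynomial.nthRootsFinset N (1 : O) := by
    simp [Polynomial.mem_nthRootsFinset hNpos]
  set s := (Polynomial.nthRootsFinset N (1 : O)).erase 1 with hs
  haveI : CharP (ResidueField O) p := (CharP.charP_iff_prime_eq_zero hp).mpr (by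
    rw [← map_natCast (residue O), IsLocalRing.residue_eq_zero_iff]; exact hpO)
  have hmem : ∀ c ∈ s, c ^ (q - 1) = 1 ∧ c ≠ 1 ∧ c - 1 ∈ maximalIdeal O := fun c hc => by
    obtain ⟨hc1, hc2⟩ := Finset.mem_erase.mp hc
    rw [Polynomial.mem_nthRootsFinset hNpos] at hc2
    refine ⟨by rw [hw, pow_mul, hc2, one_pow], hc1, ?_⟩
    rw [← IsLocalRing.residue_eq_zero_iff]
    refine eq_zero_of_pow_eq_zero (n := N) ?_
    rw [map_sub, map_one, hN, sub_pow_char_pow, one_pow, ← map_pow, ← hN, hc2, map_one, sub_self]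
  refine ⟨s, hmem, ?_⟩
  -- adjoin a root
  set P : Polynomial T := Polynomial.X ^ 2 - Polynomial.C t * Polynomial.X + 1 with hP
  have hPm : P.Monic := by rw [hP]; monicity!
  have hPd : P.natDegree = 2 := by rw [hP]; compute_degree!
  haveI : Module.Finite T (AdjoinRoot P) := hPm.finite_adjoinRoot
  set f := algebraMap T (AdjoinRoot P) with hf
  set x : AdjoinRoot P := AdjoinRoot.root P
  set y : AdjoinRoot P := f t - x
  have hx2 : x ^ 2 - f t * x + 1 = 0 := by
    have h := AdjoinRoot.eval₂_root P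
    rw [hP] at h
    simpa [hf, x, AdjoinRoot.algebraMap_eq] using h
  have hxy : x * y = 1 := by linear_combination -hx2
  have hx1 : (x - 1) ^ 2 = x * f (t - 2) := by
    rw [map_sub, map_ofNat]; linear_combination hx2
  have hunit : IsUnit x := IsUnit.of_mul_eq_one y hxy
  -- units
  have hmax : ∀ Q : Ideal (AdjoinRoot P), Q.IsMaximal →
      (∀ a ∈ maximalIdeal T, f a ∈ Q) ∧ x - 1 ∈ Q := by
    intro Q hQ
    haveI := hQ
    haveI : Algebra.IsIntegral T (AdjoinRoot P) := Algebra.IsIntegral.of_finite T _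
    have hc : Q.comap f = maximalIdeal T :=
      IsLocalRing.eq_maximalIdeal (Ideal.isMaximal_comap_of_isIntegral_of_isMaximal Q)
    have h1 : ∀ a ∈ maximalIdeal T, f a ∈ Q := fun a ha => by rwa [← Ideal.mem_comap, hc]
    exact ⟨h1, hQ.isPrime.mem_of_pow_mem 2 (hx1 ▸ Q.mul_mem_left _ (h1 _ ht))⟩
  have hpT : (p : T) ∈ maximalIdeal T := by
    rw [← map_natCast (algebraMap O T)]; exact map_nonunit _ _ hpO
  have hsum : ∀ (e m : ℕ), ¬ p ∣ m → IsUnit (∑ i ∈ Finset.range m, (x ^ e) ^ i) := by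
    intro e m hm
    by_contra h
    obtain ⟨Q, hQ, hle⟩ := exists_max_ideal_of_mem_nonunits h
    obtain ⟨h1, h2⟩ := hmax Q hQ
    have hxQ : Ideal.Quotient.mk Q x = 1 := by
      rw [← map_one (Ideal.Quotient.mk Q), Ideal.Quotient.mk_eq_mk_iff_sub_mem]; exact h2
    have h3 : (m : AdjoinRoot P ⧸ Q) = 0 := by
      rw [← Ideal.Quotient.eq_zero_iff_mem.mpr hle, map_sum]
      simp [hxQ]
    have h4 : (p : AdjoinRoot P ⧸ Q) = 0 := by
      rw [← map_natCast (Ideal.Quotient.mk Q), ← map_natCast f, Ideal.Quotient.eq_zero_iff_mem]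
      exact h1 _ hpT
    haveI : Nontrivial (AdjoinRoot P ⧸ Q) := Ideal.Quotient.nontrivial_iff.mpr hQ.ne_top
    have h5 := congrArg (fun z : ℤ => (z : AdjoinRoot P ⧸ Q))
      (Nat.gcd_eq_gcd_ab p m)
    rw [(hp.coprime_iff_not_dvd.mpr hm).gcd_eq_one] at h5
    simp [h3, h4] at h5
  -- the relation
  have hrel : (x ^ (q - 1) - 1) * (x ^ (q + 1) - 1) = 0 := by
    have h := congrArg f hD
    rw [GalCommon.map_dicksonTrace, map_one, show f t = x + y by simp [y],
      dicksonTrace_add_of_mul_eq_one hxy] at h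
    obtain ⟨r, hr⟩ : ∃ r, q = r + 1 := ⟨q - 1, by omega⟩
    subst hr
    rw [Nat.add_sub_cancel]
    have hpow : x ^ (r + 1) * y ^ (r + 1) = 1 := by rw [← mul_pow, hxy, one_pow]
    linear_combination x ^ (r + 1) * h - hpow + x ^ r * hxy
  have hall : (x - 1) * ∏ c ∈ Polynomial.nthRootsFinset N (1 : O),
      (x - f (algebraMap O T c)) = 0 := by
    have hA : ∏ c ∈ Polynomial.nthRootsFinset N (1 : O), (x - f (algebraMap O T c)) = x ^ N - 1 := by
      have h := congrArg (Polynomial.eval₂ (f.comp (algebraMap O T)) x)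
        (Polynomial.X_pow_sub_one_eq_prod hNpos hc₀)
      rw [Polynomial.eval₂_finsetProd] at h
      simpa using h.symm
    have hB : x ^ (q - 1) - 1 = (x ^ N - 1) * ∑ i ∈ Finset.range w, (x ^ N) ^ i := by
      rw [mul_geom_sum, hw, pow_mul]
    have hC : x ^ (q + 1) - 1 = (x - 1) * ∑ i ∈ Finset.range (q + 1), (x ^ 1) ^ i := by
      rw [pow_one, mul_geom_sum]
    have hq1p : ¬ p ∣ q + 1 := fun h => by
      have h2 : p ∣ 2 := by
        have := Nat.dvd_sub h hdvd
        rwa [show q + 1 - (q - 1) = 2 by omega] at this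
      exact hp2 ((Nat.prime_dvd_prime_iff_eq hp Nat.prime_two).mp h2)
    rw [hB, hC, mul_mul_mul_comm, mul_comm (x ^ N - 1)] at hrel
    rw [hA]
    exact ((hsum N w hpw).mul (hsum 1 (q + 1) hq1p)).mul_left_eq_zero.mp hrel
  rw [← Finset.insert_erase hone, ← hs, Finset.prod_insert (Finset.notMem_erase _ _), map_one,
    map_one, ← mul_assoc, ← sq, hx1] at hall
  have hinv : ∀ c ∈ s, c ^ (q - 2) ∈ s ∧ (c ^ (q - 2)) ^ (q - 2) = c ∧ c * c ^ (q - 2) = 1 := by
    intro c hc
    have hc' : c * c ^ (q - 2) = 1 := by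
      rw [← pow_succ', show q - 2 + 1 = q - 1 by omega]; exact (hmem c hc).1
    obtain ⟨hc1, hc2⟩ := Finset.mem_erase.mp hc
    rw [Polynomial.mem_nthRootsFinset hNpos] at hc2
    have hd' : c ^ (q - 2) * (c ^ (q - 2)) ^ (q - 2) = 1 := by
      rw [← mul_pow, hc', one_pow]
    refine ⟨Finset.mem_erase.mpr ⟨fun h => hc1 (by rw [← hc', h, mul_one]), ?_⟩, ?_, hc'⟩
    · rw [Polynomial.mem_nthRootsFinset hNpos, ← pow_mul, mul_comm, pow_mul, hc2, one_pow]
    · linear_combination c * hd' - (c ^ (q - 2)) ^ (q - 2) * hc'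
  set g : O → AdjoinRoot P := fun c => f (algebraMap O T c) with hg
  have hswap : ∏ c ∈ s, (x - g (c ^ (q - 2))) = ∏ c ∈ s, (x - g c) :=
    Finset.prod_bij' (fun c _ => c ^ (q - 2)) (fun c _ => c ^ (q - 2)) (fun c hc => (hinv c hc).1)
      (fun c hc => (hinv c hc).1) (fun c hc => (hinv c hc).2.1) (fun c hc => (hinv c hc).2.1)
      (fun c hc => rfl)
  have hsq : (∏ c ∈ s, (x - g c)) * ∏ c ∈ s, (x - g c) =
      x ^ s.card * f (∏ c ∈ s, (t - algebraMap O T (c + c ^ (q - 2)))) := by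
    conv_lhs => arg 2; rw [← hswap]
    rw [← Finset.prod_mul_distrib, map_prod, ← Finset.prod_const, ← Finset.prod_mul_distrib]
    refine Finset.prod_congr rfl fun c hc => ?_
    have h1 : g c * g (c ^ (q - 2)) = 1 := by
      rw [hg, ← map_mul, ← map_mul, (hinv c hc).2.2, map_one, map_one]
    rw [map_sub, map_add, map_add]
    show _ = x * (f t - (g c + g (c ^ (q - 2))))
    linear_combination h1 + hx2
  have h0 : f ((t - 2) * ∏ c ∈ s, (t - algebraMap O T (c + c ^ (q - 2)))) = 0 := by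
    refine (hunit.mul (hunit.pow s.card)).mul_right_eq_zero.mp ?_
    have := congrArg (· * ∏ c ∈ s, (x - g c)) hall
    simp only [zero_mul, mul_assoc] at this
    rw [hsq] at this
    rw [map_mul]
    linear_combination this
  rw [hf, AdjoinRoot.algebraMap_eq, ← AdjoinRoot.mk_C, AdjoinRoot.mk_eq_zero] at h0
  by_contra hne
  refine Polynomial.Monic.not_dvd_of_natDegree_lt hPm (Polynomial.C_ne_zero.mpr hne) ?_ h0
  rw [hPd, Polynomial.natDegree_C]
  exact two_pos

/-- **The trace at a tame generator.** -/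
theorem exists_trace_prod_eq_zero {p : ℕ} [Fact p.Prime] (hp2 : p ≠ 2)
    {O : Type} [CommRing O] [IsDomain O] [IsDiscreteValuationRing O]
    [IsAdicComplete (maximalIdeal O) O] [Finite (ResidueField O)] [CharZero O]
    (hp : (p : O) ∈ maximalIdeal O)
    {T : Type} [CommRing T] [IsLocalRing T] [Algebra O T] [IsLocalHom (algebraMap O T)]
    [Module.Finite O T]
    {q : ℕ} (hq : q.Prime) (hqp : q ≠ p) (hdvd : p ∣ q - 1)
    {c₀ : O} (hc₀ : IsPrimitiveRoot c₀ (p ^ padicValNat p (q - 1)))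
    (ρ : GaloisRepAdic T) {A : ValuationSubring ℚ̄} (hA : A.LiesOverPrime q)
    (hres : ∀ τ ∈ A.inertiaSubgroupIn ℚ, ρ.residual.ρ τ = 1)
    (hdet : ∀ τ ∈ A.inertiaSubgroupIn ℚ, LinearMap.det (ρ.ρ τ) = 1)
    {σ₀ : Γℚ} (hσ₀ : IsInertiaGen p q A σ₀) :
    (∃ s : Finset O, (∀ c ∈ s, c ^ (q - 1) = 1 ∧ c ≠ 1 ∧ c - 1 ∈ maximalIdeal O) ∧
      (ρ.trace σ₀ - 2) * ∏ c ∈ s, (ρ.trace σ₀ - algebraMap O T (c + c ^ (q - 2))) = 0) ∧
    ∀ τ ∈ A.inertiaSubgroupIn ℚ, ρ.trace τ - 2 ∈ Ideal.span {ρ.trace σ₀ - 2} := by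
  classical
  haveI : Fact q.Prime := ⟨hq⟩
  haveI : IsNoetherianRing T := IsNoetherianRing.of_finite O T
  set b := Module.finBasisOfFinrankEq T ρ.V ρ.finrank_eq
  set M := Deform.matOf ρ b with hMdef
  have hpT : (p : T) ∈ maximalIdeal T := by
    rw [← map_natCast (algebraMap O T)]; exact map_nonunit _ _ hp
  have hone : ∀ τ ∈ A.inertiaSubgroupIn ℚ, ∀ i j, (M τ - 1) i j ∈ maximalIdeal T := by
    intro τ hτ i j
    have h1 : (M τ).map (algebraMap T (ResidueField T)) = 1 := by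
      rw [hMdef, Deform.matOf_apply,
        ← LinearMap.toMatrix_baseChange (ResidueField T) (ρ.ρ τ) b b]
      exact (congrArg (LinearMap.toMatrix (Algebra.TensorProduct.basis (ResidueField T) b)
        (Algebra.TensorProduct.basis (ResidueField T) b)) (hres τ hτ)).trans
          (LinearMap.toMatrix_one _)
    rw [← IsLocalRing.residue_eq_zero_iff, Matrix.sub_apply, map_sub]
    have h2 := congrFun (congrFun h1 i) j
    rw [Matrix.map_apply] at h2
    rw [← IsLocalRing.ResidueField.algebraMap_eq, h2, Matrix.one_apply, Matrix.one_apply]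
    split_ifs <;> simp
  have htr : ∀ g, ρ.trace g = M g 0 0 + M g 1 1 := fun g => by
    rw [Deform.trace_eq_trace_matOf ρ b, Matrix.trace_fin_two]
  set t := ρ.trace σ₀ with ht
  have htm : t - 2 ∈ maximalIdeal T := by
    have h := add_mem (hone σ₀ hσ₀.mem 0 0) (hone σ₀ hσ₀.mem 1 1)
    rw [ht, htr]
    convert h using 1
    simp [Matrix.sub_apply]
    ring
  have htpow : ∀ k, ρ.trace (σ₀ ^ k) = GalCommon.dicksonTrace t 1 k := fun k => by
    rw [GaloisRepAdic.trace, map_pow, GalCommon.trace_pow_eq ρ.finrank_eq, hdet σ₀ hσ₀.mem]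
    rfl
  have hcyc : cycPow p q σ₀ ≠ 1 := by
    intro h
    haveI : NeZero q := ⟨hq.ne_zero⟩
    haveI : NeZero (q : ℚ̄) := ⟨Nat.cast_ne_zero.mpr hq.ne_zero⟩
    obtain ⟨μ, hμ⟩ := HasEnoughRootsOfUnity.exists_primitiveRoot ℚ̄ q
    obtain ⟨a, -, ha⟩ := hμ.eq_pow_of_pow_eq_one (ξ := σ₀ μ) (by
      rw [← map_pow, hμ.pow_eq_one, map_one])
    refine hσ₀.moves μ hμ a ha.symm ?_
    rw [← cycPow_apply_eq hμ ha.symm, h, Units.val_one]
  obtain ⟨σ, φ, hσ, -, hpair⟩ := exists_tamePair (Fact.out : p.Prime) hq hqp hdvd A hA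
  have hlevel : ∀ n : ℕ, GalCommon.dicksonTrace t 1 q - t ∈ maximalIdeal T ^ n ∧
      ∀ τ ∈ A.inertiaSubgroupIn ℚ, ∃ k : ℕ,
        ρ.trace τ - GalCommon.dicksonTrace t 1 k ∈ maximalIdeal T ^ n := by
    intro n
    set R := T ⧸ maximalIdeal T ^ n
    haveI : Finite R := finite_quotient_maximalIdeal_pow (O := O) n
    let f : Γℚ →* (Matrix (Fin 2) (Fin 2) R)ˣ × (ZMod q)ˣ :=
      (Deform.mapRep (Ideal.Quotient.mk (maximalIdeal T ^ n)) M).toHomUnits.prod (cycPow p q)
    have heq : ∀ g g', f g = f g' → ρ.trace g - ρ.trace g' ∈ maximalIdeal T ^ n := by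
      intro g g' h
      have h1 := congrArg (fun z => ((z.1 : (Matrix (Fin 2) (Fin 2) R)ˣ) :
        Matrix (Fin 2) (Fin 2) R)) h
      rw [← Ideal.Quotient.mk_eq_mk_iff_sub_mem, htr, htr, map_add, map_add]
      exact congrArg₂ (· + ·) (congrFun (congrFun h1 0) 0) (congrFun (congrFun h1 1) 1)
    have hf1 : ∀ g, (∀ i j, (M g - 1) i j ∈ maximalIdeal T ^ n) →
        (Deform.mapRep (Ideal.Quotient.mk (maximalIdeal T ^ n)) M).toHomUnits g = 1 := fun g hg => by
      refine Units.ext ?_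
      rw [MonoidHom.coe_toHomUnits, Deform.mapRep_apply, Units.val_one]
      refine Matrix.ext fun i j => ?_
      have := hg i j
      rw [Matrix.sub_apply, ← Ideal.Quotient.mk_eq_mk_iff_sub_mem] at this
      rw [Matrix.map_apply, this, Matrix.one_apply, Matrix.one_apply]
      split_ifs <;> simp
    obtain ⟨L, hL, hcont⟩ := Deform.mcont_matOf ρ b n
    haveI : NeZero q := ⟨hq.ne_zero⟩
    haveI : NeZero (q : ℚ̄) := ⟨Nat.cast_ne_zero.mpr hq.ne_zero⟩
    obtain ⟨μ, hμ⟩ := HasEnoughRootsOfUnity.exists_primitiveRoot ℚ̄ q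
    haveI := hL
    haveI : FiniteDimensional ℚ (IntermediateField.adjoin ℚ {μ}) :=
      IntermediateField.adjoin.finiteDimensional (Algebra.IsIntegral.isIntegral μ)
    have hker : ∀ τ : Γℚ, (∀ z ∈ L ⊔ IntermediateField.adjoin ℚ {μ}, τ z = z) → f τ = 1 := by
      intro τ hτ
      refine Prod.ext (hf1 τ (hcont τ fun z hz => hτ z ((le_sup_left : L ≤ _) hz))) (Units.ext ?_)
      show (cycPow p q τ : ZMod q) = _
      rw [cycPow_apply_eq hμ (a := 1) (by
        rw [pow_one]
        exact hτ μ ((le_sup_right : IntermediateField.adjoin ℚ {μ} ≤ _)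
          (IntermediateField.mem_adjoin_simple_self ℚ μ))), Nat.cast_one, one_pow]
      rfl
    have hpg : ∀ τ ∈ A.inertiaSubgroupIn ℚ, ∃ j : ℕ, f τ ^ (p ^ j) = 1 := by
      intro τ hτ
      refine ⟨n + 1, Prod.ext ?_ ?_⟩
      · rw [Prod.pow_fst, Prod.fst_one]
        show (Deform.mapRep (Ideal.Quotient.mk (maximalIdeal T ^ n)) M).toHomUnits τ ^ p ^ (n + 1) = 1
        rw [← map_pow]
        refine hf1 _ fun i j => ?_
        rw [map_pow]
        exact Ideal.pow_le_pow_right (by omega)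
          (matrix_pow_prime_pow_sub_one_mem Fact.out hpT (hone τ hτ) (n + 1) i j)
      · rw [Prod.pow_snd, Prod.snd_one]
        show cycPow p q τ ^ p ^ (n + 1) = 1
        rw [pow_succ', pow_mul, cycPow_pow_eq_one hdvd, one_pow]
    obtain ⟨hrel, hgen, -⟩ := hpair _ f ⟨_, inferInstance, hker⟩ hpg
    obtain ⟨j, hj⟩ := Subgroup.mem_zpowers_iff.mp (hgen σ₀ hσ₀.mem)
    have hσI : f σ ∈ Subgroup.zpowers (f σ₀) := by
      have hjp : ¬ (p : ℤ) ∣ j := by
        rintro ⟨l, rfl⟩
        refine hcyc ?_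
        have h2 := congrArg Prod.snd hj
        change cycPow p q σ ^ ((p : ℤ) * l) = cycPow p q σ₀ at h2
        rw [← h2, zpow_mul, zpow_natCast, cycPow_pow_eq_one hdvd, one_zpow]
      obtain ⟨e, he⟩ : ∃ e : ℕ, f σ ^ p ^ e = 1 := by
        exact hpg σ hσ.mem
      obtain ⟨u, v, huv⟩ : IsCoprime j ((p : ℤ) ^ e) :=
        (((Nat.prime_iff_prime_int.mp Fact.out).coprime_iff_not_dvd.mpr hjp).symm).pow_right
      refine Subgroup.mem_zpowers_iff.mpr ⟨u, ?_⟩
      rw [← hj, ← zpow_mul, show j * u = 1 + (-v) * (p : ℤ) ^ e by linear_combination huv,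
        zpow_add, zpow_one, mul_comm (-v), zpow_mul, ← Nat.cast_pow, zpow_natCast, he, one_zpow,
        mul_one]
    refine ⟨?_, fun τ hτ => ?_⟩
    · have h1 : f (φ * σ₀ * φ⁻¹) = f (σ₀ ^ q) := by
        rw [map_mul, map_mul, map_inv] at hrel
        rw [map_mul, map_mul, map_inv, map_pow, ← hj, ← conj_zpow, hrel, ← zpow_natCast,
          ← zpow_natCast, ← zpow_mul, ← zpow_mul, mul_comm]
      have h2 := heq _ _ h1
      have h3 : ρ.trace (φ * σ₀ * φ⁻¹) = t := by
        rw [ht, GaloisRepAdic.trace, GaloisRepAdic.trace, map_mul, LinearMap.trace_mul_comm,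
          ← map_mul, ← mul_assoc, inv_mul_cancel, one_mul]
      rw [htpow, h3] at h2
      exact neg_mem_iff.mp (by rwa [neg_sub])
    · obtain ⟨k, hk⟩ := (mem_powers_iff_mem_zpowers (x := f σ₀)).mpr
        ((Subgroup.zpowers_le (G := _)).mpr hσI (hgen τ hτ))
      refine ⟨k, ?_⟩
      rw [← htpow]
      exact heq _ _ (by rw [map_pow]; exact hk.symm)
  have hbot : ∀ z : T, (∀ n, z ∈ maximalIdeal T ^ n) → z = 0 := fun z hz =>
    (Submodule.mem_bot T).mp (mem_of_forall_mem_sup_pow fun n =>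
      (le_sup_right : maximalIdeal T ^ n ≤ ⊥ ⊔ maximalIdeal T ^ n) (hz n))
  refine ⟨exists_finset_prod_eq_zero Fact.out hp2 hp hq hdvd hc₀ htm
    (sub_eq_zero.mp (hbot _ fun n => (hlevel n).1)), fun τ hτ => mem_of_forall_mem_sup_pow fun n => ?_⟩
  obtain ⟨k, hk⟩ := (hlevel n).2 τ hτ
  exact Submodule.mem_sup.mpr ⟨_, dicksonTrace_sub_two_mem t k, _, hk, by ring⟩

end FLTAgent.Lower.Levels
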