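import Fermat.Agent.Lower.Levels.Twist
import Fermat.Agent.Lower.Levels.Degen
import Fermat.Agent.Lower.Levels.Triv
import Fermat.Agent.Lower.Levels.Inertia
import Fermat.Agent.Degen.Cor

/-!
# Twists by nontrivial characters are killed

`twist_killed`: the twist by a character `η` modulo a prime `v` with `∑ η = 0` of a crossed
homomorphism of level `N₁ v` is killed by `U_v` and by corestriction back to level `N₁ v`.  Both
operators are systems whose matrices fall into orbits on each of which the weights add up to zero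
(`Sys.map_eq_zero_of_fibres`).
-/

set_option autoImplicit false

noncomputable section

open CongruenceSubgroup
open scoped MatrixGroups

namespace FLTAgent.Lower.Levels

open FLTAgent.HeckeH (M2 matOf mkGamma0 matOf_mul matOf_injective heckeIdx heckeBeta matOf_dvd
  det_entries)

/-- A system whose matrices fall into few orbits, with the weights twisted by the character adding
up to zero on each, sends crossed homomorphisms to coboundaries. -/
theorem Sys.map_eq_zero_of_fibres {N M : ℕ} {R : Type} [CommRing R] {A : Type} [AddCommGroup A]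
    [Module R A] {χ : Gamma0 N →* Rˣ} {χ' : Gamma0 M →* Rˣ} {ι κ : Type} [Fintype ι] [Fintype κ]
    (S : Sys R ι χ χ') (B : κ → M2) (hdet : ∀ s, (B s).det ≠ 0)
    (hinj : ∀ (d : Gamma0 N) (s t : κ), B s = matOf d * B t → s = t)
    (e : ι → κ) (δ : ι → Gamma0 N) (hβ : ∀ i, S.β i = matOf (δ i) * B (e i))
    (hw : ∀ f : κ → A, ∑ i, (S.w i * (χ (δ i) : R)) • f (e i) = 0) :
    S.map A = 0 := by
  classical
  refine LinearMap.ext fun x => ?_
  induction x using Submodule.Quotient.induction_on with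
  | _ c =>
    rw [Sys.map_mk, LinearMap.zero_apply, Submodule.Quotient.mk_eq_zero]
    refine ⟨-∑ i, S.w i • (c : Gamma0 N → A) (δ i), Subtype.ext (funext fun γ => ?_)⟩
    set d : ι → Gamma0 N := fun i => (δ i)⁻¹ * S.coc γ i * δ (S.perm γ i)
    have hd : ∀ i, B (e i) * matOf γ = matOf (d i) * B (e (S.perm γ i)) := fun i => by
      have h := S.spec γ i
      rw [hβ, hβ] at h
      simp only [d, matOf_mul, Matrix.mul_assoc]
      rw [← h]
      simp only [← Matrix.mul_assoc, ← matOf_mul, inv_mul_cancel, FLTAgent.HeckeH.matOf_one,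
        Matrix.one_mul]
    have hfac : ∀ i j, e i = e j → d i = d j := fun i j hij => by
      have h1 := hd i
      rw [hij, hd j] at h1
      exact (Sys.unique_of_inj hdet hinj h1).1.symm
    set F : κ → A := Function.extend e (fun i => (c : Gamma0 N → A) (d i)) 0
    have hF : ∀ i, F (e i) = (c : Gamma0 N → A) (d i) := fun i => by
      have hex : ∃ a, e a = e i := ⟨i, rfl⟩
      simp only [F, Function.extend_def, dif_pos hex]
      rw [hfac _ _ hex.choose_spec]
    have hc : ∀ i, S.w i • (c : Gamma0 N → A) (S.coc γ i) =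
        S.w i • (c : Gamma0 N → A) (δ i) + (S.w i * (χ (δ i) : R)) • F (e i) -
          (χ' γ : R) • (S.w (S.perm γ i) • (c : Gamma0 N → A) (δ (S.perm γ i))) := fun i => by
      have h1 : S.coc γ i * δ (S.perm γ i) = δ i * d i := by simp [d, mul_assoc]
      have h2 := congrArg (c : Gamma0 N → A) h1
      rw [Z1_mul, Z1_mul, ← hF] at h2
      rw [eq_sub_iff_add_eq, smul_smul (χ' γ : R), ← S.compat, ← smul_smul, ← smul_add, h2,
        smul_add, smul_smul]
    rw [cobd_apply, Sys.coe_op, Finset.sum_congr rfl fun i _ => hc i, Finset.sum_sub_distrib,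
      Finset.sum_add_distrib, hw F, add_zero, ← Finset.smul_sum,
      Equiv.sum_comp (S.perm γ) (fun i => S.w i • (c : Gamma0 N → A) (δ i))]
    module

section Cor

variable {N M v : ℕ}

theorem mem_mul_iff (hM : N * v = M) [NeZero N] (g : Gamma0 N) :
    (g : SL(2, ℤ)) ∈ Gamma0 M ↔ (v : ℤ) ∣ matOf g 1 0 / N := by
  obtain ⟨c, hc⟩ := matOf_dvd g
  have hN : (N : ℤ) ≠ 0 := by exact_mod_cast NeZero.ne N
  rw [Gamma0_mem, ZMod.intCast_zmod_eq_zero_iff_dvd,
    show ((g : SL(2, ℤ)) : Matrix (Fin 2) (Fin 2) ℤ) 1 0 = matOf g 1 0 from rfl, hc,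
    Int.mul_ediv_cancel_left _ hN, ← hM, Nat.cast_mul]
  exact mul_dvd_mul_iff_left hN

/-- `(1 0; N j 1)`. -/
def lowElt (N : ℕ) {v : ℕ} (j : ZMod v) : Gamma0 N :=
  mkGamma0 1 0 ((N : ℤ) * (j.val : ℤ)) 1 (by ring) (dvd_mul_right _ _)

theorem matOf_mul_lowElt (g : Gamma0 N) [NeZero N] (j : ZMod v) :
    matOf (lowElt N j * g) 1 0 = (N : ℤ) * ((j.val : ℤ) * matOf g 0 0 + matOf g 1 0 / N) := by
  obtain ⟨c, hc⟩ := matOf_dvd g
  rw [matOf_mul, Matrix.mul_apply, Fin.sum_univ_two, lowElt, FLTAgent.HeckeH.matOf_mkGamma0]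
  simp only [Matrix.of_apply, Matrix.cons_val_one, Matrix.cons_val_zero,
    Matrix.cons_val_fin_one, hc,
    Int.mul_ediv_cancel_left _ (show (N : ℤ) ≠ 0 by exact_mod_cast NeZero.ne N)]
  ring

theorem exists_lowElt (hv : v.Prime) (hvN : v ∣ N) (hM : N * v = M) [NeZero N] (g : Gamma0 N) :
    ∃ j : ZMod v, ((lowElt N j * g : Gamma0 N) : SL(2, ℤ)) ∈ Gamma0 M := by
  have : Fact v.Prime := ⟨hv⟩
  have ha : ((matOf g 0 0 : ℤ) : ZMod v) ≠ 0 := fun h => by
    have h1 := intCast_matOf_mul_eq_one hvN g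
    rw [h, zero_mul] at h1
    exact zero_ne_one h1
  refine ⟨-((matOf g 1 0 / N : ℤ) : ZMod v) / ((matOf g 0 0 : ℤ) : ZMod v),
    (mem_mul_iff hM _).mpr ?_⟩
  rw [matOf_mul_lowElt, Int.mul_ediv_cancel_left _ (show (N : ℤ) ≠ 0 by exact_mod_cast NeZero.ne N),
    ← ZMod.intCast_zmod_eq_zero_iff_dvd]
  push_cast
  rw [ZMod.natCast_zmod_val, div_mul_cancel₀ _ ha, neg_add_cancel]

theorem lowElt_inj (hM : N * v = M) [NeZero N] [NeZero v] {i j : ZMod v}
    (h : ((lowElt N i * (lowElt N j)⁻¹ : Gamma0 N) : SL(2, ℤ)) ∈ Gamma0 M) : i = j := by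
  have hN : (N : ℤ) ≠ 0 := by exact_mod_cast NeZero.ne N
  have e : (lowElt N j)⁻¹ = mkGamma0 1 0 (-((N : ℤ) * (j.val : ℤ))) 1 (by ring)
      (dvd_neg.mpr (dvd_mul_right _ _)) := by
    rw [inv_eq_iff_mul_eq_one]
    refine matOf_injective ?_
    simp [lowElt, matOf_mul, Matrix.one_fin_two]
  have h1 := (mem_mul_iff hM _).mp h
  rw [matOf_mul_lowElt, Int.mul_ediv_cancel_left _ hN, e, FLTAgent.HeckeH.matOf_mkGamma0,
    ← ZMod.intCast_zmod_eq_zero_iff_dvd] at h1
  simp only [Matrix.of_apply, Matrix.cons_val_one, Matrix.cons_val_zero,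
    Matrix.cons_val_fin_one, ← mul_neg, Int.mul_ediv_cancel_left _ hN] at h1
  push_cast at h1
  rw [ZMod.natCast_zmod_val, ZMod.natCast_zmod_val, mul_one, add_neg_eq_zero] at h1
  exact h1

variable (R : Type) [CommRing R] (hv : v.Prime) (hvN : v ∣ N) (hM : N * v = M) [NeZero N]
  [NeZero v]

theorem lowElt_coset (δ : Gamma0 M) (i j : ZMod v)
    (h : matOf (lowElt N i) = matOf δ * matOf (lowElt N j)) :
    ((lowElt N i * (lowElt N j)⁻¹ : Gamma0 N) : SL(2, ℤ)) ∈ Gamma0 M := by
  have h2 : ((lowElt N i : Gamma0 N) : SL(2, ℤ)) = (δ : SL(2, ℤ)) * (lowElt N j : SL(2, ℤ)) :=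
    Subtype.ext h
  have e : ((lowElt N i * (lowElt N j)⁻¹ : Gamma0 N) : SL(2, ℤ)) = (δ : SL(2, ℤ)) := by simp [h2]
  rw [e]
  exact δ.2

include hv hvN hM in
theorem exists_lowElt_mul (γ : Gamma0 N) (i : ZMod v) :
    ∃ (δ : Gamma0 M) (j : ZMod v),
      matOf (lowElt N i) * matOf γ = matOf δ * matOf (lowElt N j) := by
  obtain ⟨j, hj⟩ := exists_lowElt hv hvN hM (lowElt N i * γ)⁻¹
  have hmem : ((lowElt N i * γ * (lowElt N j)⁻¹ : Gamma0 N) : SL(2, ℤ)) ∈ Gamma0 M := by
    have := (Gamma0 M).inv_mem hj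
    simpa [mul_assoc] using this
  refine ⟨⟨_, hmem⟩, j, ?_⟩
  show _ = matOf (lowElt N i * γ * (lowElt N j)⁻¹) * matOf (lowElt N j)
  rw [← matOf_mul, ← matOf_mul, inv_mul_cancel_right]

/-- Corestriction from level `N v` to level `N`, `v ∣ N`. -/
def lowSys : Sys R (ZMod v) (tchi M R) (tchi N R) :=
  Sys.mk' (fun j => matOf (lowElt N j))
    (fun _ => by rw [FLTAgent.HeckeH.det_matOf]; exact one_ne_zero)
    (fun δ i j h => lowElt_inj hM (lowElt_coset δ i j h))
    (exists_lowElt_mul hv hvN hM) (fun _ => 1) (fun _ _ _ _ _ => by simp)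

/-- Corestriction is the operator of `lowSys`. -/
theorem corFun_h1Triv [NeZero M] (x : H1 R R (tchi M R)) :
    Degen.corFun (N := N) (h1Triv M R R x) =
      h1Triv N R R ((lowSys R hv hvN hM).map R x) := by
  classical
  induction x using Submodule.Quotient.induction_on with
  | _ c =>
    have := Fintype.ofFinite (Gamma0 N ⧸ Degen.subG0 N M)
    let f : ZMod v → Gamma0 N ⧸ Degen.subG0 N M := fun j => ((lowElt N j)⁻¹ : Gamma0 N)
    have hf : Function.Bijective f := by
      refine ⟨fun i j h => lowElt_inj hM ?_, fun q => ?_⟩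
      · have h1 := QuotientGroup.eq.mp h
        rwa [inv_inv] at h1
      · induction q using QuotientGroup.induction_on with
        | _ g =>
          obtain ⟨j, hj⟩ := exists_lowElt hv hvN hM g
          exact ⟨j, QuotientGroup.eq.mpr (by rwa [inv_inv])⟩
    set E := Equiv.ofBijective f hf
    have hs : ∀ q, (((lowElt N (E.symm q))⁻¹ : Gamma0 N) : Gamma0 N ⧸ Degen.subG0 N M) = q :=
      fun q => E.apply_symm_apply q
    refine AddMonoidHom.ext fun γ => ?_
    obtain ⟨γ, rfl⟩ := Additive.ofMul.surjective γ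
    rw [Degen.corFun_apply _ (fun q => (lowElt N (E.symm q))⁻¹) hs, Sys.map_mk, h1Triv_mk,
      Sys.coe_op]
    refine Fintype.sum_equiv E.symm _ _ fun q => ?_
    rw [h1Triv_mk, show (lowSys R hv hvN hM).w (E.symm q) = 1 from rfl, one_smul]
    set i := E.symm q
    set j := E.symm (γ⁻¹ • q)
    refine congrArg (c : Gamma0 M → R) (Eq.symm (((lowSys R hv hvN hM).eq_of_mul
      (fun δ i j h => lowElt_inj hM (lowElt_coset δ i j h)) (j := j) ?_).1))
    show matOf (lowElt N i) * matOf γ =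
      matOf ((lowElt N i)⁻¹⁻¹ * (γ * (lowElt N j)⁻¹)) * matOf (lowElt N j)
    rw [← matOf_mul, ← matOf_mul, inv_inv, ← mul_assoc, inv_mul_cancel_right]

end Cor

/-- The sum over a product, fibred by a map bijective on each slice. -/
theorem sum_fibres_eq_zero {U J R A : Type} [Fintype U] [Fintype J] [Fintype R] [CommRing A]
    (E : U → J ≃ R) (a : U → A) (ha : ∑ u, a u = 0) (f : R → A) :
    ∑ p : U × J, a p.1 • f (E p.1 p.2) = 0 := by
  rw [Fintype.sum_prod_type]
  rw [Finset.sum_congr rfl fun x _ =>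
    show ∑ y, a x • f (E x y) = a x * ∑ r, f r by
      rw [← Finset.smul_sum, smul_eq_mul, Equiv.sum_comp (E x) f],
    ← Finset.sum_mul, ha, zero_mul]

theorem twist_killed_aux {N₁ v N M : ℕ} [NeZero N₁] [NeZero v] [NeZero N] [NeZero M]
    (hN : N = N₁ * v) (hM : M = N * v) (hv : v.Prime) (hvN : ¬ v ∣ N₁) (hvN' : v ∣ N)
    (hdvd' : N * v ∣ M) {R : Type} [CommRing R] (η : (ZMod v)ˣ →* Rˣ)
    (hsum : ∑ u : (ZMod v)ˣ, (η u : R) = 0) (c : Gamma0 N → R)
    (hc : c ∈ Z1 R R ((η.comp (dUnit hvN')) ^ 2)⁻¹) (y : Period.H M R R)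
    (hy : ∀ γ : Gamma0 M, (y : Additive (Gamma0 M) →+ R) (Additive.ofMul γ) =
      twistFun hvN' hdvd' η c γ) :
    HeckeH.heckeH M hv R R y = 0 ∧ Degen.corH (N := N) R R y = 0 := by
  classical
  have : Fact v.Prime := ⟨hv⟩
  have hvM : v ∣ M := (dvd_mul_left v N).trans hdvd'
  set ψ : (ZMod N)ˣ →* Rˣ := ((η.comp (ZMod.unitsMap hvN')) ^ 2)⁻¹ with hψ
  have hrel : TwistRel hvN' hdvd' η ψ (1 : (ZMod M)ˣ →* Rˣ) := by
    intro x
    have e : ZMod.unitsMap hvN' (ZMod.unitsMap ((dvd_mul_right N v).trans hdvd') x) =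
        ZMod.unitsMap ((dvd_mul_left v N).trans hdvd') x :=
      DFunLike.congr_fun (ZMod.unitsMap_comp hvN' ((dvd_mul_right N v).trans hdvd')) x
    simp only [hψ, MonoidHom.inv_apply, MonoidHom.pow_apply, MonoidHom.comp_apply,
      MonoidHom.one_apply, e, inv_mul_cancel]
  have hchi : chi ψ = ((η.comp (dUnit hvN')) ^ 2)⁻¹ := MonoidHom.ext fun γ => by
    simp only [hψ, chi, MonoidHom.inv_apply, MonoidHom.pow_apply, MonoidHom.comp_apply, dUnit_trans]
  -- `χ` on an element of known lower right entry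
  have hχ : ∀ (g : Gamma0 N) (u : (ZMod v)ˣ), ((matOf g 1 1 : ℤ) : ZMod v) = (u : ZMod v) →
      chi ψ g = (η u ^ 2)⁻¹ := fun g u hu => by
    rw [hchi, MonoidHom.inv_apply, MonoidHom.pow_apply, MonoidHom.comp_apply,
      show dUnit hvN' g = u from Units.ext hu]
  set tw := twistSys hrel
  set x₀ : H1 R R (chi ψ) := Submodule.Quotient.mk ⟨c, by rw [hchi]; exact hc⟩
  have hy' : (y : Additive (Gamma0 M) →+ R) = h1Triv M R R (tw.map R x₀) := by
    refine AddMonoidHom.ext fun γ => ?_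
    obtain ⟨γ, rfl⟩ := Additive.ofMul.surjective γ
    rw [hy γ, Sys.map_mk, h1Triv_mk, coe_twistSys_op]
  have hinvsum : ∑ u : (ZMod v)ˣ, ((η u)⁻¹ : Rˣ).val = 0 := by
    rw [← hsum, ← Equiv.sum_comp (Equiv.inv (ZMod v)ˣ)]
    simp
  constructor
  · -- `U_v`
    have hnone : ∀ i : heckeIdx M v, ∃ a : Fin v, i.1 = some a := by
      rintro ⟨_ | a, h⟩
      · exact absurd hvM (h rfl)
      · exact ⟨a, rfl⟩
    choose idx hidx using hnone
    have hidxinj : Function.Injective idx := fun i i' h =>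
      Subtype.ext ((hidx i).trans ((congrArg some h).trans (hidx i').symm))
    have hidxsurj : Function.Surjective idx := fun a => ⟨⟨some a, fun h => by simp at h⟩,
      Option.some.inj ((hidx _).symm.trans rfl)⟩
    let J : heckeIdx M v ≃ ZMod v := (Equiv.ofBijective idx ⟨hidxinj, hidxsurj⟩).trans
      (Equiv.ofBijective (fun a : Fin v => ((a : ℕ) : ZMod v))
        ((Fintype.bijective_iff_injective_and_card _).mpr ⟨fun a b h => Fin.ext (by
          have := congrArg ZMod.val h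
          rwa [ZMod.val_cast_of_lt a.2, ZMod.val_cast_of_lt b.2] at this), by simp⟩))
    have hJ : ∀ i, J i = ((idx i : ℕ) : ZMod v) := fun i => rfl
    let B : ZMod v → M2 := fun s => !![(v : ℤ), (v : ℤ) * (s.val : ℤ); 0, (v : ℤ) * v]
    let e : (ZMod v)ˣ × heckeIdx M v → ZMod v := fun p => (p.1 : ZMod v) + J p.2
    have hvpos : (0 : ℤ) < v := by exact_mod_cast hv.pos
    have hdvd : ∀ p : (ZMod v)ˣ × heckeIdx M v, (v : ℤ) ∣
        ((p.1 : ZMod v).val : ℤ) + (idx p.2 : ℕ) - ((e p).val : ℤ) := fun p => by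
      rw [← ZMod.intCast_zmod_eq_zero_iff_dvd]
      push_cast
      rw [ZMod.natCast_zmod_val, ZMod.natCast_zmod_val, ← hJ]
      simp [e]
    choose k hk using hdvd
    have key : ((tw.comp (heckeSys hv (1 : (ZMod M)ˣ →* Rˣ)))).map R = 0 := by
      refine Sys.map_eq_zero_of_fibres _ B
        (fun s => by simp [B, Matrix.det_fin_two_of, hv.ne_zero]) (fun d s t h => ?_) e
        (fun p => gammaT N (k p)) (fun p => ?_) fun f => ?_
      · obtain ⟨-, -, h3, -⟩ := eq_of_triangular hvpos hvpos h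
        rw [← mul_sub, mul_dvd_mul_iff_left hvpos.ne', ← ZMod.intCast_zmod_eq_zero_iff_dvd] at h3
        push_cast at h3
        rwa [ZMod.natCast_zmod_val, ZMod.natCast_zmod_val, sub_eq_zero] at h3
      · obtain ⟨u, ⟨_ | a, ho⟩⟩ := p
        · exact absurd hvM (ho rfl)
        have hi : idx ⟨some a, ho⟩ = a := (Option.some.inj (hidx ⟨some a, ho⟩)).symm
        have h := hk (u, ⟨some a, ho⟩)
        rw [hi] at h
        simp only [Sys.comp_β, heckeSys_β, FLTAgent.HeckeH.heckeBeta_some, tw, twistSys,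
          Sys.mk'_β, transMat, gammaT, FLTAgent.HeckeH.matOf_mkGamma0, B, Matrix.mul_fin_two]
        ext a b
        fin_cases a <;> fin_cases b <;> simp [-ZMod.natCast_val] <;>
          first | ring1 | linear_combination (v : ℤ) * h
      · have hwχ : ∀ p : (ZMod v)ˣ × heckeIdx M v,
            (tw.comp (heckeSys hv (1 : (ZMod M)ˣ →* Rˣ))).w p *
              ((chi ψ (gammaT N (k p)) : Rˣ) : R) = ((η p.1)⁻¹ : Rˣ).val := fun p => by
          rw [chi_gammaT, Units.val_one, mul_one, Sys.comp_w, heckeSys_one_w, mul_one]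
          rfl
        simp only [hwχ]
        exact sum_fibres_eq_zero (fun u : (ZMod v)ˣ => J.trans (Equiv.addLeft (u : ZMod v))) _ hinvsum f
    refine Subtype.ext ?_
    rw [HeckeH.coe_heckeH, hy', ← h1Triv_heckeOp, heckeOp, ← Sys.map_comp, key,
      LinearMap.zero_apply, map_zero, ZeroMemClass.coe_zero]
  · -- corestriction
    have hv0 : (v : ℤ) ≠ 0 := by exact_mod_cast hv.ne_zero
    have hN₁0 : (N₁ : ZMod v) ≠ 0 := fun h => hvN ((ZMod.natCast_eq_zero_iff _ _).mp h)
    set S := tw.comp (lowSys R hv hvN' hM.symm)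
    let j₀ : ZMod v → ZMod v := fun s => (s - 1) / (N₁ : ZMod v)
    let e : (ZMod v)ˣ × ZMod v → ZMod v := fun p => ((p.1⁻¹ : (ZMod v)ˣ) : ZMod v) + N₁ * p.2
    -- `(v u; 0 v) (1 0; N k 1) (v u'; 0 v)⁻¹`
    have hstep : ∀ p : (ZMod v)ˣ × ZMod v, ∃ δ : Gamma0 N,
        S.β p = matOf δ * S.β (1, j₀ (e p)) ∧
          ((matOf δ 1 1 : ℤ) : ZMod v) = ((p.1⁻¹ : (ZMod v)ˣ) : ZMod v) := by
      rintro ⟨u, j⟩
      have := Fact.mk hv.one_lt
      set U : ℤ := ((u : ZMod v).val : ℤ)
      set K : ℤ := ((j.val : ℤ)) - ((j₀ (e (u, j))).val : ℤ)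
      have hK : ((N₁ : ℤ) * K : ZMod v) = 1 - ((u⁻¹ : (ZMod v)ˣ) : ZMod v) := by
        simp only [K, j₀, e]
        push_cast
        rw [ZMod.natCast_zmod_val, ZMod.natCast_zmod_val, mul_sub, mul_div_cancel₀ _ hN₁0]
        ring
      obtain ⟨b, hb⟩ : (v : ℤ) ∣ U - 1 - U * ((N₁ : ℤ) * K) := by
        rw [← ZMod.intCast_zmod_eq_zero_iff_dvd]
        push_cast at hK ⊢
        rw [hK, show ((U : ℤ) : ZMod v) = (u : ZMod v) from by simp [U]]
        rw [mul_sub, mul_one, mul_inv_cancel₀ u.ne_zero, sub_self]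
      refine ⟨mkGamma0 (1 + U * N₁ * K) b ((N : ℤ) * K) (1 - N₁ * K) ?_ (dvd_mul_right _ _),
        ?_, ?_⟩
      · rw [hN]
        push_cast
        linear_combination (N₁ : ℤ) * K * hb
      · simp only [S, Sys.comp_β, tw, twistSys, lowSys, Sys.mk'_β, transMat, lowElt,
          FLTAgent.HeckeH.matOf_mkGamma0, Units.val_one, ZMod.val_one, Matrix.mul_fin_two]
        ext a c
        fin_cases a <;> fin_cases c <;> simp [-ZMod.natCast_val, hN, K] <;>
          first
            | ring1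
            | linear_combination (N₁ : ℤ) * ((j₀ (e (u, j))).val : ℤ) * (v : ℤ) * hb
            | linear_combination hb
      · rw [FLTAgent.HeckeH.matOf_mkGamma0]
        simp only [Matrix.of_apply, Matrix.cons_val_one, Matrix.cons_val_fin_one]
        push_cast at hK ⊢
        rw [hK]
        ring
    choose δ hδ hδd using hstep
    have key : S.map R = 0 := by
      refine Sys.map_eq_zero_of_fibres S (fun s => S.β (1, j₀ s)) (fun s => S.det_ne _)
        (fun d s t h => ?_) e δ hδ fun f => ?_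
      · have := Fact.mk hv.one_lt
        have h' : transMat v ((1 : (ZMod v)ˣ) : ZMod v) * matOf (lowElt N (j₀ s)) =
            matOf d * (transMat v ((1 : (ZMod v)ˣ) : ZMod v) * matOf (lowElt N (j₀ t))) := h
        rw [Units.val_one, transMat, lowElt, lowElt, ZMod.val_one, Matrix.eta_fin_two (matOf d),
          FLTAgent.HeckeH.matOf_mkGamma0, FLTAgent.HeckeH.matOf_mkGamma0] at h'
        have h00 := congrFun (congrFun h' 0) 0
        have h01 := congrFun (congrFun h' 0) 1
        simp [-ZMod.natCast_val, Matrix.mul_apply, Fin.sum_univ_two, hN] at h00 h01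
        have h2 : ((N₁ : ℤ) * (((j₀ s).val : ℤ) - (j₀ t).val) : ZMod v) = 0 := by
          have h3 : matOf d 0 0 = 1 + N₁ * (((j₀ s).val : ℤ) - (j₀ t).val) := by
            refine mul_left_cancel₀ hv0 ?_
            linear_combination -h00 + (N₁ : ℤ) * v * ((j₀ t).val : ℤ) * h01
          have h4 := congrArg (fun z : ℤ => (z : ZMod v)) h01
          simp only [h3] at h4
          push_cast at h4 ⊢
          simp only [ZMod.natCast_self, mul_zero, add_zero] at h4
          linear_combination -h4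
        push_cast at h2
        rw [ZMod.natCast_zmod_val, ZMod.natCast_zmod_val, mul_eq_zero, sub_eq_zero] at h2
        have h5 := congrArg (· * (N₁ : ZMod v)) (h2.resolve_left hN₁0)
        simp only [j₀, div_mul_cancel₀ _ hN₁0, sub_left_inj] at h5
        exact h5
      · have hwχ : ∀ p, S.w p * ((chi ψ (δ p) : Rˣ) : R) = (η p.1 : R) := fun p => by
          rw [hχ _ _ (hδd p)]
          show ((η p.1)⁻¹ : Rˣ).val * 1 * _ = _
          rw [mul_one, ← Units.val_mul]
          refine congrArg Units.val ?_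
          rw [map_inv, inv_pow, inv_inv, sq, inv_mul_cancel_left]
        simp only [hwχ]
        exact sum_fibres_eq_zero (fun u : (ZMod v)ˣ => (Equiv.mulLeft₀ (N₁ : ZMod v) hN₁0).trans
          (Equiv.addLeft ((u⁻¹ : (ZMod v)ˣ) : ZMod v))) _ hsum f
    refine Subtype.ext ?_
    rw [Degen.coe_corH, hy', corFun_h1Triv R hv hvN' hM.symm, ← Sys.map_comp, key,
      LinearMap.zero_apply, map_zero, ZeroMemClass.coe_zero]

/-- `U_v` and corestriction kill a twist by a character `η` with `∑ η = 0`. -/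
theorem twist_killed {N₁ v : ℕ} [NeZero N₁] [NeZero v] (hv : v.Prime) (hvN : ¬ v ∣ N₁)
    {R : Type} [CommRing R] (η : (ZMod v)ˣ →* Rˣ) (hneg : η (-1) = 1)
    (hsum : ∑ u : (ZMod v)ˣ, (η u : R) = 0)
    (c : Gamma0 (N₁ * v) → R)
    (hc : c ∈ Z1 R R ((η.comp (dUnit (dvd_mul_left v N₁))) ^ 2)⁻¹)
    (y : Period.H (N₁ * v * v) R R) (hy : IsTwist N₁ v η c y) :
    HeckeH.heckeH (N₁ * v * v) hv R R y = 0 ∧ Degen.corH (N := N₁ * v) R R y = 0 :=
  twist_killed_aux rfl rfl hv hvN (dvd_mul_left v N₁) dvd_rfl η hsum c hc y hy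

end FLTAgent.Lower.Levels
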