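import Fermat.Agent.Lower.Levels.Embed
import Fermat.Agent.Lower.Levels.Triv
import Fermat.Agent.Lower.Levels.Inertia

/-!
# Splitting a twist

`exists_isTwist_split`: a twist at `q Q` is, up to a unit, the twist at `q` of a crossed
homomorphism of level `N₁ q` obtained by twisting at `Q`.
-/

set_option autoImplicit false

noncomputable section

open CongruenceSubgroup
open scoped MatrixGroups

namespace FLTAgent.Lower.Levels

variable {R : Type} [CommRing R]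

/-- Two composable reductions of units. -/
theorem unitsMap_unitsMap {a b c : ℕ} (hab : a ∣ b) (hbc : b ∣ c) (u : (ZMod c)ˣ) :
    ZMod.unitsMap hab (ZMod.unitsMap hbc u) = ZMod.unitsMap (hab.trans hbc) u :=
  DFunLike.congr_fun (ZMod.unitsMap_comp hab hbc) u

/-- The twist at `q Q` is a unit times the twist at `q` of a crossed homomorphism obtained by
twisting at `Q`. -/
theorem exists_isTwist_split {L Q q P N₁ : ℕ} [NeZero L] [NeZero q] [NeZero Q] [NeZero P]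
    [NeZero N₁] (hPeq : P = Q * q) (hco : Nat.Coprime Q q) (hP : P ∣ L)
    (hN₁ : N₁ * q = L * Q) (hMd : L * P ∣ N₁ * q * q) (η : (ZMod P)ˣ →* Rˣ)
    (ηq : (ZMod q)ˣ →* Rˣ) (ηQ : (ZMod Q)ˣ →* Rˣ) {hqP : q ∣ P} {hQP : Q ∣ P}
    (hη : ∀ u, η u = ηQ (ZMod.unitsMap hQP u) * ηq (ZMod.unitsMap hqP u))
    (h : TwistRel hP hMd η (twistChar hP η) (1 : (ZMod (N₁ * q * q))ˣ →* Rˣ))
    (x : H1 R R (chi (twistChar hP η))) :
    ∃ (c : Gamma0 (N₁ * q) → R) (C : Rˣ),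
      c ∈ Z1 R R ((ηq.comp (dUnit (dvd_mul_left q N₁))) ^ 2)⁻¹ ∧
      ∀ y : Period.H (N₁ * q * q) R R,
        (y : Additive (Gamma0 (N₁ * q * q)) →+ R) =
          h1Triv (N₁ * q * q) R R ((twistSys h).map R x) →
        IsTwist N₁ q ηq c ((C : R) • y) := by
  subst hPeq
  have : NeZero (N₁ * q) := ⟨mul_ne_zero (NeZero.ne N₁) (NeZero.ne q)⟩
  have hQL : Q ∣ L := hQP.trans hP
  have hLQ : L * Q ∣ N₁ * q := dvd_of_eq hN₁.symm
  have hqN : q ∣ N₁ * q := dvd_mul_left q N₁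
  let ψ₁ : (ZMod (N₁ * q))ˣ →* Rˣ := ((ηq.comp (ZMod.unitsMap hqN)) ^ 2)⁻¹
  have h₁ : TwistRel hQL hLQ ηQ (twistChar hP η) ψ₁ := fun z => by
    simp only [twistChar, ψ₁, MonoidHom.inv_apply, MonoidHom.pow_apply, MonoidHom.comp_apply, hη,
      unitsMap_unitsMap, mul_pow, mul_inv_rev]
    exact inv_mul_cancel_right _ _
  have h₂ : TwistRel hqN (dvd_refl (N₁ * q * q)) ηq ψ₁ (1 : (ZMod (N₁ * q * q))ˣ →* Rˣ) :=
    fun z => by
      simp only [ψ₁, MonoidHom.inv_apply, MonoidHom.pow_apply, MonoidHom.comp_apply,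
        MonoidHom.one_apply, unitsMap_unitsMap, inv_mul_cancel]
  have hchi : chi ψ₁ = ((ηq.comp (dUnit hqN)) ^ 2)⁻¹ := MonoidHom.ext fun γ => by
    simp only [ψ₁, chi, MonoidHom.inv_apply, MonoidHom.pow_apply, MonoidHom.comp_apply, dUnit_trans]
  obtain ⟨c, hc⟩ := Submodule.Quotient.mk_surjective _ ((twistSys h₁).map R x)
  refine ⟨(c : Gamma0 (N₁ * q) → R),
    ηQ (ZMod.unitOfCoprime q (Nat.coprime_comm.mp hco)) * ηq (ZMod.unitOfCoprime Q hco),
    hchi ▸ c.2, fun y hy γ => ?_⟩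
  rw [Submodule.coe_smul, hy, ← map_smul,
    ← twist_comp hco η hη h₁ h₂ h x, ← hc, Sys.map_mk, h1Triv_mk, coe_twistSys_op]

end FLTAgent.Lower.Levels
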