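import Fermat.Agent.Lower.Levels.Embed
import Fermat.Agent.Lower.Levels.TwistKill
import Fermat.Agent.Lower.Levels.TraceRep
import Fermat.Agent.Lower.Levels.TwistSplit

/-!
# Twisted classes and inertia

`eq_zero_of_twisted_inertia_two`: a class twisted at `q` by a character with vanishing sum, on
which inertia at `q` satisfies `σ + σ⁻¹ = 2`, is zero.  The twist is killed by `U_q` and by
corestriction (`TwistKill`), so `eq_zero_of_inertia_trace_two` applies.
-/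

set_option autoImplicit false

noncomputable section

open CongruenceSubgroup
open scoped MatrixGroups

namespace FLTAgent.Lower.Levels

local notation "ℚ̄" => AlgebraicClosure ℚ
local notation "Γℚ" => (AlgebraicClosure ℚ ≃ₐ[ℚ] AlgebraicClosure ℚ)

/-- The vanishing at level `q ^ 2 N₀`, for any level equal to it. -/
theorem eq_zero_of_inertia_two_of_eq {p : ℕ} [Fact p.Prime] {q N₀ M M' : ℕ} [NeZero q] [NeZero N₀]
    [NeZero M] [NeZero M'] (hM : M = q ^ 2 * N₀) (hM' : M' = q * N₀) (hq : q.Prime) (hqp : q ≠ p)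
    (hqN : ¬ q ∣ N₀) {O : Type} [CommRing O] [IsDomain O] [CharZero O] (f : ℤ_[p] →+* O)
    {R : Type} [CommRing R] [Algebra O R] [Module.Finite O R] [Module.Free O R]
    (A : ValuationSubring ℚ̄) (hA : A.LiesOverPrime q) (y : Period.H M R R)
    (hU : HeckeH.heckeH M hq R R y = 0) (hcor : Degen.corH (N := M') R R y = 0)
    (htwo : ∀ i ∈ A.inertiaSubgroupIn ℚ,
      galH M ((algebraMap O R).comp f) i y + galH M ((algebraMap O R).comp f) i⁻¹ y =
        (2 : R) • y) :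
    y = 0 := by
  subst hM hM'
  exact eq_zero_of_inertia_trace_two q N₀ hq hqp hqN f A hA y hU hcor htwo

theorem eq_zero_of_twisted_inertia_two_aux {p : ℕ} [Fact p.Prime] {L Q q P M N₁ : ℕ} [NeZero L]
    [NeZero q] [NeZero Q] [NeZero P] [NeZero M] [NeZero N₁] (hq : q.Prime) (hqp : q ≠ p)
    (hPeq : P = Q * q) (hco : Nat.Coprime Q q) (hP : P ∣ L) (hN₁ : N₁ * q = L * Q)
    (hqN : ¬ q ∣ N₁) (hMeq : M = L * P) (hMeq' : M = N₁ * q * q) (hMd : L * P ∣ M)
    {O : Type} [CommRing O] [IsDomain O] [CharZero O] (f : ℤ_[p] →+* O)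
    {R : Type} [CommRing R] [Algebra O R] [Module.Finite O R] [Module.Free O R]
    (η : (ZMod P)ˣ →* Rˣ) (ηq : (ZMod q)ˣ →* Rˣ) (ηQ : (ZMod Q)ˣ →* Rˣ) {hqP : q ∣ P}
    {hQP : Q ∣ P}
    (hη : ∀ u, η u = ηQ (ZMod.unitsMap hQP u) * ηq (ZMod.unitsMap hqP u))
    (hneg : ηq (-1) = 1) (hsum : ∑ u : (ZMod q)ˣ, (ηq u : R) = 0)
    (h : TwistRel hP hMd η (twistChar hP η) (1 : (ZMod M)ˣ →* Rˣ))
    (x : H1 R R (chi (twistChar hP η))) (y : Period.H M R R)
    (hy : (y : Additive (Gamma0 M) →+ R) = h1Triv M R R ((twistSys h).map R x))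
    (A : ValuationSubring ℚ̄) (hA : A.LiesOverPrime q)
    (htwo : ∀ i ∈ A.inertiaSubgroupIn ℚ,
      galH M ((algebraMap O R).comp f) i y + galH M ((algebraMap O R).comp f) i⁻¹ y =
        (2 : R) • y) :
    y = 0 := by
  subst hMeq'
  obtain ⟨c, C, hc, hC⟩ := exists_isTwist_split hPeq hco hP hN₁ hMd η ηq ηQ hη h x
  have : NeZero (N₁ * q) := ⟨mul_ne_zero (NeZero.ne N₁) (NeZero.ne q)⟩
  obtain ⟨hU, hcor⟩ := twist_killed hq hqN ηq hneg hsum c hc _ (hC y hy)
  have h0 : (C : R) • y = 0 :=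
    eq_zero_of_inertia_two_of_eq (M := N₁ * q * q) (M' := N₁ * q) (by ring) (by ring) hq hqp hqN f
      A hA _ hU hcor fun i hi => by
        rw [map_smul, map_smul, ← smul_add, htwo i hi, smul_comm]
  exact ((Units.isUnit C).smul_eq_zero).mp h0

/-- Inertia with trace two at a prime where the twisting character is nontrivial kills the twist. -/
theorem eq_zero_of_twisted_inertia_two {p : ℕ} [Fact p.Prime] {L Q q : ℕ} [NeZero L] [NeZero q]
    [NeZero Q] [NeZero (L * (q * Q))] (hq : q.Prime) (hqp : q ≠ p) (hQ : q * Q ∣ L)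
    (hco : Nat.Coprime q Q) (hq2 : ¬ q ^ 2 ∣ L)
    {O : Type} [CommRing O] [IsDomain O] [CharZero O] (f : ℤ_[p] →+* O)
    {R : Type} [CommRing R] [Algebra O R] [Module.Finite O R] [Module.Free O R]
    (η : (ZMod (q * Q))ˣ →* Rˣ) (ηq : (ZMod q)ˣ →* Rˣ) (ηQ : (ZMod Q)ˣ →* Rˣ)
    (hη : ∀ u, η u = ηq (ZMod.unitsMap (dvd_mul_right q Q) u) *
      ηQ (ZMod.unitsMap (dvd_mul_left Q q) u))
    (hneg : ηq (-1) = 1) (hsum : ∑ u : (ZMod q)ˣ, (ηq u : R) = 0)
    (x : H1 R R (chi (twistChar hQ η))) (y : Period.H (L * (q * Q)) R R)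
    (hy : (y : Additive (Gamma0 (L * (q * Q))) →+ R) =
      h1Triv (L * (q * Q)) R R (twistMap hQ η x))
    (A : ValuationSubring ℚ̄) (hA : A.LiesOverPrime q)
    (htwo : ∀ i ∈ A.inertiaSubgroupIn ℚ,
      galH (L * (q * Q)) ((algebraMap O R).comp f) i y +
        galH (L * (q * Q)) ((algebraMap O R).comp f) i⁻¹ y = (2 : R) • y) :
    y = 0 := by
  obtain ⟨L₀, hL₀⟩ : q ∣ L := (dvd_mul_right q Q).trans hQ
  have : NeZero (L₀ * Q) := ⟨mul_ne_zero
    (fun h0 => NeZero.ne L (by rw [hL₀, h0, mul_zero])) (NeZero.ne Q)⟩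
  refine eq_zero_of_twisted_inertia_two_aux (N₁ := L₀ * Q) hq hqp (mul_comm q Q) hco.symm hQ
    (by rw [hL₀]; ring) ?_ rfl (by rw [hL₀]; ring) dvd_rfl f η ηq ηQ
    (fun u => (hη u).trans (mul_comm _ _)) hneg hsum (twistRel_twistChar hQ η) x y hy A hA htwo
  intro hd
  rcases hq.dvd_mul.mp hd with hd | hd
  · exact hq2 (by rw [sq, hL₀]; exact Nat.mul_dvd_mul_left q hd)
  · exact (hq.coprime_iff_not_dvd.mp hco) hd

end FLTAgent.Lower.Levels
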