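import Fermat.Agent.Lower.Levels.MinimalBase
import Fermat.Agent.Lower.Levels.Pair
import Fermat.Agent.Lower.Levels.QFrame
import Fermat.Agent.Lower.Levels.TameTrace
import Fermat.Agent.Lower.Levels.TwistedInertia

/-!
# The auxiliary levels over the base

Under the hypotheses `LevelHyp`, the lattices at the auxiliary level with trivial (`levelY`) and
nontrivial (`levelYc`) character at `q` are combined into the pair lattice `levelP`.  Its
representation satisfies the local conditions (`level_cond_of`, `level_flat`), the trace relations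
on inertia at the auxiliary primes and at `q` (`level_trace_one`, `level_trace_aux`,
`level_trace_q`), and its two projections are congruent modulo the uniformiser (`level_congr`).
`nonempty_level` assembles these into a `Level`.
-/

set_option autoImplicit false
set_option linter.unusedSectionVars false
set_option linter.style.haveILetI false

noncomputable section

open CongruenceSubgroup
open scoped MatrixGroups Matrix

namespace FLTAgent.Lower.Levels

open IsLocalRing (maximalIdeal ResidueField residue)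
open FLTAgent.Lower.Lift (levelPrimes)

local notation "ℚ̄" => AlgebraicClosure ℚ
local notation "Γℚ" => (AlgebraicClosure ℚ ≃ₐ[ℚ] AlgebraicClosure ℚ)

theorem not_sq_dvd_mul {l a b : ℕ} (hl : l.Prime) (ha : ¬ l ^ 2 ∣ a) (hb : ¬ l ∣ b) :
    ¬ l ^ 2 ∣ a * b := fun h =>
  ha ((Nat.Coprime.pow_left 2 (hl.coprime_iff_not_dvd.mpr hb)).dvd_of_dvd_mul_right h)

variable {p : ℕ} [Fact p.Prime] {O : Type} [CommRing O] [IsDomain O] [IsDiscreteValuationRing O]
  [IsAdicComplete (maximalIdeal O) O] [Finite (ResidueField O)] [CharZero O]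
  {M : ℕ} [NeZero M] {ρbar : ResidualGaloisRep (ResidueField O)} {d : ℕ} [NeZero d]
  {n r : ℕ} {Qv : Fin r → ℕ} [NeZero (∏ i, Qv i)] {q : ℕ} [NeZero q]
  {h : ResHyp p (levelPrimes p M) ρbar}
  {F₀ : Frame (1 : (ZMod M)ˣ →* Oˣ) (awPr (levelPrimes p M)) (residue O)
    (fun l => frobTrace ρbar l.1) d}
  {θ' : AwayPrimes (levelPrimes p M) → ResidueField O}
  {η : (ZMod (∏ i, Qv i))ˣ →* (DeltaRing O p n r)ˣ} {χ : (ZMod q)ˣ →* Oˣ}

/-- The hypotheses of an auxiliary level. -/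
structure LevelHyp (p : ℕ) [Fact p.Prime] {O : Type} [CommRing O] [IsDomain O]
    [IsDiscreteValuationRing O] [IsAdicComplete (maximalIdeal O) O] [Finite (ResidueField O)]
    [CharZero O] (M : ℕ) [NeZero M]
    (Smin Saux : Finset ℕ) (ρbar : ResidualGaloisRep (ResidueField O)) (n : ℕ) {r : ℕ}
    (Qv : Fin r → ℕ) (θ' : AwayPrimes (levelPrimes p M) → ResidueField O)
    (η : (ZMod (∏ i, Qv i))ˣ →* (DeltaRing O p n r)ˣ) {q : ℕ} [NeZero q]
    (χ : (ZMod q)ˣ →* Oˣ) : Prop where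
  p_mem : (p : O) ∈ maximalIdeal O
  squarefree : Squarefree M
  primes : Smin ∪ Saux = M.primeFactors.erase p
  mem : q ∈ Saux
  good : GoodResidual p Smin Saux ρbar
  aux : AuxHyp p n (levelPrimes p M) ρbar Qv
  stab : StabEig ρbar (∏ i, Qv i) θ'
  eta : EtaHyp O p n Qv η
  char : QHyp p M q χ
  sum : ∑ u : (ZMod q)ˣ, (χ u : O) = 0

variable {Smin Saux : Finset ℕ} (hyp : LevelHyp p M Smin Saux ρbar n Qv θ' η χ)
  (D : AuxFrames F₀ θ' η) (C : QFrame D χ hyp.char.hdiv)

include hyp in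
theorem LevelHyp.prop {l : ℕ} (hl : l ∈ Smin ∪ Saux) :
    l.Prime ∧ l ≠ p ∧ l ∣ M ∧ ¬ l ^ 2 ∣ M ∧ ¬ l ∣ ∏ i, Qv i := by
  have hm := hyp.primes ▸ hl
  obtain ⟨hne, hpf⟩ := Finset.mem_erase.mp hm
  obtain ⟨hlp, hlM, -⟩ := Nat.mem_primeFactors.mp hpf
  refine ⟨hlp, hne, hlM, fun h2 => ?_, fun hd => ?_⟩
  · exact hlp.ne_one (Nat.isUnit_iff.mp (hyp.squarefree l (sq l ▸ h2)))
  · obtain ⟨i, hi⟩ := hyp.aux.exists_eq hlp hd
    exact hyp.aux.notMem i (hi ▸ mem_levelPrimes_of_dvd l hlp hlM)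

/-- The lattice with trivial character at `q`. -/
abbrev levelY : HeckeLattice p (M * (∏ i, Qv i) * ∏ i, Qv i)
    (levelPrimes p M ∪ Finset.univ.image Qv) ρbar (DeltaRing O p n r) d :=
  D.lattice hyp.p_mem h mem_levelPrimes_of_dvd hyp.aux hyp.stab hyp.eta

/-- The lattice with nontrivial character at `q`. -/
abbrev levelYc : HeckeLattice p (M * (∏ i, Qv i) * (q * ∏ i, Qv i))
    (levelPrimes p M ∪ Finset.univ.image Qv) ρbar (DeltaRing O p n r) d :=
  C.lattice hyp.p_mem h mem_levelPrimes_of_dvd hyp.aux hyp.stab hyp.eta hyp.char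

/-- The pair. -/
abbrev levelP : HeckeLattice p (M * (∏ i, Qv i) * (q * ∏ i, Qv i))
    (levelPrimes p M ∪ Finset.univ.image Qv) ρbar (DeltaRing O p n r × DeltaRing O p n r) d :=
  HeckeLattice.pair (levelY (h := h) hyp D) (levelYc (h := h) hyp D C)
    (Dvd.intro q (by ring)) (mul_one _).dvd (levelYc (h := h) hyp D C).level_mem

theorem levelP_ker (s : MvPolynomial (AwayIdx (levelPrimes p M ∪ Finset.univ.image Qv)) O)
    (hs : (levelP (h := h) hyp D C).act s = 0) :
    (baseX h F₀).act (MvPolynomial.rename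
      (HeckeLattice.awayMap (Finset.subset_union_left (s₂ := Finset.univ.image Qv))) s) = 0 := by
  refine (D.latticeLift hyp.p_mem h mem_levelPrimes_of_dvd hyp.aux hyp.stab hyp.eta (baseX h F₀)
    fun l => baseX_act h F₀ _).ker s ?_
  have h1 := HeckeLattice.pair_ker_fst _ _ _ _ _ s hs
  rwa [HeckeLattice.awayMap_refl, MvPolynomial.rename_id_apply] at h1

variable [IsLocalRing (DeltaRing O p n r)]

/-- The map to the component with trivial character. -/
abbrev levelFst : (levelP (h := h) hyp D C).T →ₐ[O] (levelY (h := h) hyp D).T :=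
  HeckeLattice.map le_rfl (HeckeLattice.pair_ker_fst _ _ _ _ _)

/-- The map to the component with nontrivial character. -/
abbrev levelSnd : (levelP (h := h) hyp D C).T →ₐ[O] (levelYc (h := h) hyp D C).T :=
  HeckeLattice.map le_rfl (HeckeLattice.pair_ker_snd _ _ _ _ _)

theorem levelFst_mk (s : MvPolynomial (AwayIdx (levelPrimes p M ∪ Finset.univ.image Qv)) O) :
    levelFst (h := h) hyp D C (Ideal.Quotient.mk _ s) = Ideal.Quotient.mk _ s := by
  rw [HeckeLattice.map_mk, HeckeLattice.awayMap_refl, MvPolynomial.rename_id_apply]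

theorem levelSnd_mk (s : MvPolynomial (AwayIdx (levelPrimes p M ∪ Finset.univ.image Qv)) O) :
    levelSnd (h := h) hyp D C (Ideal.Quotient.mk _ s) = Ideal.Quotient.mk _ s := by
  rw [HeckeLattice.map_mk, HeckeLattice.awayMap_refl, MvPolynomial.rename_id_apply]

theorem level_joint : Function.Injective fun t : (levelP (h := h) hyp D C).T =>
    (levelFst (h := h) hyp D C t, levelSnd (h := h) hyp D C t) := by
  intro t t' he
  obtain ⟨s, rfl⟩ := Ideal.Quotient.mk_surjective t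
  obtain ⟨s', rfl⟩ := Ideal.Quotient.mk_surjective t'
  obtain ⟨h1, h2⟩ := Prod.mk.inj he
  rw [levelFst_mk, levelFst_mk, Ideal.Quotient.eq, RingHom.mem_ker] at h1
  rw [levelSnd_mk, levelSnd_mk, Ideal.Quotient.eq, RingHom.mem_ker] at h2
  exact Ideal.Quotient.eq.mpr (RingHom.mem_ker.mpr (HeckeLattice.pair_joint _ _ _ _ _ _ h1 h2))

variable {f : ℤ_[p] →+* O}
  {ρ : GaloisRepAdic (levelP (h := h) hyp D C).T} (hρ : (levelP (h := h) hyp D C).IsRep f ρ)

theorem level_cond_of {loc : LocalType} (hloc : loc.cond ρ)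
    (hρ : (levelP (h := h) hyp D C).IsRep f ρ) : Cond loc p Smin (ramSet p Smin Saux Qv) ρ := by
  refine cond_of_attached hρ.attached (hρ.residual_absIrr h.absIrr) hloc (fun l hl => ?_)
    fun l hl hlS => ?_
  · obtain ⟨hlp, hne, hlM, h2, hlQ⟩ := hyp.prop (Finset.mem_union_left Saux hl)
    refine ⟨hlp, hne, (hlM.mul_right _).mul_right _, ?_⟩
    refine not_sq_dvd_mul hlp (not_sq_dvd_mul hlp h2 hlQ) fun hd => ?_
    rcases hlp.dvd_mul.mp hd with hd | hd
    · have he := (Nat.prime_dvd_prime_iff_eq hlp hyp.char.prime).mp hd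
      exact (hyp.good.aux_prime q hyp.mem).2.2 (he ▸ hl)
    · exact hlQ hd
  · simp only [ramSet, Finset.mem_insert, not_or] at hlS
    have hQ : ¬ l ∣ ∏ i, Qv i := fun hd => by
      obtain ⟨i, hi⟩ := hyp.aux.exists_eq hl hd
      exact hlS.2 (Finset.mem_union_right _ (Finset.mem_image.mpr ⟨i, Finset.mem_univ i, hi⟩))
    have hM : ¬ l ∣ M := fun hd => hlS.2 (Finset.mem_union_left _ (hyp.primes ▸
      Finset.mem_erase.mpr ⟨hlS.1, Nat.mem_primeFactors.mpr ⟨hl, hd, NeZero.ne M⟩⟩))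
    refine ⟨hlS.1, fun hd => ?_⟩
    rcases hl.dvd_mul.mp hd with hd | hd
    · exact (hl.dvd_mul.mp hd).elim hM hQ
    · exact (hl.dvd_mul.mp hd).elim (fun hq => hM (hq.trans hyp.char.dvd)) hQ

theorem level_flat (hpM : ¬ p ∣ M) (hρ : (levelP (h := h) hyp D C).IsRep f ρ) :
    (flatType p).cond ρ := by
  haveI : Module.Free O (levelP (h := h) hyp D C).T := free_imgRing _
  refine isFlatAt_of_attached hyp.p_mem hρ.attached (hρ.residual_absIrr h.absIrr) h.ne_two fun hd =>
    hpM ?_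
  have hp : p.Prime := Fact.out
  have hQ : ¬ p ∣ ∏ i, Qv i := fun hd => by
    obtain ⟨i, hi⟩ := hyp.aux.exists_eq hp hd
    exact hyp.aux.ne_p h.mem i hi
  rcases hp.dvd_mul.mp hd with hd | hd
  · exact (hp.dvd_mul.mp hd).resolve_right hQ
  · exact ((Nat.prime_dvd_prime_iff_eq hp hyp.char.prime).mp
      ((hp.dvd_mul.mp hd).resolve_right hQ)).symm ▸ hyp.char.dvd

include hρ in
theorem level_trace_one {ρY : GaloisRepAdic (levelY (h := h) hyp D).T}
    (hY : (levelY (h := h) hyp D).IsRep f ρY) {l : ℕ} (hl : l ∈ Saux) {A : ValuationSubring ℚ̄}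
    (hA : A.LiesOverPrime l) {σ : Γℚ} (hσ : σ ∈ A.inertiaSubgroupIn ℚ) :
    imgAct (levelY (h := h) hyp D).act (levelFst (h := h) hyp D C (ρ.trace σ)) = 2 := by
  obtain ⟨hlp, hne, hlM, h2, hlQ⟩ := hyp.prop (Finset.mem_union_right Smin hl)
  rw [HeckeLattice.map_trace _ _ h.absIrr hρ hY]
  exact hY.imgAct_trace_eq_two hlp hne ((hlM.mul_right _).mul_right _)
    (not_sq_dvd_mul hlp (not_sq_dvd_mul hlp h2 hlQ) hlQ) hA hσ

include hρ in
theorem level_trace_aux {ρc : GaloisRepAdic (levelYc (h := h) hyp D C).T}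
    (hc : (levelYc (h := h) hyp D C).IsRep f ρc) {l : ℕ} (hl : l ∈ Saux) (hlq : l ≠ q)
    {A : ValuationSubring ℚ̄} (hA : A.LiesOverPrime l) {σ : Γℚ}
    (hσ : σ ∈ A.inertiaSubgroupIn ℚ) :
    imgAct (levelYc (h := h) hyp D C).act (levelSnd (h := h) hyp D C (ρ.trace σ)) = 2 := by
  obtain ⟨hlp, hne, hlM, h2, hlQ⟩ := hyp.prop (Finset.mem_union_right Smin hl)
  rw [HeckeLattice.map_trace _ _ h.absIrr hρ hc]
  refine hc.imgAct_trace_eq_two hlp hne ((hlM.mul_right _).mul_right _)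
    (not_sq_dvd_mul hlp (not_sq_dvd_mul hlp h2 hlQ) fun hd => ?_) hA hσ
  rcases hlp.dvd_mul.mp hd with hd | hd
  · exact hlq ((Nat.prime_dvd_prime_iff_eq hlp hyp.char.prime).mp hd)
  · exact hlQ hd

include hρ in
theorem level_trace_q {ρc : GaloisRepAdic (levelYc (h := h) hyp D C).T}
    (hc : (levelYc (h := h) hyp D C).IsRep f ρc) {c₀ : O}
    (hc₀ : IsPrimitiveRoot c₀ (p ^ padicValNat p (q - 1))) {A : ValuationSubring ℚ̄}
    (hA : A.LiesOverPrime q) {σ₀ : Γℚ} (hσ₀ : IsInertiaGen p q A σ₀) :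
    ∃ s : Finset O, (∀ c ∈ s, c ^ (q - 1) = 1 ∧ c ≠ 1 ∧ c - 1 ∈ maximalIdeal O) ∧
      imgAct (levelYc (h := h) hyp D C).act (levelSnd (h := h) hyp D C
        (∏ c ∈ s, (ρ.trace σ₀ - algebraMap O _ (c + c ^ (q - 2))))) = 0 := by
  obtain ⟨hq, hqp, hqM, hq2, hqQ⟩ := hyp.prop (Finset.mem_union_right Smin hyp.mem)
  have hur := hyp.good.unramified q hq (hyp.good.aux_prime q hyp.mem).2.2 hqp
  obtain ⟨⟨s, hs, hprod⟩, hspan⟩ := exists_trace_prod_eq_zero h.ne_two hyp.p_mem hq hqp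
    (hyp.good.one_mod q hyp.mem) hc₀ ρ hA (fun τ hτ => hρ.residual_eq_one hur hA hτ)
    (fun τ hτ => hρ.det_eq_one hq hqp hA hτ) hσ₀
  refine ⟨s, hs, ?_⟩
  set P := ∏ c ∈ s, (ρ.trace σ₀ - algebraMap O _ (c + c ^ (q - 2)))
  set Z := imgAct (levelYc (h := h) hyp D C).act (levelSnd (h := h) hyp D C P)
  haveI : NeZero (M * ∏ i, Qv i) := ⟨mul_ne_zero (NeZero.ne M) (NeZero.ne _)⟩
  refine Matrix.ext_iff_mulVec.mpr fun x => ?_
  rw [Matrix.zero_mulVec]
  refine (levelYc (h := h) hyp D C).emb_injective ?_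
  rw [map_zero]
  have htwo : ∀ τ ∈ A.inertiaSubgroupIn ℚ,
      imgAct (levelYc (h := h) hyp D C).act (ρc.trace τ) *ᵥ (Z *ᵥ x) =
        (2 : DeltaRing O p n r) • (Z *ᵥ x) := fun τ hτ => by
    obtain ⟨w, hw⟩ := Ideal.mem_span_singleton'.mp (hspan τ hτ)
    have h0 : (ρ.trace τ - 2) * P = 0 := by
      rw [← hw]
      exact (mul_assoc w _ P).trans ((congrArg (w * ·) hprod).trans (mul_zero w))
    have h1 := congrArg (fun t => imgAct (levelYc (h := h) hyp D C).act
      (levelSnd (h := h) hyp D C t) *ᵥ x) h0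
    simp only [map_mul, map_sub, map_zero, map_ofNat,
      HeckeLattice.map_trace _ _ h.absIrr hρ hc, Matrix.zero_mulVec, ← Matrix.mulVec_mulVec,
      Matrix.sub_mulVec, Matrix.ofNat_mulVec, sub_eq_zero] at h1
    exact h1
  refine eq_zero_of_twisted_inertia_two hq hqp hyp.char.hdiv
    (hq.coprime_iff_not_dvd.mpr hqQ) (not_sq_dvd_mul hq hq2 hqQ) f (qEta χ η)
    ((Units.map (algebraMap O (DeltaRing O p n r) : O →* DeltaRing O p n r)).comp χ) η
    (fun u => rfl) ?_ ?_ (C.F.combo (Z *ᵥ x)) _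
    (C.coe_lattice_emb hyp.p_mem h mem_levelPrimes_of_dvd hyp.aux hyp.stab hyp.eta hyp.char _)
    A hA fun τ hτ => hc.galH_add_inv hq hqp hA hτ (htwo τ hτ)
  · rw [MonoidHom.comp_apply, hyp.char.neg_one, map_one]
  · show ∑ u : (ZMod q)ˣ, algebraMap O (DeltaRing O p n r) (χ u : O) = 0
    rw [← map_sum, hyp.sum, map_zero]

variable {loc : LocalType} {ρX : GaloisRepAdic (baseX h F₀).T} (hX : (baseX h F₀).IsRep f ρX)

theorem imgAct_levelFst (s : MvPolynomial (AwayIdx (levelPrimes p M ∪ Finset.univ.image Qv)) O) :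
    imgAct (levelY (h := h) hyp D).act (levelFst (h := h) hyp D C (Ideal.Quotient.mk _ s)) =
      (levelY (h := h) hyp D).act s :=
  (congrArg _ (levelFst_mk hyp D C s)).trans (imgAct_mk _ s)

theorem imgAct_levelSnd (s : MvPolynomial (AwayIdx (levelPrimes p M ∪ Finset.univ.image Qv)) O) :
    imgAct (levelYc (h := h) hyp D C).act (levelSnd (h := h) hyp D C (Ideal.Quotient.mk _ s)) =
      (levelYc (h := h) hyp D C).act s :=
  (congrArg _ (levelSnd_mk hyp D C s)).trans (imgAct_mk _ s)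

theorem level_congr (φ : DeltaRing O p n r →ₐ[O] MvPowerSeries (Fin r) O ⧸ levelIdeal p n r O)
    (t : (levelP (h := h) hyp D C).T) (i j : Fin d) :
    φ (imgAct (levelYc (h := h) hyp D C).act (levelSnd (h := h) hyp D C t) i j) -
        φ (imgAct (levelY (h := h) hyp D).act (levelFst (h := h) hyp D C t) i j) ∈
      (maximalIdeal O).map (algebraMap O (MvPowerSeries (Fin r) O ⧸ levelIdeal p n r O)) := by
  obtain ⟨s, rfl⟩ := Ideal.Quotient.mk_surjective t
  rw [imgAct_levelSnd, imgAct_levelFst, ← map_sub]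
  have h1 := Ideal.mem_map_of_mem φ.toRingHom
    (C.lattice_congr hyp.p_mem h mem_levelPrimes_of_dvd hyp.aux hyp.stab hyp.eta hyp.char s i j)
  rw [varpiIdeal, Ideal.map_map] at h1
  rw [← φ.comp_algebraMap]
  exact h1

theorem level_base_eq (φ : DeltaRing O p n r →ₐ[O] MvPowerSeries (Fin r) O ⧸ levelIdeal p n r O)
    (hφ0 : ∀ z g, Ideal.Quotient.mk _ g = φ z →
      MvPowerSeries.constantCoeff g = deltaAug O p n r z)
    (t : (levelP (h := h) hyp D C).T) (i j : Fin d) (g : MvPowerSeries (Fin r) O)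
    (hg : Ideal.Quotient.mk _ g =
      φ (imgAct (levelY (h := h) hyp D).act (levelFst (h := h) hyp D C t) i j)) :
    MvPowerSeries.constantCoeff g = imgAct (baseX h F₀).act
      (HeckeLattice.map Finset.subset_union_left (levelP_ker (h := h) hyp D C) t) i j := by
  obtain ⟨s, rfl⟩ := Ideal.Quotient.mk_surjective t
  rw [imgAct_levelFst] at hg
  rw [hφ0 _ g hg, HeckeLattice.map_mk, imgAct_mk,
    ← D.latticeLift hyp.p_mem h mem_levelPrimes_of_dvd hyp.aux hyp.stab hyp.eta (baseX h F₀)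
      (fun l => baseX_act h F₀ _) s]
  rfl

include hρ in
theorem level_tw_rel {ρY : GaloisRepAdic (levelY (h := h) hyp D).T}
    (hY : (levelY (h := h) hyp D).IsRep f ρY)
    {φ : DeltaRing O p n r →ₐ[O] MvPowerSeries (Fin r) O ⧸ levelIdeal p n r O}
    (hφ : ∀ i, φ (deltaGen O p n i : DeltaRing O p n r) =
      Ideal.Quotient.mk _ (1 + MvPowerSeries.X i)) (i : Fin r) :
    ∃ t ∈ maximalIdeal (levelP (h := h) hyp D C).T,
      φ.mapMatrix (imgAct (levelY (h := h) hyp D).act (levelFst (h := h) hyp D C t)) *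
          Matrix.scalar (Fin d) (Ideal.Quotient.mk (levelIdeal p n r O) (1 + MvPowerSeries.X i)) =
        Matrix.scalar (Fin d)
          (Ideal.Quotient.mk (levelIdeal p n r O) (MvPowerSeries.X i ^ 2)) := by
  obtain ⟨σ, ⟨A', hA', hσ⟩, u, hu, hrel⟩ :=
    D.tw_rel hyp.p_mem h mem_levelPrimes_of_dvd hyp.aux hyp.stab hyp.eta ρY hY hφ i
  refine ⟨ρ.trace σ - 2, hρ.trace_sub_two_mem
    (h.unramified _ (hyp.aux.prime i) (hyp.aux.notMem i)) hA' hσ, ?_⟩
  rw [map_sub (levelFst hyp D C), HeckeLattice.map_trace _ _ h.absIrr hρ hY, map_ofNat]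
  have hs : ∀ z : DeltaRing O p n r, φ.mapMatrix (Matrix.scalar (Fin d) z) =
      Matrix.scalar (Fin d) (φ z) := fun z => by
    simp [Matrix.scalar_apply, AlgHom.mapMatrix_apply, Matrix.diagonal_map]
  have hu2 : φ ((u - 1) ^ 2) =
      Ideal.Quotient.mk (levelIdeal p n r O) (MvPowerSeries.X i ^ 2) := by
    rw [map_pow, map_sub, map_one, hu, ← map_one (Ideal.Quotient.mk (levelIdeal p n r O)),
      ← map_sub, add_sub_cancel_left, ← map_pow]
  have h1 := congrArg φ.mapMatrix hrel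
  rw [map_mul, hs, hs, hu, hu2] at h1
  exact h1

include hρ hX in
/-- The level. -/
theorem nonempty_level {ρY : GaloisRepAdic (levelY (h := h) hyp D).T}
    (hY : (levelY (h := h) hyp D).IsRep f ρY)
    {ρc : GaloisRepAdic (levelYc (h := h) hyp D C).T}
    (hc : (levelYc (h := h) hyp D C).IsRep f ρc) (hloc : loc.cond ρ)
    {c₀ : O} (hc₀ : IsPrimitiveRoot c₀ (p ^ padicValNat p (q - 1))) {A : ValuationSubring ℚ̄}
    {σ₀ : Γℚ} (hσ₀ : IsInertiaGen p q A σ₀) :
    Nonempty (Level loc Smin Saux (baseOf h F₀ ρX hX) q A σ₀ n Qv) := by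
  obtain ⟨φ, hφ, hφ0⟩ := exists_deltaQuot (O := O) p n r
  refine ⟨?_⟩
  exact
    { T := (levelP (h := h) hyp D C).T
      residue_surjective := (levelP (h := h) hyp D C).residue_surjective
      ρ := ρ
      residual_isEquiv := hρ.residual
      cond := level_cond_of hyp D C hloc hρ
      adjoin_trace := hρ.adjoin_trace
      π := HeckeLattice.map Finset.subset_union_left (levelP_ker hyp D C)
      π_isLocalHom := HeckeLattice.isLocalHom_map _ _
      π_isEquiv := HeckeLattice.isEquiv_map _ _ h.absIrr hρ hX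
      Ψ₁ := φ.mapMatrix.comp ((imgAct _).comp (levelFst hyp D C))
      Ψc := φ.mapMatrix.comp ((imgAct _).comp (levelSnd hyp D C))
      congr_mod := level_congr hyp D C φ
      base_eq := level_base_eq hyp D C φ hφ0
      tw_rel := level_tw_rel hyp D C hρ hY hφ
      trace_one := fun l hl A' hA' σ hσ =>
        (congrArg φ.mapMatrix (level_trace_one hyp D C hρ hY hl hA' hσ)).trans (map_ofNat _ 2)
      trace_aux := fun l hl hlq A' hA' σ hσ =>
        (congrArg φ.mapMatrix (level_trace_aux hyp D C hρ hc hl hlq hA' hσ)).trans (map_ofNat _ 2)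
      trace_q := fun hA => by
        obtain ⟨s, hs, h0⟩ := level_trace_q hyp D C hρ hc hc₀ hA hσ₀
        exact ⟨s, hs, (congrArg φ.mapMatrix h0).trans (map_zero _)⟩ }

end FLTAgent.Lower.Levels
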