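import Fermat.Agent.Lower.Levels.Defs

/-!
# Operators given by systems of matrices

`H1 R A χ` is the first cohomology of `Γ₀(N)` with a character.  A `Sys` is a finite system of
matrices permuted by right multiplication up to `Γ₀(N)`, with weights; it gives an operator on
cohomology (`Sys.map`), compatible with composition (`map_comp`), unchanged by left translation of
the matrices by powers of `T` (`map_eq_of_translate`), and compatible with change of coefficients
(`H1.mapCoef_map`).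
-/

set_option autoImplicit false

noncomputable section

open CongruenceSubgroup
open scoped MatrixGroups

namespace FLTAgent.Lower.Levels

open FLTAgent.HeckeH (M2 matOf mkGamma0 matOf_mul matOf_injective)

variable {N M L : ℕ} {R : Type} [CommRing R] {A B : Type} [AddCommGroup A] [Module R A]
  [AddCommGroup B] [Module R B]

/-- The coboundary `γ ↦ (χ γ - 1) a`. -/
def cobd (χ : Gamma0 N →* Rˣ) : A →ₗ[R] Z1 R A χ where
  toFun a := ⟨fun γ => ((χ γ : R) - 1) • a, fun γ δ => by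
    simp only [map_mul, Units.val_mul, smul_smul, ← add_smul]
    congr 1; ring⟩
  map_add' a b := Subtype.ext (funext fun γ => smul_add _ a b)
  map_smul' r a := Subtype.ext (funext fun γ => smul_comm _ r a)

theorem cobd_apply (χ : Gamma0 N →* Rˣ) (a : A) (γ : Gamma0 N) :
    (cobd χ a : Gamma0 N → A) γ = ((χ γ : R) - 1) • a := rfl

theorem cobd_one (a : A) : cobd (1 : Gamma0 N →* Rˣ) a = 0 :=
  Subtype.ext (funext fun γ => by simp [cobd_apply])

/-- The first cohomology `H¹(Γ₀(N), A(χ))`. -/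
abbrev H1 (R : Type) [CommRing R] (A : Type) [AddCommGroup A] [Module R A]
    (χ : Gamma0 N →* Rˣ) : Type :=
  Z1 R A χ ⧸ LinearMap.range (cobd (A := A) χ)

theorem Z1_one_apply {χ : Gamma0 N →* Rˣ} (c : Z1 R A χ) : (c : Gamma0 N → A) 1 = 0 := by
  have h := c.2 1 1
  rw [one_mul, map_one, Units.val_one, one_smul] at h
  exact left_eq_add.mp h

theorem Z1_mul {χ : Gamma0 N →* Rˣ} (c : Z1 R A χ) (γ δ : Gamma0 N) :
    (c : Gamma0 N → A) (γ * δ) = (c : Gamma0 N → A) γ + (χ γ : R) • (c : Gamma0 N → A) δ :=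
  c.2 γ δ

/-- The translation `T`. -/
def gammaT (N : ℕ) (k : ℤ) : Gamma0 N := mkGamma0 1 k 0 1 (by ring) (dvd_zero _)

theorem gammaT_add (k l : ℤ) : gammaT N (k + l) = gammaT N k * gammaT N l := by
  refine matOf_injective ?_
  rw [matOf_mul]
  simp [gammaT, add_comm]

theorem gammaT_zero : gammaT N 0 = 1 := by
  refine matOf_injective ?_
  simp [gammaT, Matrix.one_fin_two]

theorem Z1_gammaT {χ : Gamma0 N →* Rˣ} (hT : ∀ k, χ (gammaT N k) = 1) (c : Z1 R A χ) (k : ℤ) :
    (c : Gamma0 N → A) (gammaT N k) = k • (c : Gamma0 N → A) (gammaT N 1) := by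
  let f : ℤ →+ A :=
    { toFun := fun k => (c : Gamma0 N → A) (gammaT N k)
      map_zero' := by rw [gammaT_zero]; exact Z1_one_apply c
      map_add' := fun a b => by rw [gammaT_add, Z1_mul, hT, Units.val_one, one_smul] }
  calc (c : Gamma0 N → A) (gammaT N k) = f (k • (1 : ℤ)) := by rw [smul_eq_mul, mul_one]; rfl
    _ = k • f 1 := map_zsmul f k 1

/-- A finite system of matrices permuted by right multiplication by `Γ₀(M)` up to `Γ₀(N)`, with
weights relating `χ` and `χ'`. -/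
structure Sys (R : Type) [CommRing R] (ι : Type) (χ : Gamma0 N →* Rˣ)
    (χ' : Gamma0 M →* Rˣ) where
  /-- The matrices. -/
  β : ι → M2
  det_ne : ∀ i, (β i).det ≠ 0
  /-- The cocycle. -/
  coc : Gamma0 M → ι → Gamma0 N
  /-- The permutation. -/
  perm : Gamma0 M → Equiv.Perm ι
  spec : ∀ γ i, β i * matOf γ = matOf (coc γ i) * β (perm γ i)
  coc_mul : ∀ γ δ i, coc (γ * δ) i = coc γ i * coc δ (perm γ i)
  /-- The weights. -/
  w : ι → R
  compat : ∀ γ i, w i * (χ (coc γ i) : R) = (χ' γ : R) * w (perm γ i)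

namespace Sys

variable {ι κ : Type} {χ : Gamma0 N →* Rˣ} {χ' : Gamma0 M →* Rˣ} {χ'' : Gamma0 L →* Rˣ}

/-- Distinct matrices lie in distinct orbits. -/
def Inj (S : Sys R ι χ χ') : Prop :=
  ∀ (δ : Gamma0 N) (i j : ι), S.β i = matOf δ * S.β j → i = j

theorem unique_of_inj {β : ι → M2} (hdet : ∀ i, (β i).det ≠ 0)
    (hinj : ∀ (δ : Gamma0 N) (i j : ι), β i = matOf δ * β j → i = j) {δ δ' : Gamma0 N} {j j' : ι}
    (h : matOf δ * β j = matOf δ' * β j') : δ = δ' ∧ j = j' := by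
  obtain rfl : j = j' := by
    refine hinj (δ⁻¹ * δ') j j' ?_
    rw [matOf_mul, Matrix.mul_assoc, ← h, ← Matrix.mul_assoc, ← matOf_mul, inv_mul_cancel,
      FLTAgent.HeckeH.matOf_one, Matrix.one_mul]
  exact ⟨matOf_injective (FLTAgent.HeckeH.mul_right_cancel_of_det_ne (hdet j) h), rfl⟩

section Make

variable [Finite ι] (β : ι → M2) (hdet : ∀ i, (β i).det ≠ 0)
  (hinj : ∀ (δ : Gamma0 N) (i j : ι), β i = matOf δ * β j → i = j)
  (hex : ∀ (γ : Gamma0 M) i, ∃ (δ : Gamma0 N) (j : ι), β i * matOf γ = matOf δ * β j)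
  (w : ι → R)
  (hw : ∀ (γ : Gamma0 M) i (δ : Gamma0 N) j, β i * matOf γ = matOf δ * β j →
    w i * (χ δ : R) = (χ' γ : R) * w j)

include hdet hinj in
theorem perm_injective_aux (γ : Gamma0 M) {i i' j : ι} {δ δ' : Gamma0 N}
    (h : β i * matOf γ = matOf δ * β j) (h' : β i' * matOf γ = matOf δ' * β j) : i = i' := by
  refine hinj (δ * δ'⁻¹) i i' ?_
  refine FLTAgent.HeckeH.mul_right_cancel_of_det_ne
    (c := matOf γ) (by rw [FLTAgent.HeckeH.det_matOf]; exact one_ne_zero) ?_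
  rw [Matrix.mul_assoc, h, h', ← Matrix.mul_assoc, ← matOf_mul, inv_mul_cancel_right]

/-- A system from its matrices. -/
def mk' : Sys R ι χ χ' where
  β := β
  det_ne := hdet
  coc γ i := (hex γ i).choose
  perm γ := Equiv.ofBijective (fun i => (hex γ i).choose_spec.choose)
    (Finite.injective_iff_bijective.mp fun i i' (h : (hex γ i).choose_spec.choose =
        (hex γ i').choose_spec.choose) => perm_injective_aux β hdet hinj γ
      (hex γ i).choose_spec.choose_spec (h ▸ (hex γ i').choose_spec.choose_spec))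
  spec γ i := (hex γ i).choose_spec.choose_spec
  coc_mul γ δ i := by
    set j := (hex γ i).choose_spec.choose
    refine (unique_of_inj hdet hinj (j' := (hex δ j).choose_spec.choose)
      ((hex (γ * δ) i).choose_spec.choose_spec.symm.trans ?_)).1
    have h1 := congrArg (fun x : M2 => x * matOf δ) (hex γ i).choose_spec.choose_spec
    have h2 := congrArg (fun x : M2 => matOf (hex γ i).choose * x)
      (hex δ j).choose_spec.choose_spec
    simp only [← Matrix.mul_assoc, ← matOf_mul] at h2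
    simp only [Matrix.mul_assoc, ← matOf_mul] at h1
    exact h1.trans ((Matrix.mul_assoc _ _ _).symm.trans h2)
  w := w
  compat γ i := hw γ i _ _ (hex γ i).choose_spec.choose_spec

@[simp] theorem mk'_β (i : ι) : (mk' β hdet hinj hex w hw).β i = β i := rfl

@[simp] theorem mk'_w (i : ι) : (mk' β hdet hinj hex w hw).w i = w i := rfl

theorem inj_mk' : (mk' β hdet hinj hex w hw).Inj := hinj

end Make

theorem eq_of_mul (S : Sys R ι χ χ') (hS : S.Inj) {γ : Gamma0 M} {i j : ι} {δ : Gamma0 N}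
    (h : S.β i * matOf γ = matOf δ * S.β j) : S.coc γ i = δ ∧ S.perm γ i = j :=
  unique_of_inj S.det_ne hS ((S.spec γ i).symm.trans h)

/-- The composite system: first `S`, then `S'`. -/
def comp (S : Sys R ι χ χ') (S' : Sys R κ χ' χ'') : Sys R (ι × κ) χ χ'' where
  β p := S.β p.1 * S'.β p.2
  det_ne p := by rw [Matrix.det_mul]; exact mul_ne_zero (S.det_ne _) (S'.det_ne _)
  coc γ p := S.coc (S'.coc γ p.2) p.1
  perm γ :=
    { toFun := fun p => (S.perm (S'.coc γ p.2) p.1, S'.perm γ p.2)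
      invFun := fun p => ((S.perm (S'.coc γ ((S'.perm γ).symm p.2))).symm p.1,
        (S'.perm γ).symm p.2)
      left_inv := fun p => by simp
      right_inv := fun p => by simp }
  spec γ p := by
    show _ = _ * (S.β (S.perm (S'.coc γ p.2) p.1) * S'.β (S'.perm γ p.2))
    rw [Matrix.mul_assoc, S'.spec, ← Matrix.mul_assoc, S.spec, Matrix.mul_assoc]
  coc_mul γ δ p := by
    show S.coc (S'.coc (γ * δ) p.2) p.1 = _
    rw [S'.coc_mul, S.coc_mul]
    rfl
  w p := S.w p.1 * S'.w p.2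
  compat γ p := by
    show _ = _ * (S.w (S.perm (S'.coc γ p.2) p.1) * S'.w (S'.perm γ p.2))
    linear_combination S'.w p.2 * S.compat (S'.coc γ p.2) p.1 +
      S.w (S.perm (S'.coc γ p.2) p.1) * S'.compat γ p.2

@[simp] theorem comp_β (S : Sys R ι χ χ') (S' : Sys R κ χ' χ'') (p : ι × κ) :
    (S.comp S').β p = S.β p.1 * S'.β p.2 := rfl

@[simp] theorem comp_w (S : Sys R ι χ χ') (S' : Sys R κ χ' χ'') (p : ι × κ) :
    (S.comp S').w p = S.w p.1 * S'.w p.2 := rfl

variable [Fintype ι] [Fintype κ]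

/-- The operator on functions. -/
def opFun (S : Sys R ι χ χ') : (Gamma0 N → A) →ₗ[R] (Gamma0 M → A) where
  toFun c γ := ∑ i, S.w i • c (S.coc γ i)
  map_add' c c' := by ext γ; simp [smul_add, Finset.sum_add_distrib]
  map_smul' r c := by ext γ; simp [Finset.smul_sum, smul_comm r]

theorem opFun_apply (S : Sys R ι χ χ') (c : Gamma0 N → A) (γ : Gamma0 M) :
    S.opFun c γ = ∑ i, S.w i • c (S.coc γ i) := rfl

theorem opFun_mem (S : Sys R ι χ χ') (c : Z1 R A χ) :
    S.opFun (c : Gamma0 N → A) ∈ Z1 R A χ' := by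
  intro γ δ
  simp only [opFun_apply, S.coc_mul, Z1_mul, smul_add, smul_smul, S.compat, Finset.sum_add_distrib,
    Finset.smul_sum]
  congr 1
  exact Fintype.sum_equiv (S.perm γ) _
    (fun i => ((χ' γ : R) * S.w i) • (c : Gamma0 N → A) (S.coc δ i)) fun i => rfl

/-- The operator on crossed homomorphisms. -/
def op (S : Sys R ι χ χ') : Z1 R A χ →ₗ[R] Z1 R A χ' :=
  (S.opFun ∘ₗ (Z1 R A χ).subtype).codRestrict _ S.opFun_mem

theorem coe_op (S : Sys R ι χ χ') (c : Z1 R A χ) (γ : Gamma0 M) :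
    (S.op c : Gamma0 M → A) γ = ∑ i, S.w i • (c : Gamma0 N → A) (S.coc γ i) := rfl

theorem op_cobd (S : Sys R ι χ χ') (a : A) :
    S.op (cobd χ a) = cobd χ' ((∑ i, S.w i) • a) := by
  refine Subtype.ext (funext fun γ => ?_)
  simp only [coe_op, cobd_apply, smul_smul, ← Finset.sum_smul, mul_sub, mul_one, S.compat,
    Finset.sum_sub_distrib, sub_mul, one_mul, Finset.mul_sum]
  congr 2
  exact Fintype.sum_equiv (S.perm γ) _ (fun i => (χ' γ : R) * S.w i) fun i => rfl

/-- The operator on cohomology. -/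
def map (S : Sys R ι χ χ') (A : Type) [AddCommGroup A] [Module R A] :
    H1 R A χ →ₗ[R] H1 R A χ' :=
  Submodule.mapQ _ _ S.op <| by
    rintro _ ⟨a, rfl⟩
    exact ⟨_, (S.op_cobd a).symm⟩

theorem map_mk (S : Sys R ι χ χ') (c : Z1 R A χ) :
    S.map A (Submodule.Quotient.mk c) = Submodule.Quotient.mk (S.op c) := rfl

theorem op_comp (S : Sys R ι χ χ') (S' : Sys R κ χ' χ'') (c : Z1 R A χ) :
    (S.comp S').op c = S'.op (S.op c) := by
  refine Subtype.ext (funext fun γ => ?_)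
  simp only [coe_op, Finset.smul_sum, smul_smul, Fintype.sum_prod_type]
  rw [Finset.sum_comm]
  exact Finset.sum_congr rfl fun j _ => Finset.sum_congr rfl fun i _ => by
    show (S.w i * S'.w j) • _ = _
    rw [mul_comm]
    rfl

theorem map_comp (S : Sys R ι χ χ') (S' : Sys R κ χ' χ'') (x : H1 R A χ) :
    (S.comp S').map A x = S'.map A (S.map A x) := by
  induction x using Submodule.Quotient.induction_on with
  | _ c => rw [map_mk, map_mk, map_mk, op_comp]

/-- Systems which differ by translations give operators differing by a coboundary. -/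
theorem exists_op_eq_add_cobd (S : Sys R ι χ χ') (S' : Sys R κ χ χ') (hS' : S'.Inj)
    (hT : ∀ k, χ (gammaT N k) = 1) (e : ι ≃ κ) (k : ι → ℤ)
    (hβ : ∀ i, S.β i = matOf (gammaT N (k i)) * S'.β (e i)) (hw : ∀ i, S'.w (e i) = S.w i)
    (c : Z1 R A χ) : ∃ a : A, S.op c = S'.op c + cobd χ' a := by
  set t := (c : Gamma0 N → A) (gammaT N 1)
  refine ⟨-(∑ i, (S.w i * (k i : R)) • t), Subtype.ext (funext fun γ => ?_)⟩
  have key : ∀ i, S.coc γ i * gammaT N (k (S.perm γ i)) = gammaT N (k i) * S'.coc γ (e i) ∧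
      e (S.perm γ i) = S'.perm γ (e i) := by
    intro i
    have h := S.spec γ i
    rw [hβ, hβ, Matrix.mul_assoc, S'.spec, ← Matrix.mul_assoc, ← Matrix.mul_assoc,
      ← matOf_mul, ← matOf_mul] at h
    obtain ⟨h1, h2⟩ := unique_of_inj S'.det_ne hS' h
    exact ⟨h1.symm, h2.symm⟩
  have hc : ∀ i, S.w i • (c : Gamma0 N → A) (S.coc γ i) =
      (S.w i * (k i : R)) • t + S'.w (e i) • (c : Gamma0 N → A) (S'.coc γ (e i)) -
        ((χ' γ : R) * (S.w (S.perm γ i) * (k (S.perm γ i) : R))) • t := by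
    intro i
    have h := congrArg (c : Gamma0 N → A) (key i).1
    rw [Z1_mul, Z1_mul, Z1_gammaT hT, hT, Units.val_one, one_smul, Z1_gammaT hT c (k i)] at h
    rw [eq_sub_iff_add_eq, hw, ← mul_assoc, ← S.compat, mul_assoc, ← smul_smul (S.w i),
      ← smul_smul (S.w i), ← smul_smul (χ (S.coc γ i) : R), Int.cast_smul_eq_zsmul,
      Int.cast_smul_eq_zsmul, ← smul_add, ← smul_add, h]
  rw [Submodule.coe_add, Pi.add_apply, coe_op, coe_op, cobd_apply, Finset.sum_congr rfl fun i _ => hc i]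
  rw [Finset.sum_sub_distrib, Finset.sum_add_distrib,
    Fintype.sum_equiv e (fun i => S'.w (e i) • (c : Gamma0 N → A) (S'.coc γ (e i)))
      (fun j => S'.w j • (c : Gamma0 N → A) (S'.coc γ j)) fun i => rfl,
    Fintype.sum_equiv (S.perm γ)
      (fun i => ((χ' γ : R) * (S.w (S.perm γ i) * (k (S.perm γ i) : R))) • t)
      (fun i => ((χ' γ : R) * (S.w i * (k i : R))) • t) fun i => rfl]
  simp only [← smul_smul (χ' γ : R), ← Finset.smul_sum, ← Finset.sum_smul]
  module

theorem map_eq_of_translate (S : Sys R ι χ χ') (S' : Sys R κ χ χ') (hS' : S'.Inj)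
    (hT : ∀ k, χ (gammaT N k) = 1) (e : ι ≃ κ) (k : ι → ℤ)
    (hβ : ∀ i, S.β i = matOf (gammaT N (k i)) * S'.β (e i)) (hw : ∀ i, S'.w (e i) = S.w i) :
    S.map A = S'.map A := by
  refine LinearMap.ext fun x => ?_
  induction x using Submodule.Quotient.induction_on with
  | _ c =>
    obtain ⟨a, ha⟩ := exists_op_eq_add_cobd S S' hS' hT e k hβ hw c
    rw [map_mk, map_mk, ha]
    exact (Submodule.Quotient.eq _).mpr ⟨a, by rw [add_sub_cancel_left]⟩

end Sys

section MapCoef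

variable {R' : Type} [CommRing R'] {σ : R →+* R'} {B' : Type} [AddCommGroup B'] [Module R' B']
  {χ : Gamma0 N →* Rˣ} {χ₁ : Gamma0 N →* R'ˣ}

/-- Change of coefficients on crossed homomorphisms. -/
def Z1.mapCoef (f : A →ₛₗ[σ] B') (h : ∀ γ, σ (χ γ : R) = (χ₁ γ : R')) :
    Z1 R A χ →ₛₗ[σ] Z1 R' B' χ₁ where
  toFun c := ⟨fun γ => f ((c : Gamma0 N → A) γ), fun γ δ => by
    simp [Z1_mul, h]⟩
  map_add' c c' := Subtype.ext (funext fun γ => f.map_add _ _)
  map_smul' r c := Subtype.ext (funext fun γ => f.map_smulₛₗ _ _)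

theorem Z1.mapCoef_apply (f : A →ₛₗ[σ] B') (h : ∀ γ, σ (χ γ : R) = (χ₁ γ : R')) (c : Z1 R A χ)
    (γ : Gamma0 N) : (Z1.mapCoef f h c : Gamma0 N → B') γ = f ((c : Gamma0 N → A) γ) := rfl

theorem Z1.mapCoef_cobd (f : A →ₛₗ[σ] B') (h : ∀ γ, σ (χ γ : R) = (χ₁ γ : R')) (a : A) :
    Z1.mapCoef f h (cobd χ a) = cobd χ₁ (f a) :=
  Subtype.ext (funext fun γ => by simp [Z1.mapCoef_apply, cobd_apply, h])

/-- Change of coefficients on cohomology. -/
def H1.mapCoef (f : A →ₛₗ[σ] B') (h : ∀ γ, σ (χ γ : R) = (χ₁ γ : R')) :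
    H1 R A χ →ₛₗ[σ] H1 R' B' χ₁ :=
  Submodule.mapQ _ _ (Z1.mapCoef f h) <| by
    rintro _ ⟨a, rfl⟩
    exact ⟨_, (Z1.mapCoef_cobd f h a).symm⟩

theorem H1.mapCoef_mk (f : A →ₛₗ[σ] B') (h : ∀ γ, σ (χ γ : R) = (χ₁ γ : R')) (c : Z1 R A χ) :
    H1.mapCoef f h (Submodule.Quotient.mk c) = Submodule.Quotient.mk (Z1.mapCoef f h c) := rfl

theorem H1.mapCoef_map {χ' : Gamma0 M →* Rˣ} {χ₁' : Gamma0 M →* R'ˣ} {ι : Type} [Fintype ι]
    (f : A →ₛₗ[σ] B') (h : ∀ γ, σ (χ γ : R) = (χ₁ γ : R'))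
    (h' : ∀ γ, σ (χ' γ : R) = (χ₁' γ : R')) (S : Sys R ι χ χ') (S₁ : Sys R' ι χ₁ χ₁')
    (hS : S₁.Inj) (hβ : ∀ i, S₁.β i = S.β i) (hw : ∀ i, S₁.w i = σ (S.w i)) (x : H1 R A χ) :
    H1.mapCoef f h' (S.map A x) = S₁.map B' (H1.mapCoef f h x) := by
  induction x using Submodule.Quotient.induction_on with
  | _ c =>
    refine congrArg Submodule.Quotient.mk (Subtype.ext (funext fun γ => ?_))
    rw [Z1.mapCoef_apply, Sys.coe_op, Sys.coe_op, map_sum]
    refine Finset.sum_congr rfl fun i _ => ?_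
    rw [f.map_smulₛₗ, hw, Z1.mapCoef_apply,
      (S₁.eq_of_mul hS (i := i) (j := S.perm γ i) (δ := S.coc γ i) (by rw [hβ, hβ]; exact S.spec γ i)).1]

end MapCoef

end FLTAgent.Lower.Levels
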