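import Fermat.Agent.Lower.Levels.Degen
import Fermat.Agent.Lower.Levels.Twist

/-!
# Triangular systems

A system whose matrices are upper triangular modulo `L`, with weights a character of the upper
left entry (`Sys.IsTri`, `Sys.tri`).  Two such systems define the same operator once their orbits
correspond (`Sys.map_eq_of_tri`, from `Sys.map_eq_of_orbit`), which gives identities between
twisted operators without computing cocycles; the Hecke systems are of this kind
(`isTri_heckeSys`).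
-/

set_option autoImplicit false

noncomputable section

open CongruenceSubgroup
open scoped MatrixGroups

namespace FLTAgent.Lower.Levels

open FLTAgent.HeckeH (M2 matOf matOf_mul matOf_dvd matOf_injective heckeIdx)

variable {N M K L : ℕ} {R : Type} [CommRing R] {A : Type} [AddCommGroup A] [Module R A]
  {χ : Gamma0 N →* Rˣ} {χ' : Gamma0 M →* Rˣ} {χ'' : Gamma0 K →* Rˣ} {ι κ : Type}

/-- Systems with corresponding orbits and compatible weights give the same operator. -/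
theorem Sys.map_eq_of_orbit [Fintype ι] [Fintype κ] (S : Sys R ι χ χ') (S' : Sys R κ χ χ')
    (hS : S.Inj) (hcard : Fintype.card κ = Fintype.card ι)
    (hex : ∀ i, ∃ (δ : Gamma0 N) (j : κ),
      S.β i = matOf δ * S'.β j ∧ S.w i * (χ δ : R) = S'.w j) :
    S.map A = S'.map A := by
  classical
  choose δ e hδ hw using hex
  have hinj : Function.Injective e := by
    intro i i' h
    refine hS (δ i * (δ i')⁻¹) i i' ?_
    rw [hδ i, hδ i', h, ← Matrix.mul_assoc, ← matOf_mul, inv_mul_cancel_right]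
  let E : ι ≃ κ := Equiv.ofBijective e
    ((Fintype.bijective_iff_injective_and_card e).mpr ⟨hinj, hcard.symm⟩)
  have hS' : S'.Inj := by
    intro d a b hab
    obtain ⟨i, rfl⟩ := E.surjective a
    obtain ⟨j, rfl⟩ := E.surjective b
    refine congrArg e (hS (δ i * d * (δ j)⁻¹) i j ?_)
    rw [hδ i, show S'.β (e i) = matOf d * S'.β (e j) from hab, hδ j, ← Matrix.mul_assoc,
      ← Matrix.mul_assoc, ← matOf_mul, ← matOf_mul, inv_mul_cancel_right]
  refine LinearMap.ext fun x => ?_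
  induction x using Submodule.Quotient.induction_on with
  | _ c =>
    rw [Sys.map_mk, Sys.map_mk]
    refine (Submodule.Quotient.eq _).mpr ⟨-(∑ i, S.w i • (c : Gamma0 N → A) (δ i)),
      Subtype.ext (funext fun γ => ?_)⟩
    have key : ∀ i, S.coc γ i * δ (S.perm γ i) = δ i * S'.coc γ (e i) ∧
        e (S.perm γ i) = S'.perm γ (e i) := by
      intro i
      have h := S.spec γ i
      rw [hδ, hδ, Matrix.mul_assoc, S'.spec, ← Matrix.mul_assoc, ← Matrix.mul_assoc,
        ← matOf_mul, ← matOf_mul] at h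
      obtain ⟨h1, h2⟩ := Sys.unique_of_inj S'.det_ne hS' h
      exact ⟨h1.symm, h2.symm⟩
    have hc : ∀ i, S.w i • (c : Gamma0 N → A) (S.coc γ i) =
        (S.w i • (c : Gamma0 N → A) (δ i) + S'.w (e i) • (c : Gamma0 N → A) (S'.coc γ (e i))) -
          (χ' γ : R) • (S.w (S.perm γ i) • (c : Gamma0 N → A) (δ (S.perm γ i))) := by
      intro i
      have h := congrArg (c : Gamma0 N → A) (key i).1
      rw [Z1_mul, Z1_mul] at h
      rw [eq_sub_iff_add_eq, smul_smul, ← S.compat, ← smul_smul, ← smul_add, h, smul_add,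
        smul_smul, hw]
    rw [cobd_apply, Submodule.coe_sub, Pi.sub_apply, Sys.coe_op, Sys.coe_op,
      Finset.sum_congr rfl fun i _ => hc i, Finset.sum_sub_distrib, Finset.sum_add_distrib,
      ← Finset.smul_sum,
      Equiv.sum_comp (S.perm γ) (fun i => S.w i • (c : Gamma0 N → A) (δ i)),
      Fintype.sum_equiv E (fun i => S'.w (e i) • (c : Gamma0 N → A) (S'.coc γ (e i)))
        (fun j => S'.w j • (c : Gamma0 N → A) (S'.coc γ j)) fun i => rfl,
      sub_smul, one_smul, smul_neg]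
    abel

/-- A system of scalar multiples of elements of the group acts by a scalar. -/
theorem Sys.map_eq_smul_of_scalar [Fintype ι] (S : Sys R ι χ χ) {a : ℤ} (ha : a ≠ 0)
    (δ : ι → Gamma0 N) (hβ : ∀ i, S.β i = a • matOf (δ i)) (x : H1 R A χ) :
    S.map A x = (∑ i, S.w i * (χ (δ i) : R)) • x := by
  induction x using Submodule.Quotient.induction_on with
  | _ c =>
    rw [Sys.map_mk, ← Submodule.Quotient.mk_smul]
    refine (Submodule.Quotient.eq _).mpr ⟨-(∑ i, S.w i • (c : Gamma0 N → A) (δ i)),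
      Subtype.ext (funext fun γ => ?_)⟩
    have hc : ∀ i, S.w i • (c : Gamma0 N → A) (S.coc γ i) =
        (S.w i • (c : Gamma0 N → A) (δ i) + (S.w i * (χ (δ i) : R)) • (c : Gamma0 N → A) γ) -
          (χ γ : R) • (S.w (S.perm γ i) • (c : Gamma0 N → A) (δ (S.perm γ i))) := by
      intro i
      have hd : δ i * γ = S.coc γ i * δ (S.perm γ i) := matOf_injective (by
        have h := S.spec γ i
        rw [hβ, hβ, Matrix.smul_mul, Matrix.mul_smul] at h
        rw [matOf_mul, matOf_mul]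
        exact smul_right_injective M2 ha h)
      have h := congrArg (c : Gamma0 N → A) hd
      rw [Z1_mul, Z1_mul] at h
      rw [eq_sub_iff_add_eq, smul_smul, ← S.compat, ← smul_smul, ← smul_add, ← h, smul_add,
        smul_smul]
    rw [cobd_apply, Submodule.coe_sub, Pi.sub_apply, Submodule.coe_smul, Pi.smul_apply, Sys.coe_op,
      Finset.sum_congr rfl fun i _ => hc i, Finset.sum_sub_distrib, Finset.sum_add_distrib,
      ← Finset.smul_sum, ← Finset.sum_smul,
      Equiv.sum_comp (S.perm γ) (fun i => S.w i • (c : Gamma0 N → A) (δ i)),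
      sub_smul, one_smul, smul_neg]
    abel

/-- Matrices upper triangular modulo `L`, weights `ψ` of the upper left entry. -/
def Sys.IsTri (ψ : (ZMod L)ˣ →* Rˣ) (S : Sys R ι χ χ') : Prop :=
  ∀ i, (S.β i 1 0 : ZMod L) = 0 ∧
    ∃ u : (ZMod L)ˣ, (u : ZMod L) = (S.β i 0 0 : ZMod L) ∧ S.w i = (ψ u : R)

variable (hLN : L ∣ N) (hLM : L ∣ M)

include hLN in
theorem tri_entry10 (δ : Gamma0 N) : ((matOf δ 1 0 : ℤ) : ZMod L) = 0 :=
  (ZMod.intCast_zmod_eq_zero_iff_dvd _ L).mpr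
    ((Int.natCast_dvd_natCast.mpr hLN).trans (matOf_dvd δ))

theorem tri_entry_rel {β β' : M2} {γ : Gamma0 M} {δ : Gamma0 N}
    (h : β * matOf γ = matOf δ * β') (h' : (β' 1 0 : ZMod L) = 0) {u u' : (ZMod L)ˣ}
    (hu : (u : ZMod L) = (β 0 0 : ZMod L)) (hu' : (u' : ZMod L) = (β' 0 0 : ZMod L)) :
    u * dUnit hLN δ = dUnit hLM γ * u' := by
  have e := congrArg (fun x : ℤ => (x : ZMod L)) (congrFun (congrFun h 0) 0)
  simp only [Matrix.mul_apply, Fin.sum_univ_two] at e
  push_cast at e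
  rw [tri_entry10 hLM γ, h', mul_zero, mul_zero, add_zero, add_zero, ← hu, ← hu'] at e
  have e' : u * (dUnit hLM γ)⁻¹ = (dUnit hLN δ)⁻¹ * u' := Units.ext e
  rw [mul_inv_eq_iff_eq_mul] at e'
  rw [e']
  calc (dUnit hLN δ)⁻¹ * u' * dUnit hLM γ * dUnit hLN δ
      = (dUnit hLN δ)⁻¹ * dUnit hLN δ * (dUnit hLM γ * u') := by ac_rfl
    _ = _ := by rw [inv_mul_cancel, one_mul]

section Make

variable [Finite ι] (ψ : (ZMod L)ˣ →* Rˣ) (β : ι → M2) (hdet : ∀ i, (β i).det ≠ 0)
  (hinj : ∀ (δ : Gamma0 N) (i j : ι), β i = matOf δ * β j → i = j)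
  (hex : ∀ (γ : Gamma0 M) i, ∃ (δ : Gamma0 N) (j : ι), β i * matOf γ = matOf δ * β j)
  (u : ι → (ZMod L)ˣ) (hu : ∀ i, (u i : ZMod L) = (β i 0 0 : ZMod L))
  (h10 : ∀ i, (β i 1 0 : ZMod L) = 0)
  (hχ : ∀ γ, χ γ = ψ (dUnit hLN γ)) (hχ' : ∀ γ, χ' γ = ψ (dUnit hLM γ))

/-- A triangular system from its matrices. -/
def Sys.tri : Sys R ι χ χ' :=
  Sys.mk' β hdet hinj hex (fun i => (ψ (u i) : R)) fun γ i δ j h => by
    rw [hχ, hχ', ← Units.val_mul, ← Units.val_mul, ← map_mul, ← map_mul,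
      tri_entry_rel hLN hLM h (h10 j) (hu i) (hu j)]

@[simp] theorem Sys.tri_β (i : ι) :
    (Sys.tri hLN hLM ψ β hdet hinj hex u hu h10 hχ hχ').β i = β i := rfl

@[simp] theorem Sys.tri_w (i : ι) :
    (Sys.tri hLN hLM ψ β hdet hinj hex u hu h10 hχ hχ').w i = (ψ (u i) : R) := rfl

theorem Sys.inj_tri : (Sys.tri hLN hLM ψ β hdet hinj hex u hu h10 hχ hχ').Inj := hinj

theorem Sys.isTri_tri : (Sys.tri hLN hLM ψ β hdet hinj hex u hu h10 hχ hχ').IsTri ψ :=
  fun i => ⟨h10 i, u i, hu i, rfl⟩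

end Make

variable {ψ : (ZMod L)ˣ →* Rˣ}

theorem Sys.IsTri.comp {S : Sys R ι χ χ'} {S' : Sys R κ χ' χ''} (hS : S.IsTri ψ)
    (hS' : S'.IsTri ψ) : (S.comp S').IsTri ψ := by
  rintro ⟨i, j⟩
  obtain ⟨h, u, hu, hw⟩ := hS i
  obtain ⟨h', u', hu', hw'⟩ := hS' j
  refine ⟨?_, u * u', ?_, ?_⟩
  · simp only [Sys.comp_β, Matrix.mul_apply, Fin.sum_univ_two]
    push_cast
    rw [h, h', zero_mul, mul_zero, add_zero]
  · simp only [Sys.comp_β, Matrix.mul_apply, Fin.sum_univ_two]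
    push_cast
    rw [h', mul_zero, add_zero, hu, hu']
  · rw [Sys.comp_w, hw, hw', map_mul, Units.val_mul]

variable {hLN}

/-- Orbits of triangular systems determine the weights. -/
theorem Sys.map_eq_of_tri [Fintype ι] [Fintype κ] (hχ : ∀ γ, χ γ = ψ (dUnit hLN γ))
    (S : Sys R ι χ χ') (S' : Sys R κ χ χ') (hS : S.Inj) (h1 : S.IsTri ψ) (h2 : S'.IsTri ψ)
    (hcard : Fintype.card κ = Fintype.card ι)
    (hex : ∀ i, ∃ (δ : Gamma0 N) (j : κ), S.β i = matOf δ * S'.β j) :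
    S.map A = S'.map A := by
  refine Sys.map_eq_of_orbit S S' hS hcard fun i => ?_
  obtain ⟨δ, j, h⟩ := hex i
  obtain ⟨-, u, hu, hw⟩ := h1 i
  obtain ⟨h10, u', hu', hw'⟩ := h2 j
  refine ⟨δ, j, h, ?_⟩
  have e := tri_entry_rel (β := S.β i) (β' := S'.β j) (γ := (1 : Gamma0 N)) (δ := δ) hLN hLN
    (by rw [HeckeH.matOf_one, Matrix.mul_one]; exact h) h10 hu hu'
  rw [map_one, one_mul] at e
  rw [hw, hw', hχ, ← Units.val_mul, ← map_mul, e]

theorem isTri_heckeSys (hLN : L ∣ N) {ψ' : (ZMod N)ˣ →* Rˣ}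
    (h : ∀ x, ψ' x = ψ (ZMod.unitsMap hLN x)) {ℓ : ℕ} (hℓ : ℓ.Prime) :
    (heckeSys hℓ ψ').IsTri ψ := fun i =>
  ⟨by rw [heckeSys_β, heckeBeta_10, Int.cast_zero], ZMod.unitsMap hLN (heckeUnit hℓ i), by
    rw [ZMod.unitsMap_def, Units.coe_map]
    show ZMod.castHom hLN (ZMod L) (heckeUnit hℓ i : ZMod N) = _
    rw [coe_heckeUnit, map_intCast, heckeSys_β], by rw [heckeSys_w, h]⟩

end FLTAgent.Lower.Levels
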