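import Fermat.Agent.Lower.Levels.AuxLevel
import Fermat.Agent.Lower.Levels.ConstructFrame
import Fermat.Agent.Lower.Levels.Construct
import Fermat.Agent.Lower.Levels.TwRel.Split

/-!
# The trace relation of inertia at an auxiliary prime on a twisted frame

`exists_trace_rel`: on the lattice of a twisted stabilised frame some inertia element `σ` at each
auxiliary prime has trace `δ + δ⁻¹`, `δ` the corresponding generator of the group ring.  Its
determinant being `1`, this follows from `exists_inertia_rel_unique`: by `exists_inertia_rel_core`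
and the residual behaviour of the frame, `σ² - M σ + 1 = 0` forces `M = δ + δ⁻¹`.
-/

set_option autoImplicit false
set_option linter.unusedSectionVars false
set_option linter.style.haveILetI false

noncomputable section

open CongruenceSubgroup
open scoped MatrixGroups Matrix

namespace FLTAgent.Lower.Levels

open IsLocalRing (maximalIdeal ResidueField residue)

local notation "ℚ̄" => AlgebraicClosure ℚ
local notation "Γℚ" => (AlgebraicClosure ℚ ≃ₐ[ℚ] AlgebraicClosure ℚ)

variable {p : ℕ} [Fact p.Prime] {O : Type} [CommRing O] [IsDomain O] [IsDiscreteValuationRing O]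
  [IsAdicComplete (maximalIdeal O) O] [Finite (ResidueField O)] [CharZero O]
  {S : Finset ℕ} {ρbar : ResidualGaloisRep (ResidueField O)}

/-- The generator of the group ring at the index `i`. -/
abbrev deltaGen (O : Type) [CommRing O] (p n : ℕ) {r : ℕ} (i : Fin r) : (DeltaRing O p n r)ˣ :=
  deltaUnit O p n r (Multiplicative.ofAdd (Pi.single i 1))

set_option maxHeartbeats 1000000 in
/-- **Inertia on the twisted stabilised frame.** At each auxiliary prime some inertia element
satisfies no quadratic relation `σ² - M σ + 1 = 0` on the embedded module other than the one with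
`M = δ + δ⁻¹`. -/
theorem exists_inertia_rel_unique (hp : (p : O) ∈ maximalIdeal O) (h : ResHyp p S ρbar) {M : ℕ}
    [NeZero M] (hM : ∀ l : ℕ, l.Prime → l ∣ M → l ∈ S) {n r : ℕ} {Qv : Fin r → ℕ}
    (hQ : AuxHyp p n S ρbar Qv) [NeZero (∏ i, Qv i)] [NeZero (M * ∏ i, Qv i)]
    [NeZero (M * (∏ i, Qv i) * ∏ i, Qv i)] [IsLocalRing (DeltaRing O p n r)]
    {θ' : AwayPrimes S → ResidueField O} (hθ : StabEig ρbar (∏ i, Qv i) θ')
    {η : (ZMod (∏ i, Qv i))ˣ →* (DeltaRing O p n r)ˣ} (hη : ∀ a, η a ^ p ^ n = 1)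
    (haug : ∀ a, deltaAug O p n r (η a : DeltaRing O p n r) = 1)
    (hgen : ∀ i, ∃ a : (ZMod (∏ j, Qv j))ˣ, η a = deltaGen O p n i ∧
      ∀ j, j ≠ i → ZMod.unitsMap (Finset.dvd_prod_of_mem Qv (Finset.mem_univ j)) a = 1)
    {d : ℕ}
    (F₀ : Frame (1 : (ZMod M)ˣ →* Oˣ) (awPr S) (residue O) (fun l => frobTrace ρbar l.1) d)
    (F' : Frame (1 : (ZMod (M * ∏ i, Qv i))ˣ →* Oˣ) (awPr S) (residue O) θ' d)
    (hF' : ∀ j, F'.vec j =
      stabMap (awPr S) (residue O) θ' (dvd_mul_right M (∏ i, Qv i)) (F₀.vec j))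
    (F : Frame (twistChar (dvd_mul_left (∏ i, Qv i) M) η) (awPr S) (deltaRes p n r) θ' d)
    {hτ : ∀ u, (deltaAug O p n r).toRingHom
        (twistChar (dvd_mul_left (∏ i, Qv i) M) η u : DeltaRing O p n r) =
      ((1 : (ZMod (M * ∏ i, Qv i))ˣ →* Oˣ) u : O)}
    (hF : F.IsLift F' (deltaAug O p n r).toRingHom hτ) (f : ℤ_[p] →+* O)
    (emb : (Fin d → DeltaRing O p n r) →ₗ[DeltaRing O p n r]
      Period.H (M * (∏ i, Qv i) * ∏ i, Qv i) (DeltaRing O p n r) (DeltaRing O p n r))
    (hemb : ∀ x, (emb x : Additive (Gamma0 (M * (∏ i, Qv i) * ∏ i, Qv i)) →+ DeltaRing O p n r) =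
      h1Triv (M * (∏ i, Qv i) * ∏ i, Qv i) (DeltaRing O p n r) (DeltaRing O p n r)
        (twistMap (dvd_mul_left (∏ i, Qv i) M) η (F.combo x))) (i : Fin r) :
    ∃ σ : Γℚ, (∃ A : ValuationSubring ℚ̄, A.LiesOverPrime (Qv i) ∧ σ ∈ A.inertiaSubgroupIn ℚ) ∧
      ∀ Mt : Matrix (Fin d) (Fin d) (DeltaRing O p n r),
        (∀ x, galH (M * (∏ i, Qv i) * ∏ i, Qv i) ((algebraMap O (DeltaRing O p n r)).comp f) σ
              (galH (M * (∏ i, Qv i) * ∏ i, Qv i) ((algebraMap O (DeltaRing O p n r)).comp f) σ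
                (emb x)) -
            galH (M * (∏ i, Qv i) * ∏ i, Qv i) ((algebraMap O (DeltaRing O p n r)).comp f) σ
              (emb (Mt *ᵥ x)) + emb x = 0) →
          Mt = Matrix.scalar (Fin d)
            ((deltaGen O p n i : DeltaRing O p n r) +
              ((deltaGen O p n i)⁻¹ : (DeltaRing O p n r)ˣ)) := by
  classical
  haveI : IsNoetherianRing (DeltaRing O p n r) := IsNoetherianRing.of_finite O _
  haveI := isAdicComplete_deltaRing p n r hp
  haveI : RingHomSurjective (residue O) := ⟨IsLocalRing.residue_surjective⟩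
  haveI : RingHomSurjective (deltaRes (O := O) p n r) := ⟨deltaRes_surjective p n r⟩
  set w := ∏ j ∈ Finset.univ.erase i, Qv j with hw
  have hQw : ∏ j, Qv j = w * Qv i := (Finset.prod_erase_mul _ _ (Finset.mem_univ i)).symm
  have hw0 : w ≠ 0 := fun h0 => hQ.prod_ne_zero (by rw [hQw, h0, zero_mul])
  haveI : NeZero w := ⟨hw0⟩
  haveI : NeZero (Qv i) := ⟨(hQ.prime i).ne_zero⟩
  have hpow : ∀ u, twistChar (dvd_mul_left (∏ i, Qv i) M) η u ^ p ^ n = 1 := fun u => by
    rw [twistChar, MonoidHom.inv_apply, MonoidHom.pow_apply, inv_pow, ← pow_mul, mul_comm 2, pow_mul,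
      MonoidHom.comp_apply, hη, one_pow, inv_one]
  have hψ : CharHyp (twistChar (dvd_mul_left (∏ i, Qv i) M) η) (deltaRes (O := O) p n r) :=
    ⟨fun u => deltaRes_eq_one_of_pow hp (hpow u), by
      rw [twistChar, MonoidHom.inv_apply, MonoidHom.pow_apply, ← map_pow, neg_one_sq, map_one,
        inv_one]⟩
  obtain ⟨a₀, ha₀, haw⟩ := hgen i
  have haw' : ∀ hd : w ∣ ∏ j, Qv j, ZMod.unitsMap hd a₀ = 1 := fun hd => by
    have hdvd : (w : ℤ) ∣ (((a₀ : ZMod (∏ j, Qv j)).val : ℕ) : ℤ) - 1 := by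
      rw [hw, Nat.cast_prod]
      refine Finset.prod_dvd_of_coprime (fun j _ j' _ hjj => ?_) fun j hj => ?_
      · exact Nat.isCoprime_iff_coprime.mpr
          ((Nat.coprime_primes (hQ.prime j) (hQ.prime j')).mpr (hQ.injective.ne hjj))
      · have hc := congrArg Units.val (haw j (Finset.ne_of_mem_erase hj))
        rw [ZMod.unitsMap_val, Units.val_one] at hc
        rw [← ZMod.intCast_zmod_eq_zero_iff_dvd]
        push_cast
        rw [ZMod.natCast_val, sub_eq_zero]
        exact hc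
    refine Units.ext ?_
    rw [ZMod.unitsMap_val, Units.val_one, ← sub_eq_zero, ← ZMod.natCast_val]
    rw [← ZMod.intCast_zmod_eq_zero_iff_dvd] at hdvd
    push_cast at hdvd
    exact hdvd
  -- the good prime
  obtain ⟨l, hlL, hl1, hlk, hl2, hlne⟩ := h.exists_good (M * (∏ i, Qv i) * ∏ i, Qv i)
  have hlθ : θ' l = frobTrace ρbar l.1 := hθ.away l fun hd => hlL (hd.mul_left _)
  set iv : AwayPrimes S := ⟨⟨Qv i, hQ.prime i⟩, hQ.notMem i⟩
  have hb : frobTrace ρbar iv.1 ^ 2 ≠ 4 := fun hb => by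
    obtain ⟨h1, h2⟩ := hθ.dvd iv (Finset.dvd_prod_of_mem Qv (Finset.mem_univ i))
    have h3 : 2 * θ' iv - frobTrace ρbar iv.1 = 0 := by
      refine (pow_eq_zero_iff two_ne_zero).mp ?_
      linear_combination 4 * h1 + hb
    exact h2 (by linear_combination θ' iv * h3 - h1)
  -- residual classes
  set g := coefMap (A := DeltaRing O p n r) (B := ResidueField O)
    (deltaRes p n r).toSemilinearMap (residual_char hψ)
  have hfam : FamHyp (M * ∏ i, Qv i) (awPr S) (deltaRes (O := O) p n r) θ' :=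
    hθ.famHyp h _ (deltaRes_surjective p n r)
  obtain ⟨Fk, hFk⟩ := exists_frame_reduce hfam hψ F
  have hι : ∀ a : O, deltaRes p n r (algebraMap O (DeltaRing O p n r) a) = residue O a :=
    fun a => congrArg (residue O) ((deltaAug O p n r).commutes a)
  have hcombo : ∀ z₁ : Fin d → O, g (F.combo fun j => algebraMap O (DeltaRing O p n r) (z₁ j)) =
      ∑ j, residue O (z₁ j) • g (F.vec j) := fun z₁ => by
    rw [Frame.combo, Fintype.linearCombination_apply, map_sum]
    exact Finset.sum_congr rfl fun j _ => by rw [LinearMap.map_smulₛₗ, hι]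
  rw [← ha₀]
  refine exists_inertia_rel_core hp h.ne_two (hQ.prime i) (hQ.ne_p h.mem i) (hQ.p_dvd i) hQw
    hQ.squarefree (hQ.coprime hM) rfl rfl hη (twistRel_twistChar (dvd_mul_left _ M) η)
    (residual_char hψ) a₀ haw' F f emb hemb (c := frobTrace ρbar l.1) (b := frobTrace ρbar iv.1)
    l.1.2 hl2 hl1 (fun e => hlne (e.trans (by rw [hlk, one_add_one_eq_two]))) hb ?_ ?_ ?_
  · intro z₁ hz₁ j
    have h1 : Fk.combo (fun j => residue O (z₁ j)) = 0 := by
      rw [Frame.combo, Fintype.linearCombination_apply, ← hz₁, hcombo]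
      exact Finset.sum_congr rfl fun j _ => congrArg _ (hFk j).symm
    exact congrFun (Fk.inj (h1.trans (map_zero _).symm)) j
  · rintro z₁ ξ rfl
    have hξ : g (F.combo fun j => algebraMap O (DeltaRing O p n r) (z₁ j)) ∈
        h1Part (1 : (ZMod (M * ∏ i, Qv i))ˣ →* (ResidueField O)ˣ) (awPr S)
          (RingHom.id (ResidueField O)) θ' (ResidueField O) :=
      map_mem_part g (fun s x => coefMap_famAct _ _ (awPr S) s x)
      (by rw [comap_eigIdeal, RingHom.id_comp])
      (F.combo_mem fun j => algebraMap O (DeltaRing O p n r) (z₁ j))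
    refine ⟨?_, fun q hq hqQ => ?_⟩
    · have h1 := part_mem_maxGenEigenspace hξ l
      rwa [famAct_X, hlθ] at h1
    · obtain ⟨j, rfl⟩ := hQ.exists_eq hq hqQ
      refine ⟨cast_eq_one_of_dvd h.char hq.ne_zero (hQ.p_dvd j),
        θ' ⟨⟨Qv j, hq⟩, hQ.notMem j⟩, ?_, ?_⟩
      · rw [sq]
        exact (hθ.dvd ⟨⟨Qv j, hq⟩, hQ.notMem j⟩ hqQ).2
      · have h1 := part_mem_maxGenEigenspace hξ ⟨⟨Qv j, hq⟩, hQ.notMem j⟩
        rwa [famAct_X] at h1
  · intro z₁ hML
    haveI : (eigIdeal (RingHom.id (ResidueField O)) θ').IsMaximal :=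
      isMaximal_eigIdeal (σ := RingHom.id (ResidueField O)) Function.surjective_id θ'
    obtain ⟨e, he⟩ := exists_isProj (famAct (1 : (ZMod (M * ∏ i, Qv i))ˣ →* (ResidueField O)ˣ)
      (awPr S) (ResidueField O)) (eigIdeal (RingHom.id (ResidueField O)) θ')
    have hm := (isMaximal_eigIdeal (σ := RingHom.id (ResidueField O)) Function.surjective_id θ').ne_top
    have hy : resCl O M (F₀.combo z₁) ∈ h1Part (1 : (ZMod M)ˣ →* (ResidueField O)ˣ) (awPr S)
        (RingHom.id (ResidueField O)) (fun l => frobTrace ρbar l.1) (ResidueField O) :=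
      map_mem_part (resCl O M) (fun s x => coefMap_famAct _ _ (awPr S) s x)
      (by rw [comap_eigIdeal, RingHom.id_comp]) (F₀.combo_mem z₁)
    refine ⟨F₀.combo z₁, e, ?_, ?_, ?_⟩
    · have h1 := part_mem_maxGenEigenspace hy l
      rwa [famAct_X] at h1
    · have h1 := part_mem_maxGenEigenspace hy iv
      rwa [famAct_X] at h1
    · rw [hcombo, Frame.combo, Fintype.linearCombination_apply, map_sum, map_sum, map_sum]
      refine Finset.sum_congr rfl fun j _ => ?_
      rw [LinearMap.map_smulₛₗ, map_smul, map_smul]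
      refine congrArg _ ?_
      have hcomp : ∀ x, g x = resCl O _ (coefMap (A := DeltaRing O p n r) (B := O)
          (deltaAug O p n r).toRingHom.toSemilinearMap hτ x) := fun x => by
        induction x using Submodule.Quotient.induction_on with
        | _ c => rfl
      rw [hcomp, hF j, hF' j]
      refine (coefMap_stabMap (σ := residue O) IsLocalRing.residue_surjective Function.surjective_id
        (RingHom.id_comp _) (fun N u => one_compat (residue O) N u) _ _).trans ?_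
      rw [stabMap, LinearMap.comp_apply, partProj_eq hm he]

/-- **The trace relation at an auxiliary prime.** -/
theorem exists_trace_rel (hp : (p : O) ∈ maximalIdeal O) (h : ResHyp p S ρbar) {M : ℕ}
    [NeZero M] (hM : ∀ l : ℕ, l.Prime → l ∣ M → l ∈ S) {n r : ℕ} {Qv : Fin r → ℕ}
    (hQ : AuxHyp p n S ρbar Qv) [NeZero (∏ i, Qv i)] [NeZero (M * ∏ i, Qv i)]
    [NeZero (M * (∏ i, Qv i) * ∏ i, Qv i)] [IsLocalRing (DeltaRing O p n r)]
    {θ' : AwayPrimes S → ResidueField O} (hθ : StabEig ρbar (∏ i, Qv i) θ')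
    {η : (ZMod (∏ i, Qv i))ˣ →* (DeltaRing O p n r)ˣ} (hη : ∀ a, η a ^ p ^ n = 1)
    (haug : ∀ a, deltaAug O p n r (η a : DeltaRing O p n r) = 1)
    (hgen : ∀ i, ∃ a : (ZMod (∏ j, Qv j))ˣ, η a = deltaGen O p n i ∧
      ∀ j, j ≠ i → ZMod.unitsMap (Finset.dvd_prod_of_mem Qv (Finset.mem_univ j)) a = 1)
    {d : ℕ} [NeZero d]
    (F₀ : Frame (1 : (ZMod M)ˣ →* Oˣ) (awPr S) (residue O) (fun l => frobTrace ρbar l.1) d)
    (F' : Frame (1 : (ZMod (M * ∏ i, Qv i))ˣ →* Oˣ) (awPr S) (residue O) θ' d)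
    (hF' : ∀ j, F'.vec j =
      stabMap (awPr S) (residue O) θ' (dvd_mul_right M (∏ i, Qv i)) (F₀.vec j))
    (F : Frame (twistChar (dvd_mul_left (∏ i, Qv i) M) η) (awPr S) (deltaRes p n r) θ' d)
    {hτ : ∀ u, (deltaAug O p n r).toRingHom
        (twistChar (dvd_mul_left (∏ i, Qv i) M) η u : DeltaRing O p n r) =
      ((1 : (ZMod (M * ∏ i, Qv i))ˣ →* Oˣ) u : O)}
    (hF : F.IsLift F' (deltaAug O p n r).toRingHom hτ) {f : ℤ_[p] →+* O} {S' : Finset ℕ}
    (Y : HeckeLattice p (M * (∏ i, Qv i) * ∏ i, Qv i) S' ρbar (DeltaRing O p n r) d)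
    (hemb : ∀ x, (Y.emb x : Additive (Gamma0 (M * (∏ i, Qv i) * ∏ i, Qv i)) →+ DeltaRing O p n r) =
      h1Triv (M * (∏ i, Qv i) * ∏ i, Qv i) (DeltaRing O p n r) (DeltaRing O p n r)
        (twistMap (dvd_mul_left (∏ i, Qv i) M) η (F.combo x)))
    (ρY : GaloisRepAdic Y.T) (hY : Y.IsRep f ρY) (i : Fin r) :
    ∃ σ : Γℚ, (∃ A : ValuationSubring ℚ̄, A.LiesOverPrime (Qv i) ∧ σ ∈ A.inertiaSubgroupIn ℚ) ∧
      imgAct Y.act (ρY.trace σ - 2) *
          Matrix.scalar (Fin d) (deltaGen O p n i : DeltaRing O p n r) =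
        Matrix.scalar (Fin d) (((deltaGen O p n i : DeltaRing O p n r) - 1) ^ 2) := by
  haveI : Nontrivial (DeltaRing O p n r) := inferInstance
  haveI : Module.IsTorsionFree O (DeltaRing O p n r) := inferInstance
  obtain ⟨σ, ⟨A, hA, hσ⟩, huniq⟩ :=
    exists_inertia_rel_unique hp h hM hQ hθ hη haug hgen F₀ F' hF' F hF f Y.emb hemb i
  have hdet : LinearMap.det (ρY.ρ σ) = 1 :=
    det_inertia Fact.out (hQ.prime i) (hQ.ne_p h.mem i) hA
      (detIsCyclotomic_of_attached hY.attached) hσ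
  refine ⟨σ, ⟨A, hA, hσ⟩, ?_⟩
  have htr := huniq (imgAct Y.act (ρY.trace σ)) fun x => by
    have h1 := hY.galH_rel σ x
    rwa [hdet, map_one, Matrix.one_mulVec] at h1
  rw [map_sub, map_ofNat, htr, ← map_ofNat (Matrix.scalar (Fin d)) 2, ← map_sub, ← map_mul]
  refine congrArg _ ?_
  have hinv : (((deltaGen O p n i)⁻¹ : (DeltaRing O p n r)ˣ) : DeltaRing O p n r) *
      (deltaGen O p n i : DeltaRing O p n r) = 1 := Units.inv_mul _
  linear_combination hinv

end FLTAgent.Lower.Levels
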