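import Fermat.Agent.Lower.Levels.Triv
import Fermat.Agent.Lower.Levels.Twist
import Fermat.Agent.Lower.Levels.Degen
import Fermat.Agent.Lower.Levels.Parabolic
import Fermat.Agent.Ihara.Kernel
import Fermat.Agent.Period.SL2

/-!
# Injectivity of the trivial twist at a prime `v`

`eq_zero_of_depletion_eq_zero`: over a field of odd characteristic with `v = 1`, a class of level
`N v` killed by the twist at `v` by the trivial character (depletion) vanishes, provided `U_v` has
generalised eigenvalue `α` on it with `α² ≠ 1` and some `T_ℓ`, `ℓ ≡ 1 (mod N v)`, a generalised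
eigenvalue other than `ℓ + 1`. The proof combines Ihara's lemma with the quadratic relation of
`U_v` on old classes.
-/

set_option autoImplicit false
set_option linter.unusedSectionVars false
set_option linter.style.haveILetI false

noncomputable section

open CongruenceSubgroup
open scoped MatrixGroups

namespace FLTAgent.Lower.Levels

open FLTAgent.HeckeH (M2 matOf matOf_mul mkGamma0 matOf_mkGamma0 matOf_dvd det_entries heckeIdx
  heckeBeta matOf_injective)

namespace Depletion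

variable {k : Type} [Field k]

/-! ### Values -/

/-- The value at a group element of a class with trivial character. -/
def val1 {M : ℕ} (x : H1 k k (tchi M k)) (γ : Gamma0 M) : k :=
  h1Triv M k k x (Additive.ofMul γ)

section Basic

variable {M : ℕ} (x y : H1 k k (tchi M k))

theorem val1_mul (γ δ : Gamma0 M) : val1 x (γ * δ) = val1 x γ + val1 x δ := by
  rw [val1, ofMul_mul, map_add]; rfl

theorem val1_one : val1 x 1 = 0 := by rw [val1, ofMul_one, map_zero]

theorem val1_inv (γ : Gamma0 M) : val1 x γ⁻¹ = -val1 x γ := by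
  rw [val1, ofMul_inv, map_neg]; rfl

theorem val1_pow (γ : Gamma0 M) (n : ℕ) : val1 x (γ ^ n) = (n : k) * val1 x γ := by
  rw [val1, ofMul_pow, map_nsmul, nsmul_eq_mul]; rfl

theorem val1_conj (γ δ : Gamma0 M) : val1 x (δ * γ * δ⁻¹) = val1 x γ := by
  rw [val1_mul, val1_mul, val1_inv]; ring

theorem val1_sub (γ : Gamma0 M) : val1 (x - y) γ = val1 x γ - val1 y γ := by
  simp [val1, map_sub]

theorem val1_smul (r : k) (γ : Gamma0 M) : val1 (r • x) γ = r * val1 x γ := by
  simp [val1, map_smul]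

theorem val1_zero (γ : Gamma0 M) : val1 (0 : H1 k k (tchi M k)) γ = 0 := by simp [val1]

variable {x y}

theorem val1_ext (h : ∀ γ, val1 x γ = val1 y γ) : x = y := by
  refine (h1Triv M k k).injective (AddMonoidHom.ext fun γ => ?_)
  exact h (Additive.toMul γ)

theorem val1_heckeOp {ℓ : ℕ} (hℓ : ℓ.Prime) (γ : Gamma0 M) :
    val1 (heckeOp hℓ 1 k x) γ = ∑ i, val1 x ((HeckeH.heckeReps M hℓ).coc γ i) := by
  rw [val1, h1Triv_heckeOp, HeckeH.Reps.transfer_apply]
  rfl

end Basic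

theorem val1_map_unit {N M : ℕ} (S : Sys k Unit (tchi N k) (tchi M k)) (hS : S.Inj)
    (hw : S.w () = 1) (x : H1 k k (tchi N k)) (γ : Gamma0 M) (δ : Gamma0 N)
    (h : S.β () * matOf γ = matOf δ * S.β ()) : val1 (S.map k x) γ = val1 x δ := by
  induction x using Submodule.Quotient.induction_on with
  | _ c =>
    rw [val1, val1, Sys.map_mk, h1Triv_mk, h1Triv_mk, Sys.coe_op, Fintype.sum_unique]
    show S.w () • _ = _
    rw [hw, one_smul]
    exact congrArg (c : Gamma0 N → k) (S.eq_of_mul hS (i := ()) (j := ()) h).1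

theorem val1_degOne {N v : ℕ} (x : H1 k k (tchi N k)) (γ : Gamma0 (N * v)) (δ : Gamma0 N)
    (h : matOf δ = matOf γ) : val1 ((degOne N k v).map k x) γ = val1 x δ := by
  refine val1_map_unit _ inj_degOne rfl x γ δ ?_
  show (1 : M2) * matOf γ = matOf δ * 1
  rw [Matrix.one_mul, Matrix.mul_one, h]

theorem val1_degV {N v : ℕ} (hv : v.Prime) (x : H1 k k (tchi N k)) (γ : Gamma0 (N * v))
    (δ : Gamma0 N) (h : Degen.dMat v * matOf γ = matOf δ * Degen.dMat v) :
    val1 ((degV N k hv).map k x) γ = val1 x δ :=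
  val1_map_unit _ (inj_degV hv) rfl x γ δ h

theorem degHom_eq {N M d : ℕ} [NeZero d] (h : N * d ∣ M) (γ : Gamma0 M) (δ : Gamma0 N)
    (e : Degen.dMat d * matOf γ = matOf δ * Degen.dMat d) : Degen.degHom d h γ = δ :=
  matOf_injective (HeckeH.mul_right_cancel_of_det_ne Degen.det_dMat
    ((Degen.dMat_mul_degHom d h γ).symm.trans e))

/-- Restriction to level `M v`, `v ∣ M`, is injective when `v` is invertible. -/
theorem eq_zero_of_degOne_eq_zero {M v : ℕ} [NeZero M] [NeZero v] (hv : v.Prime) (hvM : v ∣ M)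
    (hvk : (v : k) ≠ 0) {x : H1 k k (tchi M k)} (h : (degOne M k v).map k x = 0) : x = 0 := by
  haveI : Fact v.Prime := ⟨hv⟩
  have h0 : ∀ g : Gamma0 M, ((M * v : ℕ) : ℤ) ∣ matOf g 1 0 → val1 x g = 0 := fun g hg => by
    let γ : Gamma0 (M * v) :=
      mkGamma0 (matOf g 0 0) (matOf g 0 1) (matOf g 1 0) (matOf g 1 1) (det_entries g) hg
    have := val1_degOne x γ g (by rw [matOf_mkGamma0, ← Matrix.eta_fin_two])
    rwa [h, val1_zero, eq_comm] at this
  let L : ℤ → Gamma0 M := fun t => mkGamma0 1 0 ((M : ℤ) * t) 1 (by ring) (dvd_mul_right _ _)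
  let f : ℤ →+ k :=
    { toFun := fun t => val1 x (L t)
      map_zero' := h0 _ (by simp [L])
      map_add' := fun s t => by
        rw [← val1_mul]
        refine congrArg (val1 x) (matOf_injective ?_)
        rw [matOf_mul]
        simp [L, Matrix.mul_fin_two, mul_add] }
  have hf : ∀ t, f t = 0 := fun t => by
    have h1 : f ((v : ℤ) • t) = 0 := h0 _ ⟨t, by simp [L]; ring⟩
    rw [map_zsmul, zsmul_eq_mul, Int.cast_natCast] at h1
    exact (mul_eq_zero.mp h1).resolve_left hvk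
  refine val1_ext fun γ => ?_
  rw [val1_zero]
  obtain ⟨c, hc⟩ := matOf_dvd γ
  have ha : ((matOf γ 0 0 : ℤ) : ZMod v) ≠ 0 :=
    left_ne_zero_of_mul_eq_one (intCast_matOf_mul_eq_one hvM γ)
  set j : ℤ := (((-(c : ZMod v)) / ((matOf γ 0 0 : ℤ) : ZMod v)).val : ℤ) with hj
  have hmem : ((M * v : ℕ) : ℤ) ∣ matOf (L j * γ) 1 0 := by
    obtain ⟨e, he⟩ : (v : ℤ) ∣ j * matOf γ 0 0 + c := by
      rw [← ZMod.intCast_zmod_eq_zero_iff_dvd, hj]
      push_cast
      rw [ZMod.natCast_zmod_val, div_mul_cancel₀ _ ha, neg_add_cancel]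
    refine ⟨e, ?_⟩
    rw [matOf_mul]
    simp [L, Matrix.mul_apply, Fin.sum_univ_two, hc]
    linear_combination (M : ℤ) * he
  have := h0 _ hmem
  rw [val1_mul, show val1 x (L j) = 0 from hf j, zero_add] at this
  exact this

/-! ### The twist by the trivial character -/

theorem sum_zmod_eq {v : ℕ} [NeZero v] [Fact v.Prime] {X : Type} [AddCommMonoid X]
    (f : ZMod v → X) : ∑ b, f b = f 0 + ∑ u : (ZMod v)ˣ, f u := by
  classical
  rw [← Finset.sum_erase_add _ _ (Finset.mem_univ (0 : ZMod v)), add_comm]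
  congr 1
  refine Finset.sum_bij' (fun b hb => Units.mk0 b (Finset.mem_erase.mp hb).1) (fun u _ => u)
    (fun _ _ => Finset.mem_univ _) (fun u _ => Finset.mem_erase.mpr ⟨u.ne_zero, Finset.mem_univ _⟩)
    (fun _ _ => rfl) (fun u _ => Units.ext rfl) fun b hb => rfl

/-- A class killed by depletion is the second degeneracy of its image under `U_v`. -/
theorem degOne_eq_degV {M v : ℕ} [NeZero M] [NeZero v] (hv : v.Prime) (hvM : v ∣ M)
    (x : H1 k k (tchi M k))
    (hx : ∀ γ : Gamma0 (M * v),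
      twistFun hvM dvd_rfl (1 : (ZMod v)ˣ →* kˣ)
        (fun δ => h1Triv M k k x (Additive.ofMul δ)) γ = 0) :
    (degOne M k v).map k x = (degV M k hv).map k (heckeOp hv 1 k x) := by
  haveI : Fact v.Prime := ⟨hv⟩
  refine val1_ext fun γ => ?_
  set δ := Degen.degHom (N := M) v dvd_rfl γ with hδ
  let e : ZMod v → heckeIdx M v := fun u => ⟨some ⟨u.val, ZMod.val_lt u⟩, fun h => by simp at h⟩
  have he : Function.Bijective e := by
    refine ⟨fun a b h => ?_, ?_⟩
    · have h1 := congrArg Subtype.val h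
      simp only [e, Option.some.injEq, Fin.mk.injEq] at h1
      exact ZMod.val_injective v h1
    · rintro ⟨_ | a, ha⟩
      · exact absurd hvM (ha rfl)
      · exact ⟨((a : ℕ) : ZMod v), by simp [e, ZMod.val_cast_of_lt a.2]⟩
  have hB : ∀ u : ZMod v, heckeBeta (e u) * Degen.dMat v = transMat v u := fun u => by
    simp only [e, HeckeH.heckeBeta_some, Degen.dMat, transMat, Matrix.mul_fin_two]
    ext a b
    fin_cases a <;> fin_cases b <;> simp [-ZMod.natCast_val]
  have hcoc : ∀ u, (HeckeH.heckeReps M hv).coc δ (e u) = twistElt hvM dvd_rfl γ u := fun u => by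
    refine ((HeckeH.heckeReps M hv).eq_of_mul (j := e (twistIdx v γ u)) ?_).1
    rw [HeckeH.heckeReps_β, HeckeH.heckeReps_β]
    refine HeckeH.mul_right_cancel_of_det_ne (c := Degen.dMat v) Degen.det_dMat ?_
    rw [Matrix.mul_assoc, ← Degen.dMat_mul_degHom, ← Matrix.mul_assoc, hB, transMat_mul hvM dvd_rfl,
      Matrix.mul_assoc, hB]
  rw [val1_degOne x γ (twistElt hvM dvd_rfl γ 0) (by simp [twistElt, twistIdx, ← Matrix.eta_fin_two]),
    val1_degV hv _ γ δ (Degen.dMat_mul_degHom _ _ _), val1_heckeOp,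
    ← (Equiv.ofBijective e he).sum_comp]
  simp only [Equiv.ofBijective_apply, hcoc]
  rw [sum_zmod_eq]
  have h := hx γ
  rw [twistFun_apply] at h
  simp only [MonoidHom.one_apply, inv_one, Units.val_one, one_smul] at h
  rw [show ∑ u : (ZMod v)ˣ, val1 x (twistElt hvM dvd_rfl γ (u : ZMod v)) = 0 from h, add_zero]

/-! ### Invariance on the kernel of reduction -/

section Kernel

variable {N v : ℕ} [NeZero N] [NeZero v] (hv : v.Prime) (hvN : ¬ v ∣ N)

variable (N v) in
/-- Reduction modulo `v`. -/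
def redV : Gamma0 N →* SL(2, ZMod v) :=
  (Matrix.SpecialLinearGroup.map (Int.castRingHom (ZMod v))).comp (Gamma0 N).subtype

variable (v) in
/-- Congruent to `1` modulo `v`, with `d ≡ 1` modulo `N`. -/
def InK (g : Gamma0 N) : Prop := redV N v g = 1 ∧ dUnit (dvd_refl N) g = 1

theorem InK.conj {g : Gamma0 N} (h : InK v g) (r : Gamma0 N) : InK v (r * g * r⁻¹) := by
  constructor
  · rw [map_mul, map_mul, h.1, mul_one, ← map_mul, mul_inv_cancel, map_one]
  · rw [map_mul, map_mul, h.2, mul_one, ← map_mul, mul_inv_cancel, map_one]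

theorem redV_apply (g : Gamma0 N) (i j : Fin 2) :
    (redV N v g : Matrix (Fin 2) (Fin 2) (ZMod v)) i j = ((matOf g i j : ℤ) : ZMod v) := rfl

theorem InK.dvd01 {g : Gamma0 N} (h : InK v g) : (v : ℤ) ∣ matOf g 0 1 := by
  rw [← ZMod.intCast_zmod_eq_zero_iff_dvd, ← redV_apply, h.1]; rfl

theorem InK.dvd10 {g : Gamma0 N} (h : InK v g) : (v : ℤ) ∣ matOf g 1 0 := by
  rw [← ZMod.intCast_zmod_eq_zero_iff_dvd, ← redV_apply, h.1]; rfl

theorem inK_of {g : Gamma0 N} (hb : (v : ℤ) ∣ matOf g 0 1) (hc : (v : ℤ) ∣ matOf g 1 0)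
    (hd : ((matOf g 1 1 : ℤ) : ZMod v) = 1) (hdN : ((matOf g 1 1 : ℤ) : ZMod N) = 1) : InK v g := by
  rw [← ZMod.intCast_zmod_eq_zero_iff_dvd] at hb hc
  have ha : ((matOf g 0 0 : ℤ) : ZMod v) = 1 := by
    have e := congrArg (fun z : ℤ => (z : ZMod v)) (det_entries g)
    push_cast at e
    rwa [hd, hb, zero_mul, sub_zero, mul_one] at e
  refine ⟨Matrix.SpecialLinearGroup.ext _ _ fun i j => ?_, Units.ext hdN⟩
  rw [redV_apply]
  fin_cases i <;> fin_cases j <;> simp [ha, hb, hc, hd]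

include hv hvN in
theorem mem_of_dvd10 {g : Gamma0 N} (h : (v : ℤ) ∣ matOf g 1 0) :
    (g : SL(2, ℤ)) ∈ Gamma0 (N * v) :=
  (mem_lower_iff hv hvN g).mpr h

/-- The element at level `N v` of an element of the kernel. -/
def lowK {g : Gamma0 N} (h : InK v g) : Gamma0 (N * v) :=
  toLower g (mem_of_dvd10 hv hvN h.dvd10)

theorem exists_upH {g : Gamma0 N} (hb : (v : ℤ) ∣ matOf g 0 1) :
    ∃ η : Gamma0 (N * v), Degen.degHom (N := N) v dvd_rfl η = g ∧
      matOf η = !![matOf g 0 0, matOf g 0 1 / v; matOf g 1 0 * v, matOf g 1 1] := by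
  obtain ⟨b, hb⟩ := hb
  have hv0 : (v : ℤ) ≠ 0 := by exact_mod_cast NeZero.ne v
  have hbv : matOf g 0 1 / (v : ℤ) = b := by rw [hb, Int.mul_ediv_cancel_left _ hv0]
  have hdet := det_entries g
  rw [hb] at hdet
  obtain ⟨c, hc⟩ := matOf_dvd g
  refine ⟨mkGamma0 (matOf g 0 0) b (matOf g 1 0 * v) (matOf g 1 1) (by linear_combination hdet)
    ⟨c, by rw [hc]; push_cast; ring⟩, degHom_eq _ _ _ ?_, by rw [matOf_mkGamma0, hbv]⟩
  rw [matOf_mkGamma0, Degen.dMat, Matrix.eta_fin_two (matOf g), Matrix.mul_fin_two,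
    Matrix.mul_fin_two, hb]
  ext i j
  fin_cases i <;> fin_cases j <;> simp <;> ring

variable {x y : H1 k k (tchi (N * v) k)}
  (hres : (degOne (N * v) k v).map k x = (degV (N * v) k hv).map k y)
include hvN hres

/-- On the kernel the two classes agree. -/
theorem val1_upH_eq {g : Gamma0 N} (h : InK v g) {η : Gamma0 (N * v)}
    (hη : Degen.degHom (N := N) v dvd_rfl η = g) : val1 x η = val1 y (lowK hv hvN h) := by
  obtain ⟨η', hη', hm⟩ := exists_upH (v := v) h.dvd01
  obtain rfl : η' = η := Degen.degHom_injective v dvd_rfl (hη'.trans hη.symm)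
  obtain ⟨c, hc⟩ := matOf_dvd (lowK hv hvN h)
  have hc' : matOf g 1 0 = ((N * v : ℕ) : ℤ) * c := hc
  let γ : Gamma0 (N * v * v) := mkGamma0 (matOf η' 0 0) (matOf η' 0 1) (matOf η' 1 0)
    (matOf η' 1 1) (det_entries η') ⟨c, by rw [hm]; simp [hc']; ring⟩
  have h1 := val1_degOne x γ η' (by rw [matOf_mkGamma0, ← Matrix.eta_fin_two])
  have h2 := val1_degV hv y γ (lowK hv hvN h) (by
    rw [matOf_mkGamma0, ← Matrix.eta_fin_two, Degen.dMat_mul_degHom v dvd_rfl η', hη]
    rfl)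
  rw [← h1, hres, h2]

/-- `y` on the kernel is invariant under `r`. -/
def InvAt (y : H1 k k (tchi (N * v) k)) (r : Gamma0 N) : Prop :=
  ∀ (g : Gamma0 N) (h : InK v g), val1 y (lowK hv hvN (h.conj r)) = val1 y (lowK hv hvN h)

omit hres in
theorem InvAt.mul {r s : Gamma0 N} (hr : InvAt hv hvN y r) (hs : InvAt hv hvN y s) :
    InvAt hv hvN y (r * s) := fun g h => by
  have e : lowK hv hvN (h.conj (r * s)) = lowK hv hvN ((h.conj s).conj r) :=
    Subtype.ext (by simp [lowK, toLower, mul_assoc])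
  rw [e, hr _ (h.conj s), hs g h]

omit hres in
theorem invAt_of_dvd10 {r : Gamma0 N} (hc : (v : ℤ) ∣ matOf r 1 0) : InvAt hv hvN y r :=
  fun g h => by
  have e : lowK hv hvN (h.conj r) =
      toLower r (mem_of_dvd10 hv hvN hc) * lowK hv hvN h *
        (toLower r (mem_of_dvd10 hv hvN hc))⁻¹ :=
    Subtype.ext (by simp [lowK, toLower])
  rw [e, val1_conj]

theorem invAt_of_dvd01 {r : Gamma0 N} (hb : (v : ℤ) ∣ matOf r 0 1) : InvAt hv hvN y r :=
  fun g h => by
  obtain ⟨η, hη, -⟩ := exists_upH (v := v) hb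
  obtain ⟨κ, hκ, -⟩ := exists_upH (v := v) h.dvd01
  rw [← val1_upH_eq hv hvN hres (h.conj r) (η := η * κ * η⁻¹)
      (by rw [map_mul, map_mul, map_inv, hη, hκ]),
    ← val1_upH_eq hv hvN hres h hκ, val1_conj]

theorem invAt_corRep (i : Option (Fin v)) : InvAt hv hvN y (corRep hv hvN i) := by
  rcases i with _ | j
  · exact invAt_of_dvd10 hv hvN (by simp [corRep])
  refine InvAt.mul hv hvN ?_ (invAt_of_dvd10 hv hvN (by simp [gammaT]))
  set a := Nat.gcdA v N with ha
  set b := Nat.gcdB v N with hb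
  have hbz := bezout hv hvN
  rw [← ha, ← hb] at hbz
  let h' : Gamma0 N := mkGamma0 (a + b * (N - N * a)) (b * v * (1 - a)) ((N : ℤ) - N * a)
    ((N : ℤ) * b + v) (by linear_combination (1 + b * N * (1 - a)) * hbz) ⟨1 - a, by ring⟩
  have e : corBase hv hvN =
      mkGamma0 1 0 (N : ℤ) 1 (by ring) dvd_rfl * gammaT N (-b) * h' := by
    refine matOf_injective ?_
    rw [matOf_mul, matOf_mul, corBase, gammaT]
    simp only [matOf_mkGamma0, h', Matrix.mul_fin_two, ← ha, ← hb]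
    ext i j
    fin_cases i <;> fin_cases j <;> simp <;>
      first
        | ring1
        | linear_combination b * hbz
        | linear_combination -(b * hbz)
        | linear_combination (N * b : ℤ) * hbz
        | linear_combination -((N * b : ℤ) * hbz)
  rw [e]
  exact ((invAt_of_dvd01 hv hvN hres (by simp)).mul hv hvN
    (invAt_of_dvd10 hv hvN (by simp [gammaT]))).mul hv hvN
      (invAt_of_dvd01 hv hvN hres ⟨b * (1 - a), by simp [h']; ring⟩)

/-- Corestriction on the kernel. -/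
theorem val1_cor {g : Gamma0 N} (h : InK v g) :
    val1 ((corSys k hv hvN).map k y) g = ((v : k) + 1) * val1 y (lowK hv hvN h) := by
  have key := fun i => invAt_corRep hv hvN hres i g h
  induction y using Submodule.Quotient.induction_on with
  | _ c =>
    have hi : ∀ i, (corSys k hv hvN).coc g i = lowK hv hvN (h.conj (corRep hv hvN i)) := fun i => by
      refine ((corSys k hv hvN).eq_of_mul (inj_corSys hv hvN) (j := i) ?_).1
      show matOf (corRep hv hvN i) * matOf g =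
        matOf (corRep hv hvN i * g * (corRep hv hvN i)⁻¹) * matOf (corRep hv hvN i)
      rw [← matOf_mul, ← matOf_mul, inv_mul_cancel_right]
    rw [val1, Sys.map_mk, h1Triv_mk, Sys.coe_op]
    calc ∑ i, (corSys k hv hvN).w i •
          (c : Gamma0 (N * v) → k) ((corSys k hv hvN).coc g i)
        = ∑ _i : Option (Fin v),
            val1 (Submodule.Quotient.mk c) (lowK hv hvN h) :=
          Finset.sum_congr rfl fun i _ => by
            rw [hi, show (corSys k hv hvN).w i = 1 from rfl, one_smul, ← key i]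
            rfl
      _ = _ := by simp [Finset.sum_const]

end Kernel

/-! ### The Eisenstein part -/

/-- `T_ℓ - (ℓ + 1)`. -/
def eis (M : ℕ) {ℓ : ℕ} (hℓ : ℓ.Prime) (k : Type) [Field k] :
    Module.End k (H1 k k (tchi M k)) :=
  heckeOp hℓ (1 : (ZMod M)ˣ →* kˣ) k - ((ℓ : k) + 1) • 1

theorem eis_apply {M ℓ : ℕ} (hℓ : ℓ.Prime) (x : H1 k k (tchi M k)) :
    eis M hℓ k x = heckeOp hℓ 1 k x - ((ℓ : k) + 1) • x := rfl

theorem not_dvd_of_cong {M ℓ : ℕ} (hℓ : ℓ.Prime) (h : M ∣ ℓ - 1) : ¬ ℓ ∣ M := fun hd => by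
  have h1 := hd.trans h
  have h2 := hℓ.two_le
  have := Nat.le_of_dvd (by omega) h1
  omega

theorem natCast_eq_one {M ℓ : ℕ} (hℓ : ℓ.Prime) (h : M ∣ ℓ - 1) : ((ℓ : ℕ) : ZMod M) = 1 := by
  have h2 : ((ℓ - 1 : ℕ) : ZMod M) = 0 := (ZMod.natCast_eq_zero_iff _ M).mpr h
  rwa [Nat.cast_sub hℓ.one_le, Nat.cast_one, sub_eq_zero] at h2

/-- A class depending only on `d` modulo the level is Eisenstein. -/
theorem eis_eq_zero_of_diag {M ℓ : ℕ} [NeZero M] (hℓ : ℓ.Prime) (hcong : M ∣ ℓ - 1)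
    (F : H1 k k (tchi M k))
    (hF : ∀ γ : Gamma0 M, ((matOf γ 1 1 : ℤ) : ZMod M) = 1 → val1 F γ = 0) :
    eis M hℓ k F = 0 := by
  have hsame : ∀ γ δ : Gamma0 M, ((matOf δ 1 1 : ℤ) : ZMod M) = (matOf γ 1 1 : ℤ) →
      val1 F δ = val1 F γ := fun γ δ e => by
    have h1 : dUnit (dvd_refl M) δ = dUnit dvd_rfl γ := Units.ext e
    have h2 := hF (δ * γ⁻¹) (by
      rw [← coe_dUnit dvd_rfl, map_mul, map_inv, h1, mul_inv_cancel, Units.val_one])
    rwa [val1_mul, val1_inv, add_neg_eq_zero] at h2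
  have hone : ∀ i : heckeIdx M ℓ, ((heckeBeta i 1 1 : ℤ) : ZMod M) = 1 := by
    rintro ⟨_ | j, hj⟩
    · simp [HeckeH.heckeBeta_none]
    · simp [HeckeH.heckeBeta_some, natCast_eq_one hℓ hcong]
  refine val1_ext fun γ => ?_
  have key : ∀ i, val1 F ((HeckeH.heckeReps M hℓ).coc γ i) = val1 F γ := fun i => by
    refine hsame γ _ ?_
    have hs := congrArg (fun z : ℤ => (z : ZMod M))
      (congrFun (congrFun ((HeckeH.heckeReps M hℓ).spec γ i) 1) 1)
    simp only [HeckeH.heckeReps_β, Matrix.mul_apply, Fin.sum_univ_two, heckeBeta_10, zero_mul,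
      zero_add, Int.cast_add, Int.cast_mul, hone,
      (ZMod.intCast_zmod_eq_zero_iff_dvd _ M).mpr (matOf_dvd _), mul_one, one_mul] at hs
    exact hs.symm
  rw [eis_apply, val1_sub, val1_smul, val1_heckeOp, Finset.sum_congr rfl fun i _ => key i,
    val1_zero, Finset.sum_const, Finset.card_univ, nsmul_eq_mul,
    Fintype.card_congr (HeckeH.idxEquivT (not_dvd_of_cong hℓ hcong)), Fintype.card_option,
    Fintype.card_fin]
  push_cast
  ring

theorem gammaT_pow (M : ℕ) (t : ℤ) (n : ℕ) : gammaT M t ^ n = gammaT M (n * t) := by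
  induction n with
  | zero => simp [gammaT_zero]
  | succ n ih =>
    rw [pow_succ, ih, ← gammaT_add]
    congr 1
    push_cast
    ring

theorem eis_sub_res_cor {N v : ℕ} [NeZero N] [NeZero v] (hv : v.Prime) (hvN : ¬ v ∣ N)
    (hvk : (v : k) = 1) (h2 : (2 : k) ≠ 0) {ℓ : ℕ} (hℓ : ℓ.Prime) (hcong : N * v ∣ ℓ - 1)
    {x y : H1 k k (tchi (N * v) k)}
    (hres : (degOne (N * v) k v).map k x = (degV (N * v) k hv).map k y) :
    eis (N * v) hℓ k
      (y - (degOne N k v).map k ((2 : k)⁻¹ • (corSys k hv hvN).map k y)) = 0 := by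
  refine eis_eq_zero_of_diag hℓ hcong _ fun γ hd => ?_
  set F := y - (degOne N k v).map k ((2 : k)⁻¹ • (corSys k hv hvN).map k y) with hF
  let inc := Subgroup.inclusion (Period.gamma0_le_gamma0_of_dvd (dvd_mul_right N v))
  have h0 : ∀ η : Gamma0 (N * v), InK v (inc η) → val1 F η = 0 := fun η h => by
    rw [hF, val1_sub, val1_degOne _ η (inc η) rfl, val1_smul, val1_cor hv hvN hres h, hvk,
      show (1 : k) + 1 = 2 by norm_num, ← mul_assoc, inv_mul_cancel₀ h2, one_mul,
      show lowK hv hvN h = η from Subtype.ext rfl, sub_self]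
  have hT : ∀ t, val1 F (gammaT (N * v) t) = 0 := fun t => by
    have h1 := h0 (gammaT (N * v) ((v : ℕ) * t)) (inK_of
      (show (v : ℤ) ∣ matOf (gammaT (N * v) ((v : ℕ) * t)) 0 1 from ⟨t, by simp [gammaT]⟩)
      (show (v : ℤ) ∣ matOf (gammaT (N * v) ((v : ℕ) * t)) 1 0 from ⟨0, by simp [gammaT]⟩)
      (show ((matOf (gammaT (N * v) ((v : ℕ) * t)) 1 1 : ℤ) : ZMod v) = 1 by simp [gammaT])
      (show ((matOf (gammaT (N * v) ((v : ℕ) * t)) 1 1 : ℤ) : ZMod N) = 1 by simp [gammaT]))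
    rwa [← gammaT_pow, val1_pow, hvk, one_mul] at h1
  obtain ⟨e, he⟩ := matOf_dvd γ
  push_cast at he
  have hdv : ((matOf γ 1 1 : ℤ) : ZMod v) = 1 := by
    have := congrArg (ZMod.castHom (dvd_mul_left v N) (ZMod v)) hd
    rwa [map_intCast, map_one] at this
  have hdN : ((matOf γ 1 1 : ℤ) : ZMod N) = 1 := by
    have := congrArg (ZMod.castHom (dvd_mul_right N v) (ZMod N)) hd
    rwa [map_intCast, map_one] at this
  have hav : ((matOf γ 0 0 : ℤ) : ZMod v) = 1 := by
    have := intCast_matOf_mul_eq_one (dvd_mul_left v N) γ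
    rwa [hdv, mul_one] at this
  set γ' := γ * gammaT (N * v) (-matOf γ 0 1) with hγ'
  have hm : matOf (inc γ') =
      !![matOf γ 0 0, -(matOf γ 0 0) * matOf γ 0 1 + matOf γ 0 1;
        matOf γ 1 0, -(matOf γ 1 0) * matOf γ 0 1 + matOf γ 1 1] := by
    show matOf γ' = _
    rw [hγ', matOf_mul, gammaT, matOf_mkGamma0]
    ext i j
    fin_cases i <;> fin_cases j <;> simp [Matrix.mul_apply, Fin.sum_univ_two]
  have hK : InK v (inc γ') := by
    refine inK_of ?_ ?_ ?_ ?_ <;> rw [hm] <;> simp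
    · rw [← ZMod.intCast_zmod_eq_zero_iff_dvd]
      push_cast
      rw [hav]; ring
    · exact ⟨(N : ℤ) * e, by rw [he]; ring⟩
    · rw [he]; push_cast; rw [ZMod.natCast_self, hdv]; ring
    · rw [he]; push_cast; rw [ZMod.natCast_self, hdN]; ring
  have := h0 γ' hK
  rwa [hγ', val1_mul, hT, add_zero] at this

/-! ### The kernel of the pair of degeneracy maps -/

theorem eis_comm_heckeOp {M ℓ m : ℕ} (hℓ : ℓ.Prime) (hm : m.Prime) :
    Commute (eis M hℓ k) (heckeOp hm (1 : (ZMod M)ˣ →* kˣ) k) :=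
  LinearMap.ext fun x => by
    show eis M hℓ k (heckeOp hm 1 k x) = heckeOp hm 1 k (eis M hℓ k x)
    rw [eis_apply, eis_apply, map_sub, map_smul, heckeOp_comm]

theorem degOne_eis {M v ℓ : ℕ} (hℓ : ℓ.Prime) (hv : v.Prime) (hne : ℓ ≠ v)
    (x : H1 k k (tchi M k)) :
    (degOne M k v).map k (eis M hℓ k x) = eis (M * v) hℓ k ((degOne M k v).map k x) := by
  rw [eis_apply, eis_apply, map_sub, map_smul, degOne_hecke hℓ hv hne]

theorem degV_eis {M v ℓ : ℕ} (hℓ : ℓ.Prime) (hv : v.Prime) (hne : ℓ ≠ v)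
    (x : H1 k k (tchi M k)) :
    (degV M k hv).map k (eis M hℓ k x) = eis (M * v) hℓ k ((degV M k hv).map k x) := by
  rw [eis_apply, eis_apply, map_sub, map_smul, degV_hecke hℓ hv hne]

/-- The two degeneracy maps commute. -/
theorem degV_degOne {N v : ℕ} (hv : v.Prime) (w : H1 k k (tchi N k)) :
    (degV (N * v) k hv).map k ((degOne N k v).map k w) =
      (degOne (N * v) k v).map k ((degV N k hv).map k w) := by
  haveI : NeZero v := ⟨hv.ne_zero⟩
  refine val1_ext fun γ => ?_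
  set δ := Degen.degHom (N := N * v) v dvd_rfl γ
  set δ₀ : Gamma0 N := Subgroup.inclusion (Period.gamma0_le_gamma0_of_dvd (dvd_mul_right N v)) δ
    with hδ₀
  set γ₀ : Gamma0 (N * v) :=
    Subgroup.inclusion (Period.gamma0_le_gamma0_of_dvd (dvd_mul_right (N * v) v)) γ with hγ₀
  have e1 : matOf δ₀ = matOf δ := rfl
  have e2 : matOf γ₀ = matOf γ := rfl
  have e3 : Degen.dMat v * matOf γ₀ = matOf δ₀ * Degen.dMat v := by
    rw [e1, e2]; exact Degen.dMat_mul_degHom v dvd_rfl γ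
  rw [val1_degV hv _ γ δ (Degen.dMat_mul_degHom v dvd_rfl γ), val1_degOne w δ δ₀ e1,
    val1_degOne _ γ γ₀ e2, val1_degV hv w γ₀ δ₀ e3]

theorem trace_sq_or_order_four {M : ℕ} (h9 : 9 ∣ M) {γ : Gamma0 M} (hγ : IsOfFinOrder γ) :
    (matOf γ).trace ^ 2 = 4 ∨ γ ^ 4 = 1 := by
  have hbd : |(matOf γ).trace| ≤ 2 :=
    Period.abs_trace_le_two_of_isOfFinOrder ((Gamma0 M).subtype.isOfFinOrder hγ)
  have hdet := det_entries γ
  obtain ⟨c, hc⟩ := (Int.natCast_dvd_natCast.mpr h9).trans (matOf_dvd γ)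
  push_cast at hc
  rw [Matrix.trace_fin_two] at hbd ⊢
  obtain ⟨t, ht⟩ : ∃ t, matOf γ 0 0 + matOf γ 1 1 = t := ⟨_, rfl⟩
  rw [ht] at hbd ⊢
  have hdec : ∀ a : ZMod 9, a * (1 - a) ≠ 1 ∧ a * (-1 - a) ≠ 1 := by decide
  have hred := congrArg (fun z : ℤ => (z : ZMod 9)) hdet
  rw [hc, show matOf γ 1 1 = t - matOf γ 0 0 by linear_combination ht] at hred
  push_cast at hred
  rw [show (9 : ZMod 9) = 0 from rfl, zero_mul, mul_zero, sub_zero] at hred
  rw [abs_le] at hbd
  obtain ⟨h1, h2⟩ := hbd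
  interval_cases t
  · exact Or.inl (by norm_num)
  · exact absurd (by push_cast at hred; exact hred) (hdec (matOf γ 0 0 : ℤ)).2
  · right
    have hd : matOf γ 1 1 = -matOf γ 0 0 := by linear_combination ht
    have hsq : matOf γ * matOf γ = -1 := by
      rw [hd] at hdet
      rw [Matrix.eta_fin_two (matOf γ), Matrix.mul_fin_two, hd, Matrix.one_fin_two]
      ext i j
      fin_cases i <;> fin_cases j <;> simp <;> first | ring1 | linear_combination -hdet
    refine matOf_injective ?_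
    rw [show (4 : ℕ) = 2 + 2 from rfl, pow_add, pow_two, matOf_mul, matOf_mul, hsq,
      HeckeH.matOf_one]
    simp
  · exact absurd (by push_cast at hred; exact hred) (hdec (matOf γ 0 0 : ℤ)).1
  · exact Or.inl (by norm_num)

/-- A homomorphism killing parabolic elements and a congruence subgroup vanishes. -/
theorem eq_zero_of_parabolic {N M : ℕ} [NeZero M] (hNM : N ∣ M) (z : H1 k k (tchi N k))
    (hp : ∀ γ : Gamma0 N, (matOf γ).trace ^ 2 = 4 → val1 z γ = 0)
    (hM : ∀ γ : Gamma0 N, (γ : SL(2, ℤ)) ∈ Gamma0 M → val1 z γ = 0) : z = 0 := by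
  refine val1_ext fun γ => ?_
  rw [val1_zero]
  have hγ : γ ∈ Subgroup.closure _ :=
    (Period.closure_gamma0_union_parabolic (M := M) hNM).symm ▸ Subgroup.mem_top γ
  induction hγ using Subgroup.closure_induction with
  | mem a ha => exact ha.elim (hM a) (hp a)
  | one => exact val1_one z
  | mul a b _ _ iha ihb => rw [val1_mul, iha, ihb, add_zero]
  | inv a _ iha => rw [val1_inv, iha, neg_zero]

theorem coe_eisOp {M : ℕ} [NeZero M] {ℓ : ℕ} (hℓ : ℓ.Prime) (φ : Period.H M k k)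
    (z : H1 k k (tchi M k))
    (h : (φ : Additive (Gamma0 M) →+ k) = h1Triv M k k z) :
    (Ihara.eisOp M hℓ k φ : Additive (Gamma0 M) →+ k) = h1Triv M k k (eis M hℓ k z) := by
  rw [Ihara.eisOp_apply, eis_apply, map_sub, map_smul, h1Triv_heckeOp, ← h, Submodule.coe_sub,
    Submodule.coe_smul, HeckeH.coe_heckeH, Nat.cast_add, Nat.cast_one]

/-- Ihara's lemma at level `N` for arbitrary homomorphisms. -/
theorem eis_cube_pair {N v : ℕ} [NeZero N] (hv : v.Prime) (hvN : ¬ v ∣ N) {p : ℕ} [Fact p.Prime]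
    [CharP k p] (h2 : (2 : k) ≠ 0) {ℓ : ℕ} (hℓ : ℓ.Prime) (hℓ2 : ℓ ≠ 2) (hℓ3 : ℓ ≠ 3) (hv3 : v ≠ 3)
    (hℓk : (ℓ : k) ≠ 0) (hcong : N * v ∣ ℓ - 1) {a b : H1 k k (tchi N k)}
    (h : (degOne N k v).map k a + (degV N k hv).map k b = 0) :
    eis N hℓ k (eis N hℓ k (eis N hℓ k a)) = 0 ∧ eis N hℓ k (eis N hℓ k (eis N hℓ k b)) = 0 := by
  haveI : Fact v.Prime := ⟨hv⟩
  haveI : NeZero v := ⟨hv.ne_zero⟩
  have hℓNv := not_dvd_of_cong hℓ hcong
  have hne : ℓ ≠ v := fun e => hℓNv (e ▸ dvd_mul_left v N)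
  have hNc : N ∣ ℓ - 1 := (dvd_mul_right N v).trans hcong
  set M := N * 3 * 3 with hM
  have hNM : N ∣ M := (dvd_mul_right N 3).trans (dvd_mul_right _ 3)
  let res : H1 k k (tchi N k) →ₗ[k] H1 k k (tchi M k) :=
    (degOne (N * 3) k 3).map k ∘ₗ (degOne N k 3).map k
  have hres : ∀ (z : H1 k k (tchi N k)) (γ : Gamma0 M),
      val1 (res z) γ = val1 z (Subgroup.inclusion (Period.gamma0_le_gamma0_of_dvd hNM) γ) := by
    intro z γ
    show val1 ((degOne (N * 3) k 3).map k ((degOne N k 3).map k z)) γ = _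
    rw [val1_degOne _ γ
      (Subgroup.inclusion (Period.gamma0_le_gamma0_of_dvd (dvd_mul_right (N * 3) 3)) γ) rfl,
      val1_degOne _ _ (Subgroup.inclusion (Period.gamma0_le_gamma0_of_dvd hNM) γ) rfl]
  have hresE : ∀ z, res (eis N hℓ k z) = eis M hℓ k (res z) := fun z => by
    show (degOne (N * 3) k 3).map k ((degOne N k 3).map k (eis N hℓ k z)) = _
    rw [degOne_eis hℓ Nat.prime_three hℓ3, degOne_eis hℓ Nat.prime_three hℓ3]
    rfl
  have hpar : ∀ (z : H1 k k (tchi N k)) (γ : Gamma0 N), (matOf γ).trace ^ 2 = 4 →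
      val1 (eis N hℓ k z) γ = 0 :=
    fun z γ hγ => heckeOp_sub_trace_four hℓ hNc hℓk h2 z γ hγ
  have hmem : ∀ z, h1Triv M k k (res (eis N hℓ k z)) ∈ Period.H M k k := by
    intro z
    have hp : ∀ γ : Gamma0 M, (matOf γ).trace ^ 2 = 4 → val1 (res (eis N hℓ k z)) γ = 0 :=
      fun γ hγ => (hres _ γ).trans (hpar z _ hγ)
    refine ⟨fun γ hγ => hp γ hγ, fun γ hγ => ?_⟩
    rcases trace_sq_or_order_four ⟨N, by rw [hM]; ring⟩ hγ with h4 | h4
    · exact hp γ h4
    · have h5 := val1_pow (res (eis N hℓ k z)) γ 4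
      rw [h4, val1_one] at h5
      exact (mul_eq_zero.mp h5.symm).resolve_left (by
        rw [Nat.cast_ofNat, show (4 : k) = 2 * 2 by norm_num]; exact mul_ne_zero h2 h2)
  let φ : Period.H M k k := ⟨_, hmem a⟩
  let ψ : Period.H M k k := ⟨_, hmem b⟩
  have hE : ∀ η : Gamma0 (N * v),
      val1 (eis N hℓ k a) (Subgroup.inclusion (Period.gamma0_le_gamma0_of_dvd (dvd_mul_right N v)) η) +
        val1 (eis N hℓ k b) (Degen.degHom (N := N) v dvd_rfl η) = 0 := by
    intro η
    have h' := congrArg (fun z => val1 (eis (N * v) hℓ k z) η) h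
    simp only [map_add, map_zero, val1_zero, ← degOne_eis hℓ hv hne, ← degV_eis hℓ hv hne] at h'
    rw [← val1_degOne (eis N hℓ k a) η _ rfl,
      ← val1_degV hv (eis N hℓ k b) η _ (Degen.dMat_mul_degHom _ _ _)]
    simpa [val1, map_add] using h'
  have halpha : Ihara.alpha (N := M) (q := v) k k (φ, ψ) = 0 := by
    refine Subtype.ext (AddMonoidHom.ext fun γ => ?_)
    obtain ⟨γ, rfl⟩ := Additive.ofMul.surjective γ
    rw [Ihara.alpha_apply, Submodule.coe_add, AddMonoidHom.add_apply, Ihara.resH_apply,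
      Ihara.degQ_apply]
    show val1 (res (eis N hℓ k a)) (Ihara.inclHom M v γ) +
      val1 (res (eis N hℓ k b)) (Ihara.iqHom M v γ) = 0
    rw [hres, hres]
    set η : Gamma0 (N * v) := Subgroup.inclusion
      (Period.gamma0_le_gamma0_of_dvd (Nat.mul_dvd_mul_right hNM v)) γ
    have e1 : Subgroup.inclusion (Period.gamma0_le_gamma0_of_dvd hNM) (Ihara.inclHom M v γ) =
        Subgroup.inclusion (Period.gamma0_le_gamma0_of_dvd (dvd_mul_right N v)) η :=
      matOf_injective (Ihara.matOf_inclHom M v γ)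
    have e2 : Subgroup.inclusion (Period.gamma0_le_gamma0_of_dvd hNM) (Ihara.iqHom M v γ) =
        Degen.degHom (N := N) v dvd_rfl η :=
      (degHom_eq dvd_rfl η (Subgroup.inclusion (Period.gamma0_le_gamma0_of_dvd hNM)
        (Ihara.iqHom M v γ)) (Ihara.dMat_mul_iqHom M v γ)).symm
    rw [e1, e2]
    exact hE η
  have hvM : ¬ v ∣ M := by
    intro hd
    rcases (Nat.Prime.dvd_mul hv).mp hd with h' | h'
    · rcases (Nat.Prime.dvd_mul hv).mp h' with h' | h'
      · exact hvN h'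
      · exact hv3 ((Nat.prime_dvd_prime_iff_eq hv Nat.prime_three).mp h')
    · exact hv3 ((Nat.prime_dvd_prime_iff_eq hv Nat.prime_three).mp h')
  have hℓM : ¬ ℓ ∣ M * v := by
    intro hd
    rw [hM, show N * 3 * 3 * v = N * v * 3 * 3 by ring] at hd
    rcases (Nat.Prime.dvd_mul hℓ).mp hd with h' | h'
    · rcases (Nat.Prime.dvd_mul hℓ).mp h' with h' | h'
      · exact hℓNv h'
      · exact hℓ3 ((Nat.prime_dvd_prime_iff_eq hℓ Nat.prime_three).mp h')
    · exact hℓ3 ((Nat.prime_dvd_prime_iff_eq hℓ Nat.prime_three).mp h')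
  obtain ⟨k1, k2⟩ :=
    Ihara.ihara_kernel hvM (cp := p) (Fact.out : p.Prime) hℓ hℓ2 hℓM halpha
  have fin : ∀ (z : H1 k k (tchi N k)) (ξ : Period.H M k k),
      (ξ : Additive (Gamma0 M) →+ k) = h1Triv M k k (res (eis N hℓ k z)) →
      Ihara.eisOp M hℓ k (Ihara.eisOp M hℓ k ξ) = 0 →
      eis N hℓ k (eis N hℓ k (eis N hℓ k z)) = 0 := by
    intro z ξ hξ h0
    refine eq_zero_of_parabolic hNM _ (hpar _) fun γ hγ => ?_
    have e := coe_eisOp hℓ _ _ (coe_eisOp hℓ ξ _ hξ)
    rw [h0, ZeroMemClass.coe_zero, ← hresE, ← hresE] at e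
    have e' := DFunLike.congr_fun e (Additive.ofMul (⟨γ, hγ⟩ : Gamma0 M))
    rw [AddMonoidHom.zero_apply] at e'
    exact (hres _ ⟨γ, hγ⟩).symm.trans e'.symm
  exact ⟨fin a φ rfl k1, fin b ψ rfl k2⟩

/-! ### The quadratic relation -/

theorem eq_zero_of_coprime {V : Type*} [AddCommGroup V] [Module k V] (f : Module.End k V)
    {P Q : Polynomial k} (h : IsCoprime P Q) {x : V} (hP : Polynomial.aeval f P x = 0)
    (hQ : Polynomial.aeval f Q x = 0) : x = 0 := by
  obtain ⟨A, B, hAB⟩ := h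
  have := congrArg (fun g => Polynomial.aeval f g x) hAB
  simpa [map_add, map_mul, Module.End.mul_apply, hP, hQ] using this.symm

section Pair

variable {V : Type*} [AddCommGroup V] [Module k V] (T : Module.End k V)

/-- `X` on pairs. -/
def upPair : Module.End k (V × V) :=
  LinearMap.prod (T ∘ₗ LinearMap.fst k V V + LinearMap.snd k V V) (-LinearMap.fst k V V)

/-- `T - X` on pairs. -/
def downPair : Module.End k (V × V) :=
  LinearMap.prod (-LinearMap.snd k V V) (LinearMap.fst k V V + T ∘ₗ LinearMap.snd k V V)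

/-- The exchange of the two roots. -/
def swapPair : Module.End k (V × V) :=
  LinearMap.prod (-LinearMap.fst k V V) (T ∘ₗ LinearMap.fst k V V + LinearMap.snd k V V)

theorem upPair_apply (p : V × V) : upPair T p = (T p.1 + p.2, -p.1) := rfl

theorem downPair_apply (p : V × V) : downPair T p = (-p.2, p.1 + T p.2) := rfl

theorem swapPair_apply (p : V × V) : swapPair T p = (-p.1, T p.1 + p.2) := rfl

theorem eq_zero_of_pair {α : k} (hα : α ^ 2 ≠ 1) {w : V} {j : ℕ}
    (h : ((upPair T - α • 1) ^ j) (0, w) = 0) : w = 0 := by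
  have hswap : SemiconjBy (swapPair T) (upPair T - α • 1) (downPair T - α • 1) :=
    LinearMap.ext fun ⟨a, b⟩ => by
      simp only [Module.End.mul_apply, LinearMap.sub_apply, LinearMap.smul_apply,
        Module.End.one_apply, upPair_apply, downPair_apply, swapPair_apply, Prod.smul_mk,
        Prod.mk_sub_mk, map_sub, map_add, map_smul, smul_neg, smul_add, Prod.mk.injEq]
      constructor <;> abel
  have h' : ((downPair T - α • 1) ^ j) (0, w) = 0 := by
    have e := LinearMap.congr_fun (hswap.pow_right j).eq (0, w)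
    rw [Module.End.mul_apply, Module.End.mul_apply, h, map_zero, swapPair_apply] at e
    simpa using e.symm
  have hud : upPair T * downPair T = 1 := LinearMap.ext fun ⟨a, b⟩ => by
    simp [upPair_apply, downPair_apply, Module.End.mul_apply]
  have hdu : downPair T * upPair T = 1 := LinearMap.ext fun ⟨a, b⟩ => by
    simp [upPair_apply, downPair_apply, Module.End.mul_apply]
  have hcomm : Commute (upPair T) (downPair T - α • 1) :=
    ((show Commute (upPair T) (downPair T) from hud.trans hdu.symm).sub_right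
      ((Commute.one_right _).smul_right α))
  have hQ : ((1 - α • upPair T) ^ j) (0, w) = 0 := by
    rw [show 1 - α • upPair T = upPair T * (downPair T - α • 1) by
      rw [mul_sub, hud, mul_smul_comm, mul_one], hcomm.mul_pow, Module.End.mul_apply, h', map_zero]
  have hcop : IsCoprime (Polynomial.X - Polynomial.C α : Polynomial k)
      (1 - Polynomial.C α * Polynomial.X) := by
    have hne : (1 - α ^ 2) ≠ 0 := sub_ne_zero.mpr hα.symm
    refine ⟨Polynomial.C ((1 - α ^ 2)⁻¹ * α), Polynomial.C ((1 - α ^ 2)⁻¹), ?_⟩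
    rw [map_mul]
    have e : Polynomial.C ((1 - α ^ 2)⁻¹) * (1 - Polynomial.C α ^ 2) = (1 : Polynomial k) := by
      rw [← map_pow, ← map_one (Polynomial.C (R := k)), ← map_sub, ← map_mul,
        inv_mul_cancel₀ hne]
    linear_combination e
  have h0 := eq_zero_of_coprime (upPair T) (hcop.pow (m := j) (n := j)) (x := (0, w))
    (by simpa [Algebra.algebraMap_eq_smul_one] using h)
    (by simpa [Algebra.algebraMap_eq_smul_one] using hQ)
  exact (Prod.mk.inj h0).2

end Pair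

/-- The two degeneracy maps together. -/
def phi (N : ℕ) {v : ℕ} (hv : v.Prime) (k : Type) [Field k] :
    H1 k k (tchi N k) × H1 k k (tchi N k) →ₗ[k] H1 k k (tchi (N * v) k) :=
  ((degOne N k v).map k).coprod ((degV N k hv).map k)

theorem phi_apply {N v : ℕ} (hv : v.Prime) (a b : H1 k k (tchi N k)) :
    phi N hv k (a, b) = (degOne N k v).map k a + (degV N k hv).map k b := rfl

theorem phi_upPair {N v : ℕ} (hv : v.Prime) (hvN : ¬ v ∣ N) (hvk : (v : k) = 1) (α : k)
    (j : ℕ) (p : H1 k k (tchi N k) × H1 k k (tchi N k)) :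
    phi N hv k (((upPair (heckeOp hv (1 : (ZMod N)ˣ →* kˣ) k) - α • 1) ^ j) p) =
      ((heckeOp hv (1 : (ZMod (N * v))ˣ →* kˣ) k - α • 1) ^ j) (phi N hv k p) := by
  induction j with
  | zero => simp
  | succ j ih =>
    rw [pow_succ', pow_succ', Module.End.mul_apply, Module.End.mul_apply, ← ih]
    generalize ((upPair (heckeOp hv (1 : (ZMod N)ˣ →* kˣ) k) - α • 1) ^ j) p = q
    obtain ⟨a, b⟩ := q
    simp only [LinearMap.sub_apply, LinearMap.smul_apply, Module.End.one_apply, upPair_apply,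
      Prod.smul_mk, Prod.mk_sub_mk, phi_apply, map_add, map_sub, map_smul, map_neg, hvk, one_smul,
      hecke_degOne hv hvN, hecke_degV hv hvN]
    abel

/-- The class `E x` is the second degeneracy of a class of level `N`. -/
theorem exists_old {N v : ℕ} [NeZero N] [NeZero v] (hv : v.Prime) (hvN : ¬ v ∣ N)
    (hvk : (v : k) = 1) (h2 : (2 : k) ≠ 0) {ℓ : ℕ} (hℓ : ℓ.Prime) (hne : ℓ ≠ v)
    (hcong : N * v ∣ ℓ - 1) {x : H1 k k (tchi (N * v) k)}
    (hres : (degOne (N * v) k v).map k x =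
      (degV (N * v) k hv).map k (heckeOp hv (1 : (ZMod (N * v))ˣ →* kˣ) k x)) :
    ∃ w, eis (N * v) hℓ k x = (degV N k hv).map k w := by
  set y := heckeOp hv (1 : (ZMod (N * v))ˣ →* kˣ) k x with hy0
  refine ⟨eis N hℓ k ((2 : k)⁻¹ • (corSys k hv hvN).map k y), ?_⟩
  have hy : eis (N * v) hℓ k y =
      (degOne N k v).map k (eis N hℓ k ((2 : k)⁻¹ • (corSys k hv hvN).map k y)) := by
    rw [degOne_eis hℓ hv hne, ← sub_eq_zero, ← map_sub]
    exact eis_sub_res_cor hv hvN hvk h2 hℓ hcong hres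
  refine sub_eq_zero.mp (eq_zero_of_degOne_eq_zero hv (dvd_mul_left v N)
    (by rw [hvk]; exact one_ne_zero) ?_)
  rw [map_sub, degOne_eis hℓ hv hne, hres, ← degV_eis hℓ hv hne, hy, degV_degOne hv, sub_self]

/-- The pair attached to an old generalised eigenclass is Eisenstein. -/
theorem eis_cube_eq_zero {N v : ℕ} [NeZero N] (hv : v.Prime) (hvN : ¬ v ∣ N) {p : ℕ}
    [Fact p.Prime] [CharP k p] (hvk : (v : k) = 1) (h2 : (2 : k) ≠ 0) {ℓ : ℕ} (hℓ : ℓ.Prime)
    (hℓ2 : ℓ ≠ 2) (hℓ3 : ℓ ≠ 3) (hv3 : v ≠ 3) (hℓk : (ℓ : k) ≠ 0) (hcong : N * v ∣ ℓ - 1)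
    {α : k} (hα : α ^ 2 ≠ 1) {w : H1 k k (tchi N k)} {j : ℕ}
    (hj : ((heckeOp hv (1 : (ZMod (N * v))ˣ →* kˣ) k - α • 1) ^ j) ((degV N k hv).map k w) = 0) :
    eis N hℓ k (eis N hℓ k (eis N hℓ k w)) = 0 := by
  set T := heckeOp hv (1 : (ZMod N)ˣ →* kˣ) k with hTdef
  have hP : phi N hv k (((upPair T - α • 1) ^ j) (0, w)) = 0 := by
    rw [hTdef, phi_upPair hv hvN hvk, phi_apply, map_zero, zero_add, hj]
  set e := eis N hℓ k with he
  set E2 : Module.End k (H1 k k (tchi N k) × H1 k k (tchi N k)) := LinearMap.prodMap e e with hE2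
  have heT : Commute E2 (upPair T - α • 1) := by
    refine Commute.sub_right ?_ ((Commute.one_right _).smul_right α)
    refine LinearMap.ext fun q => ?_
    have hc := LinearMap.congr_fun (eis_comm_heckeOp (k := k) (M := N) hℓ hv).eq q.1
    simp only [Module.End.mul_apply] at hc
    simp [hE2, upPair_apply, Module.End.mul_apply, he, hTdef, hc]
  have hcube : ∀ q, (E2 ^ 3) q = (e (e (e q.1)), e (e (e q.2))) := fun q => by
    simp [pow_succ, Module.End.mul_apply, hE2]
  refine eq_zero_of_pair T hα (j := j) ?_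
  have h1 : ((0 : H1 k k (tchi N k)), e (e (e w))) = (E2 ^ 3) (0, w) := by rw [hcube]; simp
  rw [h1, ← Module.End.mul_apply, ← ((heT.pow_right j).pow_left 3).eq, Module.End.mul_apply, hcube]
  generalize ((upPair T - α • 1) ^ j) (0, w) = q at hP ⊢
  obtain ⟨a, b⟩ := q
  obtain ⟨h3a, h3b⟩ := eis_cube_pair (p := p) hv hvN h2 hℓ hℓ2 hℓ3 hv3 hℓk hcong hP
  exact Prod.ext h3a h3b

end Depletion

open Depletion in
/-- **Depletion is injective residually.** -/
theorem eq_zero_of_depletion_eq_zero {N v : ℕ} [NeZero N] [NeZero v] (hv : v.Prime) (hvN : ¬ v ∣ N)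
    {p : ℕ} [Fact p.Prime] {k : Type} [Field k] [CharP k p] (hp2 : p ≠ 2) (hv1 : (v : k) = 1)
    {ℓ : ℕ} (hℓ : ℓ.Prime) (hℓ2 : ℓ ≠ 2) (hcong : N * v ∣ ℓ - 1)
    (x : H1 k k (chi (1 : (ZMod (N * v))ˣ →* kˣ)))
    {α b : k} (hα : α ^ 2 ≠ 1) (hb : b ≠ (ℓ : k) + 1)
    (hU : ∃ j : ℕ, ((heckeOp hv (1 : (ZMod (N * v))ˣ →* kˣ) k -
      α • (1 : Module.End k (H1 k k (chi (1 : (ZMod (N * v))ˣ →* kˣ))))) ^ j) x = 0)
    (hT : ∃ j : ℕ, ((heckeOp hℓ (1 : (ZMod (N * v))ˣ →* kˣ) k -
      b • (1 : Module.End k (H1 k k (chi (1 : (ZMod (N * v))ˣ →* kˣ))))) ^ j) x = 0)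
    (hx : ∀ γ : Gamma0 (N * v * v),
      twistFun (dvd_mul_left v N) dvd_rfl (1 : (ZMod v)ˣ →* kˣ)
        (fun δ => h1Triv (N * v) k k x (Additive.ofMul δ)) γ = 0) :
    x = 0 := by
  have hp : p.Prime := Fact.out
  have hvp : p ∣ v - 1 := by
    rw [← CharP.cast_eq_zero_iff k p, Nat.cast_sub hv.one_le, hv1, Nat.cast_one, sub_self]
  have hp3 : 3 ≤ p := by have := hp.two_le; omega
  have hpv : p < v := by
    have := Nat.le_of_dvd (by have := hv.two_le; omega) hvp
    omega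
  have hvℓ : v < ℓ := by
    have h1 := Nat.le_of_dvd (by have := hℓ.two_le; omega) ((dvd_mul_left v N).trans hcong)
    have := hℓ.two_le
    omega
  have hℓk : (ℓ : k) ≠ 0 := fun h0 => by
    have := (Nat.prime_dvd_prime_iff_eq hp hℓ).mp ((CharP.cast_eq_zero_iff k p ℓ).mp h0)
    omega
  have h2 : (2 : k) ≠ 0 := fun h0 => by
    have := Nat.le_of_dvd two_pos ((CharP.cast_eq_zero_iff k p 2).mp (by exact_mod_cast h0))
    omega
  have hne : ℓ ≠ v := hvℓ.ne'
  obtain ⟨w, hw⟩ := exists_old hv hvN hv1 h2 hℓ hne hcong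
    (degOne_eq_degV hv (dvd_mul_left v N) x hx)
  set U := heckeOp hv (1 : (ZMod (N * v))ˣ →* kˣ) k with hUdef
  set E := eis (N * v) hℓ k with hE
  obtain ⟨j, hj⟩ := hU
  have hEU : Commute E (U - α • 1) :=
    (eis_comm_heckeOp hℓ hv).sub_right ((Commute.one_right _).smul_right α)
  have hw3 := eis_cube_eq_zero (p := p) hv hvN hv1 h2 hℓ hℓ2 (by omega) (by omega) hℓk hcong hα
    (w := w) (j := j) (by
      rw [← hw, ← Module.End.mul_apply, ← (hEU.pow_right j).eq, Module.End.mul_apply, hj, map_zero])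
  have hx4 : (E ^ 4) x = 0 := by
    simp only [pow_succ, pow_zero, one_mul, Module.End.mul_apply]
    rw [hw, hE, ← degV_eis hℓ hv hne, ← degV_eis hℓ hv hne, ← degV_eis hℓ hv hne, hw3, map_zero]
  obtain ⟨i, hi⟩ := hT
  refine eq_zero_of_coprime (heckeOp hℓ (1 : (ZMod (N * v))ˣ →* kˣ) k)
    ((Polynomial.isCoprime_X_sub_C_of_isUnit_sub (a := b) (b := (ℓ : k) + 1)
      (sub_ne_zero.mpr hb).isUnit).pow (m := i) (n := 4))
    (by simpa [Algebra.algebraMap_eq_smul_one] using hi)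
    (by
      rw [map_pow, map_sub, Polynomial.aeval_X, Polynomial.aeval_C, Algebra.algebraMap_eq_smul_one]
      exact hx4)

end FLTAgent.Lower.Levels
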